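/-
M2 / Part IV (Dedekind–Weber): the different in residue characteristic zero.

Mathlib knows `P ^ (e - 1) ∣ differentIdeal A B` (`pow_sub_one_dvd_differentIdeal`) and that
`P ∣ differentIdeal A B` iff `P` is ramified.  Here we prove the exactness of the exponent
`e - 1` when the residue field of the prime below has characteristic zero (tame ramification),
and deduce the valuative description of the trace dual `B^∨ = 𝔇⁻¹`:
`x ∈ B^∨ ↔ ∀ P, v_P(x) ≥ -(e_P - 1)`.
-/
import Mathlib

namespace Fermat.Agent.M2.TameDifferent

open Ideal Algebra Module UniqueFactorizationMonoid IsDedekindDomain HeightOneSpectrum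
open scoped nonZeroDivisors

attribute [local instance] FractionRing.liftAlgebra FractionRing.isScalarTower_liftAlgebra
  Ideal.Quotient.field

set_option linter.overlappingInstances false
set_option linter.unusedSectionVars false

/-! ### General facts on Dedekind domains -/

section general

variable {R : Type*} [CommRing R] [IsDedekindDomain R]

/-- `P ^ n ∣ J` iff `n` is at most the multiplicity of `P` in `J`. -/
theorem pow_dvd_iff_le_count {P J : Ideal R} [hP : P.IsPrime] (hP0 : P ≠ ⊥) (hJ : J ≠ ⊥) (n : ℕ) :
    P ^ n ∣ J ↔ n ≤ (normalizedFactors J).count P := by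
  have hirr : Irreducible P := (Ideal.prime_of_isPrime hP0 hP).irreducible
  rw [dvd_iff_normalizedFactors_le_normalizedFactors (pow_ne_zero n hP0) hJ,
    normalizedFactors_pow, normalizedFactors_irreducible hirr, normalize_eq,
    Multiset.nsmul_singleton, ← Multiset.le_count_iff_replicate_le]

theorem withZero_int_aux {a b : WithZero (Multiplicative ℤ)} {c : ℤ}
    (ha : WithZero.exp (-(c + 1)) < a) (hb : WithZero.exp c < b) : 1 < b * a := by
  have ha0 : a ≠ 0 := (lt_trans (by simp) ha).ne'
  have hb0 : b ≠ 0 := (lt_trans (by simp) hb).ne'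
  have h1 := WithZero.lt_log_of_exp_lt ha
  have h2 := WithZero.lt_log_of_exp_lt hb
  have : (1 : WithZero (Multiplicative ℤ)) = WithZero.exp (0 : ℤ) := by simp
  rw [this, ← WithZero.lt_log_iff_exp_lt (mul_ne_zero hb0 ha0), WithZero.log_mul hb0 ha0]
  omega

variable (K : Type*) [Field K] [Algebra R K] [IsFractionRing R K]

/-- Valuative description of the inverse of a nonzero integral ideal `J` of a Dedekind domain:
`x ∈ J⁻¹ ↔ ∀ v, v(x) ≥ - (multiplicity of v in J)`. -/
theorem mem_inv_coeIdeal_iff_forall_valuation {J : Ideal R} (hJ : J ≠ ⊥) (x : K) :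
    x ∈ ((J : FractionalIdeal R⁰ K))⁻¹ ↔ ∀ v : HeightOneSpectrum R,
      v.valuation K x ≤ WithZero.exp (((normalizedFactors J).count v.asIdeal : ℕ) : ℤ) := by
  have hJ' : (J : FractionalIdeal R⁰ K) ≠ 0 := by simpa using hJ
  rw [FractionalIdeal.mem_inv_iff hJ']
  constructor
  · intro hx v
    set c := (normalizedFactors J).count v.asIdeal with hc
    have h2 : ¬ v.asIdeal ^ (c + 1) ∣ J := by
      rw [pow_dvd_iff_le_count v.ne_bot hJ]; omega
    rw [Ideal.dvd_iff_le] at h2
    obtain ⟨j, hjJ, hj⟩ := SetLike.not_le_iff_exists.mp h2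
    have hxj := hx (algebraMap R K j) ((FractionalIdeal.mem_coeIdeal _).mpr ⟨j, hjJ, rfl⟩)
    obtain ⟨r, hr⟩ : ∃ r : R, algebraMap R K r = x * algebraMap R K j := by
      simpa [FractionalIdeal.mem_one_iff] using hxj
    have hle : v.valuation K (x * algebraMap R K j) ≤ 1 := by
      rw [← hr]; exact v.valuation_le_one r
    rw [map_mul, valuation_of_algebraMap] at hle
    rw [← intValuation_le_pow_iff_mem, not_le] at hj
    by_contra hcon
    rw [not_le] at hcon
    have := withZero_int_aux (c := (c : ℤ)) (by simpa using hj) hcon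
    exact absurd hle (not_le.mpr this)
  · intro h y hy
    obtain ⟨j, hjJ, rfl⟩ := (FractionalIdeal.mem_coeIdeal _).mp hy
    have : x * algebraMap R K j ∈ (algebraMap R K).range := by
      apply mem_integers_of_valuation_le_one
      intro v
      set c := (normalizedFactors J).count v.asIdeal with hc
      have h1 : v.asIdeal ^ c ∣ J := by
        rw [pow_dvd_iff_le_count v.ne_bot hJ]
      rw [Ideal.dvd_iff_le] at h1
      have hj := (intValuation_le_pow_iff_mem v j c).mpr (h1 hjJ)
      rw [map_mul, valuation_of_algebraMap]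
      calc v.valuation K x * v.intValuation j
          ≤ WithZero.exp (c : ℤ) * WithZero.exp (-(c : ℤ)) := by
            gcongr
            · exact h v
        _ = 1 := by rw [← WithZero.exp_add]; simp
    obtain ⟨r, hr⟩ := this
    rw [FractionalIdeal.mem_one_iff]
    exact ⟨r, hr⟩

end general

/-! ### The exponent of the different in residue characteristic zero -/

section different

variable (A : Type*) {B : Type*} [CommRing A] [CommRing B] [Algebra A B]
  [IsDomain A] [IsDedekindDomain A] [IsDedekindDomain B]
  [Module.IsTorsionFree A B] [Module.Finite A B]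

/-- Core tame-different lemma: if `pB = I * Q` with `I`, `Q` coprime and the `A/p`-dimension of
`B/I` is nonzero in `A/p`, then `I` does not divide the different. -/
theorem not_dvd_differentIdeal_of_finrank_ne_zero
    [Algebra.IsSeparable (FractionRing A) (FractionRing B)]
    {p : Ideal A} [p.IsMaximal] (I Q : Ideal B)
    (hIQ : IsCoprime I Q) (hI : I * Q = Ideal.map (algebraMap A B) p)
    (hle : p ≤ I.comap (algebraMap A B))
    (hne : letI : Algebra (A ⧸ p) (B ⧸ I) := Ideal.Quotient.algebraQuotientOfLEComap hle
      ((Module.finrank (A ⧸ p) (B ⧸ I) : ℕ) : A ⧸ p) ≠ 0) :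
    ¬ I ∣ differentIdeal A B := by
  let _ : Algebra (A ⧸ p) (B ⧸ I) := Ideal.Quotient.algebraQuotientOfLEComap hle
  have hleQ : p ≤ Q.comap (algebraMap A B) := by
    rw [← Ideal.map_le_iff_le_comap, ← hI]
    exact Ideal.mul_le_right
  let _ : Algebra (A ⧸ p) (B ⧸ Q) := Ideal.Quotient.algebraQuotientOfLEComap hleQ
  have : IsScalarTower A (A ⧸ p) (B ⧸ Q) := .of_algebraMap_eq' rfl
  have : IsScalarTower A (A ⧸ p) (B ⧸ I) := .of_algebraMap_eq' rfl
  have : Module.Finite (A ⧸ p) (B ⧸ Q) :=
    Module.Finite.of_restrictScalars_finite A (A ⧸ p) (B ⧸ Q)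
  have : Module.Finite (A ⧸ p) (B ⧸ I) :=
    Module.Finite.of_restrictScalars_finite A (A ⧸ p) (B ⧸ I)
  let e : (B ⧸ p.map (algebraMap A B)) ≃ₐ[A ⧸ p] ((B ⧸ I) × B ⧸ Q) :=
    { __ := (Ideal.quotEquivOfEq hI.symm).trans (Ideal.quotientMulEquivQuotientProd I Q hIQ),
      commutes' := Quotient.ind fun _ ↦ rfl }
  obtain ⟨y, hy⟩ := Ideal.Quotient.mk_surjective (e.symm (1, 0))
  refine not_dvd_differentIdeal_of_intTrace_not_mem A I Q hI y ?_ ?_
  · have := congr((e $hy).2)
    simp at this
    simpa [e, Ideal.Quotient.eq_zero_iff_mem] using this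
  · rw [← Ideal.Quotient.eq_zero_iff_mem, ← Algebra.trace_quotient_eq_of_isDedekindDomain,
      hy, Algebra.trace_eq_of_algEquiv, Algebra.trace_prod_apply]
    simp only [map_zero, add_zero]
    have h1 : (1 : B ⧸ I) = algebraMap (A ⧸ p) (B ⧸ I) 1 := by simp
    rw [h1, Algebra.trace_algebraMap]
    simpa using hne

variable {A}

theorem ne_bot_of_liesOver_of_ne_bot {p : Ideal A} (hp : p ≠ ⊥) (P : Ideal B) [P.LiesOver p] :
    P ≠ ⊥ := by
  rintro rfl
  apply hp
  have := Ideal.LiesOver.over (p := p) (P := (⊥ : Ideal B))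
  rw [this]
  exact Ideal.under_bot A B

/-- In residue characteristic zero, `P ^ e` does not divide the different, `e` the ramification
index of `P`. -/
theorem not_pow_ramificationIdx_dvd_differentIdeal
    [Algebra.IsSeparable (FractionRing A) (FractionRing B)]
    {p : Ideal A} [p.IsMaximal] (hp : p ≠ ⊥) [CharZero (A ⧸ p)]
    (P : Ideal B) [P.IsPrime] [P.LiesOver p] :
    ¬ P ^ (P.ramificationIdx A) ∣ differentIdeal A B := by
  have hp' : p.map (algebraMap A B) ≠ ⊥ := Ideal.map_ne_bot_of_ne_bot hp
  have hPbot : P ≠ ⊥ := ne_bot_of_liesOver_of_ne_bot hp P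
  have hPmax : P.IsMaximal := Ideal.IsPrime.isMaximal inferInstance hPbot
  obtain ⟨Q, h₁, h₂⟩ := Ideal.eq_prime_pow_mul_coprime hp' P
  rw [← Ideal.IsDedekindDomain.ramificationIdx_eq_normalizedFactors_count p P hp'] at h₂
  set e := P.ramificationIdx A with he
  have hepos : 0 < e := Ideal.ramificationIdx_pos P A
  have hcop : IsCoprime (P ^ e) Q := (Ideal.isCoprime_iff_sup_eq.mpr h₁).pow_left
  have hle : p ≤ (P ^ e).comap (algebraMap A B) := by
    rw [← Ideal.map_le_iff_le_comap, h₂]
    exact Ideal.mul_le_left
  refine not_dvd_differentIdeal_of_finrank_ne_zero A (P ^ e) Q hcop h₂.symm hle ?_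
  let _ : Algebra (A ⧸ p) (B ⧸ P ^ e) := Ideal.Quotient.algebraQuotientOfLEComap hle
  have : IsScalarTower A (A ⧸ p) (B ⧸ P ^ e) := .of_algebraMap_eq' rfl
  have : Module.Finite (A ⧸ p) (B ⧸ P ^ e) :=
    Module.Finite.of_restrictScalars_finite A (A ⧸ p) (B ⧸ P ^ e)
  have hnt : Nontrivial (B ⧸ P ^ e) := by
    rw [Ideal.Quotient.nontrivial_iff]
    intro h
    have : P ^ e ≤ P := Ideal.pow_le_self hepos.ne'
    rw [h] at this
    exact hPmax.ne_top (top_le_iff.mp this)
  have : 0 < Module.finrank (A ⧸ p) (B ⧸ P ^ e) := Module.finrank_pos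
  show ((Module.finrank (A ⧸ p) (B ⧸ P ^ e) : ℕ) : A ⧸ p) ≠ 0
  exact_mod_cast this.ne'

/-- In residue characteristic zero, the exponent of `P` in the different is exactly `e - 1`. -/
theorem count_normalizedFactors_differentIdeal
    [Algebra.IsSeparable (FractionRing A) (FractionRing B)]
    {p : Ideal A} [p.IsMaximal] (hp : p ≠ ⊥) [CharZero (A ⧸ p)]
    (P : Ideal B) [P.IsPrime] [P.LiesOver p] :
    (normalizedFactors (differentIdeal A B)).count P = P.ramificationIdx A - 1 := by
  have hp' : p.map (algebraMap A B) ≠ ⊥ := Ideal.map_ne_bot_of_ne_bot hp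
  have hepos : 0 < P.ramificationIdx A := Ideal.ramificationIdx_pos P A
  apply Ideal.count_normalizedFactors_eq
  · rw [← Ideal.dvd_iff_le]
    apply pow_sub_one_dvd_differentIdeal A P _ hp
    have hPbot : P ≠ ⊥ := ne_bot_of_liesOver_of_ne_bot hp P
    have hPmax : P.IsMaximal := Ideal.IsPrime.isMaximal inferInstance hPbot
    obtain ⟨Q, -, h₂⟩ := Ideal.eq_prime_pow_mul_coprime hp' P
    rw [Ideal.IsDedekindDomain.ramificationIdx_eq_normalizedFactors_count p P hp']
    exact Dvd.intro _ h₂.symm
  · rw [← Ideal.dvd_iff_le, Nat.sub_add_cancel hepos]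
    exact not_pow_ramificationIdx_dvd_differentIdeal hp P

end different

/-! ### Valuative description of the trace dual -/

section AKLB

variable (A K : Type*) (L : Type*) (B : Type*) [CommRing A] [Field K] [CommRing B] [Field L]
variable [Algebra A K] [Algebra B L] [Algebra A B] [Algebra K L] [Algebra A L]
variable [IsScalarTower A K L] [IsScalarTower A B L]
variable [IsDomain A] [IsFractionRing A K] [FiniteDimensional K L] [Algebra.IsSeparable K L]
  [IsIntegralClosure B A L] [IsDedekindDomain A] [IsDedekindDomain B] [Module.IsTorsionFree A B]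
  [IsFractionRing B L] [Module.Finite A B]

include K L in
theorem isSeparable_fractionRing : Algebra.IsSeparable (FractionRing A) (FractionRing B) := by
  have H : RingHom.comp (algebraMap (FractionRing A) (FractionRing B))
      ↑(FractionRing.algEquiv A K).symm.toRingEquiv =
        RingHom.comp ↑(FractionRing.algEquiv B L).symm.toRingEquiv (algebraMap K L) := by
    apply IsLocalization.ringHom_ext A⁰
    ext
    simp only [RingHom.coe_comp, RingHom.coe_coe,
      AlgEquiv.coe_ringEquiv, Function.comp_apply, AlgEquiv.commutes,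
      ← IsScalarTower.algebraMap_apply]
    rw [IsScalarTower.algebraMap_apply A B L, AlgEquiv.commutes, ← IsScalarTower.algebraMap_apply]
  exact Algebra.IsSeparable.of_equiv_equiv _ _ H

/-- The trace dual `B^∨` is the inverse of the different. -/
theorem dual_one_eq_inv_differentIdeal :
    FractionalIdeal.dual A K (1 : FractionalIdeal B⁰ L) =
      ((differentIdeal A B : Ideal B) : FractionalIdeal B⁰ L)⁻¹ := by
  rw [coeIdeal_differentIdeal A K L B, inv_inv]

/-- Valuative description of the trace dual (inverse different) of `B` over `A` when all residue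
fields of `A` have characteristic zero: `x ∈ B^∨ ↔ ∀ P, v_P(x) ≥ -(e_P - 1)`. -/
theorem mem_dual_one_iff_forall_valuation
    (hchar : ∀ p : Ideal A, p.IsMaximal → CharZero (A ⧸ p)) (x : L) :
    x ∈ FractionalIdeal.dual A K (1 : FractionalIdeal B⁰ L) ↔
      ∀ v : HeightOneSpectrum B,
        v.valuation L x ≤ WithZero.exp ((v.asIdeal.ramificationIdx A : ℤ) - 1) := by
  have hsep : Algebra.IsSeparable (FractionRing A) (FractionRing B) :=
    isSeparable_fractionRing A K L B
  have hint : Algebra.IsIntegral A B := IsIntegralClosure.isIntegral_algebra _ L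
  have hD : differentIdeal A B ≠ ⊥ := differentIdeal_ne_bot
  rw [dual_one_eq_inv_differentIdeal A K L B, mem_inv_coeIdeal_iff_forall_valuation L hD]
  refine forall_congr' fun v => ?_
  have hmax : v.asIdeal.IsMaximal := v.isMaximal
  have hpmax : (v.asIdeal.under A).IsMaximal := Ideal.IsMaximal.under A v.asIdeal
  have hp0 : v.asIdeal.under A ≠ ⊥ := mt Ideal.eq_bot_of_comap_eq_bot v.ne_bot
  have := hchar _ hpmax
  have hcount := count_normalizedFactors_differentIdeal (A := A) (B := B) hp0 v.asIdeal
  have hepos : 0 < v.asIdeal.ramificationIdx A := Ideal.ramificationIdx_pos _ A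
  rw [hcount, Nat.cast_sub hepos, Nat.cast_one]

include K L in
/-- The multiplicity of `v` in the different is `e_v - 1` (all residue characteristics zero). -/
theorem count_differentIdeal_heightOneSpectrum
    (hchar : ∀ p : Ideal A, p.IsMaximal → CharZero (A ⧸ p)) (v : HeightOneSpectrum B) :
    (normalizedFactors (differentIdeal A B)).count v.asIdeal = v.asIdeal.ramificationIdx A - 1 := by
  have hsep : Algebra.IsSeparable (FractionRing A) (FractionRing B) :=
    isSeparable_fractionRing A K L B
  have hint : Algebra.IsIntegral A B := IsIntegralClosure.isIntegral_algebra _ L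
  have hmax : v.asIdeal.IsMaximal := v.isMaximal
  have hpmax : (v.asIdeal.under A).IsMaximal := Ideal.IsMaximal.under A v.asIdeal
  have hp0 : v.asIdeal.under A ≠ ⊥ := mt Ideal.eq_bot_of_comap_eq_bot v.ne_bot
  have := hchar _ hpmax
  exact count_normalizedFactors_differentIdeal (A := A) (B := B) hp0 v.asIdeal

end AKLB

/-! ### Further shapes (count forms, `Submodule.traceDual`, uniformizer bridge) -/

section general2

variable {R : Type*} [CommRing R] [IsDedekindDomain R]

/-- The adic valuation of a nonzero element in terms of `normalizedFactors`. -/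
theorem intValuation_eq_exp_neg_count (v : HeightOneSpectrum R) {r : R} (hr : r ≠ 0) :
    v.intValuation r =
      WithZero.exp (-(((normalizedFactors (Ideal.span {r})).count v.asIdeal : ℕ) : ℤ)) := by
  have hsr : Ideal.span {r} ≠ 0 := Submodule.span_singleton_eq_bot.mp.mt hr
  rw [v.intValuation_if_neg hr, Ideal.count_associates_factors_eq hsr v.isPrime v.ne_bot]

end general2

section different2

variable {A : Type*} {B : Type*} [CommRing A] [CommRing B] [Algebra A B]
  [IsDomain A] [IsDedekindDomain A] [IsDedekindDomain B]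
  [Module.IsTorsionFree A B] [Module.Finite A B]

/-- Count form (ramification-API-free): `count_P 𝔇 + 1 = count_P (pB)` in residue char zero. -/
theorem count_differentIdeal_add_one
    [Algebra.IsSeparable (FractionRing A) (FractionRing B)]
    {p : Ideal A} [p.IsMaximal] (hp : p ≠ ⊥) [CharZero (A ⧸ p)]
    (P : Ideal B) [P.IsPrime] [P.LiesOver p] :
    (normalizedFactors (differentIdeal A B)).count P + 1 =
      (normalizedFactors (p.map (algebraMap A B))).count P := by
  have hp' : p.map (algebraMap A B) ≠ ⊥ := Ideal.map_ne_bot_of_ne_bot hp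
  have hepos : 0 < P.ramificationIdx A := Ideal.ramificationIdx_pos P A
  rw [count_normalizedFactors_differentIdeal hp P,
    ← Ideal.IsDedekindDomain.ramificationIdx_eq_normalizedFactors_count p P hp']
  omega

end different2

section AKLB2

variable (A K : Type*) (L : Type*) (B : Type*) [CommRing A] [Field K] [CommRing B] [Field L]
variable [Algebra A K] [Algebra B L] [Algebra A B] [Algebra K L] [Algebra A L]
variable [IsScalarTower A K L] [IsScalarTower A B L]
variable [IsDomain A] [IsFractionRing A K] [FiniteDimensional K L] [Algebra.IsSeparable K L]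
  [IsIntegralClosure B A L] [IsDedekindDomain A] [IsDedekindDomain B] [Module.IsTorsionFree A B]
  [IsFractionRing B L] [Module.Finite A B]

include K L in
theorem ramificationIdx_eq_count_map_under (v : HeightOneSpectrum B) :
    v.asIdeal.ramificationIdx A =
      (normalizedFactors ((v.asIdeal.under A).map (algebraMap A B))).count v.asIdeal := by
  have hint : Algebra.IsIntegral A B := IsIntegralClosure.isIntegral_algebra _ L
  have hp0 : v.asIdeal.under A ≠ ⊥ := mt Ideal.eq_bot_of_comap_eq_bot v.ne_bot
  exact Ideal.IsDedekindDomain.ramificationIdx_eq_normalizedFactors_count _ _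
    (Ideal.map_ne_bot_of_ne_bot hp0)

/-- Valuative description of the trace dual, count form. -/
theorem mem_dual_one_iff_forall_valuation_count
    (hchar : ∀ p : Ideal A, p.IsMaximal → CharZero (A ⧸ p)) (x : L) :
    x ∈ FractionalIdeal.dual A K (1 : FractionalIdeal B⁰ L) ↔
      ∀ v : HeightOneSpectrum B,
        v.valuation L x ≤ WithZero.exp
          ((((normalizedFactors ((v.asIdeal.under A).map (algebraMap A B))).count v.asIdeal : ℕ)
            : ℤ) - 1) := by
  rw [mem_dual_one_iff_forall_valuation A K L B hchar]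
  refine forall_congr' fun v => ?_
  rw [ramificationIdx_eq_count_map_under A K L B v]

/-- Valuative description of `Submodule.traceDual A K 1`. -/
theorem mem_traceDual_one_iff_forall_valuation
    (hchar : ∀ p : Ideal A, p.IsMaximal → CharZero (A ⧸ p)) (x : L) :
    x ∈ Submodule.traceDual A K (1 : Submodule B L) ↔
      ∀ v : HeightOneSpectrum B,
        v.valuation L x ≤ WithZero.exp ((v.asIdeal.ramificationIdx A : ℤ) - 1) := by
  rw [← mem_dual_one_iff_forall_valuation A K L B hchar, ← FractionalIdeal.coe_dual_one,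
    FractionalIdeal.mem_coe]

include K in
/-- If the prime `p` of `A` below `v` is generated by `π`, then `v(π) = exp (-e_v)`. -/
theorem valuation_algebraMap_eq_exp_neg_ramificationIdx (v : HeightOneSpectrum B) {π : A}
    (hπ : v.asIdeal.under A = Ideal.span {π}) :
    v.valuation L (algebraMap A L π) = WithZero.exp (-(v.asIdeal.ramificationIdx A : ℤ)) := by
  have hint : Algebra.IsIntegral A B := IsIntegralClosure.isIntegral_algebra _ L
  have hp0 : v.asIdeal.under A ≠ ⊥ := mt Ideal.eq_bot_of_comap_eq_bot v.ne_bot
  have hπ0 : π ≠ 0 := by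
    rintro rfl
    apply hp0
    rw [hπ]; simp
  have hπB : algebraMap A B π ≠ 0 := by
    rw [Ne, FaithfulSMul.algebraMap_eq_zero_iff]; exact hπ0
  rw [IsScalarTower.algebraMap_apply A B L, valuation_of_algebraMap,
    intValuation_eq_exp_neg_count v hπB, ramificationIdx_eq_count_map_under A K L B v, hπ,
    Ideal.map_span, Set.image_singleton]

end AKLB2

end Fermat.Agent.M2.TameDifferent
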