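/-
M2 / Part IV (Dedekind–Weber), task A6b: "degree of an ideal".

For a Dedekind domain `B` which is an algebra over a field `k`:
* `finrank_quotient_mul_maximal` : `dim_k B/(P*J) = dim_k B/J + dim_k B/P`;
* `finrank_quotient_eq_sum_normalizedFactors`, `finrank_quotient_eq_card_normalizedFactors` :
  `dim_k B/I = Σ_{P | I} f_P` (resp. the number of prime factors when all residue fields are `k`);
* `finrank_quotient_eq_one_of_isAlgClosed` : residue fields are `k` when `k` is algebraically closed;
* `nonempty_quotient_equiv_inv_quotient`, `finrank_inv_quotient` : `B / J ≃ J⁻¹ / B`;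
* `finrank_traceDual_quotient` : `dim_k (B^∨/B) = dim_k (B/𝔇)`;
* `finrank_quotient_differentIdeal`, `finrank_traceDual_quotient_eq_finsum` :
  `dim_k (B^∨/B) = dim_k (B/𝔇) = Σ_P (e_P - 1)` in residue characteristic zero with all residue
  fields equal to `k`.
-/
import Fermat.Agent.M2.TameDifferent

namespace Fermat.Agent.M2.IdealDegree

open Ideal Module UniqueFactorizationMonoid IsDedekindDomain
open scoped nonZeroDivisors

attribute [local instance] FractionRing.liftAlgebra FractionRing.isScalarTower_liftAlgebra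

set_option linter.overlappingInstances false
set_option linter.unusedSectionVars false
set_option linter.unusedVariables false

/-! ### Ideal arithmetic -/

section ideals

variable {B : Type*} [CommRing B] [IsDedekindDomain B]

/-- In a Dedekind domain, for a maximal ideal `P` and `a ∈ J \ P * J`, `J = (a) + P * J`. -/
theorem span_sup_mul_eq {P J : Ideal B} [hP : P.IsMaximal] (hP0 : P ≠ ⊥) (hJ : J ≠ ⊥) {a : B}
    (haJ : a ∈ J) (ha : a ∉ P * J) : Ideal.span {a} ⊔ P * J = J := by
  set X := Ideal.span {a} ⊔ P * J with hX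
  have hXJ : X ≤ J := sup_le ((Ideal.span_singleton_le_iff_mem _).mpr haJ) Ideal.mul_le_right
  have hPJX : P * J ≤ X := le_sup_right
  obtain ⟨Y, hY⟩ := Ideal.dvd_iff_le.mpr hXJ
  -- X = J * Y, and J * Y ∣ P * J so Y ∣ P
  have hYP : Y ∣ P := by
    have h1 : J * Y ∣ J * P := by
      rw [← hY, mul_comm J P]; exact Ideal.dvd_iff_le.mpr hPJX
    exact (mul_dvd_mul_iff_left hJ).mp h1
  have hirr : Irreducible P := (Ideal.prime_of_isPrime hP0 hP.isPrime).irreducible
  rcases (hirr.dvd_iff.mp hYP) with hu | hass
  · -- Y is a unit: X = J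
    have : Y = ⊤ := Ideal.isUnit_iff.mp hu
    rw [hY, this, Ideal.mul_top]
  · exfalso
    have hYeq : Y = P := (associated_iff_eq.mp hass).symm
    apply ha
    have : a ∈ X := Ideal.mem_sup_left (Ideal.subset_span rfl)
    rw [hY, hYeq, mul_comm] at this
    exact this

/-- `P * J ≠ J` for `P` proper and `J ≠ ⊥`. -/
theorem exists_mem_not_mem_mul {P J : Ideal B} (hP : P ≠ ⊤) (hJ : J ≠ ⊥) :
    ∃ a ∈ J, a ∉ P * J := by
  by_contra h
  push Not at h
  have hle : J ≤ P * J := fun a ha => h a ha
  have heq : P * J = J := le_antisymm Ideal.mul_le_right hle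
  have : P = 1 := (mul_eq_right₀ hJ).mp heq
  exact hP (by simpa using this)


/-- The number of prime factors (with multiplicity) of a nonzero ideal, as a finsum over the
height one spectrum. -/
theorem card_normalizedFactors_eq_finsum {I : Ideal B} (hI : I ≠ ⊥) :
    (Multiset.card (normalizedFactors I) : ℕ) =
      ∑ᶠ v : HeightOneSpectrum B, (normalizedFactors I).count v.asIdeal := by
  classical
  set s := normalizedFactors I with hs
  have hinj : Set.InjOn (fun v : HeightOneSpectrum B => v.asIdeal)
      ((fun v : HeightOneSpectrum B => v.asIdeal) ⁻¹' (s.toFinset : Set (Ideal B))) :=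
    fun v _ w _ h => HeightOneSpectrum.ext h
  have hsupp : (Function.support fun v : HeightOneSpectrum B => s.count v.asIdeal) ⊆
      ↑(s.toFinset.preimage (fun v : HeightOneSpectrum B => v.asIdeal) hinj) := by
    intro v hv
    simp only [Function.mem_support, ne_eq, Multiset.count_eq_zero, not_not] at hv
    simpa using hv
  rw [finsum_eq_sum_of_support_subset _ hsupp,
    Finset.sum_preimage (fun v : HeightOneSpectrum B => v.asIdeal) s.toFinset hinj
      (fun P => s.count P), Multiset.toFinset_sum_count_eq]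
  intro P hP hPr
  exfalso
  apply hPr
  rw [Multiset.mem_toFinset] at hP
  have hprime : Prime P := prime_of_normalized_factor P hP
  exact ⟨⟨P, Ideal.isPrime_of_prime hprime, hprime.ne_zero⟩, rfl⟩

end ideals

/-! ### Dimension of `B / I` -/

section dimension

variable {B : Type*} [CommRing B] [IsDedekindDomain B]
variable (k : Type*) [Field k] [Algebra k B]

/-- Key step: `dim_k B/(P*J) = dim_k B/J + dim_k B/P`. -/
theorem finrank_quotient_mul_maximal {P J : Ideal B} [hP : P.IsMaximal] (hP0 : P ≠ ⊥) (hJ : J ≠ ⊥)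
    [hfJ : Module.Finite k (B ⧸ J)] [hfP : Module.Finite k (B ⧸ P)] :
    Module.Finite k (B ⧸ P * J) ∧
      finrank k (B ⧸ P * J) = finrank k (B ⧸ J) + finrank k (B ⧸ P) := by
  obtain ⟨a, haJ, ha⟩ := exists_mem_not_mem_mul hP.ne_top hJ
  have hsup := span_sup_mul_eq hP0 hJ haJ ha
  have hle : P * J ≤ J := Ideal.mul_le_right
  let f : (B ⧸ P * J) →ₗ[k] (B ⧸ J) := (Ideal.Quotient.factorₐ k hle).toLinearMap
  have hf : Function.Surjective f := Ideal.Quotient.factor_surjective hle
  have hf_apply : ∀ b : B, f (Ideal.Quotient.mk (P * J) b) = Ideal.Quotient.mk J b := by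
    intro b; rfl
  have hPa : P ≤ Submodule.comap (LinearMap.mulLeft B a) (P * J) := by
    intro p hp
    simp only [Submodule.mem_comap, LinearMap.mulLeft_apply]
    exact mul_comm a p ▸ Ideal.mul_mem_mul hp haJ
  let g0 : (B ⧸ P) →ₗ[B] (B ⧸ P * J) := Submodule.mapQ P (P * J) (LinearMap.mulLeft B a) hPa
  let g : (B ⧸ P) →ₗ[k] (B ⧸ P * J) := g0.restrictScalars k
  have hg_apply : ∀ b : B, g (Ideal.Quotient.mk P b) = Ideal.Quotient.mk (P * J) (a * b) := by
    intro b; rfl
  have hg_inj : Function.Injective g := by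
    rw [← LinearMap.ker_eq_bot, LinearMap.ker_eq_bot']
    intro x hx
    obtain ⟨b, rfl⟩ := Ideal.Quotient.mk_surjective x
    rw [hg_apply, Ideal.Quotient.eq_zero_iff_mem] at hx
    rw [Ideal.Quotient.eq_zero_iff_mem]
    by_contra hb
    obtain ⟨y, i, hi, hyi⟩ := hP.exists_inv hb
    apply ha
    have : a = y * (a * b) + a * i := by
      calc a = a * (y * b + i) := by rw [hyi, mul_one]
        _ = y * (a * b) + a * i := by ring
    rw [this]
    refine Ideal.add_mem _ (Ideal.mul_mem_left _ _ hx) ?_
    exact mul_comm i a ▸ Ideal.mul_mem_mul hi haJ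
  have hker : LinearMap.ker f = LinearMap.range g := by
    ext x
    obtain ⟨c, rfl⟩ := Ideal.Quotient.mk_surjective x
    rw [LinearMap.mem_ker, hf_apply, Ideal.Quotient.eq_zero_iff_mem, LinearMap.mem_range]
    constructor
    · intro hc
      rw [← hsup, Submodule.mem_sup] at hc
      obtain ⟨u, hu, m, hm, rfl⟩ := hc
      obtain ⟨b, rfl⟩ := Ideal.mem_span_singleton'.mp hu
      refine ⟨Ideal.Quotient.mk P b, ?_⟩
      rw [hg_apply, Ideal.Quotient.eq]
      have : a * b - (b * a + m) = -m := by ring
      rw [this]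
      exact neg_mem hm
    · rintro ⟨y, hy⟩
      obtain ⟨b, rfl⟩ := Ideal.Quotient.mk_surjective y
      rw [hg_apply, Ideal.Quotient.eq] at hy
      have : c = a * b - (a * b - c) := by ring
      rw [this]
      exact sub_mem (Ideal.mul_mem_right _ _ haJ) (hle hy)
  have hfin_ker : Module.Finite k (LinearMap.ker f) := by
    rw [hker]
    exact Module.Finite.range g
  have hfin_quot : Module.Finite k ((B ⧸ P * J) ⧸ LinearMap.ker f) :=
    Module.Finite.equiv ((f.quotKerEquivOfSurjective hf).symm)
  have hfin : Module.Finite k (B ⧸ P * J) := Module.Finite.of_submodule_quotient (LinearMap.ker f)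
  refine ⟨hfin, ?_⟩
  have h1 := LinearMap.finrank_range_add_finrank_ker f
  rw [LinearMap.range_eq_top.mpr hf, finrank_top, hker,
    LinearMap.finrank_range_of_inj hg_inj] at h1
  exact h1.symm


/-- Multiset form: the `k`-dimension of `B / ∏ P_i` is the sum of the residue degrees. -/
theorem finrank_quotient_multiset_prod (s : Multiset (Ideal B))
    (hs : ∀ Q ∈ s, Q.IsMaximal ∧ Q ≠ ⊥ ∧ Module.Finite k (B ⧸ Q)) :
    Module.Finite k (B ⧸ s.prod) ∧
      finrank k (B ⧸ s.prod) = (s.map fun Q => finrank k (B ⧸ Q)).sum := by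
  induction s using Multiset.induction_on with
  | empty =>
    have : Subsingleton (B ⧸ (1 : Ideal B)) := by
      rw [Ideal.one_eq_top]; exact Ideal.Quotient.subsingleton_iff.mpr rfl
    have h : (0 : Multiset (Ideal B)).prod = 1 := Multiset.prod_zero
    rw [h, Multiset.map_zero, Multiset.sum_zero]
    exact ⟨inferInstance, finrank_zero_of_subsingleton⟩
  | cons P t ih =>
    have ht : ∀ Q ∈ t, Q.IsMaximal ∧ Q ≠ ⊥ ∧ Module.Finite k (B ⧸ Q) :=
      fun Q hQ => hs Q (Multiset.mem_cons_of_mem hQ)
    obtain ⟨hfin, hrank⟩ := ih ht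
    obtain ⟨hPmax, hP0, hPfin⟩ := hs P (Multiset.mem_cons_self P t)
    have htprod : t.prod ≠ ⊥ := by
      rw [← Ideal.zero_eq_bot]
      apply Multiset.prod_ne_zero
      intro h0
      exact (ht 0 h0).2.1 rfl
    rw [Multiset.prod_cons, Multiset.map_cons, Multiset.sum_cons]
    obtain ⟨h1, h2⟩ := finrank_quotient_mul_maximal k hP0 htprod (P := P) (J := t.prod)
    exact ⟨h1, by rw [h2, hrank, add_comm]⟩

/-- The `k`-dimension of `B / I` is the sum of the residue degrees over the prime factors of `I`
(with multiplicity). -/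
theorem finrank_quotient_eq_sum_normalizedFactors
    (hfin : ∀ Q : Ideal B, Q.IsMaximal → Q ≠ ⊥ → Module.Finite k (B ⧸ Q))
    {I : Ideal B} (hI : I ≠ ⊥) :
    Module.Finite k (B ⧸ I) ∧
      finrank k (B ⧸ I) = ((normalizedFactors I).map fun Q => finrank k (B ⧸ Q)).sum := by
  have hs : ∀ Q ∈ normalizedFactors I, Q.IsMaximal ∧ Q ≠ ⊥ ∧ Module.Finite k (B ⧸ Q) := by
    intro Q hQ
    have hprime : Prime Q := prime_of_normalized_factor Q hQ
    have hQ0 : Q ≠ ⊥ := hprime.ne_zero
    have hQmax : Q.IsMaximal := (Ideal.isPrime_of_prime hprime).isMaximal hQ0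
    exact ⟨hQmax, hQ0, hfin Q hQmax hQ0⟩
  have := finrank_quotient_multiset_prod k (normalizedFactors I) hs
  rwa [Ideal.prod_normalizedFactors_eq_self hI] at this

/-- If all residue fields are `k`, then `dim_k B/I` is the number of prime factors of `I`. -/
theorem finrank_quotient_eq_card_normalizedFactors
    (h1 : ∀ Q : Ideal B, Q.IsMaximal → Q ≠ ⊥ → finrank k (B ⧸ Q) = 1)
    {I : Ideal B} (hI : I ≠ ⊥) :
    Module.Finite k (B ⧸ I) ∧
      finrank k (B ⧸ I) = Multiset.card (normalizedFactors I) := by
  have hfin : ∀ Q : Ideal B, Q.IsMaximal → Q ≠ ⊥ → Module.Finite k (B ⧸ Q) := by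
    intro Q hQ hQ0
    exact Module.finite_of_finrank_pos (by rw [h1 Q hQ hQ0]; exact one_pos)
  obtain ⟨hf, hr⟩ := finrank_quotient_eq_sum_normalizedFactors k hfin hI
  refine ⟨hf, ?_⟩
  rw [hr]
  have : ((normalizedFactors I).map fun Q => finrank k (B ⧸ Q)) =
      (normalizedFactors I).map fun _ => 1 := by
    apply Multiset.map_congr rfl
    intro Q hQ
    have hprime : Prime Q := prime_of_normalized_factor Q hQ
    have hQ0 : Q ≠ ⊥ := hprime.ne_zero
    have hQmax : Q.IsMaximal := (Ideal.isPrime_of_prime hprime).isMaximal hQ0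
    exact h1 Q hQmax hQ0
  rw [this]
  simp

end dimension

/-! ### Residue fields over an algebraically closed field -/

section algClosed

variable (k : Type*) [Field k]

/-- A finite field extension of an algebraically closed field has degree one. -/
theorem finrank_eq_one_of_isAlgClosed [IsAlgClosed k] (F : Type*) [Field F] [Algebra k F]
    [Module.Finite k F] : finrank k F = 1 := by
  have hint : Algebra.IsIntegral k F := Algebra.IsIntegral.of_finite k F
  have hbij : Function.Bijective (Algebra.ofId k F) :=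
    IsAlgClosed.algebraMap_bijective_of_isIntegral (k := k) (K := F)
  have e : k ≃ₗ[k] F := (AlgEquiv.ofBijective (Algebra.ofId k F) hbij).toLinearEquiv
  rw [← e.finrank_eq, finrank_self]

variable {A B : Type*} [CommRing A] [CommRing B] [Algebra k A] [Algebra k B] [Algebra A B]
  [IsScalarTower k A B]

/-- If `B` is module-finite over `A`, `P` is a maximal ideal of `B`, and the residue field of `A`
at `P ∩ A` is `k` (algebraically closed), then the residue field of `B` at `P` is `k`. -/
theorem finrank_quotient_eq_one_of_isAlgClosed [IsAlgClosed k] [Module.Finite A B]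
    (P : Ideal B) [hP : P.IsMaximal]
    (hp : Function.Surjective (algebraMap k (A ⧸ P.under A))) :
    finrank k (B ⧸ P) = 1 := by
  let _ : Field (B ⧸ P) := Ideal.Quotient.field P
  have h1 : Module.Finite k (A ⧸ P.under A) :=
    Module.Finite.of_surjective (Algebra.linearMap k (A ⧸ P.under A)) hp
  have h2 : Module.Finite (A ⧸ P.under A) (B ⧸ P) :=
    Module.Finite.of_restrictScalars_finite A _ _
  have h3 : Module.Finite k (B ⧸ P) := Module.Finite.trans (A ⧸ P.under A) (B ⧸ P)
  exact finrank_eq_one_of_isAlgClosed k (B ⧸ P)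

end algClosed

/-! ### `B / J ≃ J⁻¹ / B` -/

section inverse

variable {B : Type*} [CommRing B] [IsDedekindDomain B]
variable (L : Type*) [Field L] [Algebra B L] [IsFractionRing B L]

/-- `B / J ≃ J⁻¹ / B` as `B`-modules, for a nonzero ideal `J` of a Dedekind domain, where
`J⁻¹ / B` is formed inside the fraction field with `J⁻¹` given as a `B`-submodule `M` of `L`. -/
theorem nonempty_quotient_equiv_inv_quotient {J : Ideal B} (hJ : J ≠ ⊥) (M : Submodule B L)
    (hM : M = ((J : FractionalIdeal B⁰ L)⁻¹ : FractionalIdeal B⁰ L).coeToSubmodule) :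
    Nonempty ((B ⧸ J) ≃ₗ[B] (M ⧸ (1 : Submodule B L).comap M.subtype)) := by
  subst hM
  have hJ' : (J : FractionalIdeal B⁰ L) ≠ 0 := by simpa using hJ
  have h1 : (1 : FractionalIdeal B⁰ L) ≠ 0 := one_ne_zero
  have e1 := FractionalIdeal.quotientEquiv (R := B) (K := L) 1 (J : FractionalIdeal B⁰ L)
    ((J : FractionalIdeal B⁰ L)⁻¹) 1 (by rw [one_mul, inv_mul_cancel₀ hJ'])
    FractionalIdeal.coeIdeal_le_one
    (le_inv_of_le_inv₀ (by simpa [pos_iff_ne_zero] using hJ')
      (by simpa using FractionalIdeal.coeIdeal_le_one)) h1 h1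
  -- identify the source with `B ⧸ J`
  have hinj : Function.Injective (Algebra.linearMap B L) := IsFractionRing.injective B L
  let φ : B ≃ₗ[B] ((1 : FractionalIdeal B⁰ L).coeToSubmodule) :=
    (LinearEquiv.ofInjective (Algebra.linearMap B L) hinj).trans
      (LinearEquiv.ofEq _ _ (by rw [FractionalIdeal.coe_one, Submodule.one_eq_range]))
  have hφ : ∀ b : B, ((φ b : (1 : FractionalIdeal B⁰ L).coeToSubmodule) : L) = algebraMap B L b := by
    intro b; rfl
  have hmap : Submodule.map (φ : B →ₗ[B] _) J =
      Submodule.comap ((1 : FractionalIdeal B⁰ L).coeToSubmodule).subtype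
        ((J : FractionalIdeal B⁰ L).coeToSubmodule) := by
    ext x
    obtain ⟨b, rfl⟩ := φ.surjective x
    simp only [Submodule.mem_map, LinearEquiv.coe_coe, EmbeddingLike.apply_eq_iff_eq,
      exists_eq_right, Submodule.mem_comap, Submodule.subtype_apply, hφ,
      FractionalIdeal.mem_coe, FractionalIdeal.mem_coeIdeal]
    constructor
    · intro hb; exact ⟨b, hb, rfl⟩
    · rintro ⟨c, hc, hcb⟩
      rwa [← hinj hcb]
  have e2 := Submodule.quotEquivOfEq
    (Submodule.comap ((J : FractionalIdeal B⁰ L)⁻¹ : FractionalIdeal B⁰ L).coeToSubmodule.subtype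
      ((1 : FractionalIdeal B⁰ L).coeToSubmodule))
    (Submodule.comap ((J : FractionalIdeal B⁰ L)⁻¹ : FractionalIdeal B⁰ L).coeToSubmodule.subtype
      (1 : Submodule B L)) (by rw [FractionalIdeal.coe_one])
  exact ⟨((Submodule.Quotient.equiv J _ φ hmap).trans e1).trans e2⟩


variable (k : Type*) [Field k] [Algebra k B] [Module k L] [IsScalarTower k B L]

theorem finrank_inv_quotient {J : Ideal B} (hJ : J ≠ ⊥) (M : Submodule B L)
    (hM : M = ((J : FractionalIdeal B⁰ L)⁻¹ : FractionalIdeal B⁰ L).coeToSubmodule) :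
    finrank k (M ⧸ (1 : Submodule B L).comap M.subtype) = finrank k (B ⧸ J) := by
  obtain ⟨e⟩ := nonempty_quotient_equiv_inv_quotient L hJ M hM
  exact (e.restrictScalars k).finrank_eq.symm

end inverse

/-! ### The trace dual -/

section AKLB

variable (A K : Type*) (L : Type*) (B : Type*) [CommRing A] [Field K] [CommRing B] [Field L]
variable [Algebra A K] [Algebra B L] [Algebra A B] [Algebra K L] [Algebra A L]
variable [IsScalarTower A K L] [IsScalarTower A B L]
variable [IsDomain A] [IsFractionRing A K] [FiniteDimensional K L] [Algebra.IsSeparable K L]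
  [IsIntegralClosure B A L] [IsDedekindDomain A] [IsDedekindDomain B] [Module.IsTorsionFree A B]
  [IsFractionRing B L] [Module.Finite A B]
variable (k : Type*) [Field k] [Algebra k B] [Module k L] [IsScalarTower k B L]

/-- `dim_k (B^∨ / B) = dim_k (B / 𝔇)`. -/
theorem finrank_traceDual_quotient :
    finrank k (Submodule.traceDual A K (1 : Submodule B L) ⧸
      (1 : Submodule B L).comap (Submodule.traceDual A K (1 : Submodule B L)).subtype) =
      finrank k (B ⧸ differentIdeal A B) := by
  have hsep : Algebra.IsSeparable (FractionRing A) (FractionRing B) :=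
    TameDifferent.isSeparable_fractionRing A K L B
  have hD : differentIdeal A B ≠ ⊥ := differentIdeal_ne_bot
  apply finrank_inv_quotient L k hD
  rw [← TameDifferent.dual_one_eq_inv_differentIdeal A K L B, FractionalIdeal.coe_dual_one]

end AKLB


/-! ### Sum over primes -/

section AKLB2

variable (A K : Type*) (L : Type*) (B : Type*) [CommRing A] [Field K] [CommRing B] [Field L]
variable [Algebra A K] [Algebra B L] [Algebra A B] [Algebra K L] [Algebra A L]
variable [IsScalarTower A K L] [IsScalarTower A B L]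
variable [IsDomain A] [IsFractionRing A K] [FiniteDimensional K L] [Algebra.IsSeparable K L]
  [IsIntegralClosure B A L] [IsDedekindDomain A] [IsDedekindDomain B] [Module.IsTorsionFree A B]
  [IsFractionRing B L] [Module.Finite A B]
variable (k : Type*) [Field k] [Algebra k B]

include K L in
/-- `dim_k (B/𝔇) = Σ_P (e_P - 1)` when all residue fields of `B` are `k` and all residue
characteristics of `A` are zero. -/
theorem finrank_quotient_differentIdeal
    (h1 : ∀ Q : Ideal B, Q.IsMaximal → Q ≠ ⊥ → finrank k (B ⧸ Q) = 1)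
    (hchar : ∀ p : Ideal A, p.IsMaximal → CharZero (A ⧸ p)) :
    finrank k (B ⧸ differentIdeal A B) =
      ∑ᶠ v : HeightOneSpectrum B, (v.asIdeal.ramificationIdx A - 1) := by
  have hsep : Algebra.IsSeparable (FractionRing A) (FractionRing B) :=
    TameDifferent.isSeparable_fractionRing A K L B
  have hD : differentIdeal A B ≠ ⊥ := differentIdeal_ne_bot
  rw [(finrank_quotient_eq_card_normalizedFactors k h1 hD).2,
    card_normalizedFactors_eq_finsum hD]
  apply finsum_congr
  intro v
  exact TameDifferent.count_differentIdeal_heightOneSpectrum A K L B hchar v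

variable [Module k L] [IsScalarTower k B L]

/-- `dim_k (B^∨/B) = Σ_P (e_P - 1)`. -/
theorem finrank_traceDual_quotient_eq_finsum
    (h1 : ∀ Q : Ideal B, Q.IsMaximal → Q ≠ ⊥ → finrank k (B ⧸ Q) = 1)
    (hchar : ∀ p : Ideal A, p.IsMaximal → CharZero (A ⧸ p)) :
    finrank k (Submodule.traceDual A K (1 : Submodule B L) ⧸
      (1 : Submodule B L).comap (Submodule.traceDual A K (1 : Submodule B L)).subtype) =
      ∑ᶠ v : HeightOneSpectrum B, (v.asIdeal.ramificationIdx A - 1) := by
  rw [finrank_traceDual_quotient A K L B k, finrank_quotient_differentIdeal A K L B k h1 hchar]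

include K L in
/-- Finiteness of the set of ramified primes. -/
theorem finite_setOf_one_lt_ramificationIdx
    (hchar : ∀ p : Ideal A, p.IsMaximal → CharZero (A ⧸ p)) :
    {v : HeightOneSpectrum B | 1 < v.asIdeal.ramificationIdx A}.Finite := by
  have hsep : Algebra.IsSeparable (FractionRing A) (FractionRing B) :=
    TameDifferent.isSeparable_fractionRing A K L B
  have hD : differentIdeal A B ≠ ⊥ := differentIdeal_ne_bot
  have hfin := Ideal.finite_factors hD
  refine hfin.subset ?_
  intro v hv
  simp only [Set.mem_ofPred_eq] at hv ⊢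
  have hcount := TameDifferent.count_differentIdeal_heightOneSpectrum A K L B hchar v
  have hpos : 0 < (normalizedFactors (differentIdeal A B)).count v.asIdeal := by
    rw [hcount]; omega
  have hmem : v.asIdeal ∈ normalizedFactors (differentIdeal A B) :=
    Multiset.count_pos.mp hpos
  exact dvd_of_mem_normalizedFactors hmem

end AKLB2

end Fermat.Agent.M2.IdealDegree
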