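import Mathlib
import Fermat.Prelude.Def_ModularCurve_GenusNumerics

/-!
# M2 / Part II (P4): the number of cusps of `Γ₀(N)`

Pure finite combinatorics.  We consider primitive vectors `(x, y) : ZMod N × ZMod N`
(`IsCoprime x y`) and the relation
`(x, y) ~ (u (x + k y), u y)` (`u` a unit, `k` arbitrary), i.e. the orbits of `T = [[1,1],[0,1]]`
on `P¹(ℤ/N)`.  Main result: the number of classes is `ModularCurve.cuspCount N`.
-/

namespace Fermat.Agent.M2.Comb

section Algebra

variable {R : Type*} [CommRing R]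

/-- If `x' ≡ x` modulo `(δ, δ')`, `δ δ' = 0` and both are coprime to `δ`, then `x'` is obtained
from `x` by a translation by a multiple of `δ` followed by a unit fixing `δ`. -/
theorem exists_unit_of_eq_add {δ δ' x x' : R} (h0 : δ * δ' = 0) (hx : IsCoprime x δ)
    (hx' : IsCoprime x' δ) {k l : R} (h : x' = x + k * δ + l * δ') :
    ∃ u : Rˣ, (u : R) * δ = δ ∧ x' = u * (x + k * δ) := by
  obtain ⟨a, b, hab⟩ := hx
  obtain ⟨a', b', hab'⟩ := hx'
  have h1 : (1 + l * a * δ') * x = x + l * δ' := by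
    linear_combination (l * δ') * hab - (l * b) * h0
  have hx'2 : x' = (1 + l * a * δ') * x + k * δ := by rw [h1, h]; ring
  have hinv : (1 + l * a * δ') *
      ((1 + l * a * δ') * (a' * x) + (a' * x) * (-(l * a)) * δ' + (a' * k + b') * δ) = 1 := by
    have e1 : (1 + l * a * δ') * (a' * x) + (a' * k + b') * δ = 1 := by
      rw [hx'2] at hab'; linear_combination hab'
    linear_combination e1 - ((a' * k + b') * (-(l * a))) * h0
  refine ⟨⟨_, _, hinv, by rw [mul_comm]; exact hinv⟩, ?_, ?_⟩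
  · show (1 + l * a * δ') * δ = δ
    linear_combination (l * a) * h0
  · show x' = (1 + l * a * δ') * (x + k * δ)
    rw [hx'2]
    linear_combination (-(k * l * a)) * h0

/-- Conversely (needs that the annihilator of `δ` is generated by `δ'`). -/
theorem exists_eq_add_of_unit {δ δ' x x' : R}
    (hann : ∀ r : R, r * δ = 0 → ∃ s, r = s * δ') (h0 : δ * δ' = 0) {u k : R} (hu : u * δ = δ)
    (h : x' = u * (x + k * δ)) : ∃ k' l : R, x' = x + k' * δ + l * δ' := by
  obtain ⟨s, hs⟩ := hann (u - 1) (by linear_combination hu)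
  refine ⟨k, s * x, ?_⟩
  have : u = 1 + s * δ' := by linear_combination hs
  rw [h, this]
  linear_combination (s * k) * h0

theorem isCoprime_unit_left (u : Rˣ) (y : R) : IsCoprime (u : R) y :=
  ⟨↑u⁻¹, 0, by simp⟩

end Algebra

section ZModFacts

variable {N : ℕ}

/-- Annihilator of a divisor in `ZMod N`. -/
theorem zmod_ann_divisor [NeZero N] {d d' : ℕ} (hN : N = d * d') (r : ZMod N)
    (h : r * (d : ZMod N) = 0) : ∃ s : ZMod N, r = s * (d' : ZMod N) := by
  have hd : 0 < d := by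
    rcases Nat.eq_zero_or_pos d with h0 | h0
    · exact absurd (by rw [hN, h0, zero_mul]) (NeZero.ne N)
    · exact h0
  have h1 : ((r.val * d : ℕ) : ZMod N) = 0 := by
    rw [Nat.cast_mul, ZMod.natCast_zmod_val]; exact h
  rw [ZMod.natCast_eq_zero_iff] at h1
  have h2 : d' * d ∣ r.val * d := by
    have e : d' * d = N := by rw [hN, mul_comm]
    rw [e]; exact h1
  obtain ⟨m, hm⟩ := Nat.dvd_of_mul_dvd_mul_right hd h2
  refine ⟨(m : ZMod N), ?_⟩
  rw [← ZMod.natCast_zmod_val r, hm]
  push_cast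
  ring

/-- Kernel of the reduction `ZMod N → ZMod g`. -/
theorem zmod_castHom_eq_zero [NeZero N] {g : ℕ} (hg : g ∣ N) (x : ZMod N)
    (h : ZMod.castHom hg (ZMod g) x = 0) : ∃ m : ZMod N, x = m * (g : ZMod N) := by
  rw [← ZMod.natCast_zmod_val x, map_natCast, ZMod.natCast_eq_zero_iff] at h
  obtain ⟨m, hm⟩ := h
  refine ⟨(m : ZMod N), ?_⟩
  rw [← ZMod.natCast_zmod_val x, hm]
  push_cast
  ring

/-- Two divisors of `N` that are associated in `ZMod N` are equal. -/
theorem divisor_eq_of_unit_mul {d e : ℕ} (hd : d ∣ N) (he : e ∣ N) {u : ZMod N}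
    (hu : IsUnit u) (h : (d : ZMod N) = u * (e : ZMod N)) : d = e := by
  apply Nat.dvd_antisymm
  · obtain ⟨v, rfl⟩ := hu
    have h2 : (e : ZMod N) = (↑(v⁻¹) : ZMod N) * (d : ZMod N) := by
      rw [h, ← mul_assoc, Units.inv_mul, one_mul]
    have := congrArg (ZMod.castHom hd (ZMod d)) h2
    rw [map_mul, map_natCast, map_natCast, ZMod.natCast_self, mul_zero,
      ZMod.natCast_eq_zero_iff] at this
    exact this
  · have := congrArg (ZMod.castHom he (ZMod e)) h
    rw [map_mul, map_natCast, map_natCast, ZMod.natCast_self, mul_zero,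
      ZMod.natCast_eq_zero_iff] at this
    exact this

theorem zmod_gcd_eq_add (d d' : ℕ) :
    ∃ a b : ZMod N, ((Nat.gcd d d' : ℕ) : ZMod N) = a * (d : ZMod N) + b * (d' : ZMod N) := by
  refine ⟨((Nat.gcdA d d' : ℤ) : ZMod N), ((Nat.gcdB d d' : ℤ) : ZMod N), ?_⟩
  have := congrArg (Int.cast : ℤ → ZMod N) (Nat.gcd_eq_gcd_ab d d')
  push_cast at this
  rw [this]; ring

end ZModFacts

section Cusps

variable (N : ℕ)

/-- Primitive vectors of `(ℤ/N)²`. -/
abbrev Prim : Type := {v : ZMod N × ZMod N // IsCoprime v.1 v.2}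

/-- The cusp relation: `w = u • Tᵏ v` with `T (x, y) = (x + y, y)`. -/
def cuspRel (v w : Prim N) : Prop :=
  ∃ (u : (ZMod N)ˣ) (k : ZMod N), w.1.1 = u * (v.1.1 + k * v.1.2) ∧ w.1.2 = u * v.1.2

theorem cuspRel_refl (v : Prim N) : cuspRel N v v := ⟨1, 0, by simp, by simp⟩

theorem cuspRel_symm {v w : Prim N} (h : cuspRel N v w) : cuspRel N w v := by
  obtain ⟨u, k, h1, h2⟩ := h
  refine ⟨u⁻¹, -k, ?_, ?_⟩
  · rw [h1, h2]
    have : (↑u⁻¹ : ZMod N) * u = 1 := Units.inv_mul u
    linear_combination (-(v.1.1)) * this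
  · rw [h2, ← mul_assoc, Units.inv_mul, one_mul]

theorem cuspRel_trans {v w z : Prim N} (h : cuspRel N v w) (h' : cuspRel N w z) :
    cuspRel N v z := by
  obtain ⟨u, k, h1, h2⟩ := h
  obtain ⟨u', k', h1', h2'⟩ := h'
  refine ⟨u' * u, k + k', ?_, ?_⟩
  · rw [h1', h1, h2]; push_cast; ring
  · rw [h2', h2]; push_cast; ring

/-- The cusp setoid on primitive vectors. -/
def cuspSetoid : Setoid (Prim N) :=
  ⟨cuspRel N, cuspRel_refl N, cuspRel_symm N, cuspRel_trans N⟩

/-- The set of cusps: primitive vectors modulo units and translations. -/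
abbrev Cusps : Type := Quotient (cuspSetoid N)

/-- The level of `y : ZMod N`: the divisor `d` of `N` with `y = unit * d`. -/
noncomputable def lvl (y : ZMod N) : ℕ := (ZMod.eq_unit_mul_divisor y).choose

theorem lvl_dvd (y : ZMod N) : lvl N y ∣ N := (ZMod.eq_unit_mul_divisor y).choose_spec.1

theorem lvl_spec (y : ZMod N) : ∃ u : (ZMod N)ˣ, y = u * (lvl N y : ZMod N) := by
  obtain ⟨u, hu, h⟩ := (ZMod.eq_unit_mul_divisor y).choose_spec.2
  exact ⟨hu.unit, h⟩

theorem lvl_unique {y : ZMod N} {d : ℕ} (hd : d ∣ N) (u : (ZMod N)ˣ)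
    (h : y = u * (d : ZMod N)) : lvl N y = d := by
  obtain ⟨u', h'⟩ := lvl_spec N y
  symm
  apply divisor_eq_of_unit_mul hd (lvl_dvd N y) (u := ↑(u⁻¹ * u')) (Units.isUnit _)
  have : (↑u⁻¹ : ZMod N) * u = 1 := Units.inv_mul u
  push_cast
  rw [mul_assoc, ← h', h, ← mul_assoc, this, one_mul]

theorem lvl_natCast {d : ℕ} (hd : d ∣ N) : lvl N (d : ZMod N) = d :=
  lvl_unique N hd 1 (by simp)

theorem lvl_unit_mul (u : (ZMod N)ˣ) (y : ZMod N) : lvl N (u * y) = lvl N y := by
  obtain ⟨u', h'⟩ := lvl_spec N y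
  apply lvl_unique N (lvl_dvd N y) (u * u')
  push_cast
  rw [mul_assoc, ← h']

theorem lvl_eq_of_cuspRel {v w : Prim N} (h : cuspRel N v w) : lvl N w.1.2 = lvl N v.1.2 := by
  obtain ⟨u, k, _, h2⟩ := h
  rw [h2, lvl_unit_mul]

theorem natCast_mul_div_eq_zero {d : ℕ} (hd : d ∣ N) :
    (d : ZMod N) * ((N / d : ℕ) : ZMod N) = 0 := by
  rw [← Nat.cast_mul, Nat.mul_div_cancel' hd, ZMod.natCast_self]

theorem gcd_dvd_of_dvd {d : ℕ} (hd : d ∣ N) : Nat.gcd d (N / d) ∣ N :=
  (Nat.gcd_dvd_left _ _).trans hd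

variable [NeZero N]

/-- Normal form: two primitive vectors `(x, d)`, `(x', d)` with `d ∣ N` are equivalent iff
`x ≡ x'` modulo `gcd d (N / d)`. -/
theorem cuspRel_iff_of_divisor {d : ℕ} (hd : d ∣ N) {x x' : ZMod N}
    (hx : IsCoprime x (d : ZMod N)) (hx' : IsCoprime x' (d : ZMod N)) :
    cuspRel N ⟨(x, d), hx⟩ ⟨(x', d), hx'⟩ ↔
      ZMod.castHom (gcd_dvd_of_dvd N hd) (ZMod (Nat.gcd d (N / d))) x =
        ZMod.castHom (gcd_dvd_of_dvd N hd) (ZMod (Nat.gcd d (N / d))) x' := by
  have h0 := natCast_mul_div_eq_zero N hd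
  constructor
  · rintro ⟨u, k, h1, h2⟩
    simp only at h1 h2
    obtain ⟨k', l, h⟩ := exists_eq_add_of_unit
      (zmod_ann_divisor (Nat.mul_div_cancel' hd).symm) h0 h2.symm h1
    rw [h]
    simp only [map_add, map_mul, map_natCast]
    have e1 : ((d : ℕ) : ZMod (Nat.gcd d (N / d))) = 0 :=
      (ZMod.natCast_eq_zero_iff _ _).2 (Nat.gcd_dvd_left _ _)
    have e2 : ((N / d : ℕ) : ZMod (Nat.gcd d (N / d))) = 0 :=
      (ZMod.natCast_eq_zero_iff _ _).2 (Nat.gcd_dvd_right _ _)
    rw [e1, e2]; ring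
  · intro h
    have h3 : ZMod.castHom (gcd_dvd_of_dvd N hd) (ZMod (Nat.gcd d (N / d))) (x' - x) = 0 := by
      rw [map_sub, h, sub_self]
    obtain ⟨m, hm⟩ := zmod_castHom_eq_zero (gcd_dvd_of_dvd N hd) _ h3
    obtain ⟨a, b, hab⟩ := zmod_gcd_eq_add (N := N) d (N / d)
    have h4 : x' = x + (m * a) * (d : ZMod N) + (m * b) * ((N / d : ℕ) : ZMod N) := by
      linear_combination hm + m * hab
    obtain ⟨u, hu1, hu2⟩ := exists_unit_of_eq_add h0 hx hx' h4
    exact ⟨u, m * a, hu2, hu1.symm⟩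

omit [NeZero N] in
/-- Every primitive vector is equivalent to one whose second coordinate is a divisor of `N`. -/
theorem exists_cuspRel_divisor (v : Prim N) {d : ℕ} (hl : lvl N v.1.2 = d) :
    ∃ (x : ZMod N) (hx : IsCoprime x (d : ZMod N)),
      cuspRel N ⟨(x, (d : ZMod N)), hx⟩ v := by
  subst hl
  obtain ⟨u, hu⟩ := lvl_spec N v.1.2
  have huu : (↑u⁻¹ : ZMod N) * u = 1 := Units.inv_mul u
  have huu' : (u : ZMod N) * ↑u⁻¹ = 1 := Units.mul_inv u
  obtain ⟨a, b, hab⟩ := v.2
  refine ⟨↑u⁻¹ * v.1.1, ⟨a * u, b * u, ?_⟩, ⟨u, 0, ?_, ?_⟩⟩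
  · rw [hu] at hab
    linear_combination hab + (a * v.1.1) * huu'
  · simp only
    linear_combination (-v.1.1) * huu'
  · simp only
    exact hu

/-- the level as a map on cusps into the divisors of `N`. -/
noncomputable def cuspLvl : Cusps N → {d // d ∈ N.divisors} :=
  Quotient.lift
    (fun v : Prim N =>
      (⟨lvl N v.1.2, Nat.mem_divisors.2 ⟨lvl_dvd N _, NeZero.ne N⟩⟩ : {d // d ∈ N.divisors}))
    (fun _ _ h => Subtype.ext (lvl_eq_of_cuspRel N h).symm)

/-- A unit of `ZMod N` lifting a given unit modulo `gcd d (N / d)`. -/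
noncomputable def unitLift {d : ℕ} (hd : d ∣ N) (a : (ZMod (Nat.gcd d (N / d)))ˣ) : (ZMod N)ˣ :=
  (ZMod.unitsMap_surjective (gcd_dvd_of_dvd N hd) a).choose

theorem unitLift_spec {d : ℕ} (hd : d ∣ N) (a : (ZMod (Nat.gcd d (N / d)))ˣ) :
    ZMod.castHom (gcd_dvd_of_dvd N hd) (ZMod (Nat.gcd d (N / d))) (unitLift N hd a : ZMod N) = a := by
  have := (ZMod.unitsMap_surjective (gcd_dvd_of_dvd N hd) a).choose_spec
  have h2 := congrArg (fun u : (ZMod (Nat.gcd d (N / d)))ˣ => (u : ZMod (Nat.gcd d (N / d)))) this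
  unfold unitLift
  simpa [ZMod.unitsMap_def] using h2

/-- The cusp attached to a divisor `d` and a unit modulo `gcd d (N / d)`. -/
noncomputable def cuspOfUnit (d : {d // d ∈ N.divisors}) (a : (ZMod (Nat.gcd d (N / d)))ˣ) :
    {q : Cusps N // cuspLvl N q = d} :=
  ⟨Quotient.mk (cuspSetoid N)
    ⟨((unitLift N (Nat.dvd_of_mem_divisors d.2) a : ZMod N), ((d : ℕ) : ZMod N)),
      isCoprime_unit_left _ _⟩,
    Subtype.ext (lvl_natCast N (Nat.dvd_of_mem_divisors d.2))⟩

theorem cuspOfUnit_bijective (d : {d // d ∈ N.divisors}) :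
    Function.Bijective (cuspOfUnit N d) := by
  have hd : (d : ℕ) ∣ N := Nat.dvd_of_mem_divisors d.2
  constructor
  · intro a a' h
    have h1 := Quotient.exact (congrArg Subtype.val h)
    have h2 := (cuspRel_iff_of_divisor N hd _ _).1 h1
    rw [unitLift_spec, unitLift_spec] at h2
    exact Units.ext h2
  · rintro ⟨q, hq⟩
    induction q using Quotient.inductionOn with
    | h v =>
      have hl : lvl N v.1.2 = d := congrArg Subtype.val hq
      obtain ⟨x, hx, hrel⟩ := exists_cuspRel_divisor N v hl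
      -- `x` is a unit modulo `g`
      have hx2 := hx
      obtain ⟨p, q', hpq⟩ := hx2
      have hunit : IsUnit (ZMod.castHom (gcd_dvd_of_dvd N hd) (ZMod (Nat.gcd d (N / d))) x) := by
        have := congrArg (ZMod.castHom (gcd_dvd_of_dvd N hd) (ZMod (Nat.gcd d (N / d)))) hpq
        simp only [map_add, map_mul, map_natCast, map_one] at this
        have e1 : ((d : ℕ) : ZMod (Nat.gcd d (N / d))) = 0 :=
          (ZMod.natCast_eq_zero_iff _ _).2 (Nat.gcd_dvd_left _ _)
        rw [e1, mul_zero, add_zero] at this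
        exact IsUnit.of_mul_eq_one_right _ this
      refine ⟨hunit.unit, Subtype.ext ?_⟩
      apply Quotient.sound
      refine cuspRel_trans N ((cuspRel_iff_of_divisor N hd _ hx).2 ?_) hrel
      rw [unitLift_spec, IsUnit.unit_spec]

/-- **Number of cusps.** The number of classes of primitive vectors of `(ℤ/N)²` modulo
`(x, y) ~ (u (x + k y), u y)` is `∑ d ∣ N, φ (gcd d (N / d))`. -/
theorem card_cusps : Nat.card (Cusps N) = ModularCurve.cuspCount N := by
  classical
  rw [← Nat.card_congr (Equiv.sigmaFiberEquiv (cuspLvl N)), Nat.card_sigma]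
  unfold ModularCurve.cuspCount
  rw [← Finset.sum_coe_sort N.divisors]
  apply Finset.sum_congr rfl
  intro d _
  have hd : (d : ℕ) ∣ N := Nat.dvd_of_mem_divisors d.2
  have : NeZero (Nat.gcd d (N / d)) :=
    ⟨Nat.gcd_ne_zero_left (Nat.pos_of_dvd_of_pos hd (Nat.pos_of_ne_zero (NeZero.ne N))).ne'⟩
  rw [← Nat.card_congr (Equiv.ofBijective _ (cuspOfUnit_bijective N d)),
    Nat.card_eq_fintype_card, ZMod.card_units_eq_totient]

end Cusps

section Transfer

variable (N : ℕ)

/-- The translation `T (x, y) = (x + y, y)` on primitive vectors. -/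
def tVec (v : Prim N) : Prim N :=
  ⟨(v.1.1 + v.1.2, v.1.2), by
    obtain ⟨a, b, hab⟩ := v.2
    exact ⟨a, b - a, by linear_combination hab⟩⟩

/-- The translation `Tᵏ (x, y) = (x + k y, y)` on primitive vectors. -/
def tPow (k : ZMod N) (v : Prim N) : Prim N :=
  ⟨(v.1.1 + k * v.1.2, v.1.2), by
    obtain ⟨a, b, hab⟩ := v.2
    exact ⟨a, b - a * k, by linear_combination hab⟩⟩

variable {N}
variable {X : Type*} (pr : Prim N → X)

/-- Abstract transfer: for any set `X` parametrised by primitive vectors and any setoid on `X`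
that pulls back to the cusp relation, the quotient has `cuspCount N` elements. -/
theorem card_quotient_eq_cuspCount [NeZero N] (hsurj : Function.Surjective pr) (r : Setoid X)
    (hr : ∀ v w : Prim N, r (pr v) (pr w) ↔ cuspRel N v w) :
    Nat.card (Quotient r) = ModularCurve.cuspCount N := by
  rw [← card_cusps N]
  symm
  apply Nat.card_congr
  refine Equiv.ofBijective
    (Quotient.map (sa := cuspSetoid N) (sb := r) pr (fun v w h => (hr v w).2 h)) ⟨?_, ?_⟩
  · intro a b
    induction a using Quotient.inductionOn with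
    | h v =>
      induction b using Quotient.inductionOn with
      | h w =>
        intro h
        simp only [Quotient.map_mk] at h
        exact Quotient.sound ((hr v w).1 (Quotient.exact h))
  · intro q
    induction q using Quotient.inductionOn with
    | h x =>
      obtain ⟨v, rfl⟩ := hsurj x
      exact ⟨Quotient.mk _ v, by simp only [Quotient.map_mk]⟩

/-- The projective equivalence hypothesis on `pr`. -/
def IsProj (pr : Prim N → X) : Prop :=
  ∀ v w : Prim N, pr v = pr w ↔ ∃ u : (ZMod N)ˣ, w.1 = ((u : ZMod N) * v.1.1, (u : ZMod N) * v.1.2)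

theorem cuspRel_iff_exists_tPow (hpr : IsProj pr) (v w : Prim N) :
    cuspRel N v w ↔ ∃ k : ZMod N, pr (tPow N k v) = pr w := by
  constructor
  · rintro ⟨u, k, h1, h2⟩
    exact ⟨k, (hpr _ _).2 ⟨u, Prod.ext h1 h2⟩⟩
  · rintro ⟨k, h⟩
    obtain ⟨u, hu⟩ := (hpr _ _).1 h
    exact ⟨u, k, congrArg Prod.fst hu, congrArg Prod.snd hu⟩

/-- Version for a group action: if `T • pr v = pr (tVec v)`, then the orbits of the cyclic group
generated by `T` are counted by `cuspCount N`. -/
theorem card_orbits_zpowers [NeZero N] {G : Type*} [Group G] [MulAction G X]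
    (hsurj : Function.Surjective pr) (hpr : IsProj pr) (T : G)
    (hT : ∀ v : Prim N, T • pr v = pr (tVec N v)) :
    Nat.card (MulAction.orbitRel.Quotient (Subgroup.zpowers T) X) =
      ModularCurve.cuspCount N := by
  have hinv : ∀ v : Prim N, T⁻¹ • pr v = pr (tPow N (-1) v) := by
    intro v
    rw [inv_smul_eq_iff, hT]
    congr 1
    apply Subtype.ext
    simp only [tPow, tVec]
    exact Prod.ext (by ring) rfl
  have hpow : ∀ (n : ℤ) (v : Prim N), T ^ n • pr v = pr (tPow N (n : ZMod N) v) := by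
    intro n
    induction n using Int.induction_on with
    | zero =>
      intro v
      rw [zpow_zero, one_smul]
      congr 1
      apply Subtype.ext
      simp [tPow]
    | succ n ih =>
      intro v
      rw [zpow_add_one, mul_smul, hT, ih]
      congr 1
      apply Subtype.ext
      simp only [tPow, tVec]
      push_cast
      exact Prod.ext (by ring) rfl
    | pred n ih =>
      intro v
      rw [zpow_sub_one, mul_smul, hinv, ih]
      congr 1
      apply Subtype.ext
      simp only [tPow]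
      push_cast
      exact Prod.ext (by ring) rfl
  apply card_quotient_eq_cuspCount pr hsurj
  intro v w
  rw [MulAction.orbitRel_apply, MulAction.mem_orbit_iff]
  constructor
  · rintro ⟨⟨g, hg⟩, h⟩
    obtain ⟨n, rfl⟩ := Subgroup.mem_zpowers_iff.1 hg
    rw [Subgroup.smul_def] at h
    simp only at h
    rw [hpow] at h
    exact cuspRel_symm N ((cuspRel_iff_exists_tPow pr hpr w v).2 ⟨_, h⟩)
  · intro h
    obtain ⟨k, hk⟩ := (cuspRel_iff_exists_tPow pr hpr w v).1 (cuspRel_symm N h)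
    refine ⟨⟨T ^ (k.val : ℤ), Subgroup.zpow_mem_zpowers T _⟩, ?_⟩
    rw [Subgroup.smul_def]
    simp only
    rw [hpow, ← hk]
    congr 2
    simp

end Transfer

end Fermat.Agent.M2.Comb
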