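import Mathlib
import Fermat.Prelude.Def_ModularCurve_GenusNumerics
import Fermat.Agent.M2.CombCusp

/-!
# M2 / Part II (P3): elliptic fixed points on `P¹(ℤ/N)`

For any set `X` parametrised by primitive vectors of `(ℤ/N)²` modulo units (`IsProj pr`):
* the map induced by `S (x, y) = (-y, x)` has `nuTwo N` fixed points;
* the maps induced by `S ∘ T` and `T ∘ S` (`T (x, y) = (x + y, y)`) have `nuThree N` fixed points.
-/

namespace Fermat.Agent.M2.Comb

section Fix

variable (N : ℕ)

/-- `S (x, y) = (-y, x)` on primitive vectors. -/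
def sVec (v : Prim N) : Prim N :=
  ⟨(-v.1.2, v.1.1), by
    obtain ⟨a, b, hab⟩ := v.2
    exact ⟨-b, a, by linear_combination hab⟩⟩

/-- The primitive vector `(1, l)`. -/
def oneVec (l : ZMod N) : Prim N := ⟨(1, l), ⟨1, 0, by simp⟩⟩

variable {N}
variable {X : Type*} (pr : Prim N → X)

theorem pr_oneVec_injective (hpr : IsProj pr) : Function.Injective (fun l => pr (oneVec N l)) := by
  intro l l' h
  obtain ⟨u, hu⟩ := (hpr _ _).1 h
  have h1 : (1 : ZMod N) = u * 1 := congrArg Prod.fst hu
  have h2 : l' = u * l := congrArg Prod.snd hu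
  rw [h2, ← mul_one (u : ZMod N), ← h1, one_mul]

/-- If `y = l x` for a primitive vector `(x, y)` then `(x : y) = (1 : l)`. -/
theorem pr_oneVec_eq (hpr : IsProj pr) (v : Prim N) (l : ZMod N) (h : v.1.2 = l * v.1.1) :
    pr (oneVec N l) = pr v := by
  obtain ⟨a, b, hab⟩ := v.2
  have hx : v.1.1 * (a + b * l) = 1 := by rw [h] at hab; linear_combination hab
  refine (hpr _ _).2 ⟨⟨v.1.1, a + b * l, hx, by rw [mul_comm]; exact hx⟩, ?_⟩
  refine Prod.ext ?_ ?_
  · simp [oneVec]
  · simp only [oneVec]; rw [h]; ring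

theorem eq_zero_of_mul_fst_eq_zero (v : Prim N) (l c : ZMod N) (h : v.1.2 = l * v.1.1)
    (hc : c * v.1.1 = 0) : c = 0 := by
  obtain ⟨a, b, hab⟩ := v.2
  have hx : v.1.1 * (a + b * l) = 1 := by rw [h] at hab; linear_combination hab
  calc c = c * (v.1.1 * (a + b * l)) := by rw [hx, mul_one]
    _ = (c * v.1.1) * (a + b * l) := by ring
    _ = 0 := by rw [hc, zero_mul]

/-- **Fixed points of `S`.** -/
theorem card_fixed_s (hsurj : Function.Surjective pr) (hpr : IsProj pr) (s : X → X)
    (hs : ∀ v : Prim N, s (pr v) = pr (sVec N v)) :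
    Nat.card {x : X // s x = x} = ModularCurve.nuTwo N := by
  unfold ModularCurve.nuTwo
  symm
  apply Nat.card_congr
  have hwd : ∀ l : {l : ZMod N // l ^ 2 + 1 = 0}, s (pr (oneVec N l.1)) = pr (oneVec N l.1) := by
    rintro ⟨l, hl⟩
    rw [hs]
    symm
    refine (hpr _ _).2 ⟨⟨-l, l, by linear_combination (-1 : ZMod N) * hl,
      by linear_combination (-1 : ZMod N) * hl⟩, ?_⟩
    refine Prod.ext ?_ ?_
    · simp [sVec, oneVec]
    · simp only [sVec, oneVec]
      linear_combination hl
  refine Equiv.ofBijective (fun l => ⟨pr (oneVec N l.1), hwd l⟩) ⟨?_, ?_⟩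
  · intro l l' h
    exact Subtype.ext (pr_oneVec_injective pr hpr (congrArg Subtype.val h))
  · rintro ⟨x, hx⟩
    obtain ⟨v, rfl⟩ := hsurj x
    rw [hs] at hx
    obtain ⟨u, hu⟩ := (hpr _ _).1 hx.symm
    have h1 : -v.1.2 = u * v.1.1 := congrArg Prod.fst hu
    have h2 : v.1.1 = u * v.1.2 := congrArg Prod.snd hu
    have hy : v.1.2 = (-u) * v.1.1 := by linear_combination (-1 : ZMod N) * h1
    have hl : (-(u : ZMod N)) ^ 2 + 1 = 0 := by
      apply eq_zero_of_mul_fst_eq_zero v (-u) _ hy
      linear_combination h2 + (u : ZMod N) * hy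
    exact ⟨⟨-u, hl⟩, Subtype.ext (pr_oneVec_eq pr hpr v (-u) hy)⟩

/-- **Fixed points of `S ∘ T`.** -/
theorem card_fixed_st (hsurj : Function.Surjective pr) (hpr : IsProj pr) (f : X → X)
    (hf : ∀ v : Prim N, f (pr v) = pr (sVec N (tVec N v))) :
    Nat.card {x : X // f x = x} = ModularCurve.nuThree N := by
  unfold ModularCurve.nuThree
  symm
  apply Nat.card_congr
  have hwd : ∀ l : {l : ZMod N // l ^ 2 + l + 1 = 0},
      f (pr (oneVec N l.1)) = pr (oneVec N l.1) := by
    rintro ⟨l, hl⟩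
    rw [hf]
    symm
    refine (hpr _ _).2 ⟨⟨-l, l + 1, by linear_combination (-1 : ZMod N) * hl,
      by linear_combination (-1 : ZMod N) * hl⟩, ?_⟩
    refine Prod.ext ?_ ?_
    · simp [sVec, tVec, oneVec]
    · simp only [sVec, tVec, oneVec]
      linear_combination hl
  refine Equiv.ofBijective (fun l => ⟨pr (oneVec N l.1), hwd l⟩) ⟨?_, ?_⟩
  · intro l l' h
    exact Subtype.ext (pr_oneVec_injective pr hpr (congrArg Subtype.val h))
  · rintro ⟨x, hx⟩
    obtain ⟨v, rfl⟩ := hsurj x
    rw [hf] at hx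
    obtain ⟨u, hu⟩ := (hpr _ _).1 hx.symm
    have h1 : -v.1.2 = u * v.1.1 := congrArg Prod.fst hu
    have h2 : v.1.1 + v.1.2 = u * v.1.2 := congrArg Prod.snd hu
    have hy : v.1.2 = (-u) * v.1.1 := by linear_combination (-1 : ZMod N) * h1
    have hl : (-(u : ZMod N)) ^ 2 + (-(u : ZMod N)) + 1 = 0 := by
      apply eq_zero_of_mul_fst_eq_zero v (-u) _ hy
      linear_combination h2 + (u - 1 : ZMod N) * hy
    exact ⟨⟨-u, hl⟩, Subtype.ext (pr_oneVec_eq pr hpr v (-u) hy)⟩

theorem isProj_comp_tVec (hpr : IsProj pr) : IsProj (fun v => pr (tVec N v)) := by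
  intro v w
  rw [hpr]
  constructor
  · rintro ⟨u, hu⟩
    have h1 : w.1.1 + w.1.2 = u * (v.1.1 + v.1.2) := congrArg Prod.fst hu
    have h2 : w.1.2 = u * v.1.2 := congrArg Prod.snd hu
    exact ⟨u, Prod.ext (by linear_combination h1 - h2) h2⟩
  · rintro ⟨u, hu⟩
    have h1 : w.1.1 = u * v.1.1 := congrArg Prod.fst hu
    have h2 : w.1.2 = u * v.1.2 := congrArg Prod.snd hu
    refine ⟨u, Prod.ext ?_ h2⟩
    show w.1.1 + w.1.2 = u * (v.1.1 + v.1.2)
    linear_combination h1 + h2

theorem tVec_surjective : Function.Surjective (tVec N) := by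
  intro v
  refine ⟨tPow N (-1) v, Subtype.ext ?_⟩
  simp only [tVec, tPow]
  exact Prod.ext (by ring) rfl

/-- **Fixed points of `T ∘ S`.** -/
theorem card_fixed_ts (hsurj : Function.Surjective pr) (hpr : IsProj pr) (f : X → X)
    (hf : ∀ v : Prim N, f (pr v) = pr (tVec N (sVec N v))) :
    Nat.card {x : X // f x = x} = ModularCurve.nuThree N :=
  card_fixed_st (fun v => pr (tVec N v)) (hsurj.comp tVec_surjective)
    (isProj_comp_tVec pr hpr) f (fun v => hf (tVec N v))

theorem pr_neg (hpr : IsProj pr) (v w : Prim N) (h1 : w.1.1 = -v.1.1) (h2 : w.1.2 = -v.1.2) :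
    pr w = pr v := by
  symm
  refine (hpr _ _).2 ⟨-1, Prod.ext ?_ ?_⟩
  · simp [h1]
  · simp [h2]

/-- The map induced by `S` is an involution. -/
theorem s_involutive (hsurj : Function.Surjective pr) (hpr : IsProj pr) (s : X → X)
    (hs : ∀ v : Prim N, s (pr v) = pr (sVec N v)) (x : X) : s (s x) = x := by
  obtain ⟨v, rfl⟩ := hsurj x
  rw [hs, hs]
  exact pr_neg pr hpr _ _ (by simp [sVec]) (by simp [sVec])

/-- The map induced by `S ∘ T` has order dividing three. -/
theorem st_cube (hsurj : Function.Surjective pr) (hpr : IsProj pr) (f : X → X)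
    (hf : ∀ v : Prim N, f (pr v) = pr (sVec N (tVec N v))) (x : X) : f (f (f x)) = x := by
  obtain ⟨v, rfl⟩ := hsurj x
  rw [hf, hf, hf]
  exact pr_neg pr hpr _ _ (by simp only [sVec, tVec]; ring) (by simp only [sVec, tVec]; ring)

/-- The map induced by `T ∘ S` has order dividing three. -/
theorem ts_cube (hsurj : Function.Surjective pr) (hpr : IsProj pr) (f : X → X)
    (hf : ∀ v : Prim N, f (pr v) = pr (tVec N (sVec N v))) (x : X) : f (f (f x)) = x := by
  obtain ⟨v, rfl⟩ := hsurj x
  rw [hf, hf, hf]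
  exact pr_neg pr hpr _ _ (by simp only [sVec, tVec]; ring) (by simp only [sVec, tVec]; ring)

section Action

variable {G : Type*} [Group G] [MulAction G X]

/-- Group-action form: fixed points of an element acting like `S`. -/
theorem card_fixedBy_s (hsurj : Function.Surjective pr) (hpr : IsProj pr) (g : G)
    (hg : ∀ v : Prim N, g • pr v = pr (sVec N v)) :
    Nat.card (MulAction.fixedBy X g) = ModularCurve.nuTwo N :=
  card_fixed_s pr hsurj hpr (fun x => g • x) hg

/-- Group-action form: fixed points of an element acting like `S ∘ T`. -/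
theorem card_fixedBy_st (hsurj : Function.Surjective pr) (hpr : IsProj pr) (g : G)
    (hg : ∀ v : Prim N, g • pr v = pr (sVec N (tVec N v))) :
    Nat.card (MulAction.fixedBy X g) = ModularCurve.nuThree N :=
  card_fixed_st pr hsurj hpr (fun x => g • x) hg

/-- Group-action form: fixed points of an element acting like `T ∘ S`. -/
theorem card_fixedBy_ts (hsurj : Function.Surjective pr) (hpr : IsProj pr) (g : G)
    (hg : ∀ v : Prim N, g • pr v = pr (tVec N (sVec N v))) :
    Nat.card (MulAction.fixedBy X g) = ModularCurve.nuThree N :=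
  card_fixed_ts pr hsurj hpr (fun x => g • x) hg

end Action

end Fix

end Fermat.Agent.M2.Comb
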