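import Fermat.Agent.M2.P1Psi
import Fermat.Agent.M2.CombCusp
import Fermat.Agent.M2.CombFix

set_option autoImplicit false

/-!
# Combinatorics of `SL(2, ℤ) ⧸ Γ₀(N)`: final statements

Convention: `SL(2, ℤ) ⧸ Γ₀(N)` is Mathlib's quotient by LEFT cosets `g Γ₀(N)`, with Mathlib's
left-multiplication action `h • g Γ₀(N) = (h g) Γ₀(N)`.  It is identified equivariantly with
`ProjLine (ZMod N)` via `g Γ₀(N) ↦ g • ∞ = (a : c)` (first column of `g`).

Results (for `N ≠ 0`):
* `card_coset_Gamma0`, `index_Gamma0` (in `P1Psi`): the index is `dedekindPsi N`;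
* `card_fixedBy_S_coset`: `S` has `nuTwo N` fixed cosets;
* `card_fixedBy_ST_coset`: `S * T` has `nuThree N` fixed cosets;
* `card_orbits_T_coset`: `⟨T⟩` has `cuspCount N` orbits on cosets.
-/

namespace Fermat.Agent.M2.P1

open Matrix MatrixGroups ModularCurve

variable {N : ℕ}

theorem isPrim_of_combPrim (v : Comb.Prim N) : IsPrim v.1 := v.2

/-- The parametrisation of `ℙ¹(ℤ/N)` by primitive vectors, in the form used by `Comb`. -/
def prZ (N : ℕ) : Comb.Prim N → ProjLine (ZMod N) := fun v => mk v.1 (isPrim_of_combPrim v)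

theorem prZ_surjective : Function.Surjective (prZ N) := by
  intro x
  obtain ⟨v, hv, rfl⟩ := mk_surjective x
  exact ⟨⟨v, hv⟩, rfl⟩

theorem isProj_prZ : Comb.IsProj (prZ N) := by
  intro v w
  show mk v.1 (isPrim_of_combPrim v) = mk w.1 (isPrim_of_combPrim w) ↔ _
  rw [mk_eq_mk_iff, cross_eq_zero_iff_exists_unit (isPrim_of_combPrim v) (isPrim_of_combPrim w)]

theorem S_smul_prZ (v : Comb.Prim N) : ModularGroup.S • prZ N v = prZ N (Comb.sVec N v) :=
  S_smul_mk v.1 (isPrim_of_combPrim v)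

theorem T_smul_prZ (v : Comb.Prim N) : ModularGroup.T • prZ N v = prZ N (Comb.tVec N v) :=
  T_smul_mk v.1 (isPrim_of_combPrim v)

theorem ST_smul_prZ (v : Comb.Prim N) :
    (ModularGroup.S * ModularGroup.T) • prZ N v = prZ N (Comb.sVec N (Comb.tVec N v)) := by
  rw [mul_smul, T_smul_prZ, S_smul_prZ]

theorem TS_smul_prZ (v : Comb.Prim N) :
    (ModularGroup.T * ModularGroup.S) • prZ N v = prZ N (Comb.tVec N (Comb.sVec N v)) := by
  rw [mul_smul, S_smul_prZ, T_smul_prZ]

/-! ### Statements on `ℙ¹(ℤ/N)` -/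

theorem card_fixedBy_S : Nat.card (MulAction.fixedBy (ProjLine (ZMod N)) ModularGroup.S) = nuTwo N :=
  Comb.card_fixedBy_s (prZ N) prZ_surjective isProj_prZ ModularGroup.S S_smul_prZ

theorem card_fixedBy_ST :
    Nat.card (MulAction.fixedBy (ProjLine (ZMod N)) (ModularGroup.S * ModularGroup.T)) =
      nuThree N :=
  Comb.card_fixedBy_st (prZ N) prZ_surjective isProj_prZ _ ST_smul_prZ

theorem card_fixedBy_TS :
    Nat.card (MulAction.fixedBy (ProjLine (ZMod N)) (ModularGroup.T * ModularGroup.S)) =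
      nuThree N :=
  Comb.card_fixedBy_ts (prZ N) prZ_surjective isProj_prZ _ TS_smul_prZ

theorem card_orbits_T [NeZero N] :
    Nat.card (MulAction.orbitRel.Quotient (Subgroup.zpowers ModularGroup.T) (ProjLine (ZMod N))) =
      cuspCount N :=
  Comb.card_orbits_zpowers (prZ N) prZ_surjective isProj_prZ ModularGroup.T T_smul_prZ

/-! ### Statements on `SL(2, ℤ) ⧸ Γ₀(N)` -/

/-- The parametrisation of `SL(2, ℤ) ⧸ Γ₀(N)` by primitive vectors. -/
noncomputable def prCoset (N : ℕ) : Comb.Prim N → SL(2, ℤ) ⧸ CongruenceSubgroup.Gamma0 N :=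
  fun v => (cosetEquiv N).symm (prZ N v)

theorem prCoset_surjective : Function.Surjective (prCoset N) :=
  (cosetEquiv N).symm.surjective.comp prZ_surjective

theorem isProj_prCoset : Comb.IsProj (prCoset N) := by
  intro v w
  rw [← isProj_prZ v w]
  exact (cosetEquiv N).symm.injective.eq_iff

theorem smul_prCoset (g : SL(2, ℤ)) (v : Comb.Prim N) :
    g • prCoset N v = (cosetEquiv N).symm (g • prZ N v) :=
  (cosetEquiv_symm_smul g _).symm

theorem card_fixedBy_S_coset :
    Nat.card (MulAction.fixedBy (SL(2, ℤ) ⧸ CongruenceSubgroup.Gamma0 N) ModularGroup.S) =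
      nuTwo N :=
  Comb.card_fixedBy_s (prCoset N) prCoset_surjective isProj_prCoset ModularGroup.S
    (fun v => by rw [smul_prCoset, S_smul_prZ]; rfl)

theorem card_fixedBy_ST_coset :
    Nat.card (MulAction.fixedBy (SL(2, ℤ) ⧸ CongruenceSubgroup.Gamma0 N)
      (ModularGroup.S * ModularGroup.T)) = nuThree N :=
  Comb.card_fixedBy_st (prCoset N) prCoset_surjective isProj_prCoset _
    (fun v => by rw [smul_prCoset, ST_smul_prZ]; rfl)

theorem card_fixedBy_TS_coset :
    Nat.card (MulAction.fixedBy (SL(2, ℤ) ⧸ CongruenceSubgroup.Gamma0 N)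
      (ModularGroup.T * ModularGroup.S)) = nuThree N :=
  Comb.card_fixedBy_ts (prCoset N) prCoset_surjective isProj_prCoset _
    (fun v => by rw [smul_prCoset, TS_smul_prZ]; rfl)

theorem card_orbits_T_coset [NeZero N] :
    Nat.card (MulAction.orbitRel.Quotient (Subgroup.zpowers ModularGroup.T)
      (SL(2, ℤ) ⧸ CongruenceSubgroup.Gamma0 N)) = cuspCount N :=
  Comb.card_orbits_zpowers (prCoset N) prCoset_surjective isProj_prCoset ModularGroup.T
    (fun v => by rw [smul_prCoset, T_smul_prZ]; rfl)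

end Fermat.Agent.M2.P1
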