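import Mathlib

/-!
# M2 / III.2 : level-one weakly holomorphic modular functions are polynomials in `j`

Stated `j`-free, in terms of Mathlib's `E₄` and `Δ`.
-/

namespace Fermat.Agent.M2.LevelOnePoly

open UpperHalfPlane ModularForm ModularFormClass CuspForm EisensteinSeries MatrixGroups Polynomial
open scoped Manifold Topology

local notation "Δ" => ModularForm.discriminant

/-- Every level-one modular form of weight `12 m` is a combination of `E₄^{3i} Δ^{m-i}`. -/
theorem modularForm_eq_sum (m : ℕ) : ∀ (k : ℤ) (_hk : k = 12 * (m : ℤ)) (F : ModularForm 𝒮ℒ k),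
    ∃ c : ℕ → ℂ, ∀ z : ℍ, F z = ∑ i ∈ Finset.range (m + 1), c i * E₄ z ^ (3 * i) * Δ z ^ (m - i) := by
  induction m with
  | zero =>
    intro k hk F
    have h0 : k = 0 := by simp [hk]
    subst h0
    obtain ⟨c, hc⟩ := levelOne_weight_zero_const F
    refine ⟨fun _ => c, fun z => ?_⟩
    simp [hc]
  | succ m ih =>
    intro k hk F
    -- constant term
    set a : ℂ := (qExpansion 1 F).coeff 0 with ha
    -- `E₄^{3(m+1)}` as a modular form of weight `k`
    have hw : ((3 * (m + 1) : ℕ) : ℤ) * 4 = k := by rw [hk]; push_cast; ring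
    set P : ModularForm 𝒮ℒ k := mcast hw (E₄.pow (3 * (m + 1))) with hP
    have hPz : ∀ z, P z = E₄ z ^ (3 * (m + 1)) := fun z => by
      rw [hP, mcast_apply, ModularForm.coe_pow]; rfl
    have hPq : (qExpansion 1 P).coeff 0 = 1 := by
      rw [hP, ModularForm.qExpansion_mcast, ModularForm.qExpansion_pow one_pos one_mem_strictPeriods_SL]
      have := E_qExpansion_coeff_zero (k := 4) (by norm_num) ⟨2, rfl⟩
      simp only [PowerSeries.coeff_zero_eq_constantCoeff] at this ⊢
      rw [map_pow, this, one_pow]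
    set G : ModularForm 𝒮ℒ k := F - a • P with hG
    have hGq : (qExpansion 1 G).coeff 0 = 0 := by
      rw [hG, FunLike.coe_sub, ModularForm.qExpansion_sub one_pos one_mem_strictPeriods_SL,
        FunLike.coe_smul, ModularForm.qExpansion_smul one_pos one_mem_strictPeriods_SL, map_sub,
        PowerSeries.coeff_smul, hPq, smul_eq_mul, mul_one, sub_self]
    -- divide by `Δ`
    set H : ModularForm 𝒮ℒ (k - 12) := CuspForm.discriminantEquiv (toCuspForm G hGq) with hH
    have hHz : ∀ z, G z = Δ z * H z := fun z => by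
      rw [hH, discriminant_mul_discriminantEquiv_apply, toCuspForm_apply]
    obtain ⟨c, hc⟩ := ih (k - 12) (by rw [hk]; push_cast; ring) H
    refine ⟨fun i => if i = m + 1 then a else c i, fun z => ?_⟩
    have hFz : F z = G z + a * P z := by
      rw [hG]; simp
    rw [hFz, hHz, hc, hPz, Finset.sum_range_succ _ (m + 1), Finset.mul_sum]
    congr 1
    · refine Finset.sum_congr rfl fun i hi => ?_
      have him : i < m + 1 := Finset.mem_range.mp hi
      have : i ≠ m + 1 := by omega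
      simp only [if_neg this]
      rw [show m + 1 - i = (m - i) + 1 by omega, pow_succ]
      ring
    · simp

/-- Constructor for level-one modular forms from function-level data. -/
noncomputable def mkLevelOne (k : ℤ) (f : ℍ → ℂ) (hol : MDiff f)
    (inv : ∀ γ : SL(2, ℤ), f ∣[k] γ = f) (hbd : IsBoundedAtImInfty f) : ModularForm 𝒮ℒ k where
  toFun := f
  slash_action_eq' := fun _ ⟨γ, hγ⟩ ↦ hγ ▸ inv γ
  holo' := hol
  bdd_at_cusps' {c} hc := by
    rw [Subgroup.IsArithmetic.isCusp_iff_isCusp_SL2Z] at hc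
    rw [OnePoint.isBoundedAt_iff_forall_SL2Z hc]
    intro γ _
    rw [inv γ]
    exact hbd

@[simp] lemma mkLevelOne_apply (k : ℤ) (f : ℍ → ℂ) (hol : MDiff f)
    (inv : ∀ γ : SL(2, ℤ), f ∣[k] γ = f) (hbd : IsBoundedAtImInfty f) (z : ℍ) :
    mkLevelOne k f hol inv hbd z = f z := rfl

lemma discriminant_slash (γ : SL(2, ℤ)) : Δ ∣[(12 : ℤ)] γ = Δ :=
  SlashInvariantForm.slash_action_generators_SL2Z discriminant_S_invariant discriminant_T_invariant γ

/-- `Δ ^ m` is slash-invariant of weight `12 m` under `SL(2,ℤ)`. -/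
lemma discriminant_pow_slash (m : ℕ) (γ : SL(2, ℤ)) :
    (fun z => Δ z ^ m) ∣[(12 * (m : ℤ))] γ = fun z => Δ z ^ m := by
  induction m with
  | zero =>
    simp only [pow_zero, Nat.cast_zero, mul_zero]
    exact ModularForm.is_invariant_one γ
  | succ m ih =>
    have : (fun z => Δ z ^ (m + 1)) = (fun z => Δ z ^ m) * Δ := by
      ext z; simp [pow_succ]
    rw [this, show (12 * ((m + 1 : ℕ) : ℤ)) = 12 * (m : ℤ) + 12 by push_cast; ring,
      ModularForm.mul_slash_SL2, ih, discriminant_slash]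

lemma mdiff_discriminant_pow (m : ℕ) : MDiff (fun z => Δ z ^ m) := by
  have h : MDiff (Δ : ℍ → ℂ) := CuspForm.discriminant.holo'
  induction m with
  | zero => simpa using (mdifferentiable_const : MDiff (fun _ : ℍ => (1 : ℂ)))
  | succ m ih =>
    have : (fun z => Δ z ^ (m + 1)) = (fun z => Δ z ^ m) * Δ := by
      ext z; simp [pow_succ]
    rw [this]; exact ih.mul h

/-- **III.2** A holomorphic `SL(2,ℤ)`-invariant function `g` on `ℍ` such that `g Δ^m` is bounded
at `i∞` is a polynomial of degree `≤ m` in `j = E₄³/Δ`. -/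
theorem exists_poly_of_weaklyHolomorphic (g : ℍ → ℂ) (hol : MDiff g)
    (inv : ∀ γ : SL(2, ℤ), g ∣[(0 : ℤ)] γ = g) (m : ℕ)
    (hbd : IsBoundedAtImInfty (fun z => g z * Δ z ^ m)) :
    ∃ P : ℂ[X], P.natDegree ≤ m ∧ ∀ z : ℍ, g z = P.eval (E₄ z ^ 3 / Δ z) := by
  have hΔhol : MDiff (fun z => Δ z ^ m) := mdiff_discriminant_pow m
  have hinv : ∀ γ : SL(2, ℤ), (fun z => g z * Δ z ^ m) ∣[(12 * (m : ℤ))] γ
      = fun z => g z * Δ z ^ m := by
    intro γ
    have : (fun z => g z * Δ z ^ m) = g * (fun z => Δ z ^ m) := rfl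
    rw [this, show (12 * (m : ℤ)) = 0 + 12 * (m : ℤ) by ring, ModularForm.mul_slash_SL2,
      inv γ, discriminant_pow_slash]
  set F : ModularForm 𝒮ℒ (12 * (m : ℤ)) :=
    mkLevelOne _ (fun z => g z * Δ z ^ m) (hol.mul hΔhol) hinv hbd with hF
  obtain ⟨c, hc⟩ := modularForm_eq_sum m _ rfl F
  refine ⟨∑ i ∈ Finset.range (m + 1), C (c i) * X ^ i, ?_, fun z => ?_⟩
  · refine (natDegree_sum_le_of_forall_le _ _ fun i hi => ?_)
    have : i ≤ m := Nat.lt_succ_iff.mp (Finset.mem_range.mp hi)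
    exact (natDegree_C_mul_X_pow_le _ _).trans this
  · have hΔ : Δ z ≠ 0 := discriminant_ne_zero z
    have hz := hc z
    rw [hF, mkLevelOne_apply] at hz
    rw [eval_finsetSum]
    have hpow : Δ z ^ m ≠ 0 := pow_ne_zero _ hΔ
    apply mul_right_cancel₀ hpow
    rw [hz, Finset.sum_mul]
    refine Finset.sum_congr rfl fun i hi => ?_
    have him : i ≤ m := Nat.lt_succ_iff.mp (Finset.mem_range.mp hi)
    simp only [eval_mul, eval_C, eval_pow, eval_X]
    rw [div_pow, ← pow_mul, show Δ z ^ m = Δ z ^ (m - i) * Δ z ^ i by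
      rw [← pow_add, Nat.sub_add_cancel him]]
    field_simp

/-- A level-one modular form tends to its constant `q`-coefficient at `i∞`. -/
lemma tendsto_atImInfty_coeff_zero {k : ℤ} (f : ModularForm 𝒮ℒ k) :
    Filter.Tendsto (f : ℍ → ℂ) atImInfty (𝓝 ((qExpansion 1 f).coeff 0)) := by
  have hana := ModularFormClass.analyticAt_cuspFunction_zero f one_pos one_mem_strictPeriods_SL
  have hper := SlashInvariantFormClass.periodic_comp_ofComplex f one_mem_strictPeriods_SL
  have h0 : (qExpansion 1 f).coeff 0 = cuspFunction 1 f 0 := by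
    simp [qExpansion_coeff]
  have : (cuspFunction 1 f ∘ fun τ : ℍ ↦ Function.Periodic.qParam 1 τ : ℍ → ℂ) = f := by
    funext τ
    simpa using eq_cuspFunction τ one_ne_zero hper
  rw [h0]
  simpa [this] using hana.continuousAt.tendsto.comp (qParam_tendsto_atImInfty one_pos)

lemma tendsto_E₄_atImInfty : Filter.Tendsto (E₄ : ℍ → ℂ) atImInfty (𝓝 1) := by
  have := tendsto_atImInfty_coeff_zero E₄
  rwa [E_qExpansion_coeff_zero (k := 4) (by norm_num) ⟨2, rfl⟩] at this

/-- `‖E₄³/Δ‖ → ∞` at `i∞`. -/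
lemma tendsto_norm_j_atImInfty :
    Filter.Tendsto (fun z : ℍ => ‖E₄ z ^ 3 / Δ z‖) atImInfty Filter.atTop := by
  have h1 : Filter.Tendsto (fun z : ℍ => ‖E₄ z ^ 3‖) atImInfty (𝓝 1) := by
    simpa using (tendsto_E₄_atImInfty.pow 3).norm
  have h2 : Filter.Tendsto (fun z : ℍ => ‖Δ z‖) atImInfty (𝓝[>] 0) := by
    rw [tendsto_nhdsWithin_iff]
    refine ⟨?_, Filter.Eventually.of_forall fun z => norm_pos_iff.mpr (discriminant_ne_zero z)⟩
    simpa using (discriminant_isZeroAtImInfty : Filter.Tendsto _ _ _).norm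
  have h3 : Filter.Tendsto (fun z : ℍ => ‖Δ z‖⁻¹) atImInfty Filter.atTop :=
    h2.inv_tendsto_nhdsGT_zero
  have := Filter.Tendsto.pos_mul_atTop (C := (1 : ℝ)) one_pos h1 h3
  refine this.congr fun z => ?_
  rw [norm_div, div_eq_mul_inv]

/-- **III.2 (transcendence)** `j = E₄³/Δ` satisfies no nonzero polynomial relation over `ℂ`. -/
theorem poly_eq_zero_of_eval_j_eq_zero (P : ℂ[X])
    (h : ∀ z : ℍ, P.eval (E₄ z ^ 3 / Δ z) = 0) : P = 0 := by
  by_contra hP
  by_cases hdeg : 0 < P.degree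
  · have := Polynomial.tendsto_norm_atTop P hdeg tendsto_norm_j_atImInfty
    simp only [h, norm_zero] at this
    exact (Filter.not_tendsto_const_atTop (0 : ℝ) (atImInfty : Filter ℍ)) this
  · have hc : P = C (P.coeff 0) := eq_C_of_degree_le_zero (not_lt.mp hdeg)
    have h1 := h UpperHalfPlane.I
    rw [hc, eval_C] at h1
    rw [hc, h1, C_0] at hP
    exact hP rfl

/-- Uniqueness of the polynomial in III.2. -/
theorem poly_ext_of_eval_j (P Q : ℂ[X])
    (h : ∀ z : ℍ, P.eval (E₄ z ^ 3 / Δ z) = Q.eval (E₄ z ^ 3 / Δ z)) : P = Q :=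
  sub_eq_zero.mp (poly_eq_zero_of_eval_j_eq_zero _ fun z => by rw [eval_sub, h z, sub_self])

end Fermat.Agent.M2.LevelOnePoly
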