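import Mathlib

/-!
# Holomorphic division lemma (M2, task V.2)

If `a`, `b` are holomorphic on an open set `U ⊆ ℂ` and at every point of `U` the order of
vanishing of `a` is at least that of `b`, then `a = u * b` on `U` for a holomorphic `u`.
No connectedness and no nonvanishing hypothesis is needed.  Also the upper half plane version.
-/

set_option autoImplicit false

open Filter Topology Set

namespace Fermat.Agent.M2.HolDiv

/-- The quotient used to define the holomorphic cofactor. -/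
noncomputable def quot (a b : ℂ → ℂ) (z : ℂ) : ℂ := limUnder (𝓝[≠] z) fun w => a w / b w

/-- Local form of the division lemma when `b` has finite order at `z₀`. -/
theorem quot_eventuallyEq_of_finite {a b : ℂ → ℂ} {z₀ : ℂ} (ha : AnalyticAt ℂ a z₀)
    (hb : AnalyticAt ℂ b z₀) {m : ℕ} (hm : analyticOrderAt b z₀ = m)
    (hle : analyticOrderAt b z₀ ≤ analyticOrderAt a z₀) :
    ∃ g h : ℂ → ℂ, AnalyticAt ℂ g z₀ ∧ AnalyticAt ℂ h z₀ ∧ g z₀ ≠ 0 ∧
      (∀ᶠ z in 𝓝 z₀, quot a b z = h z / g z) ∧ ∀ᶠ z in 𝓝 z₀, a z = h z / g z * b z := by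
  obtain ⟨g, hg, hg0, hbg⟩ := hb.analyticOrderAt_eq_natCast.mp hm
  rw [hm] at hle
  obtain ⟨h, hh, hah⟩ := (natCast_le_analyticOrderAt ha).mp hle
  refine ⟨g, h, hg, hh, hg0, ?_, ?_⟩
  · -- an open neighbourhood `V` on which everything holds
    have hgne : ∀ᶠ z in 𝓝 z₀, g z ≠ 0 := hg.continuousAt.eventually_ne hg0
    have hall : ∀ᶠ z in 𝓝 z₀, b z = (z - z₀) ^ m • g z ∧ a z = (z - z₀) ^ m • h z ∧ g z ≠ 0 ∧
        AnalyticAt ℂ g z ∧ AnalyticAt ℂ h z :=
      hbg.and (hah.and (hgne.and (hg.eventually_analyticAt.and hh.eventually_analyticAt)))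
    obtain ⟨V, hV, hVo, hz₀V⟩ := eventually_nhds_iff.mp hall
    filter_upwards [hVo.mem_nhds hz₀V] with z hz
    -- on a punctured neighbourhood of `z`, `a / b = h / g`
    have hpunct : ∀ᶠ w in 𝓝[≠] z, a w / b w = h w / g w := by
      have h1 : ∀ᶠ w in 𝓝[≠] z, w ∈ V := nhdsWithin_le_nhds (hVo.mem_nhds hz)
      have h2 : ∀ᶠ w in 𝓝[≠] z, w ≠ z₀ := by
        by_cases hzz : z = z₀
        · subst hzz
          exact eventually_mem_nhdsWithin
        · exact nhdsWithin_le_nhds (isOpen_ne.mem_nhds hzz)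
      filter_upwards [h1, h2] with w hwV hw
      obtain ⟨e1, e2, e3, -, -⟩ := hV w hwV
      have hp : (w - z₀) ^ m ≠ 0 := pow_ne_zero _ (sub_ne_zero.mpr hw)
      rw [e1, e2, smul_eq_mul, smul_eq_mul, mul_div_mul_left _ _ hp]
    obtain ⟨-, -, e3, e4, e5⟩ := hV z hz
    have hcont : Tendsto (fun w => h w / g w) (𝓝[≠] z) (𝓝 (h z / g z)) :=
      ((e5.continuousAt.div e4.continuousAt e3).tendsto).mono_left nhdsWithin_le_nhds
    exact (hcont.congr' (hpunct.mono fun w hw => hw.symm)).limUnder_eq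
  · have hgne : ∀ᶠ z in 𝓝 z₀, g z ≠ 0 := hg.continuousAt.eventually_ne hg0
    filter_upwards [hbg, hah, hgne] with z e1 e2 e3
    rw [e1, e2, smul_eq_mul, smul_eq_mul]
    field_simp

/-- **Division lemma** on an open subset of `ℂ`. -/
theorem exists_holo_of_order_le {U : Set ℂ} (hU : IsOpen U) (a b : ℂ → ℂ)
    (ha : DifferentiableOn ℂ a U) (hb : DifferentiableOn ℂ b U)
    (hord : ∀ z ∈ U, analyticOrderAt b z ≤ analyticOrderAt a z) :
    ∃ u : ℂ → ℂ, DifferentiableOn ℂ u U ∧ ∀ z ∈ U, a z = u z * b z := by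
  have haA : ∀ z ∈ U, AnalyticAt ℂ a z := fun z hz => ha.analyticAt (hU.mem_nhds hz)
  have hbA : ∀ z ∈ U, AnalyticAt ℂ b z := fun z hz => hb.analyticAt (hU.mem_nhds hz)
  have key : ∀ z₀ ∈ U, DifferentiableAt ℂ (quot a b) z₀ ∧ a z₀ = quot a b z₀ * b z₀ := by
    intro z₀ hz₀
    by_cases htop : analyticOrderAt b z₀ = ⊤
    · -- `b` and `a` vanish identically near `z₀`
      have hb0 : ∀ᶠ z in 𝓝 z₀, b z = 0 := analyticOrderAt_eq_top.mp htop
      have ha0 : ∀ᶠ z in 𝓝 z₀, a z = 0 := by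
        have : analyticOrderAt a z₀ = ⊤ := by
          have := hord z₀ hz₀
          rw [htop] at this
          exact top_le_iff.mp this
        exact analyticOrderAt_eq_top.mp this
      have hq0 : ∀ᶠ z in 𝓝 z₀, quot a b z = 0 := by
        obtain ⟨V, hV, hVo, hz₀V⟩ := eventually_nhds_iff.mp hb0
        filter_upwards [hVo.mem_nhds hz₀V] with z hz
        have : ∀ᶠ w in 𝓝[≠] z, a w / b w = 0 := by
          filter_upwards [nhdsWithin_le_nhds (hVo.mem_nhds hz)] with w hw
          rw [hV w hw, div_zero]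
        exact (tendsto_const_nhds.congr' (this.mono fun w hw => hw.symm)).limUnder_eq
      refine ⟨?_, ?_⟩
      · exact (differentiableAt_const (0 : ℂ)).congr_of_eventuallyEq hq0
      · rw [ha0.self_of_nhds, hb0.self_of_nhds, mul_zero]
    · obtain ⟨m, hm⟩ := ENat.ne_top_iff_exists.mp htop
      obtain ⟨g, h, hg, hh, hg0, hq, hmul⟩ :=
        quot_eventuallyEq_of_finite (haA z₀ hz₀) (hbA z₀ hz₀) hm.symm (hord z₀ hz₀)
      refine ⟨?_, ?_⟩
      · exact ((hh.differentiableAt).div hg.differentiableAt hg0).congr_of_eventuallyEq hq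
      · rw [hq.self_of_nhds]
        exact hmul.self_of_nhds
  exact ⟨quot a b, fun z hz => (key z hz).1.differentiableWithinAt, fun z hz => (key z hz).2⟩

/-! ### Upper half plane version -/

section UHP

open UpperHalfPlane
open scoped Manifold

/-- **Division lemma** on the upper half plane; orders are those of `f ∘ ofComplex`. -/
theorem exists_mdiff_of_order_le (a b : ℍ → ℂ) (ha : MDiff a) (hb : MDiff b)
    (hord : ∀ z : ℍ, analyticOrderAt (b ∘ ofComplex) (z : ℂ) ≤
      analyticOrderAt (a ∘ ofComplex) (z : ℂ)) :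
    ∃ u : ℍ → ℂ, MDiff u ∧ ∀ z, a z = u z * b z := by
  obtain ⟨U, hUd, hUmul⟩ := exists_holo_of_order_le isOpen_upperHalfPlaneSet
    (a ∘ ofComplex) (b ∘ ofComplex) (UpperHalfPlane.mdifferentiable_iff.mp ha)
    (UpperHalfPlane.mdifferentiable_iff.mp hb) (fun z hz => hord ⟨z, hz⟩)
  refine ⟨fun z => U z, ?_, ?_⟩
  · rw [UpperHalfPlane.mdifferentiable_iff]
    refine hUd.congr fun z hz => ?_
    simp only [Function.comp_apply]
    rw [ofComplex_apply_of_im_pos hz]
  · intro z
    simpa [Function.comp_apply, ofComplex_apply] using hUmul (z : ℂ) z.im_pos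

end UHP

end Fermat.Agent.M2.HolDiv
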