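/-
M2 / Part I.4 + III.5 analytic core: local normal form of a holomorphic function at a point of
finite order `m`, the `m`-to-one lemma, and the rotation-divisibility lemma.
(helper3)
-/
import Mathlib

set_option autoImplicit false

open Filter Topology Complex

namespace Fermat.Agent.M2.LNF

/-- The number of `m`-th roots of a nonzero complex number is `m`. -/
theorem ncard_pow_eq {m : ℕ} (hm : m ≠ 0) {a : ℂ} (ha : a ≠ 0) :
    {u : ℂ | u ^ m = a}.ncard = m := by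
  classical
  have hζ := Complex.isPrimitiveRoot_exp m hm
  have hset : {u : ℂ | u ^ m = a} = ↑(Polynomial.nthRoots m a).toFinset := by
    ext u
    simp [Polynomial.mem_nthRoots (Nat.pos_of_ne_zero hm)]
  rw [hset, Set.ncard_coe_finset, Multiset.toFinset_card_of_nodup (hζ.nthRoots_nodup ha),
    hζ.card_nthRoots, if_pos]
  exact ⟨exp (log a / m), by
    rw [← Complex.exp_nat_mul, mul_div_cancel₀ _ (by exact_mod_cast hm), Complex.exp_log ha]⟩

/-- `m`-th root of a nonvanishing analytic function, locally. -/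
theorem exists_analytic_root {g : ℂ → ℂ} {z₀ : ℂ} (hg : AnalyticAt ℂ g z₀) (hg0 : g z₀ ≠ 0)
    {m : ℕ} (hm : m ≠ 0) :
    ∃ h : ℂ → ℂ, AnalyticAt ℂ h z₀ ∧ h z₀ ≠ 0 ∧ ∀ᶠ z in 𝓝 z₀, h z ^ m = g z := by
  have hmC : (m : ℂ) ≠ 0 := by exact_mod_cast hm
  obtain ⟨c, hc⟩ : ∃ c : ℂ, c ^ m = g z₀ := ⟨exp (log (g z₀) / m), by
    rw [← Complex.exp_nat_mul, mul_div_cancel₀ _ hmC, Complex.exp_log hg0]⟩
  have hc0 : c ≠ 0 := by
    rintro rfl
    rw [zero_pow hm] at hc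
    exact hg0 hc.symm
  have hk : AnalyticAt ℂ (fun z => g z / g z₀) z₀ := hg.div_const
  have hk1 : (fun z => g z / g z₀) z₀ = 1 := div_self hg0
  have hks : (fun z => g z / g z₀) z₀ ∈ slitPlane := by rw [hk1]; exact one_mem_slitPlane
  refine ⟨fun z => c * exp (log (g z / g z₀) / m), ?_, ?_, ?_⟩
  · exact analyticAt_const.mul ((hk.clog hks).div_const).cexp
  · exact mul_ne_zero hc0 (Complex.exp_ne_zero _)
  · have : ∀ᶠ z in 𝓝 z₀, g z / g z₀ ≠ 0 :=
      hk.continuousAt.eventually_ne (by simp [div_self hg0])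
    filter_upwards [this] with z hz
    rw [mul_pow, hc, ← Complex.exp_nat_mul, mul_div_cancel₀ _ hmC, Complex.exp_log hz]
    field_simp

/-- **Local normal form.** If `f - f z₀` has finite order `m ≠ 0` at `z₀`, then
`f = f z₀ + φ ^ m` near `z₀` with `φ` a local biholomorphism at `z₀`, `φ z₀ = 0`. -/
theorem exists_pow_chart {f : ℂ → ℂ} {z₀ : ℂ} {m : ℕ} (hf : AnalyticAt ℂ f z₀)
    (hm : analyticOrderAt (fun z => f z - f z₀) z₀ = m) (hm0 : m ≠ 0) :
    ∃ φ : ℂ → ℂ, AnalyticAt ℂ φ z₀ ∧ φ z₀ = 0 ∧ deriv φ z₀ ≠ 0 ∧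
      ∀ᶠ z in 𝓝 z₀, f z = f z₀ + φ z ^ m := by
  obtain ⟨g, hg, hg0, hfg⟩ := (hf.sub analyticAt_const).analyticOrderAt_eq_natCast.mp hm
  obtain ⟨h, hh, hh0, hhg⟩ := exists_analytic_root hg hg0 hm0
  refine ⟨fun z => (z - z₀) * h z, ?_, by simp, ?_, ?_⟩
  · exact (analyticAt_id.sub analyticAt_const).mul hh
  · have h1 : HasDerivAt (fun z => (z - z₀) * h z) (1 * h z₀ + (z₀ - z₀) * deriv h z₀) z₀ :=
      ((hasDerivAt_id z₀).sub_const z₀).mul hh.differentiableAt.hasDerivAt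
    rw [h1.deriv]
    simpa using hh0
  · filter_upwards [hfg, hhg] with z hz hz'
    have hz2 : f z - f z₀ = (z - z₀) ^ m * g z := hz
    rw [mul_pow, hz', ← hz2]
    ring

/-- **`m`-to-one lemma.** If `f - f z₀` has finite order `m ≠ 0` at `z₀`, then inside every
neighbourhood `U` of `z₀` there is a neighbourhood `V` of `z₀`, and a neighbourhood `W` of `f z₀`,
such that every value `w ∈ W`, `w ≠ f z₀`, is taken exactly `m` times by `f` on `V`. -/
theorem exists_nhds_ncard_eq {f : ℂ → ℂ} {z₀ : ℂ} {m : ℕ} (hf : AnalyticAt ℂ f z₀)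
    (hm : analyticOrderAt (fun z => f z - f z₀) z₀ = m) (hm0 : m ≠ 0) {U : Set ℂ}
    (hU : U ∈ 𝓝 z₀) :
    ∃ V ∈ 𝓝 z₀, V ⊆ U ∧ ∃ W ∈ 𝓝 (f z₀), ∀ w ∈ W, w ≠ f z₀ →
      {z | z ∈ V ∧ f z = w}.ncard = m := by
  obtain ⟨φ, hφ, hφ0, hφ', hfφ⟩ := exists_pow_chart hf hm hm0
  -- the local inverse of `φ`
  set e := (hφ.hasStrictDerivAt.hasStrictFDerivAt_equiv hφ').toOpenPartialHomeomorph φ with he
  have hecoe : (e : ℂ → ℂ) = φ :=
    (hφ.hasStrictDerivAt.hasStrictFDerivAt_equiv hφ').toOpenPartialHomeomorph_coe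
  have hz₀e : z₀ ∈ e.source :=
    (hφ.hasStrictDerivAt.hasStrictFDerivAt_equiv hφ').mem_toOpenPartialHomeomorph_source
  -- an open set on which everything holds
  obtain ⟨O, hOsub, hOopen, hz₀O⟩ := mem_nhds_iff.mp
    (inter_mem (inter_mem hU (e.open_source.mem_nhds hz₀e)) hfφ)
  have hOU : O ⊆ U := fun z hz => (hOsub hz).1.1
  have hOe : O ⊆ e.source := fun z hz => (hOsub hz).1.2
  have hOf : ∀ z ∈ O, f z = f z₀ + φ z ^ m := fun z hz => (hOsub hz).2
  have himg : IsOpen (e '' O) := e.isOpen_image_of_subset_source hOopen hOe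
  have h0img : (0 : ℂ) ∈ e '' O := ⟨z₀, hz₀O, by rw [hecoe, hφ0]⟩
  obtain ⟨r, hr, hball⟩ := Metric.isOpen_iff.mp himg 0 h0img
  refine ⟨O ∩ φ ⁻¹' Metric.ball 0 r, inter_mem (hOopen.mem_nhds hz₀O)
    (hφ.continuousAt.preimage_mem_nhds (by rw [hφ0]; exact Metric.ball_mem_nhds 0 hr)),
    fun z hz => hOU hz.1, Metric.ball (f z₀) (r ^ m), Metric.ball_mem_nhds _ (pow_pos hr m), ?_⟩
  intro w hw hwne
  have ha : w - f z₀ ≠ 0 := sub_ne_zero.mpr hwne
  rw [← ncard_pow_eq hm0 ha]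
  refine Set.ncard_congr (fun z _ => φ z) ?_ ?_ ?_
  · rintro z ⟨⟨hzO, _⟩, hzw⟩
    simp only [Set.mem_ofPred_eq]
    rw [← hzw, hOf z hzO]; ring
  · rintro z z' ⟨⟨hzO, _⟩, _⟩ ⟨⟨hzO', _⟩, _⟩ hzz'
    apply e.injOn (hOe hzO) (hOe hzO')
    rw [hecoe]; exact hzz'
  · intro u hu
    simp only [Set.mem_ofPred_eq] at hu
    have hur : u ∈ Metric.ball (0 : ℂ) r := by
      rw [Metric.mem_ball, dist_zero_right]
      rw [Metric.mem_ball, dist_eq_norm, ← hu, norm_pow] at hw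
      exact lt_of_pow_lt_pow_left₀ m hr.le hw
    obtain ⟨z, hzO, hzu⟩ := hball hur
    rw [hecoe] at hzu
    refine ⟨z, ⟨⟨hzO, ?_⟩, ?_⟩, hzu⟩
    · simpa [hzu] using hur
    · rw [hOf z hzO, hzu, hu]; ring

/-- **Rotation lemma.** If `f` is invariant near `z₀` under a holomorphic map `ρ` fixing `z₀`,
whose derivative at `z₀` is a primitive `s`-th root of unity, then `s` divides the order of
`f - f z₀` at `z₀`. -/
theorem dvd_order_of_rotation {f ρ : ℂ → ℂ} {z₀ ζ : ℂ} {m s : ℕ} (hf : AnalyticAt ℂ f z₀)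
    (hm : analyticOrderAt (fun z => f z - f z₀) z₀ = m)
    (hρ : AnalyticAt ℂ ρ z₀) (hρ0 : ρ z₀ = z₀) (hζ : deriv ρ z₀ = ζ) (hs : IsPrimitiveRoot ζ s)
    (hinv : ∀ᶠ z in 𝓝 z₀, f (ρ z) = f z) : s ∣ m := by
  obtain ⟨g, hg, hg0, hfg⟩ := (hf.sub analyticAt_const).analyticOrderAt_eq_natCast.mp hm
  -- `ρ z - z₀ = (z - z₀) * r z` with `r z₀ = ζ`
  have hρ1 : ((1 : ℕ) : ℕ∞) ≤ analyticOrderAt (fun z => ρ z - z₀) z₀ := by
    rw [Nat.cast_one, Order.one_le_iff_ne_zero, analyticOrderAt_ne_zero]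
    exact ⟨hρ.sub analyticAt_const, by simp [hρ0]⟩
  obtain ⟨r, hr, hρr⟩ := (natCast_le_analyticOrderAt (hρ.sub analyticAt_const)).mp hρ1
  have hρr' : ∀ᶠ z in 𝓝 z₀, ρ z = z₀ + (z - z₀) * r z := by
    filter_upwards [hρr] with z hz
    have : ρ z - z₀ = (z - z₀) ^ 1 * r z := hz
    rw [pow_one] at this
    linear_combination this
  have hrζ : r z₀ = ζ := by
    have h1 : HasDerivAt (fun z => z₀ + (z - z₀) * r z) (1 * r z₀ + (z₀ - z₀) * deriv r z₀) z₀ :=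
      (((hasDerivAt_id z₀).sub_const z₀).mul hr.differentiableAt.hasDerivAt).const_add z₀
    have h2 : deriv ρ z₀ = 1 * r z₀ + (z₀ - z₀) * deriv r z₀ := by
      rw [← h1.deriv]
      exact Filter.EventuallyEq.deriv_eq hρr'
    rw [← hζ, h2]; ring
  -- evaluate the factorisation of `f` at `ρ z`
  have hfgρ : ∀ᶠ z in 𝓝 z₀, f (ρ z) - f z₀ = (ρ z - z₀) ^ m * g (ρ z) := by
    have : Tendsto ρ (𝓝 z₀) (𝓝 z₀) := by
      have := hρ.continuousAt.tendsto
      rwa [hρ0] at this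
    exact this.eventually hfg
  set D : ℂ → ℂ := fun z => g z - r z ^ m * g (ρ z) with hD
  have hDcont : ContinuousAt D z₀ := by
    have hgρ : ContinuousAt (fun z => g (ρ z)) z₀ := by
      have hg' : ContinuousAt g (ρ z₀) := by rw [hρ0]; exact hg.continuousAt
      exact hg'.comp hρ.continuousAt
    exact hg.continuousAt.sub ((hr.continuousAt.pow m).mul hgρ)
  have hDz : ∀ᶠ z in 𝓝 z₀, (z - z₀) ^ m * D z = 0 := by
    filter_upwards [hfg, hfgρ, hρr', hinv] with z h1 h2 h3 h4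
    have h1' : f z - f z₀ = (z - z₀) ^ m * g z := h1
    rw [h4, h1'] at h2
    have h5 : ρ z - z₀ = (z - z₀) * r z := by rw [h3]; ring
    rw [h5, mul_pow] at h2
    simp only [hD]
    linear_combination h2
  have hD0 : D z₀ = 0 := by
    by_contra hne
    have h1 : ∀ᶠ z in 𝓝[≠] z₀, D z ≠ 0 :=
      eventually_nhdsWithin_of_eventually_nhds (hDcont.eventually_ne hne)
    have h2 : ∀ᶠ z in 𝓝[≠] z₀, (z - z₀) ^ m * D z = 0 :=
      eventually_nhdsWithin_of_eventually_nhds hDz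
    have h3 : ∀ᶠ z in 𝓝[≠] z₀, z ≠ z₀ := self_mem_nhdsWithin
    have : ∀ᶠ z in 𝓝[≠] z₀, False := by
      filter_upwards [h1, h2, h3] with z a b c
      rcases mul_eq_zero.mp b with h | h
      · exact c (sub_eq_zero.mp (eq_zero_of_pow_eq_zero h))
      · exact a h
    exact (this.exists).elim fun _ h => h
  have hζm : ζ ^ m = 1 := by
    simp only [hD, hρ0, hrζ] at hD0
    have : g z₀ * (1 - ζ ^ m) = 0 := by linear_combination hD0
    rcases mul_eq_zero.mp this with h | h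
    · exact (hg0 h).elim
    · exact (sub_eq_zero.mp h).symm
  exact hs.dvd_of_pow_eq_one m hζm

/-- **I.4a in the shape of `m2_tasks`.** Under the hypotheses of the `m`-to-one lemma, every
neighbourhood `U` of `z₀` contains `m` pairwise distinct points, all different from `z₀`, at which
`f` takes the same value. -/
theorem exists_distinct_points {f : ℂ → ℂ} {z₀ : ℂ} {m : ℕ} (hf : AnalyticAt ℂ f z₀)
    (hm : analyticOrderAt (fun z => f z - f z₀) z₀ = m) (hm0 : m ≠ 0) {U : Set ℂ}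
    (hU : U ∈ 𝓝 z₀) :
    ∃ p : Fin m → ℂ, Function.Injective p ∧ (∀ k, p k ∈ U) ∧ (∀ k, p k ≠ z₀) ∧
      ∀ k l, f (p k) = f (p l) := by
  obtain ⟨V, _, hVU, W, hW, hcount⟩ := exists_nhds_ncard_eq hf hm hm0 hU
  -- pick a value `w ∈ W`, `w ≠ f z₀`
  obtain ⟨w, hwW, hwne⟩ : ∃ w ∈ W, w ≠ f z₀ := by
    have h2 : ∃ᶠ w in 𝓝[≠] (f z₀), w ≠ f z₀ :=
      (Filter.Eventually.frequently (self_mem_nhdsWithin : {w | w ≠ f z₀} ∈ 𝓝[≠] (f z₀)))
    have h3 : ∃ᶠ w in 𝓝 (f z₀), w ≠ f z₀ := h2.filter_mono nhdsWithin_le_nhds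
    obtain ⟨w, hw1, hw2⟩ := (h3.and_eventually hW).exists
    exact ⟨w, hw2, hw1⟩
  have hc := hcount w hwW hwne
  have hfin : {z | z ∈ V ∧ f z = w}.Finite := Set.finite_of_ncard_ne_zero (by rw [hc]; exact hm0)
  have hcard : hfin.toFinset.card = m := by rw [← Set.ncard_eq_toFinset_card _ hfin, hc]
  have e' : Fin m ≃ hfin.toFinset := (finCongr hcard.symm).trans hfin.toFinset.equivFin.symm
  refine ⟨fun k => (e' k : ℂ), fun k l hkl => e'.injective (Subtype.ext hkl), ?_, ?_, ?_⟩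
  · intro k
    have := (hfin.mem_toFinset.mp (e' k).2)
    exact hVU this.1
  · intro k hk
    have := (hfin.mem_toFinset.mp (e' k).2)
    have hk' : ((e' k : hfin.toFinset) : ℂ) = z₀ := hk
    rw [hk'] at this
    exact hwne this.2.symm
  · intro k l
    rw [(hfin.mem_toFinset.mp (e' k).2).2, (hfin.mem_toFinset.mp (e' l).2).2]

end Fermat.Agent.M2.LNF
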