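import Fermat.Agent.M2.WPRigid

/-!
# `j(z) = j(w)` implies `w ∈ SL(2,ℤ) • z`

We connect Mathlib's lattice Eisenstein series `PeriodPair.G` with the modular forms `E₄`, `E₆`
and deduce from lattice rigidity (`lattice_eq_of_g₂_g₃`) that two points of the upper half plane
with the same `j`-invariant are `SL(2,ℤ)`-equivalent.
-/

set_option autoImplicit false

open Filter Topology UpperHalfPlane ModularForm EisensteinSeries MatrixGroups

namespace Fermat.Agent.M2.WPRigid

open PeriodPair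

/-- The period pair `(μ z, μ)` for `z` in the upper half plane and `μ ≠ 0`. -/
noncomputable def latticePair (μ : ℂ) (hμ : μ ≠ 0) (z : ℍ) : PeriodPair where
  ω₁ := μ * z
  ω₂ := μ
  indep := by
    rw [LinearIndependent.pair_iff]
    intro s t h
    have h' : μ * ((s : ℂ) * z + t) = 0 := by
      have : (s : ℂ) * (μ * z) + (t : ℂ) * μ = 0 := by simpa using h
      linear_combination this
    have h'' : (s : ℂ) * z + t = 0 := (mul_eq_zero.mp h').resolve_left hμ
    have him := congrArg Complex.im h''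
    have hre := congrArg Complex.re h''
    simp at him hre
    have hz : (z : ℂ).im ≠ 0 := z.im_ne_zero
    have hs : s = 0 := by
      rcases him with h1 | h1
      · exact h1
      · exact absurd h1 hz
    subst hs
    simp at hre
    exact ⟨rfl, hre⟩

@[simp] lemma latticePair_ω₁ (μ : ℂ) (hμ : μ ≠ 0) (z : ℍ) : (latticePair μ hμ z).ω₁ = μ * z := rfl
@[simp] lemma latticePair_ω₂ (μ : ℂ) (hμ : μ ≠ 0) (z : ℍ) : (latticePair μ hμ z).ω₂ = μ := rfl

lemma G_latticePair (μ : ℂ) (hμ : μ ≠ 0) (z : ℍ) (k : ℕ) :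
    (latticePair μ hμ z).G k = (μ ^ k)⁻¹ * ∑' v : Fin 2 → ℤ, eisSummand k v z := by
  set L := latticePair μ hμ z with hL
  rw [PeriodPair.G, ← L.latticeEquivProd.symm.toEquiv.tsum_eq, ← (finTwoArrowEquiv ℤ).symm.tsum_eq,
    ← tsum_mul_left]
  refine tsum_congr fun x => ?_
  have := L.latticeEquiv_symm_apply x
  simp only [LinearEquiv.coe_toEquiv, finTwoArrowEquiv_symm_apply, eisSummand,
    Matrix.cons_val_zero, Matrix.cons_val_one]
  rw [this]
  simp only [hL, latticePair_ω₁, latticePair_ω₂]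
  rw [zpow_neg, zpow_natCast, ← mul_inv, ← mul_pow]
  congr 2
  ring

lemma tsum_eisSummand_eq_E (z : ℍ) {k : ℕ} (hk : 3 ≤ k) :
    ∑' v : Fin 2 → ℤ, eisSummand k v z = 2 * riemannZeta k * E hk z := by
  rw [tsum_eisSummand_eq_riemannZeta_mul_eisensteinSeries hk z,
    show E hk z = (1 / 2 : ℂ) • eisensteinSeriesSIF (N := 1) 0 k z from rfl,
    eisensteinSeriesSIF_apply 0 k z, smul_eq_mul]
  ring

lemma G_latticePair_eq_E (μ : ℂ) (hμ : μ ≠ 0) (z : ℍ) {k : ℕ} (hk : 3 ≤ k) :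
    (latticePair μ hμ z).G k = (μ ^ k)⁻¹ * (2 * riemannZeta k * E hk z) := by
  rw [G_latticePair, tsum_eisSummand_eq_E z hk]

lemma g₂_latticePair (μ : ℂ) (hμ : μ ≠ 0) (z : ℍ) :
    (latticePair μ hμ z).g₂ = 120 * riemannZeta 4 * ((μ ^ 4)⁻¹ * E₄ z) := by
  rw [PeriodPair.g₂, G_latticePair_eq_E μ hμ z (by norm_num : 3 ≤ 4)]
  push_cast
  ring

lemma g₃_latticePair (μ : ℂ) (hμ : μ ≠ 0) (z : ℍ) :
    (latticePair μ hμ z).g₃ = 280 * riemannZeta 6 * ((μ ^ 6)⁻¹ * E₆ z) := by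
  rw [PeriodPair.g₃, G_latticePair_eq_E μ hμ z (by norm_num : 3 ≤ 6)]
  push_cast
  ring

lemma lattice_eq_of_scaled (z w : ℍ) (μ : ℂ) (hμ : μ ≠ 0) (h4 : E₄ w = μ ^ 4 * E₄ z)
    (h6 : E₆ w = μ ^ 6 * E₆ z) :
    (latticePair 1 one_ne_zero w).lattice = (latticePair μ⁻¹ (inv_ne_zero hμ) z).lattice := by
  apply lattice_eq_of_g₂_g₃
  · rw [g₂_latticePair, g₂_latticePair, h4]
    simp
  · rw [g₃_latticePair, g₃_latticePair, h6]
    simp

lemma eq_zero_of_int_mul_add_eq_zero (z : ℍ) (s t : ℤ) (h : (s : ℂ) * z + t = 0) :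
    s = 0 ∧ t = 0 := by
  have him := congrArg Complex.im h
  have hre := congrArg Complex.re h
  simp at him hre
  have hz : (z : ℂ).im ≠ 0 := z.im_ne_zero
  have hs : s = 0 := by
    rcases him with h1 | h1
    · exact h1
    · exact absurd h1 hz
  subst hs
  simp at hre
  exact ⟨rfl, by exact_mod_cast hre⟩

theorem exists_smul_eq_of_scaled (z w : ℍ) (μ : ℂ) (hμ : μ ≠ 0)
    (h4 : E₄ w = μ ^ 4 * E₄ z) (h6 : E₆ w = μ ^ 6 * E₆ z) : ∃ γ : SL(2, ℤ), w = γ • z := by
  have hlat := lattice_eq_of_scaled z w μ hμ h4 h6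
  set L := latticePair 1 one_ne_zero w with hL
  set L' := latticePair μ⁻¹ (inv_ne_zero hμ) z with hL'
  have hw : (w : ℂ) ∈ L'.lattice := by
    rw [← hlat]
    have := L.ω₁_mem_lattice
    simpa [hL] using this
  have h1 : (1 : ℂ) ∈ L'.lattice := by
    rw [← hlat]
    exact L.ω₂_mem_lattice
  have hz : μ⁻¹ * (z : ℂ) ∈ L.lattice := by
    rw [hlat]
    exact L'.ω₁_mem_lattice
  have hμ' : μ⁻¹ ∈ L.lattice := by
    rw [hlat]
    exact L'.ω₂_mem_lattice
  obtain ⟨a, b, hab⟩ := mem_lattice.mp hw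
  obtain ⟨c, d, hcd⟩ := mem_lattice.mp h1
  obtain ⟨a', b', hab'⟩ := mem_lattice.mp hz
  obtain ⟨c', d', hcd'⟩ := mem_lattice.mp hμ'
  simp only [hL, hL', latticePair_ω₁, latticePair_ω₂, one_mul, mul_one] at hab hcd hab' hcd'
  -- clear denominators
  have e1 : (a : ℂ) * z + b = μ * w := by
    have : μ * ((a : ℂ) * (μ⁻¹ * z) + b * μ⁻¹) = μ * w := by rw [hab]
    rw [← this]; field_simp
  have e2 : (c : ℂ) * z + d = μ := by
    have : μ * ((c : ℂ) * (μ⁻¹ * z) + d * μ⁻¹) = μ * 1 := by rw [hcd]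
    rw [mul_one] at this
    rw [← this]; field_simp
  have e3 : (z : ℂ) = a' * (μ * w) + b' * μ := by
    have : μ * ((a' : ℂ) * w + b') = μ * (μ⁻¹ * z) := by rw [hab']
    rw [mul_inv_cancel_left₀ hμ] at this
    rw [← this]; ring
  have e4 : (1 : ℂ) = c' * (μ * w) + d' * μ := by
    have : μ * ((c' : ℂ) * w + d') = μ * μ⁻¹ := by rw [hcd']
    rw [mul_inv_cancel₀ hμ] at this
    rw [← this]; ring
  rw [← e1, ← e2] at e3 e4
  have r1 := eq_zero_of_int_mul_add_eq_zero z (a' * a + b' * c - 1) (a' * b + b' * d) (by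
    push_cast; linear_combination -e3)
  have r2 := eq_zero_of_int_mul_add_eq_zero z (c' * a + d' * c) (c' * b + d' * d - 1) (by
    push_cast; linear_combination -e4)
  obtain ⟨r11, r12⟩ := r1
  obtain ⟨r21, r22⟩ := r2
  have hdet : (a' * d' - b' * c') * (a * d - b * c) = 1 := by
    have : (a' * d' - b' * c') * (a * d - b * c) =
        (a' * a + b' * c) * (c' * b + d' * d) - (a' * b + b' * d) * (c' * a + d' * c) := by ring
    rw [this, r12, r21]
    have h1 : a' * a + b' * c = 1 := by linarith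
    have h2 : c' * b + d' * d = 1 := by linarith
    rw [h1, h2]; ring
  have hunit : IsUnit (a * d - b * c) := IsUnit.of_mul_eq_one _ (by rw [mul_comm]; exact hdet)
  -- positivity of the determinant
  have hpos : 0 < a * d - b * c := by
    have hcz : (c : ℂ) * z + d ≠ 0 := by rw [e2]; exact hμ
    have e5 : (a : ℂ) * z + b = ((c : ℂ) * z + d) * w := by rw [e1, e2]
    have him : (((a : ℂ) * z + b) * (starRingEnd ℂ) ((c : ℂ) * z + d)).im =
        (((c : ℂ) * z + d) * w * (starRingEnd ℂ) ((c : ℂ) * z + d)).im := by rw [e5]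
    have hns : ((c : ℂ) * z + d) * w * (starRingEnd ℂ) ((c : ℂ) * z + d) =
        (Complex.normSq ((c : ℂ) * z + d) : ℂ) * w := by
      rw [mul_right_comm, Complex.mul_conj]
    rw [hns] at him
    have hl : (((a : ℂ) * z + b) * (starRingEnd ℂ) ((c : ℂ) * z + d)).im =
        ((a * d - b * c : ℤ) : ℝ) * (z : ℂ).im := by
      simp [Complex.mul_im, Complex.mul_re]
      ring
    rw [hl] at him
    have hr : ((Complex.normSq ((c : ℂ) * z + d) : ℂ) * w).im =
        Complex.normSq ((c : ℂ) * z + d) * (w : ℂ).im := by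
      simp [Complex.mul_im]
    rw [hr] at him
    have hnpos : 0 < Complex.normSq ((c : ℂ) * z + d) := Complex.normSq_pos.mpr hcz
    have hzpos : 0 < (z : ℂ).im := z.im_pos
    have hwpos : 0 < (w : ℂ).im := w.im_pos
    have : (0 : ℝ) < ((a * d - b * c : ℤ) : ℝ) * (z : ℂ).im := by
      rw [him]; positivity
    have : (0 : ℝ) < ((a * d - b * c : ℤ) : ℝ) := by
      by_contra hneg
      push Not at hneg
      have := mul_nonpos_of_nonpos_of_nonneg hneg hzpos.le
      linarith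
    exact_mod_cast this
  have hone : a * d - b * c = 1 := by
    rcases Int.isUnit_iff.mp hunit with h | h
    · exact h
    · omega
  let γ : SL(2, ℤ) := ⟨!![a, b; c, d], by rw [Matrix.det_fin_two_of]; exact hone⟩
  refine ⟨γ, ?_⟩
  apply UpperHalfPlane.ext
  have hcz : (c : ℂ) * z + d ≠ 0 := by rw [e2]; exact hμ
  have hγ : ((γ • z : ℍ) : ℂ) = ((a : ℂ) * z + b) / ((c : ℂ) * z + d) := by
    rw [coe_specialLinearGroup_apply]
    simp [γ]
  rw [hγ, eq_div_iff hcz, e1, e2]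
  ring

lemma E₄_cube_ne_E₆_sq (z : ℍ) : E₄ z ^ 3 ≠ E₆ z ^ 2 := by
  intro h
  have := ModularForm.discriminant_ne_zero z
  rw [ModularForm.discriminant_eq_E₄_cube_sub_E₆_sq z, h, sub_self, zero_div] at this
  exact this rfl

theorem exists_scaling (z w : ℍ) (h : E₄ z ^ 3 * E₆ w ^ 2 = E₄ w ^ 3 * E₆ z ^ 2) :
    ∃ μ : ℂ, μ ≠ 0 ∧ E₄ w = μ ^ 4 * E₄ z ∧ E₆ w = μ ^ 6 * E₆ z := by
  have hz := E₄_cube_ne_E₆_sq z
  have hw := E₄_cube_ne_E₆_sq w
  by_cases h4z : E₄ z = 0
  · -- then `E₆ z ≠ 0`, `E₄ w = 0`, `E₆ w ≠ 0`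
    have h6z : E₆ z ≠ 0 := by
      intro h6; apply hz; rw [h4z, h6]; ring
    have h4w : E₄ w = 0 := by
      have : E₄ w ^ 3 * E₆ z ^ 2 = 0 := by rw [← h, h4z]; ring
      rcases mul_eq_zero.mp this with h1 | h1
      · exact pow_eq_zero_iff (by norm_num) |>.mp h1
      · exact absurd (pow_eq_zero_iff (by norm_num) |>.mp h1) h6z
    have h6w : E₆ w ≠ 0 := by
      intro h6; apply hw; rw [h4w, h6]; ring
    obtain ⟨μ, hμ⟩ := IsAlgClosed.exists_pow_nat_eq (E₆ w / E₆ z) (n := 6) (by norm_num)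
    refine ⟨μ, ?_, ?_, ?_⟩
    · rintro rfl
      have : E₆ w / E₆ z = 0 := by rw [← hμ]; ring
      exact div_ne_zero h6w h6z this
    · rw [h4w, h4z]; ring
    · rw [hμ]; field_simp
  · by_cases h6z : E₆ z = 0
    · have h6w : E₆ w = 0 := by
        have : E₄ z ^ 3 * E₆ w ^ 2 = 0 := by rw [h, h6z]; ring
        rcases mul_eq_zero.mp this with h1 | h1
        · exact absurd (pow_eq_zero_iff (by norm_num) |>.mp h1) h4z
        · exact pow_eq_zero_iff (by norm_num) |>.mp h1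
      have h4w : E₄ w ≠ 0 := by
        intro h4; apply hw; rw [h4, h6w]; ring
      obtain ⟨μ, hμ⟩ := IsAlgClosed.exists_pow_nat_eq (E₄ w / E₄ z) (n := 4) (by norm_num)
      refine ⟨μ, ?_, ?_, ?_⟩
      · rintro rfl
        have : E₄ w / E₄ z = 0 := by rw [← hμ]; ring
        exact div_ne_zero h4w h4z this
      · rw [hμ]; field_simp
      · rw [h6w, h6z]; ring
    · -- generic case
      have h4w : E₄ w ≠ 0 := by
        intro h4
        have : E₄ z ^ 3 * E₆ w ^ 2 = 0 := by rw [h, h4]; ring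
        rcases mul_eq_zero.mp this with h1 | h1
        · exact absurd (pow_eq_zero_iff (by norm_num) |>.mp h1) h4z
        · have h6 : E₆ w = 0 := pow_eq_zero_iff (by norm_num) |>.mp h1
          apply hw; rw [h4, h6]; ring
      have h6w : E₆ w ≠ 0 := by
        intro h6
        have : E₄ w ^ 3 * E₆ z ^ 2 = 0 := by rw [← h, h6]; ring
        rcases mul_eq_zero.mp this with h1 | h1
        · exact absurd (pow_eq_zero_iff (by norm_num) |>.mp h1) h4w
        · exact absurd (pow_eq_zero_iff (by norm_num) |>.mp h1) h6z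
      set a := E₄ w / E₄ z with ha
      set b := E₆ w / E₆ z with hb
      have ha0 : a ≠ 0 := div_ne_zero h4w h4z
      have hb0 : b ≠ 0 := div_ne_zero h6w h6z
      have hab : a ^ 3 = b ^ 2 := by
        rw [ha, hb, div_pow, div_pow, div_eq_div_iff (pow_ne_zero _ h4z) (pow_ne_zero _ h6z)]
        linear_combination -h
      obtain ⟨μ, hμ⟩ := IsAlgClosed.exists_pow_nat_eq (b / a) (n := 2) (by norm_num)
      have h4 : μ ^ 4 = a := by
        have : μ ^ 4 = (μ ^ 2) ^ 2 := by ring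
        rw [this, hμ, div_pow, ← hab]
        field_simp
      have h6 : μ ^ 6 = b := by
        have : μ ^ 6 = (μ ^ 2) ^ 3 := by ring
        rw [this, hμ, div_pow, hab]
        field_simp
      refine ⟨μ, ?_, ?_, ?_⟩
      · rintro rfl
        apply ha0
        rw [← h4]; ring
      · rw [h4, ha]; field_simp
      · rw [h6, hb]; field_simp

/-- Two points with `E₄(z)³ E₆(w)² = E₄(w)³ E₆(z)²` (i.e. the same `j`-invariant) are
`SL(2,ℤ)`-equivalent. -/
theorem exists_smul_eq_of_E₄_E₆ (z w : ℍ)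
    (h : E₄ z ^ 3 * E₆ w ^ 2 = E₄ w ^ 3 * E₆ z ^ 2) : ∃ γ : SL(2, ℤ), w = γ • z := by
  obtain ⟨μ, hμ, h4, h6⟩ := exists_scaling z w h
  exact exists_smul_eq_of_scaled z w μ hμ h4 h6

/-- Injectivity of `j = E₄³/Δ` modulo `SL(2,ℤ)`. -/
theorem exists_smul_eq_of_j_eq (z w : ℍ)
    (h : E₄ z ^ 3 / ModularForm.discriminant z = E₄ w ^ 3 / ModularForm.discriminant w) :
    ∃ γ : SL(2, ℤ), w = γ • z := by
  apply exists_smul_eq_of_E₄_E₆
  have hz := ModularForm.discriminant_ne_zero z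
  have hw := ModularForm.discriminant_ne_zero w
  rw [div_eq_div_iff hz hw, ModularForm.discriminant_eq_E₄_cube_sub_E₆_sq z,
    ModularForm.discriminant_eq_E₄_cube_sub_E₆_sq w] at h
  linear_combination (-1728 : ℂ) * h

end Fermat.Agent.M2.WPRigid
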