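import Fermat.Agent.M2.Stabilizer
import Fermat.Agent.M2.WPModular
import Fermat.Agent.M2.LocalNormalForm
import Fermat.Agent.M2.LevelOnePoly

/-!
# M2 / I.4 : the order of vanishing of `j - j(z₀)` at `z₀`

`analyticOrderAt_jC_sub`: the order of `j - j(z₀)` at `z₀ : ℍ` equals half the cardinality of the
stabiliser of `z₀` in `SL(2,ℤ)`.
-/

set_option autoImplicit false

open UpperHalfPlane MatrixGroups Matrix ModularForm EisensteinSeries Filter Topology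

namespace Fermat.Agent.M2.JOrder

local notation "Δ" => ModularForm.discriminant

/-- The `j`-function (up to the factor `1728`) on the upper half plane. -/
noncomputable def jH (z : ℍ) : ℂ := E₄ z ^ 3 / Δ z

/-- The `j`-function as a function on `ℂ` (junk outside the upper half plane). -/
noncomputable def jC (s : ℂ) : ℂ := jH (ofComplex s)

lemma E₄_smul (γ : SL(2, ℤ)) (z : ℍ) : E₄ (γ • z) = denom γ z ^ (4 : ℤ) * E₄ z := by
  have h : (SpecialLinearGroup.mapGL ℝ γ : GL (Fin 2) ℝ) ∈ 𝒮ℒ := ⟨γ, rfl⟩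
  exact SlashInvariantForm.slash_action_eqn'' E₄ h z

lemma discriminant_smul (γ : SL(2, ℤ)) (z : ℍ) : Δ (γ • z) = denom γ z ^ (12 : ℤ) * Δ z := by
  have h : (SpecialLinearGroup.mapGL ℝ γ : GL (Fin 2) ℝ) ∈ 𝒮ℒ := ⟨γ, rfl⟩
  exact SlashInvariantForm.slash_action_eqn'' CuspForm.discriminant h z

lemma jH_smul (γ : SL(2, ℤ)) (z : ℍ) : jH (γ • z) = jH z := by
  have hd : denom γ z ≠ 0 := denom_ne_zero γ z
  have hΔ : Δ z ≠ 0 := discriminant_ne_zero z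
  rw [jH, jH, E₄_smul, discriminant_smul]
  rw [div_eq_div_iff (mul_ne_zero (zpow_ne_zero _ hd) hΔ) hΔ]
  norm_cast
  ring

lemma jC_coe (z : ℍ) : jC z = jH z := by
  rw [jC, ofComplex_apply]

lemma jH_eq_iff (z w : ℍ) : jH z = jH w ↔ ∃ γ : SL(2, ℤ), w = γ • z := by
  constructor
  · intro h
    exact WPRigid.exists_smul_eq_of_j_eq z w h
  · rintro ⟨γ, rfl⟩
    exact (jH_smul γ z).symm

lemma differentiableOn_jC : DifferentiableOn ℂ jC {s : ℂ | 0 < s.im} := by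
  have h4 : DifferentiableOn ℂ ((E₄ : ℍ → ℂ) ∘ ofComplex) {s : ℂ | 0 < s.im} :=
    UpperHalfPlane.mdifferentiable_iff.mp E₄.holo'
  have hΔ : DifferentiableOn ℂ ((Δ : ℍ → ℂ) ∘ ofComplex) {s : ℂ | 0 < s.im} :=
    UpperHalfPlane.mdifferentiable_iff.mp CuspForm.discriminant.holo'
  have : jC = fun s => ((E₄ : ℍ → ℂ) ∘ ofComplex) s ^ 3 / ((Δ : ℍ → ℂ) ∘ ofComplex) s := by
    ext s; rfl
  rw [this]
  exact (h4.pow 3).div hΔ fun s _ => discriminant_ne_zero _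

lemma analyticAt_jC (z : ℍ) : AnalyticAt ℂ jC (z : ℂ) :=
  (differentiableOn_jC.analyticOnNhd UpperHalfPlane.isOpen_upperHalfPlaneSet) z z.im_pos

/-- Möbius transformations as maps `ℂ → ℂ`. -/
noncomputable def mob (γ : SL(2, ℤ)) (s : ℂ) : ℂ :=
  ((γ 0 0 : ℂ) * s + γ 0 1) / ((γ 1 0 : ℂ) * s + γ 1 1)

lemma mob_coe (γ : SL(2, ℤ)) (z : ℍ) : mob γ z = ((γ • z : ℍ) : ℂ) := by
  rw [coe_specialLinearGroup_apply]
  simp [mob]

lemma jC_mob (γ : SL(2, ℤ)) {s : ℂ} (hs : 0 < s.im) : jC (mob γ s) = jC s := by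
  have := mob_coe γ ⟨s, hs⟩
  rw [UpperHalfPlane.coe_mk] at this
  rw [this, jC_coe, jH_smul, ← jC_coe, UpperHalfPlane.coe_mk]

lemma det_eq_one (γ : SL(2, ℤ)) : (γ 0 0 : ℂ) * γ 1 1 - (γ 0 1 : ℂ) * γ 1 0 = 1 := by
  have h := γ.det_coe
  rw [Matrix.det_fin_two] at h
  exact_mod_cast h

lemma hasDerivAt_mob (γ : SL(2, ℤ)) (z : ℍ) :
    HasDerivAt (mob γ) ((Stab.eps z γ ^ 2)⁻¹) (z : ℂ) := by
  have hne : (γ 1 0 : ℂ) * z + γ 1 1 ≠ 0 := Stab.eps_ne_zero z γ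
  have h1 : HasDerivAt (fun s : ℂ => (γ 0 0 : ℂ) * s + γ 0 1) (γ 0 0 : ℂ) (z : ℂ) := by
    simpa using ((hasDerivAt_id (z : ℂ)).const_mul (γ 0 0 : ℂ)).add_const (γ 0 1 : ℂ)
  have h2 : HasDerivAt (fun s : ℂ => (γ 1 0 : ℂ) * s + γ 1 1) (γ 1 0 : ℂ) (z : ℂ) := by
    simpa using ((hasDerivAt_id (z : ℂ)).const_mul (γ 1 0 : ℂ)).add_const (γ 1 1 : ℂ)
  have h3 := h1.div h2 hne
  have hdet := det_eq_one γ
  have hval : (Stab.eps z γ ^ 2)⁻¹ =
      ((γ 0 0 : ℂ) * ((γ 1 0 : ℂ) * z + γ 1 1) - ((γ 0 0 : ℂ) * z + γ 0 1) * (γ 1 0 : ℂ)) /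
        ((γ 1 0 : ℂ) * z + γ 1 1) ^ 2 := by
    unfold Stab.eps
    field_simp
    linear_combination (-1 : ℂ) * hdet
  rw [hval]
  exact h3

lemma analyticAt_mob (γ : SL(2, ℤ)) (z : ℍ) : AnalyticAt ℂ (mob γ) (z : ℂ) := by
  have hne : (γ 1 0 : ℂ) * z + γ 1 1 ≠ 0 := Stab.eps_ne_zero z γ
  unfold mob
  fun_prop (disch := exact hne)

/-- `j` is not constant. -/
lemma exists_jH_ne (c : ℂ) : ∃ z : ℍ, jH z ≠ c := by
  by_contra h
  push Not at h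
  have := LevelOnePoly.poly_eq_zero_of_eval_j_eq_zero (Polynomial.X - Polynomial.C c) (by
    intro z
    have := h z
    rw [jH] at this
    simp [this])
  exact Polynomial.X_sub_C_ne_zero c this

lemma analyticOrderAt_ne_top (z₀ : ℍ) :
    analyticOrderAt (fun s => jC s - jC z₀) (z₀ : ℂ) ≠ ⊤ := by
  intro htop
  rw [analyticOrderAt_eq_top] at htop
  have hU : IsPreconnected {s : ℂ | 0 < s.im} := (convex_halfSpace_im_gt 0).isPreconnected
  have han : AnalyticOnNhd ℂ (fun s => jC s - jC z₀) {s : ℂ | 0 < s.im} :=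
    (differentiableOn_jC.sub (differentiableOn_const _)).analyticOnNhd
      UpperHalfPlane.isOpen_upperHalfPlaneSet
  have h0 := han.eqOn_zero_of_preconnected_of_eventuallyEq_zero hU z₀.im_pos htop
  obtain ⟨z, hz⟩ := exists_jH_ne (jH z₀)
  apply hz
  have := h0 z.im_pos
  simp only [Pi.zero_apply, sub_eq_zero] at this
  rwa [jC_coe, jC_coe] at this

lemma analyticOrderAt_ne_zero (z₀ : ℍ) :
    analyticOrderAt (fun s => jC s - jC z₀) (z₀ : ℂ) ≠ 0 := by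
  rw [_root_.analyticOrderAt_ne_zero]
  exact ⟨(analyticAt_jC z₀).sub analyticAt_const, by simp⟩

/-- `(≥)`: half the order of the stabiliser divides the order of `j - j(z₀)` at `z₀`. -/
lemma half_card_dvd_order (z₀ : ℍ) {m : ℕ}
    (hm : analyticOrderAt (fun s => jC s - jC z₀) (z₀ : ℂ) = m) :
    Nat.card (MulAction.stabilizer SL(2, ℤ) z₀) / 2 ∣ m := by
  obtain ⟨g, hg, hprim⟩ := Stab.exists_generator_rotation z₀
  refine LNF.dvd_order_of_rotation (analyticAt_jC z₀) hm (analyticAt_mob g z₀) ?_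
    (hasDerivAt_mob g z₀).deriv hprim ?_
  · rw [mob_coe, hg]
  · filter_upwards [UpperHalfPlane.isOpen_upperHalfPlaneSet.mem_nhds z₀.im_pos] with s hs
    exact jC_mob g hs

/-- `(≤)`: the order of `j - j(z₀)` at `z₀` is at most half the order of the stabiliser. -/
lemma two_mul_order_le_card (z₀ : ℍ) {m : ℕ}
    (hm : analyticOrderAt (fun s => jC s - jC z₀) (z₀ : ℂ) = m) (hm0 : m ≠ 0) :
    2 * m ≤ Nat.card (MulAction.stabilizer SL(2, ℤ) z₀) := by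
  obtain ⟨U, hU, hUstab⟩ := Stab.exists_nhds_forall_smul z₀
  have hU' : ((↑) '' U : Set ℂ) ∈ 𝓝 (z₀ : ℂ) := by
    rw [← UpperHalfPlane.isOpenEmbedding_coe.map_nhds_eq z₀]
    exact Filter.image_mem_map hU
  obtain ⟨V, hV, hVU, W, hW, hcount⟩ :=
    LNF.exists_nhds_ncard_eq (analyticAt_jC z₀) hm hm0 hU'
  obtain ⟨w, hwW, hwne⟩ : ∃ w ∈ W, w ≠ jC z₀ := by
    have hW' : W ∈ 𝓝[≠] (jC z₀) := mem_nhdsWithin_of_mem_nhds hW
    have hmem : W ∩ {jC (z₀ : ℂ)}ᶜ ∈ 𝓝[≠] (jC (z₀ : ℂ)) :=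
      Filter.inter_mem hW' self_mem_nhdsWithin
    obtain ⟨w, hw1, hw2⟩ := Filter.nonempty_of_mem hmem
    exact ⟨w, hw1, hw2⟩
  have hS := hcount w hwW hwne
  set S := {z | z ∈ V ∧ jC z = w} with hSdef
  have hSne : S.Nonempty := by
    apply Set.nonempty_of_ncard_ne_zero
    rw [hS]
    exact hm0
  obtain ⟨s₁, hs₁V, hs₁w⟩ := hSne
  obtain ⟨z₁, hz₁U, rfl⟩ := hVU hs₁V
  have hsub : S ⊆ (↑) '' (Set.range fun g : MulAction.stabilizer SL(2, ℤ) z₀ =>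
      (g.1 • z₁ : ℍ)) := by
    rintro s ⟨hsV, hsw⟩
    obtain ⟨z, hzU, rfl⟩ := hVU hsV
    have hj : jH z₁ = jH z := by rw [← jC_coe, ← jC_coe, hs₁w, hsw]
    obtain ⟨γ, hγ⟩ := (jH_eq_iff z₁ z).mp hj
    have hγstab : γ • z₀ = z₀ := hUstab γ ⟨z₁, hz₁U, hγ ▸ hzU⟩
    exact ⟨z, ⟨⟨γ, hγstab⟩, hγ.symm⟩, rfl⟩
  have hfin : (Set.range fun g : MulAction.stabilizer SL(2, ℤ) z₀ =>
      (g.1 • z₁ : ℍ)).Finite := Set.finite_range _
  calc 2 * m = 2 * S.ncard := by rw [hS]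
    _ ≤ 2 * ((↑) '' (Set.range fun g : MulAction.stabilizer SL(2, ℤ) z₀ =>
          (g.1 • z₁ : ℍ)) : Set ℂ).ncard :=
        Nat.mul_le_mul_left 2 (Set.ncard_le_ncard hsub (hfin.image _))
    _ ≤ 2 * (Set.range fun g : MulAction.stabilizer SL(2, ℤ) z₀ => (g.1 • z₁ : ℍ)).ncard :=
        Nat.mul_le_mul_left 2 (Set.ncard_image_le hfin)
    _ ≤ Nat.card _ := Stab.two_mul_ncard_orbit_le z₀ z₁

/-- **I.4** The order of vanishing of `j - j(z₀)` at `z₀` is half the order of the stabiliser of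
`z₀` in `SL(2,ℤ)` (i.e. the order of the stabiliser in `PSL(2,ℤ)`). -/
theorem analyticOrderAt_jC_sub (z₀ : ℍ) :
    analyticOrderAt (fun s => jC s - jC z₀) (z₀ : ℂ) =
      ((Nat.card (MulAction.stabilizer SL(2, ℤ) z₀) / 2 : ℕ) : ℕ∞) := by
  obtain ⟨m, hm⟩ := ENat.ne_top_iff_exists.mp (analyticOrderAt_ne_top z₀)
  have hm0 : m ≠ 0 := by
    intro h
    apply analyticOrderAt_ne_zero z₀
    rw [← hm, h]
    rfl
  rw [← hm]
  congr 1
  have h1 := half_card_dvd_order z₀ hm.symm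
  have h2 := two_mul_order_le_card z₀ hm.symm hm0
  obtain ⟨s, hs⟩ := Stab.two_dvd_card z₀
  rw [hs, Nat.mul_div_cancel_left s (by norm_num)] at h1 ⊢
  rw [hs] at h2
  have h3 : m ≤ s := by omega
  exact Nat.le_antisymm h3 (Nat.le_of_dvd (Nat.pos_of_ne_zero hm0) h1)

end Fermat.Agent.M2.JOrder
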