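import Mathlib

/-!
# Stabilisers of points of the upper half plane in `SL(2,ℤ)`

For `z₀ : ℍ` the map `γ ↦ c z₀ + d` is an injective character of the stabiliser of `z₀`, so the
stabiliser is finite cyclic; a generator is sent to a primitive root of unity.
-/

set_option autoImplicit false

open UpperHalfPlane MatrixGroups Matrix Pointwise

namespace Fermat.Agent.M2.Stab

variable (z₀ : ℍ)

/-- The automorphy factor `c z₀ + d`. -/
noncomputable def eps (γ : SL(2, ℤ)) : ℂ := (γ 1 0 : ℂ) * z₀ + (γ 1 1 : ℂ)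

/-- The numerator `a z₀ + b`. -/
noncomputable def nmr (γ : SL(2, ℤ)) : ℂ := (γ 0 0 : ℂ) * z₀ + (γ 0 1 : ℂ)

lemma coe_smul_eq (γ : SL(2, ℤ)) : ((γ • z₀ : ℍ) : ℂ) = nmr z₀ γ / eps z₀ γ := by
  rw [coe_specialLinearGroup_apply]
  simp [nmr, eps]

lemma eps_ne_zero (γ : SL(2, ℤ)) : eps z₀ γ ≠ 0 := by
  intro h
  have him := congrArg Complex.im h
  have hre := congrArg Complex.re h
  simp [eps] at him hre
  have hz : (z₀ : ℂ).im ≠ 0 := z₀.im_ne_zero
  have hc : γ 1 0 = 0 := by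
    rcases him with h1 | h1
    · exact h1
    · exact absurd h1 hz
  rw [hc] at hre
  simp at hre
  have hdet := γ.det_coe
  rw [Matrix.det_fin_two, hc, hre] at hdet
  simp at hdet

lemma smul_eq_iff (γ : SL(2, ℤ)) : γ • z₀ = z₀ ↔ nmr z₀ γ = z₀ * eps z₀ γ := by
  rw [UpperHalfPlane.ext_iff, coe_smul_eq, div_eq_iff (eps_ne_zero z₀ γ)]

lemma eps_one : eps z₀ 1 = 1 := by simp [eps]

lemma eps_mul (γ γ' : SL(2, ℤ)) (hγ' : γ' • z₀ = z₀) :
    eps z₀ (γ * γ') = eps z₀ γ * eps z₀ γ' := by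
  have h := (smul_eq_iff z₀ γ').mp hγ'
  simp only [eps, nmr] at h ⊢
  simp only [Matrix.SpecialLinearGroup.coe_mul, Matrix.mul_apply, Fin.sum_univ_two]
  push_cast
  linear_combination (γ 1 0 : ℂ) * h

lemma eq_one_of_eps_eq_one (γ : SL(2, ℤ)) (hγ : γ • z₀ = z₀) (h : eps z₀ γ = 1) : γ = 1 := by
  have h1 := (smul_eq_iff z₀ γ).mp hγ
  rw [h, mul_one] at h1
  have hz : (z₀ : ℂ).im ≠ 0 := z₀.im_ne_zero
  -- `c z₀ + d = 1` gives `c = 0`, `d = 1`
  have him := congrArg Complex.im h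
  have hre := congrArg Complex.re h
  simp [eps] at him hre
  have hc : γ 1 0 = 0 := by
    rcases him with h2 | h2
    · exact h2
    · exact absurd h2 hz
  rw [hc] at hre
  simp at hre
  have hd : γ 1 1 = 1 := by exact_mod_cast hre
  -- `a z₀ + b = z₀` gives `a = 1`, `b = 0`
  have him' := congrArg Complex.im h1
  have hre' := congrArg Complex.re h1
  simp [nmr] at him' hre'
  have ha : γ 0 0 = 1 := by
    have : ((γ 0 0 : ℝ) - 1) * z₀.im = 0 := by linarith
    rcases mul_eq_zero.mp this with h2 | h2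
    · have : (γ 0 0 : ℝ) = 1 := by linarith
      exact_mod_cast this
    · exact absurd h2 z₀.im_ne_zero
  rw [ha] at hre'
  simp at hre'
  have hb : γ 0 1 = 0 := by exact_mod_cast hre'
  ext i j
  fin_cases i <;> fin_cases j <;> simp [ha, hb, hc, hd]

/-- The character `γ ↦ c z₀ + d` of the stabiliser. -/
noncomputable def epsHom : MulAction.stabilizer SL(2, ℤ) z₀ →* ℂˣ where
  toFun γ := Units.mk0 (eps z₀ γ.1) (eps_ne_zero z₀ γ.1)
  map_one' := by
    ext
    simp [eps_one]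
  map_mul' γ γ' := by
    ext
    simp [eps_mul z₀ γ.1 γ'.1 γ'.2]

@[simp] lemma epsHom_coe (γ : MulAction.stabilizer SL(2, ℤ) z₀) :
    ((epsHom z₀ γ : ℂˣ) : ℂ) = eps z₀ γ.1 := rfl

lemma epsHom_injective : Function.Injective (epsHom z₀) := by
  rw [injective_iff_map_eq_one]
  intro γ hγ
  have : eps z₀ γ.1 = 1 := by
    have := congrArg (fun u : ℂˣ => (u : ℂ)) hγ
    simpa using this
  exact Subtype.ext (eq_one_of_eps_eq_one z₀ γ.1 γ.2 this)

/-- Proper discontinuity of the action of `SL(2,ℤ)` on `ℍ`. -/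
lemma finite_inter {K L : Set ℍ} (hK : IsCompact K) (hL : IsCompact L) :
    {γ : SL(2, ℤ) | ((fun z => γ • z) '' K ∩ L).Nonempty}.Finite := by
  have h : ProperlyDiscontinuousSMul 𝒮ℒ ℍ := inferInstance
  rw [Subgroup.properlyDiscontinuousSMul_iff] at h
  have hfin := h hK hL
  refine (hfin.preimage
    (f := (SpecialLinearGroup.mapGL ℝ : SL(2, ℤ) →* GL (Fin 2) ℝ)) ?_).subset ?_
  · exact (SpecialLinearGroup.mapGL_injective).injOn
  · intro γ hγ
    refine ⟨⟨γ, rfl⟩, ?_⟩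
    obtain ⟨w, ⟨z, hz, rfl⟩, hw⟩ := hγ
    exact ⟨γ • z, ⟨z, hz, rfl⟩, hw⟩

instance finite_stabilizer : Finite (MulAction.stabilizer SL(2, ℤ) z₀) := by
  have h := finite_inter (K := {z₀}) (L := {z₀}) isCompact_singleton isCompact_singleton
  have : (MulAction.stabilizer SL(2, ℤ) z₀ : Set SL(2, ℤ)) ⊆
      {γ : SL(2, ℤ) | ((fun z => γ • z) '' {z₀} ∩ {z₀}).Nonempty} := by
    intro γ hγ
    refine ⟨z₀, ⟨z₀, rfl, hγ⟩, rfl⟩
  exact (h.subset this).to_subtype

instance isCyclic_stabilizer : IsCyclic (MulAction.stabilizer SL(2, ℤ) z₀) :=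
  isCyclic_of_injective_ringHom ((Units.coeHom ℂ).comp (epsHom z₀))
    (Units.val_injective.comp (epsHom_injective z₀))

/-- A neighbourhood of `z₀` which meets its translate by `γ` only if `γ` fixes `z₀`. -/
theorem exists_nhds_forall_smul (z₀ : ℍ) :
    ∃ U ∈ nhds z₀, ∀ γ : SL(2, ℤ), (∃ z ∈ U, γ • z ∈ U) → γ • z₀ = z₀ := by
  obtain ⟨K, hK, hKn⟩ := exists_compact_mem_nhds z₀
  have hfin := finite_inter hK hK
  set F := {γ : SL(2, ℤ) | ((fun z => γ • z) '' K ∩ K).Nonempty} with hF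
  -- for each `γ ∈ F` not fixing `z₀` choose a neighbourhood
  have hsep : ∀ γ : SL(2, ℤ), γ • z₀ ≠ z₀ →
      ∃ V ∈ nhds z₀, ∀ z ∈ V, γ • z ∉ V := by
    intro γ hγ
    obtain ⟨A, B, hA, hB, hzA, hzB, hAB⟩ := t2_separation hγ
    have hcont : Continuous fun z : ℍ => γ • z := by
      change Continuous fun z : ℍ => (SpecialLinearGroup.mapGL ℝ γ : GL (Fin 2) ℝ) • z
      exact continuous_const_smul _
    refine ⟨B ∩ (fun z => γ • z) ⁻¹' A, Filter.inter_mem (hB.mem_nhds hzB)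
      ((hA.preimage hcont).mem_nhds hzA), ?_⟩
    rintro z ⟨_, hzA'⟩ ⟨hzB', _⟩
    exact Set.disjoint_left.mp hAB hzA' hzB'
  choose! V hV hV' using hsep
  refine ⟨K ∩ ⋂ γ ∈ F ∩ {γ | γ • z₀ ≠ z₀}, V γ, Filter.inter_mem hKn ?_, ?_⟩
  · refine (Filter.biInter_mem (hfin.subset Set.inter_subset_left)).mpr ?_
    intro γ hγ
    exact hV γ hγ.2
  · intro γ ⟨z, hz, hγz⟩
    by_contra hne
    have hγF : γ ∈ F := ⟨γ • z, ⟨z, hz.1, rfl⟩, hγz.1⟩
    have h1 : z ∈ V γ := Set.mem_iInter₂.mp hz.2 γ ⟨hγF, hne⟩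
    have h2 : γ • z ∈ V γ := Set.mem_iInter₂.mp hγz.2 γ ⟨hγF, hne⟩
    exact hV' γ hne z h1 h2

lemma neg_one_mem : (-1 : SL(2, ℤ)) ∈ MulAction.stabilizer SL(2, ℤ) z₀ := by
  rw [MulAction.mem_stabilizer_iff, ModularGroup.SL_neg_smul, one_smul]

lemma two_dvd_card : 2 ∣ Nat.card (MulAction.stabilizer SL(2, ℤ) z₀) := by
  have h : orderOf (⟨-1, neg_one_mem z₀⟩ : MulAction.stabilizer SL(2, ℤ) z₀) = 2 := by
    rw [orderOf_eq_iff (by norm_num)]
    refine ⟨?_, ?_⟩
    · ext : 1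
      simp
    · intro m hm hm0
      have hm1 : m = 1 := by omega
      subst hm1
      intro hcontra
      have h1 := congrArg (fun g : MulAction.stabilizer SL(2, ℤ) z₀ => (g.1 : SL(2, ℤ)) 0 0) hcontra
      simp at h1
  have h2 := orderOf_dvd_natCard (⟨-1, neg_one_mem z₀⟩ : MulAction.stabilizer SL(2, ℤ) z₀)
  rw [h] at h2
  exact h2

lemma card_pos : 0 < Nat.card (MulAction.stabilizer SL(2, ℤ) z₀) := Nat.card_pos

/-- There is a generator `g` of the stabiliser whose automorphy factor is a primitive root of unity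
of order the cardinality of the stabiliser. -/
theorem exists_generator :
    ∃ g : MulAction.stabilizer SL(2, ℤ) z₀, (∀ h, h ∈ Subgroup.zpowers g) ∧
      IsPrimitiveRoot (eps z₀ g.1) (Nat.card (MulAction.stabilizer SL(2, ℤ) z₀)) := by
  obtain ⟨g, hg⟩ := IsCyclic.exists_generator (α := MulAction.stabilizer SL(2, ℤ) z₀)
  refine ⟨g, hg, ?_⟩
  have h1 : orderOf g = Nat.card (MulAction.stabilizer SL(2, ℤ) z₀) :=
    orderOf_eq_card_of_forall_mem_zpowers hg
  have h2 : orderOf (epsHom z₀ g) = orderOf g := orderOf_injective _ (epsHom_injective z₀) g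
  have h3 : IsPrimitiveRoot (epsHom z₀ g) (orderOf (epsHom z₀ g)) := IsPrimitiveRoot.orderOf _
  rw [h2, h1] at h3
  exact IsPrimitiveRoot.coe_units_iff.mpr h3

/-- The derivative `(c z₀ + d)⁻²` of a generator of the stabiliser is a primitive root of unity of
order half the cardinality of the stabiliser. -/
theorem exists_generator_rotation :
    ∃ g : SL(2, ℤ), g • z₀ = z₀ ∧
      IsPrimitiveRoot ((eps z₀ g) ^ 2)⁻¹ (Nat.card (MulAction.stabilizer SL(2, ℤ) z₀) / 2) := by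
  obtain ⟨g, -, hg⟩ := exists_generator z₀
  refine ⟨g.1, g.2, ?_⟩
  obtain ⟨s, hs⟩ := two_dvd_card z₀
  have hpos := card_pos z₀
  rw [hs, Nat.mul_div_cancel_left s (by norm_num)]
  rw [hs] at hg
  exact (hg.pow (by omega) rfl).inv

/-- The orbit of any point under the stabiliser of `z₀` has at most `card / 2` elements. -/
lemma two_mul_ncard_orbit_le (z₁ : ℍ) :
    2 * (Set.range fun g : MulAction.stabilizer SL(2, ℤ) z₀ => (g.1 • z₁ : ℍ)).ncard ≤
      Nat.card (MulAction.stabilizer SL(2, ℤ) z₀) := by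
  classical
  have : Fintype (MulAction.stabilizer SL(2, ℤ) z₀) := Fintype.ofFinite _
  set f : MulAction.stabilizer SL(2, ℤ) z₀ → ℍ := fun g => (g.1 • z₁ : ℍ) with hf
  have hrange : Set.range f = ↑(Finset.univ.image f) := by
    ext x; simp
  rw [hrange, Set.ncard_coe_finset, Nat.card_eq_fintype_card, ← Finset.card_univ]
  refine Finset.mul_card_image_le_card Finset.univ 2 ?_
  intro b hb
  obtain ⟨a, -, rfl⟩ := Finset.mem_image.mp hb
  set n1 : MulAction.stabilizer SL(2, ℤ) z₀ := ⟨-1, neg_one_mem z₀⟩ with hn1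
  have hne : a ≠ n1 * a := by
    intro h
    have h1 : n1 = 1 := by
      have : (1 : MulAction.stabilizer SL(2, ℤ) z₀) * a = n1 * a := by rw [one_mul]; exact h
      exact (mul_right_cancel this).symm
    have h2 := congrArg (fun g : MulAction.stabilizer SL(2, ℤ) z₀ => (g.1 : SL(2, ℤ)) 0 0) h1
    simp [hn1] at h2
  have hsub : ({a, n1 * a} : Finset _) ⊆ Finset.univ.filter (fun x => f x = f a) := by
    intro x hx
    rw [Finset.mem_insert, Finset.mem_singleton] at hx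
    rw [Finset.mem_filter]
    refine ⟨Finset.mem_univ _, ?_⟩
    rcases hx with rfl | rfl
    · rfl
    · simp only [hf, hn1]
      change ((-1 : SL(2, ℤ)) * a.1) • z₁ = a.1 • z₁
      rw [mul_smul, ModularGroup.SL_neg_smul, one_smul]
  calc 2 = ({a, n1 * a} : Finset _).card := (Finset.card_pair hne).symm
    _ ≤ _ := Finset.card_le_card hsub

end Fermat.Agent.M2.Stab
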