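import Fermat.Agent.M2.WH
import Fermat.Agent.M2.WPModular
import Fermat.Agent.M2.Stabilizer

/-!
# M2 / III.f : the function `j(N z)`

* `jN N z = jInv (N z)` is a weakly holomorphic modular function of level `Γ₀(N)` (`isWH_jN`);
* conversely an element `s ∈ SL(2,ℤ)` leaving `jN N` invariant lies in `Γ₀(N)`
  (`mem_Gamma0_of_jN_invariant`).
-/

set_option autoImplicit false

open UpperHalfPlane ModularForm MatrixGroups Filter CongruenceSubgroup Asymptotics
open scoped Manifold Topology Real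

namespace Fermat.Agent.M2.JN

local notation "Δ" => ModularForm.discriminant

/-- The affine map `z ↦ (A z + B) / D` on the upper half plane (`A, D > 0`). -/
noncomputable def affH (A D : ℕ) (hA : 0 < A) (hD : 0 < D) (B : ℤ) (z : ℍ) : ℍ :=
  ⟨((A : ℂ) * z + B) / D, by
    have hA' : (0 : ℝ) < A := Nat.cast_pos.mpr hA
    have hD' : (0 : ℝ) < D := Nat.cast_pos.mpr hD
    have : (((A : ℂ) * z + B) / D).im = A * z.im / D := by
      rw [show ((A : ℂ) * z + B) / D = ((A : ℂ) * z + B) * ((D : ℝ)⁻¹ : ℝ) by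
        push_cast; rw [div_eq_mul_inv]]
      rw [Complex.mul_im]
      simp
      ring
    rw [this]
    positivity⟩

lemma coe_affH (A D : ℕ) (hA : 0 < A) (hD : 0 < D) (B : ℤ) (z : ℍ) :
    ((affH A D hA hD B z : ℍ) : ℂ) = ((A : ℂ) * z + B) / D := rfl

lemma im_affH (A D : ℕ) (hA : 0 < A) (hD : 0 < D) (B : ℤ) (z : ℍ) :
    (affH A D hA hD B z).im = A / D * z.im := by
  change (((A : ℂ) * z + B) / D).im = _
  rw [show ((A : ℂ) * z + B) / D = ((A : ℂ) * z + B) * ((D : ℝ)⁻¹ : ℝ) by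
    push_cast; rw [div_eq_mul_inv]]
  rw [Complex.mul_im]
  simp
  ring

lemma tendsto_affH (A D : ℕ) (hA : 0 < A) (hD : 0 < D) (B : ℤ) :
    Tendsto (affH A D hA hD B) atImInfty atImInfty := by
  have hA' : (0 : ℝ) < A := Nat.cast_pos.mpr hA
  have hD' : (0 : ℝ) < D := Nat.cast_pos.mpr hD
  rw [atImInfty, tendsto_comap_iff]
  have : (UpperHalfPlane.im ∘ affH A D hA hD B) = fun z : ℍ => (A / D : ℝ) * z.im := by
    ext z
    exact im_affH A D hA hD B z
  rw [this]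
  exact (tendsto_id.const_mul_atTop (div_pos hA' hD')).comp tendsto_comap

/-- `j((A z + B)/D) Δ(z)^A` is bounded at `i∞`. -/
lemma isBoundedAtImInfty_jInv_affH (A D : ℕ) (hA : 0 < A) (hD : 0 < D) (B : ℤ) :
    IsBoundedAtImInfty (fun z : ℍ => jInv (affH A D hA hD B z) * Δ z ^ A) := by
  have hA' : (0 : ℝ) < A := Nat.cast_pos.mpr hA
  have hD' : (0 : ℝ) < D := Nat.cast_pos.mpr hD
  set w := affH A D hA hD B with hw
  have htw := tendsto_affH A D hA hD B
  have h1 : (fun z : ℍ => E₄ (w z)) =O[atImInfty] (fun _ : ℍ => (1 : ℝ)) :=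
    (ModularFormClass.bdd_at_infty E₄ : (E₄ : ℍ → ℂ) =O[atImInfty] (1 : ℍ → ℝ)).comp_tendsto htw
  have h2 : (fun z : ℍ => (Δ (w z))⁻¹) =O[atImInfty]
      fun z : ℍ => (Real.exp (-2 * π * (w z).im))⁻¹ := by
    have := (exp_isBigO_discriminant.comp_tendsto htw)
    refine this.inv_rev (Eventually.of_forall fun z h => ?_)
    exact absurd h (Real.exp_pos _).ne'
  have h3 : (fun z : ℍ => Δ z ^ A) =O[atImInfty]
      fun z : ℍ => (Real.exp (-2 * π * z.im / 1)) ^ A :=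
    (CuspFormClass.exp_decay_atImInfty (h := 1) CuspForm.discriminant one_pos
      one_mem_strictPeriods_SL).pow A
  have h4 := ((h1.pow 3).mul h2).mul h3
  have heq : (fun z : ℍ => jInv (w z) * Δ z ^ A) =
      fun z : ℍ => E₄ (w z) ^ 3 * (Δ (w z))⁻¹ * Δ z ^ A := by
    ext z
    rw [jInv, div_eq_mul_inv]
  rw [IsBoundedAtImInfty, BoundedAtFilter, heq]
  refine h4.trans (IsBigO.of_bound 1 (Eventually.of_forall fun z => ?_))
  simp only [one_pow, one_mul, Pi.one_apply, norm_one, mul_one, div_one]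
  rw [← Real.exp_neg, ← Real.exp_nat_mul, ← Real.exp_add, Real.norm_eq_abs, Real.abs_exp,
    Real.exp_le_one_iff, im_affH]
  have hy : 0 < z.im := z.im_pos
  have hD1 : (1 : ℝ) ≤ D := by exact_mod_cast hD
  have hAD : (A : ℝ) / D ≤ A := div_le_self hA'.le hD1
  have : (A : ℝ) / D * z.im ≤ A * z.im := mul_le_mul_of_nonneg_right hAD hy.le
  have hpi : 0 < π := Real.pi_pos
  nlinarith [mul_pos hpi hy]

/-- A quadratic polynomial with three distinct roots vanishes identically. -/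
lemma quad_coeffs_zero {A B C z₁ z₂ z₃ : ℂ} (h12 : z₁ ≠ z₂) (h13 : z₁ ≠ z₃) (h23 : z₂ ≠ z₃)
    (h1 : A * z₁ ^ 2 + B * z₁ + C = 0) (h2 : A * z₂ ^ 2 + B * z₂ + C = 0)
    (h3 : A * z₃ ^ 2 + B * z₃ + C = 0) : A = 0 ∧ B = 0 ∧ C = 0 := by
  have e12 : A * (z₁ + z₂) + B = 0 := by
    have : (z₁ - z₂) * (A * (z₁ + z₂) + B) = 0 := by linear_combination h1 - h2
    exact (mul_eq_zero.mp this).resolve_left (sub_ne_zero.mpr h12)
  have e13 : A * (z₁ + z₃) + B = 0 := by
    have : (z₁ - z₃) * (A * (z₁ + z₃) + B) = 0 := by linear_combination h1 - h3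
    exact (mul_eq_zero.mp this).resolve_left (sub_ne_zero.mpr h13)
  have hA : A = 0 := by
    have : A * (z₂ - z₃) = 0 := by linear_combination e12 - e13
    exact (mul_eq_zero.mp this).resolve_right (sub_ne_zero.mpr h23)
  have hB : B = 0 := by rw [hA] at e12; simpa using e12
  have hC : C = 0 := by rw [hA, hB] at h1; simpa using h1
  exact ⟨hA, hB, hC⟩

instance : Uncountable ℍ := by
  have hinj : Function.Injective fun x : ℝ => (x +ᵥ UpperHalfPlane.I : ℍ) := by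
    intro x y hxy
    have := congrArg UpperHalfPlane.re hxy
    simpa using this
  exact hinj.uncountable

variable (N : ℕ) [NeZero N]

/-- Multiplication by `N` on the upper half plane. -/
noncomputable def scaleH (z : ℍ) : ℍ :=
  ⟨(N : ℂ) * z, by
    have hN : (0 : ℝ) < N := Nat.cast_pos.mpr (NeZero.pos N)
    have : ((N : ℂ) * z).im = N * z.im := by simp
    rw [this]
    exact mul_pos hN z.im_pos⟩

@[simp] lemma coe_scaleH (z : ℍ) : ((scaleH N z : ℍ) : ℂ) = (N : ℂ) * z := rfl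

/-- `j(N z)`. -/
noncomputable def jN (z : ℍ) : ℂ := jInv (scaleH N z)

lemma mdiff_jN : MDiff (jN N) := by
  have hj : MDiff jInv := mdiff_jInv
  rw [UpperHalfPlane.mdifferentiable_iff] at hj ⊢
  have hN : (0 : ℝ) < N := Nat.cast_pos.mpr (NeZero.pos N)
  have hmaps : Set.MapsTo (fun s : ℂ => (N : ℂ) * s) {s : ℂ | 0 < s.im} {s : ℂ | 0 < s.im} := by
    intro s hs
    simp only [Set.mem_ofPred_eq] at hs ⊢
    have : ((N : ℂ) * s).im = N * s.im := by simp
    rw [this]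
    exact mul_pos hN hs
  have hcomp : DifferentiableOn ℂ ((jInv ∘ ofComplex) ∘ fun s : ℂ => (N : ℂ) * s)
      {s : ℂ | 0 < s.im} :=
    hj.comp (by fun_prop) hmaps
  refine hcomp.congr ?_
  intro s hs
  simp only [Function.comp_apply, jN]
  congr 1
  apply UpperHalfPlane.ext
  rw [coe_scaleH, ofComplex_apply_of_im_pos hs, ofComplex_apply_of_im_pos (hmaps hs)]

/-- For `γ ∈ Γ₀(N)`, conjugation by `diag(N,1)`. -/
noncomputable def conjGamma0 (γ : SL(2, ℤ)) (hγ : γ ∈ Gamma0 N) : SL(2, ℤ) :=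
  ⟨!![γ 0 0, N * γ 0 1; γ 1 0 / N, γ 1 1], by
    have hdvd : (N : ℤ) ∣ γ 1 0 := by
      rw [Gamma0_mem] at hγ
      exact (ZMod.intCast_zmod_eq_zero_iff_dvd _ _).mp hγ
    obtain ⟨k, hk⟩ := hdvd
    have hN : (N : ℤ) ≠ 0 := Int.natCast_ne_zero.mpr (NeZero.ne N)
    have hdet := γ.det_coe
    rw [Matrix.det_fin_two] at hdet
    rw [Matrix.det_fin_two_of, hk, Int.mul_ediv_cancel_left _ hN]
    rw [hk] at hdet
    linear_combination hdet⟩

lemma scaleH_smul (γ : SL(2, ℤ)) (hγ : γ ∈ Gamma0 N) (z : ℍ) :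
    scaleH N (γ • z) = conjGamma0 N γ hγ • scaleH N z := by
  have hdvd : (N : ℤ) ∣ γ 1 0 := by
    rw [Gamma0_mem] at hγ
    exact (ZMod.intCast_zmod_eq_zero_iff_dvd _ _).mp hγ
  obtain ⟨k, hk⟩ := hdvd
  have hN : (N : ℤ) ≠ 0 := Int.natCast_ne_zero.mpr (NeZero.ne N)
  have hNc : (N : ℂ) ≠ 0 := Nat.cast_ne_zero.mpr (NeZero.ne N)
  apply UpperHalfPlane.ext
  rw [coe_scaleH, coe_specialLinearGroup_apply, coe_specialLinearGroup_apply]
  have hd1 : (γ 1 0 : ℂ) * z + γ 1 1 ≠ 0 := by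
    have := denom_ne_zero (γ : GL (Fin 2) ℝ) z
    simpa [denom] using this
  simp only [conjGamma0, coe_scaleH, hk, Int.mul_ediv_cancel_left _ hN]
  simp
  rw [hk] at hd1
  push_cast at hd1
  have hd2 : (k : ℂ) * ((N : ℂ) * z) + γ 1 1 ≠ 0 := by
    intro h; apply hd1; linear_combination h
  field_simp

lemma jN_smul_of_mem_Gamma0 (γ : SL(2, ℤ)) (hγ : γ ∈ Gamma0 N) (z : ℍ) :
    jN N (γ • z) = jN N z := by
  rw [jN, scaleH_smul N γ hγ, jInv_smul, jN]

/-- The algebraic core: if `N (a z + b)(r N z + t) = (p N z + q)(c z + d)` at three distinct points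
then `N ∣ c`. -/
lemma dvd_of_three_points {a b c d p q r t : ℤ} (hdet : p * t - q * r = 1) {z₁ z₂ z₃ : ℂ}
    (h12 : z₁ ≠ z₂) (h13 : z₁ ≠ z₃) (h23 : z₂ ≠ z₃)
    (h : ∀ z ∈ ({z₁, z₂, z₃} : Set ℂ), (N : ℂ) * ((a : ℂ) * z + b) * ((r : ℂ) * ((N : ℂ) * z) + t) =
      ((p : ℂ) * ((N : ℂ) * z) + q) * ((c : ℂ) * z + d)) : (N : ℤ) ∣ c := by
  have key : ∀ z ∈ ({z₁, z₂, z₃} : Set ℂ),
      ((N : ℂ) ^ 2 * a * r - N * p * c) * z ^ 2 +
        ((N : ℂ) * a * t + (N : ℂ) ^ 2 * b * r - N * p * d - q * c) * z +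
        ((N : ℂ) * b * t - q * d) = 0 := by
    intro z hz
    linear_combination h z hz
  obtain ⟨hA, hB, -⟩ := quad_coeffs_zero h12 h13 h23 (key z₁ (by simp)) (key z₂ (by simp))
    (key z₃ (by simp))
  have hN : (N : ℂ) ≠ 0 := Nat.cast_ne_zero.mpr (NeZero.ne N)
  -- integer versions
  have hA' : (N : ℤ) * a * r = p * c := by
    have : (N : ℂ) * ((N : ℂ) * a * r - p * c) = 0 := by linear_combination hA
    have := (mul_eq_zero.mp this).resolve_left hN
    have h2 : ((N : ℂ) * a * r) = p * c := by linear_combination this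
    exact_mod_cast h2
  have hB' : (N : ℤ) * a * t + (N : ℤ) ^ 2 * b * r = N * p * d + q * c := by
    have h2 : (N : ℂ) * a * t + (N : ℂ) ^ 2 * b * r = N * p * d + q * c := by
      linear_combination hB
    exact_mod_cast h2
  refine ⟨r * (p * d - N * b * r), ?_⟩
  -- c = c (p t - q r) = r (N a t - q c) = N r (p d - N b r)
  have h1 : c = c * (p * t - q * r) := by rw [hdet, mul_one]
  linear_combination h1 - t * hA' + r * hB'

/-- If `j(N z)` is invariant under `s ∈ SL(2,ℤ)` then `s ∈ Γ₀(N)`. -/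
theorem mem_Gamma0_of_jN_invariant (s : SL(2, ℤ)) (h : ∀ z : ℍ, jN N (s • z) = jN N z) :
    s ∈ Gamma0 N := by
  classical
  have hcount : Countable SL(2, ℤ) := by
    have : Countable (Matrix (Fin 2) (Fin 2) ℤ) := by unfold Matrix; infer_instance
    exact Subtype.countable
  have hex : ∀ z : ℍ, ∃ γ : SL(2, ℤ), scaleH N (s • z) = γ • scaleH N z := fun z =>
    WPRigid.exists_smul_eq_of_j_eq (scaleH N z) (scaleH N (s • z)) (h z).symm
  set S : SL(2, ℤ) → Set ℍ := fun γ => {z | scaleH N (s • z) = γ • scaleH N z} with hS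
  have hcover : (⋃ γ, S γ) = Set.univ :=
    Set.eq_univ_of_forall fun z => Set.mem_iUnion.mpr (hex z)
  obtain ⟨γ, hγ⟩ : ∃ γ, (S γ).Infinite := by
    by_contra hfin
    push Not at hfin
    have hc : (Set.univ : Set ℍ).Countable := by
      rw [← hcover]
      exact Set.countable_iUnion fun γ => (hfin γ).countable
    exact Set.not_countable_univ hc
  obtain ⟨t, htS, htcard⟩ := hγ.exists_subset_card_eq 3
  obtain ⟨z₁, z₂, z₃, h12, h13, h23, rfl⟩ := Finset.card_eq_three.mp htcard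
  rw [Gamma0_mem, ZMod.intCast_zmod_eq_zero_iff_dvd]
  have hdet : γ 0 0 * γ 1 1 - γ 0 1 * γ 1 0 = 1 := by
    have := γ.det_coe
    rwa [Matrix.det_fin_two] at this
  have hc12 : (z₁ : ℂ) ≠ z₂ := fun e => h12 (UpperHalfPlane.ext e)
  have hc13 : (z₁ : ℂ) ≠ z₃ := fun e => h13 (UpperHalfPlane.ext e)
  have hc23 : (z₂ : ℂ) ≠ z₃ := fun e => h23 (UpperHalfPlane.ext e)
  have hpt : ∀ z : ℍ, z ∈ S γ →
      (N : ℂ) * ((s 0 0 : ℂ) * z + s 0 1) * ((γ 1 0 : ℂ) * ((N : ℂ) * z) + γ 1 1) =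
      ((γ 0 0 : ℂ) * ((N : ℂ) * z) + γ 0 1) * ((s 1 0 : ℂ) * z + s 1 1) := by
    intro z hz
    have hz' : scaleH N (s • z) = γ • scaleH N z := hz
    have hz'' : ((scaleH N (s • z) : ℍ) : ℂ) = ((γ • scaleH N z : ℍ) : ℂ) := by rw [hz']
    rw [coe_scaleH, Stab.coe_smul_eq, Stab.coe_smul_eq] at hz''
    simp only [Stab.nmr, Stab.eps, coe_scaleH] at hz''
    have hd1 : (s 1 0 : ℂ) * z + s 1 1 ≠ 0 := Stab.eps_ne_zero z s
    have hd2 : (γ 1 0 : ℂ) * ((N : ℂ) * z) + γ 1 1 ≠ 0 := Stab.eps_ne_zero (scaleH N z) γ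
    rw [mul_div_assoc', div_eq_div_iff hd1 hd2] at hz''
    linear_combination hz''
  refine dvd_of_three_points N (a := s 0 0) (b := s 0 1) (c := s 1 0) (d := s 1 1)
    (p := γ 0 0) (q := γ 0 1) (r := γ 1 0) (t := γ 1 1) hdet hc12 hc13 hc23 ?_
  intro z hz
  have hmem : ∀ w : ℍ, w ∈ ({z₁, z₂, z₃} : Finset ℍ) → w ∈ S γ := fun w hw => htS hw
  rcases hz with rfl | rfl | rfl
  · exact hpt z₁ (hmem z₁ (by simp))
  · exact hpt z₂ (hmem z₂ (by simp))
  · exact hpt z₃ (hmem z₃ (by simp))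

/-- Hermite normal form: `diag(N,1) δ = δ' [[A, B], [0, D]]`. -/
lemma exists_decomp (δ : SL(2, ℤ)) :
    ∃ (δ' : SL(2, ℤ)) (A D : ℕ) (hA : 0 < A) (hD : 0 < D) (B : ℤ),
      ∀ z : ℍ, scaleH N (δ • z) = δ' • affH A D hA hD B z := by
  set a := δ 0 0 with ha
  set b := δ 0 1 with hb
  set c := δ 1 0 with hc
  set d := δ 1 1 with hd
  have hdet : a * d - b * c = 1 := by
    have := δ.det_coe
    rwa [Matrix.det_fin_two] at this
  have hN0 : (N : ℤ) ≠ 0 := Int.natCast_ne_zero.mpr (NeZero.ne N)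
  have hNpos : (0 : ℤ) < N := by exact_mod_cast NeZero.pos N
  set P : ℤ := N * a with hP
  set g : ℤ := (Int.gcd P c : ℤ) with hg
  have hgpos : 0 < g := by
    rw [hg]
    have : Int.gcd P c ≠ 0 := by
      intro h0
      rw [Int.gcd_eq_zero_iff] at h0
      obtain ⟨h1, h2⟩ := h0
      have ha0 : a = 0 := by
        rcases mul_eq_zero.mp h1 with h | h
        · exact absurd h hN0
        · exact h
      rw [ha0, h2] at hdet
      simp at hdet
    exact_mod_cast Nat.pos_of_ne_zero this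
  obtain ⟨p', hp'⟩ : g ∣ P := Int.gcd_dvd_left P c
  obtain ⟨r', hr'⟩ : g ∣ c := Int.gcd_dvd_right P c
  set u := Int.gcdA P c with hu
  set v := Int.gcdB P c with hv
  have hbez0 : g = P * u + c * v := Int.gcd_eq_gcd_ab P c
  have hbez : p' * u + r' * v = 1 := by
    have : g * (p' * u + r' * v) = g * 1 := by
      rw [mul_one]
      calc g * (p' * u + r' * v) = (g * p') * u + (g * r') * v := by ring
        _ = P * u + c * v := by rw [← hp', ← hr']
        _ = g := hbez0.symm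
    exact mul_left_cancel₀ hgpos.ne' this
  set Dz : ℤ := p' * d - r' * (N * b) with hDz
  have hgD : g * Dz = N := by
    calc g * Dz = (g * p') * d - (g * r') * (N * b) := by rw [hDz]; ring
      _ = P * d - c * (N * b) := by rw [← hp', ← hr']
      _ = N * (a * d - b * c) := by rw [hP]; ring
      _ = N := by rw [hdet, mul_one]
  have hDzpos : 0 < Dz := by
    by_contra hneg
    push Not at hneg
    have : g * Dz ≤ 0 := mul_nonpos_of_nonneg_of_nonpos hgpos.le hneg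
    rw [hgD] at this
    exact absurd hNpos (not_lt.mpr this)
  set Bz : ℤ := u * (N * b) + v * d with hBz
  let δ' : SL(2, ℤ) := ⟨!![p', -v; r', u], by
    rw [Matrix.det_fin_two_of]
    linear_combination hbez⟩
  refine ⟨δ', g.toNat, Dz.toNat, by omega, by omega, Bz, fun z => ?_⟩
  apply UpperHalfPlane.ext
  rw [coe_scaleH, Stab.coe_smul_eq, Stab.coe_smul_eq]
  simp only [Stab.nmr, Stab.eps, coe_affH]
  have hgc : ((g.toNat : ℕ) : ℂ) = (g : ℂ) := by
    have : ((g.toNat : ℕ) : ℤ) = g := Int.toNat_of_nonneg hgpos.le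
    exact_mod_cast congrArg (Int.cast : ℤ → ℂ) this
  have hDc : ((Dz.toNat : ℕ) : ℂ) = (Dz : ℂ) := by
    have : ((Dz.toNat : ℕ) : ℤ) = Dz := Int.toNat_of_nonneg hDzpos.le
    exact_mod_cast congrArg (Int.cast : ℤ → ℂ) this
  rw [hgc, hDc]
  have e11 : (δ' 0 0 : ℤ) = p' := rfl
  have e12 : (δ' 0 1 : ℤ) = -v := rfl
  have e21 : (δ' 1 0 : ℤ) = r' := rfl
  have e22 : (δ' 1 1 : ℤ) = u := rfl
  rw [e11, e12, e21, e22, ← ha, ← hb, ← hc, ← hd]
  have hDne : (Dz : ℂ) ≠ 0 := by exact_mod_cast hDzpos.ne'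
  have hcz : (c : ℂ) * z + d ≠ 0 := Stab.eps_ne_zero z δ
  -- complex versions of the relations
  have hpC : (p' : ℂ) * g = N * a := by
    have : p' * g = N * a := by rw [mul_comm, ← hp']
    exact_mod_cast congrArg (Int.cast : ℤ → ℂ) this
  have hrC : (r' : ℂ) * g = c := by
    have : r' * g = c := by rw [mul_comm, ← hr']
    exact_mod_cast congrArg (Int.cast : ℤ → ℂ) this
  have hbezC : (p' : ℂ) * u + r' * v = 1 := by
    exact_mod_cast congrArg (Int.cast : ℤ → ℂ) hbez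
  have hDC : (Dz : ℂ) = p' * d - r' * (N * b) := by
    exact_mod_cast congrArg (Int.cast : ℤ → ℂ) hDz
  have hBC : (Bz : ℂ) = u * (N * b) + v * d := by
    exact_mod_cast congrArg (Int.cast : ℤ → ℂ) hBz
  have hnum : (p' : ℂ) * (((g : ℂ) * z + Bz) / Dz) + ((-v : ℤ) : ℂ) =
      (N : ℂ) * ((a : ℂ) * z + b) / Dz := by
    field_simp
    push_cast
    rw [hBC, hDC]
    linear_combination (z : ℂ) * hpC + (N : ℂ) * b * hbezC
  have hden : (r' : ℂ) * (((g : ℂ) * z + Bz) / Dz) + (u : ℂ) = ((c : ℂ) * z + d) / Dz := by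
    field_simp
    rw [hBC, hDC]
    linear_combination (z : ℂ) * hrC + (d : ℂ) * hbezC
  rw [hnum, hden]
  field_simp

/-- `j(N z)` is a weakly holomorphic modular function of level `Γ₀(N)`. -/
theorem isWH_jN : IsWH (Gamma0 N) (jN N) := by
  refine ⟨mdiff_jN N, fun γ hγ z => jN_smul_of_mem_Gamma0 N γ hγ z, fun δ => ?_⟩
  obtain ⟨δ', A, D, hA, hD, B, hdec⟩ := exists_decomp N δ
  refine ⟨A, ?_⟩
  have : (fun z : ℍ => jN N (δ • z) * Δ z ^ A) =
      fun z => jInv (affH A D hA hD B z) * Δ z ^ A := by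
    ext z
    rw [jN, hdec z, jInv_smul]
  rw [this]
  exact isBoundedAtImInfty_jInv_affH A D hA hD B

theorem jN_mem_WH : jN N ∈ WH (Gamma0 N) := isWH_jN N

/-- `j(N z)` as an element of `WH (Γ₀(N))`. -/
noncomputable def jNWH : WH (Gamma0 N) := ⟨jN N, jN_mem_WH N⟩

/-- The stabiliser of `j(N z)` in `SL(2,ℤ)` is exactly `Γ₀(N)`. -/
theorem jN_invariant_iff (s : SL(2, ℤ)) : (∀ z : ℍ, jN N (s • z) = jN N z) ↔ s ∈ Gamma0 N :=
  ⟨mem_Gamma0_of_jN_invariant N s, fun hs z => jN_smul_of_mem_Gamma0 N s hs z⟩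

end Fermat.Agent.M2.JN
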