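import Fermat.Agent.M2.GaloisPlaces

/-
M2 (S20 moonshot), task III.d, part (4): Galois descent of places to an intermediate field.

Setting as in `GaloisPlaces.lean`, plus an intermediate field `K` (`F → K → L`) which is the fixed
field of a subgroup `Hs ≤ G` (`[IsGaloisGroup Hs K L]`).

* `resVal K v g : Valuation K ℤᵐ⁰` = restriction to `K` of `v ∘ g⁻¹`; `centerK K v hv g` the prime of
  `integralClosure A K` it cuts out (`centerK_isPrime`, `under_centerK`, `centerK_eq_comap`).
* `exists_centerK_eq` (4a): every prime of `integralClosure A K` over `p` is some `centerK g`.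
* `centerK_eq_iff` (4b): `centerK g = centerK g'` iff `g' ∈ Hs g Stab(Q_v)`.
* `dcToPrimes_bijective`, `card_primesOver_eq` (4c): primes over `p` ↔ `Hs \ G / Stab(Q_v)`.
* `exists_pow_eq_resVal` (4d): `resVal = (adic valuation)^κ`, `κ ≥ 1`, and `o = κ * e`.
-/

open WithZero IsDedekindDomain
open scoped Pointwise

namespace Fermat.Agent.M2.GaloisPlaces

section Descent

variable {A : Type*} [CommRing A] [IsDedekindDomain A]
  (F : Type*) [Field F] [Algebra A F] [IsFractionRing A F]
  {L : Type*} [Field L] [Algebra F L] [Algebra A L] [IsScalarTower A F L]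
  {G : Type*} [Group G] [Finite G] [MulSemiringAction G L] [IsGaloisGroup G F L]
  [SMulCommClass G A L]
  (K : Type*) [Field K] [Algebra F K] [Algebra K L] [IsScalarTower F K L]
  [Algebra A K] [IsScalarTower A F K] [IsScalarTower A K L]
  (Hs : Subgroup G) [IsGaloisGroup Hs K L]
  (v : Valuation L ℤᵐ⁰) (hv : ∀ a : A, v (algebraMap A L a) ≤ 1)

/-- The restriction to `K` of the `g`-conjugate of `v`. -/
noncomputable def resVal (g : G) : Valuation K ℤᵐ⁰ := (conj v g).comap (algebraMap K L)

omit [IsDedekindDomain A] [Finite G] [SMulCommClass G A L] [Algebra A L] [Algebra A K]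
  [IsScalarTower A K L] in
@[simp] theorem resVal_apply (g : G) (x : K) :
    resVal K v g x = v (g⁻¹ • algebraMap K L x) := rfl

omit [IsDedekindDomain A] [Finite G] in
include hv in
theorem resVal_le_one (g : G) (a : A) : resVal K v g (algebraMap A K a) ≤ 1 := by
  rw [resVal_apply, ← IsScalarTower.algebraMap_apply, smul_algebraMap]; exact hv a

/-- The prime of `integralClosure A K` cut out by the `g`-conjugate of `v`. -/
noncomputable def centerK (g : G) : Ideal (integralClosure A K) :=
  center A (resVal K v g) (resVal_le_one K v hv g)

/-- The inclusion of integral closures. -/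
noncomputable def incl : integralClosure A K →ₐ[A] integralClosure A L :=
  (IsScalarTower.toAlgHom A K L).mapIntegralClosure

omit [IsDedekindDomain A] in
@[simp] theorem coe_incl (x : integralClosure A K) :
    ((incl (A := A) (L := L) K x : integralClosure A L) : L) = algebraMap K L x := rfl

omit [IsDedekindDomain A] [Finite G] in
theorem centerK_eq_comap (g : G) :
    centerK K v hv g = (g • center A v hv).comap (incl (A := A) (L := L) K) := by
  ext x
  rw [Ideal.mem_comap, Ideal.mem_pointwise_smul_iff_inv_smul_mem, mem_center_iff]
  rfl


omit [IsDedekindDomain A] in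
theorem incl_injective : Function.Injective (incl (A := A) (L := L) K) := by
  intro x y h
  have := congrArg (Subtype.val) h
  simp only [coe_incl] at this
  exact Subtype.ext ((algebraMap K L).injective this)

omit [IsDedekindDomain A] [Finite G] in
instance centerK_isPrime (g : G) : (centerK K v hv g).IsPrime := by
  unfold centerK; infer_instance

omit [IsDedekindDomain A] [Finite G] in
theorem under_centerK (g : G) :
    (centerK K v hv g).under A = (center A v hv).under A := by
  ext a
  rw [centerK, mem_under_center_iff, mem_under_center_iff, resVal_apply,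
    ← IsScalarTower.algebraMap_apply, smul_algebraMap]

omit [Algebra F K] [IsScalarTower F K L] [IsScalarTower A F K] in
include F in
/-- (4a) Every prime of `integralClosure A K` over `p` is cut out by a conjugate of `v`. -/
theorem exists_centerK_eq (P' : Ideal (integralClosure A K)) [P'.IsPrime]
    (hP' : P'.under A = (center A v hv).under A) : ∃ g : G, P' = centerK K v hv g := by
  let _ : Algebra (integralClosure A K) (integralClosure A L) :=
    (incl (A := A) (L := L) K).toRingHom.toAlgebra
  have htower : IsScalarTower A (integralClosure A K) (integralClosure A L) :=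
    IsScalarTower.of_algebraMap_eq fun a => ((incl (A := A) (L := L) K).commutes a).symm
  have hint : Algebra.IsIntegral (integralClosure A K) (integralClosure A L) :=
    Algebra.IsIntegral.tower_top A
  have hker : Ideal.comap (algebraMap (integralClosure A K) (integralClosure A L)) ⊥ ≤ P' := by
    intro x hx
    rw [Ideal.mem_comap, Ideal.mem_bot] at hx
    have : x = 0 := incl_injective (A := A) (L := L) K (by rw [map_zero]; exact hx)
    rw [this]; exact P'.zero_mem
  obtain ⟨Q, -, hQprime, hQ⟩ := Ideal.exists_ideal_over_prime_of_isIntegral P' ⊥ hker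
  have hQunder : Q.under A = (center A v hv).under A := by
    rw [← hP', ← hQ]
    ext a
    simp only [Ideal.under, Ideal.mem_comap]
    rw [IsScalarTower.algebraMap_apply A (integralClosure A K) (integralClosure A L)]
  obtain ⟨g, hg⟩ := exists_smul_center_eq (G := G) F v hv Q hQunder
  refine ⟨g, ?_⟩
  rw [centerK_eq_comap, ← hg, ← hQ]
  rfl


omit [IsDedekindDomain A] [Finite G] in
/-- Elements of `Hs` do not change the contraction to `integralClosure A K`. -/
theorem comap_incl_smul (h : Hs) (Q : Ideal (integralClosure A L)) :
    ((h : G) • Q).comap (incl (A := A) (L := L) K) = Q.comap (incl (A := A) (L := L) K) := by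
  ext x
  rw [Ideal.mem_comap, Ideal.mem_comap, Ideal.mem_pointwise_smul_iff_inv_smul_mem]
  have : (h : G)⁻¹ • incl (A := A) (L := L) K x = incl (A := A) (L := L) K x := by
    apply Subtype.ext
    show (h : G)⁻¹ • algebraMap K L x = algebraMap K L x
    have := smul_algebraMap (A := L) (h⁻¹ : Hs) (x : K)
    exact this
  rw [this]

include F in
/-- (4b) Two conjugates of `v` cut out the same prime of `integralClosure A K` iff they lie in
the same double coset `Hs \ G / Stab(Q_v)`. -/
theorem centerK_eq_iff (g g' : G) :
    centerK K v hv g = centerK K v hv g' ↔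
      ∃ h ∈ Hs, ∃ d ∈ MulAction.stabilizer G (center A v hv), g' = h * g * d := by
  constructor
  · intro heq
    rw [centerK_eq_comap, centerK_eq_comap] at heq
    have := IsGaloisGroup.finiteDimensional G F L
    have := IsGaloisGroup.isGalois G F L
    have hfinK : FiniteDimensional F K := FiniteDimensional.left F K L
    have : IsFractionRing (integralClosure A L) L :=
      integralClosure.isFractionRing_of_finite_extension F L
    have : IsFractionRing (integralClosure A K) K :=
      integralClosure.isFractionRing_of_finite_extension F K
    have : IsIntegrallyClosed (integralClosure A K) :=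
      integralClosure.isIntegrallyClosedOfFiniteExtension F
    let _ : Algebra (integralClosure A K) (integralClosure A L) :=
      (incl (A := A) (L := L) K).toRingHom.toAlgebra
    have htower : IsScalarTower A (integralClosure A K) (integralClosure A L) :=
      IsScalarTower.of_algebraMap_eq fun a => ((incl (A := A) (L := L) K).commutes a).symm
    have hint : Algebra.IsIntegral (integralClosure A K) (integralClosure A L) :=
      Algebra.IsIntegral.tower_top A
    have htower2 : IsScalarTower (integralClosure A K) (integralClosure A L) L :=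
      IsScalarTower.of_algebraMap_eq fun x => rfl
    have hGal : IsGaloisGroup Hs (integralClosure A K) (integralClosure A L) :=
      IsGaloisGroup.of_isFractionRing Hs (integralClosure A K) (integralClosure A L) K L
    obtain ⟨h, hh⟩ := Algebra.IsInvariant.exists_smul_of_under_eq (integralClosure A K)
      (integralClosure A L) Hs (g • center A v hv) (g' • center A v hv) heq
    -- `g' • Q = h • g • Q`
    have hh' : g' • center A v hv = ((h : G) * g) • center A v hv := by
      rw [hh, mul_smul]; rfl
    refine ⟨h, h.2, g⁻¹ * (h : G)⁻¹ * g', ?_, by group⟩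
    rw [MulAction.mem_stabilizer_iff, mul_smul, mul_smul, hh', mul_smul, inv_smul_smul,
      inv_smul_smul]
  · rintro ⟨h, hh, d, hd, rfl⟩
    rw [MulAction.mem_stabilizer_iff] at hd
    rw [centerK_eq_comap, centerK_eq_comap, mul_smul, mul_smul, hd]
    exact (comap_incl_smul K Hs ⟨h, hh⟩ (g • center A v hv)).symm


omit [IsDedekindDomain A] [Finite G] in
theorem centerK_mem_primesOver (g : G) :
    centerK K v hv g ∈ ((center A v hv).under A).primesOver (integralClosure A K) :=
  ⟨inferInstance, ⟨(under_centerK K v hv g).symm⟩⟩

/-- The map from double cosets to primes of `integralClosure A K` over `p`. -/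
noncomputable def dcToPrimes :
    DoubleCoset.Quotient (Hs : Set G) (MulAction.stabilizer G (center A v hv) : Set G) →
      ((center A v hv).under A).primesOver (integralClosure A K) :=
  Quotient.lift (fun g => ⟨centerK K v hv g, centerK_mem_primesOver K v hv g⟩) (by
    intro g g' hgg'
    have := (DoubleCoset.rel_iff.mp hgg')
    exact Subtype.ext ((centerK_eq_iff F K Hs v hv g g').mpr this))

theorem dcToPrimes_bijective : Function.Bijective (dcToPrimes F K Hs v hv) := by
  constructor
  · rintro ⟨g⟩ ⟨g'⟩ h
    have h' : centerK K v hv g = centerK K v hv g' := congrArg Subtype.val h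
    exact Quotient.sound (DoubleCoset.rel_iff.mpr ((centerK_eq_iff F K Hs v hv g g').mp h'))
  · rintro ⟨P', hP'prime, hP'⟩
    obtain ⟨g, hg⟩ := exists_centerK_eq (G := G) F K v hv P' hP'.over.symm
    exact ⟨Quotient.mk'' g, Subtype.ext hg.symm⟩

include F in
/-- (4c) The primes of `integralClosure A K` over `p` are in bijection with the double cosets
`Hs \ G / Stab(Q_v)`. -/
theorem card_primesOver_eq :
    Nat.card (((center A v hv).under A).primesOver (integralClosure A K)) =
      Nat.card (DoubleCoset.Quotient (Hs : Set G)
        (MulAction.stabilizer G (center A v hv) : Set G)) :=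
  (Nat.card_congr (Equiv.ofBijective _ (dcToPrimes_bijective F K Hs v hv))).symm


omit [IsDedekindDomain A] [Finite G] in
theorem resVal_algebraMap (g : G) (a : A) :
    resVal K v g (algebraMap A K a) = v (algebraMap A L a) := by
  rw [resVal_apply, ← IsScalarTower.algebraMap_apply, smul_algebraMap]

omit [IsDedekindDomain A] [Finite G] in
theorem resVal_hp (hp : ∃ a : A, a ≠ 0 ∧ v (algebraMap A L a) < 1) (g : G) :
    ∃ a : A, a ≠ 0 ∧ resVal K v g (algebraMap A K a) < 1 := by
  obtain ⟨a, ha0, ha⟩ := hp
  exact ⟨a, ha0, by rwa [resVal_algebraMap]⟩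

/-- The prime `centerK g` as a height-one prime. -/
noncomputable def centerKHOS (hp : ∃ a : A, a ≠ 0 ∧ v (algebraMap A L a) < 1) (g : G) :
    HeightOneSpectrum (integralClosure A K) :=
  centerHOS F (resVal K v g) (resVal_le_one K v hv g) (resVal_hp K v hp g)

omit [IsDedekindDomain A] [Finite G] [IsScalarTower F K L] [Algebra F L] [IsScalarTower A F L]
  [IsGaloisGroup G F L] in
@[simp] theorem centerKHOS_asIdeal (hp : ∃ a : A, a ≠ 0 ∧ v (algebraMap A L a) < 1) (g : G) :
    (centerKHOS F K v hv hp g).asIdeal = centerK K v hv g := rfl

section KappaK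

variable [IsDedekindDomain (integralClosure A K)] [IsFractionRing (integralClosure A K) K]

omit [IsScalarTower A F L] [IsGaloisGroup (↥Hs) K L] in
/-- (4d) The restriction to `K` of a conjugate of `v` is a positive power `κ` of the adic valuation
of the prime it cuts out, and `o = κ * e` if `v π₀ = exp (-o)` for a generator `π₀` of `p`. -/
theorem exists_pow_eq_resVal (hp : ∃ a : A, a ≠ 0 ∧ v (algebraMap A L a) < 1) (g : G)
    (o : ℕ) (π₀ : A) (hπ : (center A v hv).under A = Ideal.span {π₀})
    (ho : v (algebraMap A L π₀) = exp (-(o : ℤ))) :
    ∃ κ : ℕ, 1 ≤ κ ∧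
      (∀ h : K, resVal K v g h = ((centerKHOS F K v hv hp g).valuation K h) ^ κ) ∧
      o = κ * (centerK K v hv g).ramificationIdx A := by
  have := IsGaloisGroup.finiteDimensional G F L
  have := IsGaloisGroup.isGalois G F L
  have hfinK : FiniteDimensional F K := FiniteDimensional.left F K L
  have hsepK : Algebra.IsSeparable F K := Algebra.isSeparable_tower_bot_of_isSeparable F K L
  have : Module.Finite A (integralClosure A K) := IsIntegralClosure.finite A F K _
  have h1 : FaithfulSMul A K :=
    (faithfulSMul_iff_algebraMap_injective A K).mpr (algebraMap_injective_of_tower F)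
  have h2 : Module.IsTorsionFree A K := inferInstance
  have h3 : Module.IsTorsionFree A (integralClosure A K) := inferInstance
  obtain ⟨κ, hκ1, hκ⟩ := exists_pow_eq F (resVal K v g) (resVal_le_one K v hv g)
    (resVal_hp K v hp g)
  have hκ' : ∀ h : K, resVal K v g h = ((centerKHOS F K v hv hp g).valuation K h) ^ κ := hκ
  refine ⟨κ, hκ1, hκ', ?_⟩
  have hπ' : (centerKHOS F K v hv hp g).asIdeal.under A = Ideal.span {π₀} := by
    rw [centerKHOS_asIdeal, under_centerK, hπ]
  have hPπ := TameDifferent.valuation_algebraMap_eq_exp_neg_ramificationIdx A F K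
    (integralClosure A K) (centerKHOS F K v hv hp g) hπ'
  have h := hκ' (algebraMap A K π₀)
  rw [resVal_algebraMap, ho, hPπ, ← exp_nsmul, exp_inj] at h
  simp only [nsmul_eq_mul, mul_neg, neg_inj, centerKHOS_asIdeal] at h
  exact_mod_cast h

end KappaK

end Descent

end Fermat.Agent.M2.GaloisPlaces
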