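import Fermat.Agent.M2.LevelOnePoly

/-!
# M2 / I.2 : the `j`-invariant `E₄³/Δ` is surjective

Stated `j`-free: for every `c : ℂ` there is `z : ℍ` with `E₄ z ^ 3 = c * Δ z`.
-/

namespace Fermat.Agent.M2.JSurj

open UpperHalfPlane ModularForm ModularFormClass EisensteinSeries MatrixGroups
open scoped Manifold Topology

local notation "Δ" => ModularForm.discriminant

open LevelOnePoly

lemma E₄_slash (γ : SL(2, ℤ)) : (E₄ : ℍ → ℂ) ∣[(4 : ℤ)] γ = E₄ :=
  SlashInvariantFormClass.slash_action_eq E₄ _ ⟨γ, rfl⟩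

lemma E₄_cube_slash (γ : SL(2, ℤ)) :
    (fun z => E₄ z ^ 3) ∣[(12 : ℤ)] γ = fun z => E₄ z ^ 3 := by
  have h : (fun z => E₄ z ^ 3) = (E₄ : ℍ → ℂ) * ((E₄ : ℍ → ℂ) * (E₄ : ℍ → ℂ)) := by
    ext z; simp only [Pi.mul_apply]; ring
  rw [h, show (12 : ℤ) = 4 + (4 + 4) by norm_num, mul_slash_SL2, mul_slash_SL2, E₄_slash]

/-- **I.2** `j = E₄³/Δ` takes every complex value. -/
theorem exists_E₄_cube_eq (c : ℂ) : ∃ z : ℍ, E₄ z ^ 3 = c * Δ z := by
  by_contra hne
  push Not at hne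
  -- `G = E₄³ - cΔ` has no zeros
  set G : ℍ → ℂ := fun z => E₄ z ^ 3 - c * Δ z with hG
  have hG0 : ∀ z, G z ≠ 0 := fun z => sub_ne_zero.mpr (hne z)
  have hE₄hol : MDiff (E₄ : ℍ → ℂ) := ModularFormClass.holo E₄
  have hΔhol : MDiff (Δ : ℍ → ℂ) := CuspForm.discriminant.holo'
  have hGhol : MDiff G := by
    have h1 : MDiff (fun z => E₄ z ^ 3) := by
      have : (fun z => E₄ z ^ 3) = (E₄ : ℍ → ℂ) * ((E₄ : ℍ → ℂ) * (E₄ : ℍ → ℂ)) := by
        ext z; simp only [Pi.mul_apply]; ring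
      rw [this]; exact hE₄hol.mul (hE₄hol.mul hE₄hol)
    have h2 : MDiff (fun z => c * Δ z) := (mdifferentiable_const (c := c)).mul hΔhol
    exact h1.sub h2
  have hGslash : ∀ γ : SL(2, ℤ), G ∣[(12 : ℤ)] γ = G := by
    intro γ
    have : G = (fun z => E₄ z ^ 3) + (-c) • (Δ : ℍ → ℂ) := by
      ext z; simp [hG, sub_eq_add_neg]
    rw [this, SlashAction.add_slash, SL_smul_slash, E₄_cube_slash, discriminant_slash]
  -- `h = Δ / G` is a weight-zero level-one modular form tending to `0` at `i∞`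
  set h : ℍ → ℂ := fun z => Δ z / G z with hh
  have hhol : MDiff h := hΔhol.div hGhol hG0
  have hinv : ∀ γ : SL(2, ℤ), h ∣[(0 : ℤ)] γ = h := by
    intro γ
    have : h = (Δ : ℍ → ℂ) / G := rfl
    rw [this, show (0 : ℤ) = 12 - 12 by norm_num, div_slash_SL2, discriminant_slash, hGslash]
  have hGlim : Filter.Tendsto G atImInfty (𝓝 1) := by
    have h1 := (tendsto_E₄_atImInfty.pow 3)
    have h2 : Filter.Tendsto (fun z : ℍ => c * Δ z) atImInfty (𝓝 (c * 0)) :=
      (discriminant_isZeroAtImInfty : Filter.Tendsto _ _ _).const_mul c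
    simpa using h1.sub h2
  have hlim : Filter.Tendsto h atImInfty (𝓝 0) := by
    have := (discriminant_isZeroAtImInfty : Filter.Tendsto _ _ _).div hGlim one_ne_zero
    rw [zero_div] at this
    exact this
  have hbd : IsBoundedAtImInfty h := IsZeroAtImInfty.isBoundedAtImInfty hlim
  obtain ⟨a, ha⟩ := levelOne_weight_zero_const (mkLevelOne 0 h hhol hinv hbd)
  have ha' : ∀ z, h z = a := fun z => congrFun ha z
  have ha0 : a = 0 := by
    have h1 : Filter.Tendsto h atImInfty (𝓝 a) := by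
      have : h = fun _ => a := funext ha'
      rw [this]; exact tendsto_const_nhds
    exact tendsto_nhds_unique h1 hlim
  have := ha' UpperHalfPlane.I
  rw [ha0, hh] at this
  simp only [div_eq_zero_iff] at this
  rcases this with h1 | h1
  · exact discriminant_ne_zero _ h1
  · exact hG0 _ h1

/-- **I.2**, quotient form. -/
theorem exists_j_eq (c : ℂ) : ∃ z : ℍ, E₄ z ^ 3 / Δ z = c := by
  obtain ⟨z, hz⟩ := exists_E₄_cube_eq c
  exact ⟨z, by rw [hz, mul_div_cancel_right₀ _ (discriminant_ne_zero z)]⟩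

end Fermat.Agent.M2.JSurj
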