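import Fermat.Agent.M2.GaloisSetup
import Fermat.Agent.M2.JN

/-!
# M2 / III.h (end): the kernel `Nfull N` of the `SL(2,ℤ)`-action on `WH (Gamma N)` lies in `Gamma0 N`
-/

set_option autoImplicit false

namespace Fermat.Agent.M2

open UpperHalfPlane ModularForm MatrixGroups CongruenceSubgroup

theorem Nfull_le_Gamma0 (N : ℕ) [NeZero N] : Nfull N ≤ Gamma0 N := by
  intro σ hσ
  rw [mem_Nfull_iff] at hσ
  have h1 := hσ (algebraMap (WH (Gamma0 N)) (WH (Gamma N)) (JN.jNWH N))
  have h2 : σ⁻¹ ∈ Gamma0 N := by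
    rw [← JN.jN_invariant_iff]
    intro z
    have := congrArg (fun g : WH (Gamma N) => (g : ℍ → ℂ) z) h1
    exact this
  simpa using (Gamma0 N).inv_mem h2

end Fermat.Agent.M2
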