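import Mathlib

/-!
# Removable singularities for quotients that are integral over holomorphic functions

Analytic core of "the ring of weakly holomorphic modular functions is integrally closed".

* `root_norm_le` : Cauchy root bound for monic polynomials.
* `exists_holo_of_integral` : on an open preconnected `U ⊆ ℂ`, if `f/g` satisfies a monic equation
  with holomorphic coefficients then `f/g` extends to a holomorphic function on `U`.
* `exists_mdiff_of_integral` : the same on the upper half plane.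
-/

set_option autoImplicit false

open Filter Topology Set

namespace Fermat.Agent.M2.Removable

/-- Cauchy's root bound: a root `q` of `X^n + ∑ a_i X^i` satisfies `‖q‖ ≤ 1 + ∑ ‖a_i‖`. -/
theorem root_norm_le {n : ℕ} (a : Fin n → ℂ) (q : ℂ)
    (hq : q ^ n + ∑ i : Fin n, a i * q ^ (i : ℕ) = 0) : ‖q‖ ≤ 1 + ∑ i : Fin n, ‖a i‖ := by
  have hS : 0 ≤ ∑ i : Fin n, ‖a i‖ := Finset.sum_nonneg fun i _ => norm_nonneg _
  by_cases h1 : ‖q‖ ≤ 1
  · linarith
  push Not at h1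
  have hq0 : 0 < ‖q‖ := by linarith
  rcases Nat.eq_zero_or_pos n with hn | hn
  · subst hn
    simp at hq
  -- ‖q‖^n ≤ (∑ ‖a i‖) * ‖q‖^(n-1)
  have h2 : ‖q‖ ^ n ≤ (∑ i : Fin n, ‖a i‖) * ‖q‖ ^ (n - 1) := by
    have : q ^ n = - ∑ i : Fin n, a i * q ^ (i : ℕ) := eq_neg_of_add_eq_zero_left hq
    calc ‖q‖ ^ n = ‖q ^ n‖ := (norm_pow q n).symm
      _ = ‖∑ i : Fin n, a i * q ^ (i : ℕ)‖ := by rw [this, norm_neg]
      _ ≤ ∑ i : Fin n, ‖a i * q ^ (i : ℕ)‖ := norm_sum_le _ _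
      _ ≤ ∑ i : Fin n, ‖a i‖ * ‖q‖ ^ (n - 1) := by
          refine Finset.sum_le_sum fun i _ => ?_
          rw [norm_mul, norm_pow]
          refine mul_le_mul_of_nonneg_left ?_ (norm_nonneg _)
          exact pow_le_pow_right₀ h1.le (by have := i.2; omega)
      _ = (∑ i : Fin n, ‖a i‖) * ‖q‖ ^ (n - 1) := by rw [Finset.sum_mul]
  have h3 : ‖q‖ ^ n = ‖q‖ * ‖q‖ ^ (n - 1) := by
    rw [← pow_succ']; congr 1; omega
  rw [h3] at h2
  have h4 : ‖q‖ ≤ ∑ i : Fin n, ‖a i‖ :=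
    le_of_mul_le_mul_right h2 (pow_pos hq0 _)
  linarith

/-- Isolated zeros on an open preconnected set. -/
theorem eventually_ne_zero {U : Set ℂ} (hU : IsOpen U) (hUc : IsPreconnected U) {g : ℂ → ℂ}
    (hg : DifferentiableOn ℂ g U) (hg0 : ∃ z ∈ U, g z ≠ 0) {z₀ : ℂ} (hz₀ : z₀ ∈ U) :
    ∀ᶠ z in 𝓝[≠] z₀, g z ≠ 0 := by
  by_contra hcon
  have hfr : ∃ᶠ z in 𝓝[≠] z₀, g z = 0 :=
    (Filter.not_eventually.mp hcon).mono fun z hz => not_not.mp hz
  have := (hg.analyticOnNhd hU).eqOn_zero_of_preconnected_of_frequently_eq_zero hUc hz₀ hfr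
  obtain ⟨z, hz, hgz⟩ := hg0
  exact hgz (this hz)

/-- Uniqueness of continuous solutions `h` of `h * g = f` when zeros of `g` are isolated. -/
theorem eq_of_mul_eq {U : Set ℂ} (hU : IsOpen U) {g h₁ h₂ : ℂ → ℂ}
    (hgz : ∀ z₀ ∈ U, ∀ᶠ z in 𝓝[≠] z₀, g z ≠ 0)
    (h₁c : ContinuousOn h₁ U) (h₂c : ContinuousOn h₂ U)
    (heq : ∀ z ∈ U, h₁ z * g z = h₂ z * g z) : ∀ z ∈ U, h₁ z = h₂ z := by
  intro z hz
  have hUz : U ∈ 𝓝 z := hU.mem_nhds hz
  have e : ∀ᶠ w in 𝓝[≠] z, h₁ w = h₂ w := by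
    filter_upwards [hgz z hz, nhdsWithin_le_nhds hUz] with w hw hwU
    exact mul_right_cancel₀ hw (heq w hwU)
  have t₁ : Tendsto h₁ (𝓝[≠] z) (𝓝 (h₁ z)) :=
    ((h₁c.continuousAt hUz).tendsto).mono_left nhdsWithin_le_nhds
  have t₂ : Tendsto h₂ (𝓝[≠] z) (𝓝 (h₂ z)) :=
    ((h₂c.continuousAt hUz).tendsto).mono_left nhdsWithin_le_nhds
  exact tendsto_nhds_unique (t₁.congr' e) t₂

/-- **Integral quotients of holomorphic functions are holomorphic.** -/
theorem exists_holo_of_integral {U : Set ℂ} (hU : IsOpen U) (hUc : IsPreconnected U)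
    (f g : ℂ → ℂ) (hf : DifferentiableOn ℂ f U) (hg : DifferentiableOn ℂ g U)
    (hg0 : ∃ z ∈ U, g z ≠ 0) (n : ℕ) (a : Fin n → ℂ → ℂ)
    (ha : ∀ i, DifferentiableOn ℂ (a i) U)
    (hint : ∀ z ∈ U, g z ≠ 0 →
      (f z / g z) ^ n + ∑ i : Fin n, a i z * (f z / g z) ^ (i : ℕ) = 0) :
    ∃ h : ℂ → ℂ, DifferentiableOn ℂ h U ∧ (∀ z ∈ U, h z * g z = f z) ∧
      ∀ z ∈ U, ‖h z‖ ≤ 1 + ∑ i : Fin n, ‖a i z‖ := by
  classical
  set q : ℂ → ℂ := fun z => f z / g z with hq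
  set B : ℂ → ℝ := fun z => 1 + ∑ i : Fin n, ‖a i z‖ with hB
  have hBc : ContinuousOn B U := by
    refine continuousOn_const.add (continuousOn_finsetSum _ fun i _ => ?_)
    exact (ha i).continuousOn.norm
  have hqB : ∀ z ∈ U, g z ≠ 0 → ‖q z‖ ≤ B z := fun z hz hgz =>
    root_norm_le (fun i => a i z) (q z) (hint z hz hgz)
  have hgz : ∀ z₀ ∈ U, ∀ᶠ z in 𝓝[≠] z₀, g z ≠ 0 := fun z₀ hz₀ =>
    eventually_ne_zero hU hUc hg hg0 hz₀
  -- the candidate
  set h : ℂ → ℂ := fun z => limUnder (𝓝[≠] z) q with hh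
  -- at points where `g ≠ 0`, `h = q`
  have hq_diff : ∀ z ∈ U, g z ≠ 0 → DifferentiableAt ℂ q z := fun z hz hgz =>
    ((hf z hz).differentiableAt (hU.mem_nhds hz)).div
      ((hg z hz).differentiableAt (hU.mem_nhds hz)) hgz
  have hh_eq : ∀ z ∈ U, g z ≠ 0 → h z = q z := by
    intro z hz hgz
    have : Tendsto q (𝓝[≠] z) (𝓝 (q z)) :=
      ((hq_diff z hz hgz).continuousAt.tendsto).mono_left nhdsWithin_le_nhds
    exact this.limUnder_eq
  -- local analysis at an arbitrary point of `U`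
  have key : ∀ z₀ ∈ U, DifferentiableAt ℂ h z₀ := by
    intro z₀ hz₀
    -- a neighbourhood `s` of `z₀` inside `U` where `g ≠ 0` off `z₀` and `B` is bounded
    have h1 : ∀ᶠ z in 𝓝 z₀, z ∈ U := hU.mem_nhds hz₀
    have h2 : ∀ᶠ z in 𝓝 z₀, z ≠ z₀ → g z ≠ 0 := eventually_nhdsWithin_iff.mp (hgz z₀ hz₀)
    have h3 : ∀ᶠ z in 𝓝 z₀, B z < B z₀ + 1 :=
      (hBc.continuousAt (hU.mem_nhds hz₀)).eventually_lt continuousAt_const (by simp)
    obtain ⟨s, hs_sub, hs_open, hz₀s⟩ := eventually_nhds_iff.mp (h1.and (h2.and h3))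
    have hs_nhds : s ∈ 𝓝 z₀ := hs_open.mem_nhds hz₀s
    have hd : DifferentiableOn ℂ q (s \ {z₀}) := by
      intro z hz
      have hzs := hs_sub z hz.1
      exact (hq_diff z hzs.1 (hzs.2.1 hz.2)).differentiableWithinAt
    have hb : BddAbove (norm ∘ q '' (s \ {z₀})) := by
      refine ⟨B z₀ + 1, ?_⟩
      rintro _ ⟨z, hz, rfl⟩
      have hzs := hs_sub z hz.1
      exact (hqB z hzs.1 (hzs.2.1 hz.2)).trans hzs.2.2.le
    have H := Complex.differentiableOn_update_limUnder_of_bddAbove hs_nhds hd hb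
    have Hat := H.differentiableAt hs_nhds
    refine Hat.congr_of_eventuallyEq ?_
    filter_upwards [hs_nhds] with z hz
    by_cases hzz : z = z₀
    · subst hzz
      simp [hh]
    · rw [Function.update_of_ne hzz]
      have hzs := hs_sub z hz
      exact hh_eq z hzs.1 (hzs.2.1 hzz)
  have hdiff : DifferentiableOn ℂ h U := fun z hz => (key z hz).differentiableWithinAt
  have hmul : ∀ z ∈ U, h z * g z = f z := by
    have hc1 : ContinuousOn (fun z => h z * g z) U := hdiff.continuousOn.mul hg.continuousOn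
    intro z hz
    by_cases hgzz : g z = 0
    · -- by continuity
      have hUz : U ∈ 𝓝 z := hU.mem_nhds hz
      have e : ∀ᶠ w in 𝓝[≠] z, h w * g w = f w := by
        filter_upwards [hgz z hz, nhdsWithin_le_nhds hUz] with w hw hwU
        rw [hh_eq w hwU hw, hq, div_mul_cancel₀ _ hw]
      have t₁ : Tendsto (fun z => h z * g z) (𝓝[≠] z) (𝓝 (h z * g z)) :=
        ((hc1.continuousAt hUz).tendsto).mono_left nhdsWithin_le_nhds
      have t₂ : Tendsto f (𝓝[≠] z) (𝓝 (f z)) :=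
        ((hf.continuousOn.continuousAt hUz).tendsto).mono_left nhdsWithin_le_nhds
      exact tendsto_nhds_unique (t₁.congr' e) t₂
    · rw [hh_eq z hz hgzz, hq, div_mul_cancel₀ _ hgzz]
  refine ⟨h, hdiff, hmul, ?_⟩
  intro z hz
  by_cases hgzz : g z = 0
  · have hUz : U ∈ 𝓝 z := hU.mem_nhds hz
    have e : ∀ᶠ w in 𝓝[≠] z, ‖h w‖ ≤ B w := by
      filter_upwards [hgz z hz, nhdsWithin_le_nhds hUz] with w hw hwU
      rw [hh_eq w hwU hw]
      exact hqB w hwU hw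
    have t₁ : Tendsto (fun z => ‖h z‖) (𝓝[≠] z) (𝓝 ‖h z‖) :=
      ((hdiff.continuousOn.norm.continuousAt hUz).tendsto).mono_left nhdsWithin_le_nhds
    have t₂ : Tendsto B (𝓝[≠] z) (𝓝 (B z)) :=
      ((hBc.continuousAt hUz).tendsto).mono_left nhdsWithin_le_nhds
    exact le_of_tendsto_of_tendsto t₁ t₂ e
  · rw [hh_eq z hz hgzz]
    exact hqB z hz hgzz


/-! ### The upper half plane version -/

section UHP

open UpperHalfPlane
open scoped Manifold

theorem isPreconnected_upperHalfPlaneSet : IsPreconnected {z : ℂ | 0 < z.im} :=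
  (Complex.isConnected_of_upperHalfPlane subset_rfl (by grind)).isPreconnected

/-- **Integral quotients of holomorphic functions on `ℍ` are holomorphic.** -/
theorem exists_mdiff_of_integral (f g : ℍ → ℂ) (hf : MDiff f) (hg : MDiff g) (hg0 : g ≠ 0)
    (n : ℕ) (a : Fin n → ℍ → ℂ) (ha : ∀ i, MDiff (a i))
    (hint : ∀ z : ℍ, g z ≠ 0 →
      (f z / g z) ^ n + ∑ i : Fin n, a i z * (f z / g z) ^ (i : ℕ) = 0) :
    ∃ h : ℍ → ℂ, MDiff h ∧ (∀ z, h z * g z = f z) ∧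
      ∀ z, ‖h z‖ ≤ 1 + ∑ i : Fin n, ‖a i z‖ := by
  have hU : IsOpen {z : ℂ | 0 < z.im} := isOpen_upperHalfPlaneSet
  have hg0' : ∃ z ∈ {z : ℂ | 0 < z.im}, (g ∘ ofComplex) z ≠ 0 := by
    by_contra hcon
    push Not at hcon
    apply hg0
    ext z
    have := hcon (z : ℂ) z.im_pos
    simpa [Function.comp_apply, ofComplex_apply] using this
  obtain ⟨H, hHd, hHmul, hHb⟩ := exists_holo_of_integral hU isPreconnected_upperHalfPlaneSet
    (f ∘ ofComplex) (g ∘ ofComplex) (UpperHalfPlane.mdifferentiable_iff.mp hf)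
    (UpperHalfPlane.mdifferentiable_iff.mp hg) hg0' n (fun i => a i ∘ ofComplex)
    (fun i => UpperHalfPlane.mdifferentiable_iff.mp (ha i))
    (fun z _ hz => hint (ofComplex z) hz)
  refine ⟨fun z => H z, ?_, ?_, ?_⟩
  · rw [UpperHalfPlane.mdifferentiable_iff]
    refine hHd.congr fun z hz => ?_
    simp only [Function.comp_apply]
    rw [ofComplex_apply_of_im_pos hz]
  · intro z
    simpa [Function.comp_apply, ofComplex_apply] using hHmul (z : ℂ) z.im_pos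
  · intro z
    simpa [Function.comp_apply, ofComplex_apply] using hHb (z : ℂ) z.im_pos

/-- Zeros of a nonzero holomorphic function on `ℍ` are isolated. -/
theorem eventually_ne_zero_uhp {g : ℍ → ℂ} (hg : MDiff g) (hg0 : g ≠ 0) (z₀ : ℍ) :
    ∀ᶠ z in 𝓝[≠] z₀, g z ≠ 0 := by
  by_contra hcon
  exact hg0 (UpperHalfPlane.eq_zero_of_frequently hg (τ := z₀)
    ((Filter.not_eventually.mp hcon).mono fun z hz => not_not.mp hz))

/-- Uniqueness of continuous solutions of `h * g = f` on `ℍ` for `g ≠ 0` holomorphic. -/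
theorem eq_of_mul_eq_uhp {g h₁ h₂ : ℍ → ℂ} (hg : MDiff g) (hg0 : g ≠ 0)
    (h₁c : Continuous h₁) (h₂c : Continuous h₂)
    (heq : ∀ z, h₁ z * g z = h₂ z * g z) : h₁ = h₂ := by
  ext z
  have e : ∀ᶠ w in 𝓝[≠] z, h₁ w = h₂ w := by
    filter_upwards [eventually_ne_zero_uhp hg hg0 z] with w hw
    exact mul_right_cancel₀ hw (heq w)
  have : (𝓝[≠] z).NeBot := inferInstance
  have t₁ : Tendsto h₁ (𝓝[≠] z) (𝓝 (h₁ z)) := (h₁c.tendsto z).mono_left nhdsWithin_le_nhds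
  have t₂ : Tendsto h₂ (𝓝[≠] z) (𝓝 (h₂ z)) := (h₂c.tendsto z).mono_left nhdsWithin_le_nhds
  exact tendsto_nhds_unique (t₁.congr' e) t₂

/-- The holomorphic quotient is invariant under any continuous self-map of `ℍ` under which
`f` and `g` are invariant. -/
theorem comp_eq_of_mul_eq {f g h : ℍ → ℂ} (hg : MDiff g) (hg0 : g ≠ 0) (hh : Continuous h)
    (hmul : ∀ z, h z * g z = f z) (φ : ℍ → ℍ) (hφ : Continuous φ)
    (hfφ : ∀ z, f (φ z) = f z) (hgφ : ∀ z, g (φ z) = g z) : ∀ z, h (φ z) = h z := by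
  have := eq_of_mul_eq_uhp (h₁ := h ∘ φ) (h₂ := h) hg hg0 (hh.comp hφ) hh (fun z => by
    simp only [Function.comp_apply]
    rw [hmul z, ← hgφ z, hmul (φ z), hfφ z])
  exact fun z => congrFun this z

end UHP

end Fermat.Agent.M2.Removable
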