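import Mathlib
import Fermat.Agent.M2.Removable

/-!
# M2 / I.1 + III.a : the `j`-invariant and the ring `WH Γ` of weakly holomorphic modular functions

Central definitions of the M2 project (namespace `Fermat.Agent.M2`):

* `jInv z = E₄ z ^ 3 / Δ z`;
* `IsWH Γ f` : `f : ℍ → ℂ` is holomorphic, `Γ`-invariant (`Γ ≤ SL(2,ℤ)`), and for every
  `δ : SL(2,ℤ)` some `f (δ • z) * Δ z ^ m` is bounded at `i∞` (meromorphic at all cusps);
* `WH Γ : Subalgebra ℂ (ℍ → ℂ)`; it is a domain;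
* for `Γ` normal, `SL(2,ℤ)` acts on `WH Γ` by `(γ • f) z = f (γ⁻¹ • z)`.
-/

set_option autoImplicit false

namespace Fermat.Agent.M2

open UpperHalfPlane ModularForm MatrixGroups Filter
open scoped Manifold Topology

local notation "Δ" => ModularForm.discriminant

/-- The modular `j`-invariant, normalised as `E₄³/Δ` (so `j = 1/q + 744 + …`). -/
noncomputable def jInv (z : ℍ) : ℂ := E₄ z ^ 3 / Δ z

lemma jInv_def (z : ℍ) : jInv z = E₄ z ^ 3 / Δ z := rfl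

lemma jInv_mul_discriminant (z : ℍ) : jInv z * Δ z = E₄ z ^ 3 := by
  rw [jInv, div_mul_cancel₀ _ (discriminant_ne_zero z)]

/-- `j - 1728 = E₆² / Δ`. -/
lemma jInv_sub (z : ℍ) : jInv z - 1728 = E₆ z ^ 2 / Δ z := by
  have h := discriminant_eq_E₄_cube_sub_E₆_sq z
  have hΔ := discriminant_ne_zero z
  rw [jInv]
  field_simp
  rw [h]
  ring

/-- Weakly holomorphic modular functions of level `Γ ≤ SL(2,ℤ)`: holomorphic on `ℍ`,
`Γ`-invariant, and meromorphic at every cusp (tested against powers of `Δ`). -/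
def IsWH (Γ : Subgroup SL(2, ℤ)) (f : ℍ → ℂ) : Prop :=
  MDiff f ∧ (∀ γ ∈ Γ, ∀ z : ℍ, f (γ • z) = f z) ∧
    ∀ δ : SL(2, ℤ), ∃ m : ℕ, IsBoundedAtImInfty (fun z : ℍ => f (δ • z) * Δ z ^ m)

lemma isBoundedAtImInfty_discriminant_pow (m : ℕ) :
    IsBoundedAtImInfty (fun z : ℍ => Δ z ^ m) := by
  have h : IsBoundedAtImInfty (Δ : ℍ → ℂ) := discriminant_isZeroAtImInfty.boundedAtFilter
  induction m with
  | zero =>
    simp only [pow_zero]
    exact Filter.const_boundedAtFilter atImInfty (1 : ℂ)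
  | succ n ih =>
    have := ih.mul h
    simp only [pow_succ]
    exact this

lemma mdiff_discriminant : MDiff (Δ : ℍ → ℂ) := CuspForm.discriminant.holo'

namespace IsWH

variable {Γ : Subgroup SL(2, ℤ)} {f g : ℍ → ℂ}

lemma const (c : ℂ) : IsWH Γ (fun _ => c) := by
  refine ⟨mdifferentiable_const, fun _ _ _ => rfl, fun δ => ⟨0, ?_⟩⟩
  simp only [pow_zero, mul_one]
  exact Filter.const_boundedAtFilter atImInfty c

lemma add (hf : IsWH Γ f) (hg : IsWH Γ g) : IsWH Γ (f + g) := by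
  refine ⟨hf.1.add hg.1, fun γ hγ z => ?_, fun δ => ?_⟩
  · show f (γ • z) + g (γ • z) = f z + g z
    rw [hf.2.1 γ hγ z, hg.2.1 γ hγ z]
  obtain ⟨m₁, h₁⟩ := hf.2.2 δ
  obtain ⟨m₂, h₂⟩ := hg.2.2 δ
  refine ⟨m₁ + m₂, ?_⟩
  have := (h₁.mul (isBoundedAtImInfty_discriminant_pow m₂)).add
    (h₂.mul (isBoundedAtImInfty_discriminant_pow m₁))
  have e : (fun z : ℍ => (f + g) (δ • z) * Δ z ^ (m₁ + m₂)) =
      ((fun z => f (δ • z) * Δ z ^ m₁) * fun z => Δ z ^ m₂) +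
        (fun z => g (δ • z) * Δ z ^ m₂) * fun z => Δ z ^ m₁ := by
    ext z
    simp only [Pi.add_apply, Pi.mul_apply, pow_add]
    ring
  rw [e]
  exact this

lemma mul (hf : IsWH Γ f) (hg : IsWH Γ g) : IsWH Γ (f * g) := by
  refine ⟨hf.1.mul hg.1, fun γ hγ z => ?_, fun δ => ?_⟩
  · show f (γ • z) * g (γ • z) = f z * g z
    rw [hf.2.1 γ hγ z, hg.2.1 γ hγ z]
  obtain ⟨m₁, h₁⟩ := hf.2.2 δ
  obtain ⟨m₂, h₂⟩ := hg.2.2 δ
  refine ⟨m₁ + m₂, ?_⟩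
  have := h₁.mul h₂
  have e : (fun z : ℍ => (f * g) (δ • z) * Δ z ^ (m₁ + m₂)) =
      (fun z => f (δ • z) * Δ z ^ m₁) * fun z => g (δ • z) * Δ z ^ m₂ := by
    ext z
    simp only [Pi.mul_apply, pow_add]
    ring
  rw [e]
  exact this

end IsWH

/-- The `ℂ`-algebra of weakly holomorphic modular functions of level `Γ`. -/
def WH (Γ : Subgroup SL(2, ℤ)) : Subalgebra ℂ (ℍ → ℂ) where
  carrier := {f | IsWH Γ f}
  mul_mem' := fun hf hg => IsWH.mul hf hg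
  add_mem' := fun hf hg => IsWH.add hf hg
  algebraMap_mem' := fun c => IsWH.const c

lemma mem_WH {Γ : Subgroup SL(2, ℤ)} {f : ℍ → ℂ} : f ∈ WH Γ ↔ IsWH Γ f := Iff.rfl


lemma coe_mem_SL (γ : SL(2, ℤ)) : (γ : GL (Fin 2) ℝ) ∈ 𝒮ℒ := ⟨γ, rfl⟩

/-- Level-one modular forms: `f (γ • z) = (cz+d)^k f z`. -/
lemma levelOne_smul {k : ℤ} (f : ModularForm 𝒮ℒ k) (γ : SL(2, ℤ)) (z : ℍ) :
    f (γ • z) = denom γ z ^ k * f z :=
  SlashInvariantForm.slash_action_eqn'' f (coe_mem_SL γ) z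

/-- `Δ (γ • z) = (cz+d)^12 Δ z`. -/
lemma discriminant_smul (γ : SL(2, ℤ)) (z : ℍ) : Δ (γ • z) = denom γ z ^ (12 : ℤ) * Δ z :=
  SlashInvariantForm.slash_action_eqn'' CuspForm.discriminant (coe_mem_SL γ) z

lemma jInv_smul (γ : SL(2, ℤ)) (z : ℍ) : jInv (γ • z) = jInv z := by
  have hd : (denom γ z) ≠ 0 := denom_ne_zero γ z
  rw [jInv, jInv, levelOne_smul, discriminant_smul]
  have hΔ := discriminant_ne_zero z
  field_simp

lemma mdiff_jInv : MDiff jInv := by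
  have h4 : MDiff (E₄ : ℍ → ℂ) := E₄.holo'
  have hΔ : MDiff (Δ : ℍ → ℂ) := mdiff_discriminant
  rw [UpperHalfPlane.mdifferentiable_iff] at h4 hΔ ⊢
  have : (jInv ∘ ofComplex) = fun w => ((E₄ : ℍ → ℂ) ∘ ofComplex) w ^ 3 / ((Δ : ℍ → ℂ) ∘ ofComplex) w := by
    ext w; rfl
  rw [this]
  exact (h4.pow 3).div hΔ (fun w _ => discriminant_ne_zero _)


lemma isWH_jInv (Γ : Subgroup SL(2, ℤ)) : IsWH Γ jInv := by
  refine ⟨mdiff_jInv, fun γ _ z => jInv_smul γ z, fun δ => ⟨1, ?_⟩⟩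
  have h4 : IsBoundedAtImInfty (E₄ : ℍ → ℂ) := ModularFormClass.bdd_at_infty E₄
  have : (fun z : ℍ => jInv (δ • z) * Δ z ^ 1) = fun z => E₄ z * E₄ z * E₄ z := by
    ext z
    rw [jInv_smul, pow_one, jInv_mul_discriminant]; ring
  rw [this]
  exact (h4.mul h4).mul h4

/-- composition with the action of `γ : SL(2,ℤ)` is holomorphic -/
lemma mdiff_comp_smul {f : ℍ → ℂ} (hf : MDiff f) (γ : SL(2, ℤ)) : MDiff (fun z : ℍ => f (γ • z)) := by
  have hg : 0 < ((γ : GL (Fin 2) ℝ).det).val := by simp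
  exact hf.comp (UpperHalfPlane.mdifferentiable_smul hg)

lemma IsWH.comp_smul {Γ : Subgroup SL(2, ℤ)} [hΓ : Γ.Normal] {f : ℍ → ℂ} (hf : IsWH Γ f)
    (σ : SL(2, ℤ)) : IsWH Γ (fun z => f (σ • z)) := by
  refine ⟨mdiff_comp_smul hf.1 σ, fun γ hγ z => ?_, fun δ => ?_⟩
  · have h1 : σ • γ • z = (σ * γ * σ⁻¹) • σ • z := by
      rw [← mul_smul, ← mul_smul]; congr 1; group
    show f (σ • γ • z) = f (σ • z)
    rw [h1]
    exact hf.2.1 _ (hΓ.conj_mem γ hγ σ) _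
  · obtain ⟨m, hm⟩ := hf.2.2 (σ * δ)
    refine ⟨m, ?_⟩
    simpa only [mul_smul] using hm


variable (Γ : Subgroup SL(2, ℤ))

lemma WH.mdiff (f : WH Γ) : MDiff (f : ℍ → ℂ) := f.2.1

lemma WH.ext {f g : WH Γ} (h : ∀ z, (f : ℍ → ℂ) z = (g : ℍ → ℂ) z) : f = g :=
  Subtype.ext (funext h)

instance : NoZeroDivisors (WH Γ) where
  eq_zero_or_eq_zero_of_mul_eq_zero := by
    intro f g hfg
    by_contra hcon
    rw [not_or] at hcon
    have hf0 : (f : ℍ → ℂ) ≠ 0 := fun h => hcon.1 (Subtype.ext h)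
    have hg0 : (g : ℍ → ℂ) ≠ 0 := fun h => hcon.2 (Subtype.ext h)
    have h1 := Removable.eventually_ne_zero_uhp f.2.1 hf0 UpperHalfPlane.I
    have h2 := Removable.eventually_ne_zero_uhp g.2.1 hg0 UpperHalfPlane.I
    obtain ⟨z, hz1, hz2⟩ := (h1.and h2).exists
    have : (f : ℍ → ℂ) z * (g : ℍ → ℂ) z = 0 := by
      have := congrArg (fun u : WH Γ => (u : ℍ → ℂ) z) hfg
      simpa using this
    rcases mul_eq_zero.mp this with h | h
    · exact hz1 h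
    · exact hz2 h

instance : IsDomain (WH Γ) := NoZeroDivisors.to_isDomain _

/-- For normal `Γ`, `SL(2,ℤ)` acts on `WH Γ` by `(σ • f) z = f (σ⁻¹ • z)`. -/
noncomputable instance [Γ.Normal] : MulSemiringAction SL(2, ℤ) (WH Γ) where
  smul σ f := ⟨fun z => (f : ℍ → ℂ) (σ⁻¹ • z), IsWH.comp_smul f.2 σ⁻¹⟩
  one_smul f := by
    apply WH.ext; intro z
    show (f : ℍ → ℂ) ((1 : SL(2, ℤ))⁻¹ • z) = _
    rw [inv_one, one_smul]
  mul_smul σ τ f := by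
    apply WH.ext; intro z
    show (f : ℍ → ℂ) ((σ * τ)⁻¹ • z) = (f : ℍ → ℂ) (τ⁻¹ • σ⁻¹ • z)
    rw [mul_inv_rev, mul_smul]
  smul_zero σ := by apply WH.ext; intro z; rfl
  smul_add σ f g := by apply WH.ext; intro z; rfl
  smul_one σ := by apply WH.ext; intro z; rfl
  smul_mul σ f g := by apply WH.ext; intro z; rfl

lemma WH.smul_apply [Γ.Normal] (σ : SL(2, ℤ)) (f : WH Γ) (z : ℍ) :
    ((σ • f : WH Γ) : ℍ → ℂ) z = (f : ℍ → ℂ) (σ⁻¹ • z) := rfl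

instance [Γ.Normal] : SMulCommClass SL(2, ℤ) ℂ (WH Γ) where
  smul_comm σ c f := by apply WH.ext; intro z; rfl


lemma WH_le {Γ Γ' : Subgroup SL(2, ℤ)} (h : Γ' ≤ Γ) : WH Γ ≤ WH Γ' :=
  fun _ hf => ⟨hf.1, fun γ hγ z => hf.2.1 γ (h hγ) z, hf.2.2⟩

/-- The `Γ`-invariant elements of `WH Γ'` are the elements of `WH Γ`. -/
lemma mem_WH_of_invariant {Γ Γ' : Subgroup SL(2, ℤ)} {f : ℍ → ℂ} (hf : f ∈ WH Γ')
    (hinv : ∀ γ ∈ Γ, ∀ z : ℍ, f (γ • z) = f z) : f ∈ WH Γ :=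
  ⟨hf.1, hinv, hf.2.2⟩

lemma jInv_mem_WH (Γ : Subgroup SL(2, ℤ)) : jInv ∈ WH Γ := isWH_jInv Γ

/-- `j` as an element of `WH Γ`. -/
noncomputable def jWH (Γ : Subgroup SL(2, ℤ)) : WH Γ := ⟨jInv, jInv_mem_WH Γ⟩

end Fermat.Agent.M2
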