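import Mathlib
import Fermat.Agent.M2.WH

/-!
# M2, task III.b: point valuations on weakly holomorphic modular functions

* `ordAt z f : ℕ∞` : the order of vanishing at `z : ℍ` of a function `f : ℍ → ℂ`;
* basic properties for holomorphic `f` (finite unless `f = 0`, additive on products, ultrametric,
  `ordAt z f = 0 ↔ f z ≠ 0`), equivariance under Möbius transformations;
* `ordVal Γ z : Valuation (WH Γ) ℤᵐ⁰`, centred at the kernel of evaluation at `z`, and its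
  extension `ordValFrac Γ z` to `FractionRing (WH Γ)`;
* the rotation lemma: if `f ∘ g = f` near a fixed point `z₀` of `g`, with `g' z₀ = ε`, and
  `f - f z₀` vanishes to finite order `m` at `z₀`, then `ε ^ m = 1`.
-/

set_option autoImplicit false

noncomputable section

namespace Fermat.Agent.M2.OrdVal

open UpperHalfPlane Filter Topology MatrixGroups
open scoped Manifold WithZero

/-! ## Analytic order at a point of the upper half plane -/

/-- A holomorphic function on `ℍ` is analytic (as a function on `ℂ`) at every point of `ℍ`. -/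
lemma analyticAt_comp_ofComplex {f : ℍ → ℂ} (hf : MDiff f) (z : ℍ) :
    AnalyticAt ℂ (f ∘ ofComplex) (z : ℂ) :=
  (UpperHalfPlane.mdifferentiable_iff.mp hf).analyticAt
    (isOpen_upperHalfPlaneSet.mem_nhds z.im_pos)

/-- The order of vanishing of `f : ℍ → ℂ` at `z`. -/
def ordAt (z : ℍ) (f : ℍ → ℂ) : ℕ∞ := analyticOrderAt (f ∘ ofComplex) (z : ℂ)

lemma ordAt_def (z : ℍ) (f : ℍ → ℂ) : ordAt z f = analyticOrderAt (f ∘ ofComplex) (z : ℂ) := rfl

@[simp] lemma ordAt_zero (z : ℍ) : ordAt z (0 : ℍ → ℂ) = ⊤ := by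
  rw [ordAt, analyticOrderAt_eq_top]
  exact Eventually.of_forall fun _ => rfl

/-- An eventual statement near `(z : ℂ)` about `f ∘ ofComplex` gives one near `z : ℍ` about `f`. -/
lemma eventually_of_eventually_comp_ofComplex {f : ℍ → ℂ} {z : ℍ} {p : ℂ → Prop}
    (h : ∀ᶠ w in 𝓝 (z : ℂ), p ((f ∘ ofComplex) w)) : ∀ᶠ w in 𝓝 z, p (f w) := by
  have ht : Tendsto ((↑) : ℍ → ℂ) (𝓝 z) (𝓝 (z : ℂ)) := UpperHalfPlane.continuous_coe.tendsto z
  filter_upwards [ht.eventually h] with w hw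
  simpa [Function.comp_apply, ofComplex_apply] using hw

lemma ordAt_eq_top_iff {f : ℍ → ℂ} (hf : MDiff f) (z : ℍ) : ordAt z f = ⊤ ↔ f = 0 := by
  constructor
  · intro h
    rw [ordAt, analyticOrderAt_eq_top] at h
    have h1 : ∀ᶠ w in 𝓝 z, f w = 0 := eventually_of_eventually_comp_ofComplex (p := (· = 0)) h
    have h2 : ∀ᶠ w in 𝓝[≠] z, f w = 0 := h1.filter_mono nhdsWithin_le_nhds
    exact UpperHalfPlane.eq_zero_of_frequently hf h2.frequently
  · rintro rfl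
    exact ordAt_zero z

lemma ordAt_ne_top {f : ℍ → ℂ} (hf : MDiff f) (hf0 : f ≠ 0) (z : ℍ) : ordAt z f ≠ ⊤ :=
  fun h => hf0 ((ordAt_eq_top_iff hf z).mp h)

lemma ordAt_mul {f g : ℍ → ℂ} (hf : MDiff f) (hg : MDiff g) (z : ℍ) :
    ordAt z (f * g) = ordAt z f + ordAt z g :=
  analyticOrderAt_mul (analyticAt_comp_ofComplex hf z) (analyticAt_comp_ofComplex hg z)

lemma ordAt_pow {f : ℍ → ℂ} (hf : MDiff f) (z : ℍ) (n : ℕ) :
    ordAt z (f ^ n) = n • ordAt z f :=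
  analyticOrderAt_pow (analyticAt_comp_ofComplex hf z) n

lemma le_ordAt_add (f g : ℍ → ℂ) (z : ℍ) :
    min (ordAt z f) (ordAt z g) ≤ ordAt z (f + g) :=
  le_analyticOrderAt_add

lemma ordAt_eq_zero_iff {f : ℍ → ℂ} (hf : MDiff f) (z : ℍ) : ordAt z f = 0 ↔ f z ≠ 0 := by
  rw [ordAt, (analyticAt_comp_ofComplex hf z).analyticOrderAt_eq_zero]
  simp [Function.comp_apply, ofComplex_apply]

lemma ordAt_ne_zero_iff {f : ℍ → ℂ} (hf : MDiff f) (z : ℍ) : ordAt z f ≠ 0 ↔ f z = 0 := by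
  rw [Ne, ordAt_eq_zero_iff hf z, not_not]

lemma ordAt_const {c : ℂ} (hc : c ≠ 0) (z : ℍ) : ordAt z (fun _ => c) = 0 :=
  (ordAt_eq_zero_iff mdifferentiable_const z).mpr hc

@[simp] lemma ordAt_one (z : ℍ) : ordAt z (1 : ℍ → ℂ) = 0 :=
  ordAt_const one_ne_zero z

/-- Equivariance of the order: `ord_z (f ∘ g) = ord_{g z} f` for `g ∈ GL₂(ℝ)⁺`. -/
lemma ordAt_comp_smul_GL (f : ℍ → ℂ) {g : GL (Fin 2) ℝ} (hg : 0 < g.val.det) (z : ℍ) :
    ordAt z (fun w => f (g • w)) = ordAt (g • z) f := by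
  let G : ℂ → ℂ := fun w => ((g • ofComplex w : ℍ) : ℂ)
  have hloc : ((fun w => f (g • w)) ∘ ofComplex) =ᶠ[𝓝 (z : ℂ)] ((f ∘ ofComplex) ∘ G) := by
    filter_upwards with w
    simp [G, Function.comp_apply, ofComplex_apply]
  rw [ordAt, analyticOrderAt_congr hloc,
    analyticOrderAt_comp_of_deriv_ne_zero (z.analyticAt_smul hg) (z.deriv_smul_ne_zero hg), ordAt]
  simp [G, ofComplex_apply]

/-- Equivariance of the order under `SL(2, ℤ)`. -/
lemma ordAt_comp_smul (f : ℍ → ℂ) (γ : SL(2, ℤ)) (z : ℍ) :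
    ordAt z (fun w => f (γ • w)) = ordAt (γ • z) f :=
  ordAt_comp_smul_GL f (g := (γ : GL (Fin 2) ℝ)) (by
    have : ((γ : GL (Fin 2) ℝ).det).val = 1 := by simp
    rw [← Matrix.GeneralLinearGroup.val_det_apply, this]; exact one_pos) z

/-! ## The valuation on `WH Γ` -/

variable (Γ : Subgroup SL(2, ℤ))

lemma WH.coe_eq_zero_iff {f : WH Γ} : (f : ℍ → ℂ) = 0 ↔ f = 0 :=
  ⟨fun h => Subtype.ext h, fun h => by rw [h]; rfl⟩

/-- The order of a nonzero element of `WH Γ` as a natural number. -/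
def ordNat (z : ℍ) (f : WH Γ) : ℕ := (ordAt z (f : ℍ → ℂ)).toNat

lemma coe_ordNat {z : ℍ} {f : WH Γ} (hf : f ≠ 0) : (ordNat Γ z f : ℕ∞) = ordAt z (f : ℍ → ℂ) :=
  ENat.natCast_toNat (ordAt_ne_top f.2.1 (fun h => hf ((WH.coe_eq_zero_iff Γ).mp h)) z)

lemma ordNat_mul {z : ℍ} {f g : WH Γ} (hf : f ≠ 0) (hg : g ≠ 0) :
    ordNat Γ z (f * g) = ordNat Γ z f + ordNat Γ z g := by
  have h := ordAt_mul f.2.1 g.2.1 z
  have hfg : f * g ≠ 0 := mul_ne_zero hf hg
  have e : ((f * g : WH Γ) : ℍ → ℂ) = (f : ℍ → ℂ) * (g : ℍ → ℂ) := rfl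
  rw [← e, ← coe_ordNat Γ hfg, ← coe_ordNat Γ hf, ← coe_ordNat Γ hg] at h
  exact_mod_cast h

lemma min_ordNat_le_ordNat_add {z : ℍ} {f g : WH Γ} (hf : f ≠ 0) (hg : g ≠ 0) (hfg : f + g ≠ 0) :
    min (ordNat Γ z f) (ordNat Γ z g) ≤ ordNat Γ z (f + g) := by
  have h := le_ordAt_add (f : ℍ → ℂ) (g : ℍ → ℂ) z
  have e : ((f + g : WH Γ) : ℍ → ℂ) = (f : ℍ → ℂ) + (g : ℍ → ℂ) := rfl
  rw [← e, ← coe_ordNat Γ hfg, ← coe_ordNat Γ hf, ← coe_ordNat Γ hg] at h
  rcases min_le_iff.mp h with h1 | h1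
  · exact (min_le_left _ _).trans (by exact_mod_cast h1)
  · exact (min_le_right _ _).trans (by exact_mod_cast h1)

lemma ordNat_eq_zero_iff {z : ℍ} {f : WH Γ} (hf : f ≠ 0) :
    ordNat Γ z f = 0 ↔ (f : ℍ → ℂ) z ≠ 0 := by
  rw [← ordAt_eq_zero_iff f.2.1 z, ← coe_ordNat Γ hf]
  exact_mod_cast Iff.rfl

open WithZero Classical in
/-- The discrete valuation on `WH Γ` given by the order of vanishing at `z`. -/
def ordVal (z : ℍ) : Valuation (WH Γ) ℤᵐ⁰ where
  toFun f := if f = 0 then 0 else exp (-(ordNat Γ z f : ℤ))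
  map_zero' := by simp
  map_one' := by
    have h1 : (1 : WH Γ) ≠ 0 := one_ne_zero
    have : ordNat Γ z (1 : WH Γ) = 0 := by
      rw [ordNat_eq_zero_iff Γ h1]
      show (1 : ℂ) ≠ 0
      exact one_ne_zero
    simp [h1, this]
  map_mul' f g := by
    by_cases hf : f = 0
    · simp [hf]
    by_cases hg : g = 0
    · simp [hg]
    have hfg : f * g ≠ 0 := mul_ne_zero hf hg
    simp only [hf, hg, hfg, if_false, ordNat_mul Γ hf hg]
    rw [← exp_add]
    congr 1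
    push_cast
    ring
  map_add_le_max' f g := by
    by_cases hf : f = 0
    · simp [hf]
    by_cases hg : g = 0
    · simp [hg]
    by_cases hfg : f + g = 0
    · simp [hfg]
    simp only [hf, hg, hfg, if_false]
    have h := min_ordNat_le_ordNat_add Γ (z := z) hf hg hfg
    rcases min_le_iff.mp h with h1 | h1
    · refine le_max_of_le_left ?_
      rw [exp_le_exp]
      exact neg_le_neg (by exact_mod_cast h1)
    · refine le_max_of_le_right ?_
      rw [exp_le_exp]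
      exact neg_le_neg (by exact_mod_cast h1)

open WithZero Classical in
lemma ordVal_apply_of_ne_zero {z : ℍ} {f : WH Γ} (hf : f ≠ 0) :
    ordVal Γ z f = exp (-(ordNat Γ z f : ℤ)) := by
  show (if f = 0 then 0 else exp (-(ordNat Γ z f : ℤ))) = _
  rw [if_neg hf]

lemma ordVal_ne_zero {z : ℍ} {f : WH Γ} (hf : f ≠ 0) : ordVal Γ z f ≠ 0 := by
  rw [ordVal_apply_of_ne_zero Γ hf]
  exact WithZero.exp_ne_zero

lemma ordVal_eq_zero_iff {z : ℍ} {f : WH Γ} : ordVal Γ z f = 0 ↔ f = 0 :=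
  ⟨fun h => by_contra fun hf => ordVal_ne_zero Γ hf h, fun h => by rw [h, map_zero]⟩

lemma ordVal_le_one (z : ℍ) (f : WH Γ) : ordVal Γ z f ≤ 1 := by
  by_cases hf : f = 0
  · rw [hf, map_zero]; exact zero_le_one
  rw [ordVal_apply_of_ne_zero Γ hf, ← WithZero.exp_zero, WithZero.exp_le_exp]
  simp

/-- The valuation `ordVal Γ z` is centred at the kernel of evaluation at `z`. -/
lemma ordVal_lt_one_iff {z : ℍ} {f : WH Γ} : ordVal Γ z f < 1 ↔ (f : ℍ → ℂ) z = 0 := by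
  by_cases hf : f = 0
  · rw [hf, map_zero]
    simp only [zero_lt_one, true_iff]
    rfl
  rw [ordVal_apply_of_ne_zero Γ hf, ← WithZero.exp_zero, WithZero.exp_lt_exp]
  have h := ordNat_eq_zero_iff Γ (z := z) hf
  constructor
  · intro hlt
    by_contra hne
    have := h.mpr hne
    omega
  · intro hz
    have : ordNat Γ z f ≠ 0 := fun h0 => (h.mp h0) hz
    omega

lemma ordVal_eq_one_iff {z : ℍ} {f : WH Γ} : ordVal Γ z f = 1 ↔ (f : ℍ → ℂ) z ≠ 0 := by
  rw [← not_iff_not, not_not, ← ordVal_lt_one_iff Γ]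
  exact ⟨fun h => lt_of_le_of_ne (ordVal_le_one Γ z f) h, fun h => h.ne⟩

/-- Equivariance: for normal `Γ`, `ord_z (σ • f) = ord_{σ⁻¹ z} f`. -/
lemma ordVal_smul [Γ.Normal] (σ : SL(2, ℤ)) (z : ℍ) (f : WH Γ) :
    ordVal Γ z (σ • f) = ordVal Γ (σ⁻¹ • z) f := by
  by_cases hf : f = 0
  · rw [hf, smul_zero, map_zero, map_zero]
  have hσf : σ • f ≠ 0 := by
    intro h
    apply hf
    have := congrArg (fun g => σ⁻¹ • g) h
    simpa using this
  rw [ordVal_apply_of_ne_zero Γ hf, ordVal_apply_of_ne_zero Γ hσf]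
  congr 2
  have h1 : ordAt z ((σ • f : WH Γ) : ℍ → ℂ) = ordAt (σ⁻¹ • z) (f : ℍ → ℂ) :=
    ordAt_comp_smul (f : ℍ → ℂ) σ⁻¹ z
  rw [← coe_ordNat Γ hσf, ← coe_ordNat Γ hf] at h1
  exact_mod_cast h1

/-- The extension of `ordVal Γ z` to the fraction field of `WH Γ`. -/
def ordValFrac (z : ℍ) : Valuation (FractionRing (WH Γ)) ℤᵐ⁰ :=
  (ordVal Γ z).extendToLocalization (S := nonZeroDivisors (WH Γ))
    (fun f hf => by
      have : f ≠ 0 := nonZeroDivisors.ne_zero hf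
      simpa [Valuation.supp, Ideal.primeCompl] using ordVal_ne_zero Γ this)
    (FractionRing (WH Γ))

@[simp] lemma ordValFrac_algebraMap (z : ℍ) (f : WH Γ) :
    ordValFrac Γ z (algebraMap (WH Γ) (FractionRing (WH Γ)) f) = ordVal Γ z f :=
  Valuation.extendToLocalization_apply_map_apply _ _ _ _

lemma ordValFrac_mk' (z : ℍ) (f : WH Γ) (g : nonZeroDivisors (WH Γ)) :
    ordValFrac Γ z (IsLocalization.mk' (FractionRing (WH Γ)) f g) =
      ordVal Γ z f * (ordVal Γ z g)⁻¹ :=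
  Valuation.extendToLocalization_mk' _ _ _ _ _

/-! ## The rotation lemma -/

section Rotation

/-- **Rotation lemma.** If `f ∘ g = f` near a fixed point `z₀` of `g`, `g` has derivative `ε` at
`z₀`, and `f - f z₀` vanishes to finite order `m` at `z₀`, then `ε ^ m = 1`. -/
theorem pow_eq_one_of_comp_eq {f g : ℂ → ℂ} {z₀ ε : ℂ} {m : ℕ}
    (hf : AnalyticAt ℂ f z₀) (hg : HasDerivAt g ε z₀) (hgz : g z₀ = z₀)
    (hfg : ∀ᶠ z in 𝓝 z₀, f (g z) = f z)
    (hord : analyticOrderAt (fun z => f z - f z₀) z₀ = m) : ε ^ m = 1 := by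
  have hFa : AnalyticAt ℂ (fun z => f z - f z₀) z₀ := hf.sub analyticAt_const
  obtain ⟨G, hGa, hG0, hFG⟩ := hFa.analyticOrderAt_eq_natCast.mp hord
  have hgt : Tendsto g (𝓝 z₀) (𝓝 z₀) := by
    have := hg.continuousAt.tendsto
    rwa [hgz] at this
  have hFGg : ∀ᶠ z in 𝓝 z₀, f (g z) - f z₀ = (g z - z₀) ^ m • G (g z) := hgt.eventually hFG
  -- the slope function
  set k : ℂ → ℂ := dslope g z₀ with hk
  have hkc : ContinuousAt k z₀ := continuousAt_dslope_same.mpr hg.differentiableAt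
  have hk0 : k z₀ = ε := by rw [hk, dslope_same, hg.deriv]
  have hkz : ∀ z, g z - z₀ = (z - z₀) * k z := by
    intro z
    have := sub_smul_dslope g z₀ z
    rw [smul_eq_mul, hgz] at this
    exact this.symm
  have hne : ∀ᶠ z in 𝓝[≠] z₀, G z = k z ^ m * G (g z) := by
    have h1 : ∀ᶠ z in 𝓝[≠] z₀, (z - z₀) ^ m * G z = (z - z₀) ^ m * (k z ^ m * G (g z)) := by
      refine (hFG.and (hFGg.and hfg)).filter_mono nhdsWithin_le_nhds |>.mono ?_
      rintro z ⟨h1, h2, h3⟩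
      simp only [smul_eq_mul] at h1 h2
      rw [← h1, ← h3, h2, hkz z, mul_pow, mul_assoc]
    filter_upwards [h1, self_mem_nhdsWithin] with z hz hzne
    exact mul_left_cancel₀ (pow_ne_zero m (sub_ne_zero.mpr hzne)) hz
  have hlim1 : Tendsto G (𝓝[≠] z₀) (𝓝 (G z₀)) :=
    hGa.continuousAt.tendsto.mono_left nhdsWithin_le_nhds
  have hGg : Tendsto (fun z => G (g z)) (𝓝 z₀) (𝓝 (G z₀)) :=
    (hGa.continuousAt.tendsto).comp hgt
  have hlim2 : Tendsto (fun z => k z ^ m * G (g z)) (𝓝[≠] z₀) (𝓝 (ε ^ m * G z₀)) := by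
    have hk' : Tendsto k (𝓝 z₀) (𝓝 ε) := by
      have := hkc.tendsto
      rwa [hk0] at this
    exact ((hk'.pow m).mul hGg).mono_left nhdsWithin_le_nhds
  have heq : G z₀ = ε ^ m * G z₀ := tendsto_nhds_unique (hlim1.congr' hne) hlim2
  have : (ε ^ m - 1) * G z₀ = 0 := by rw [sub_mul, one_mul, ← heq, sub_self]
  rcases mul_eq_zero.mp this with h | h
  · exact sub_eq_zero.mp h
  · exact absurd h hG0

/-- Rotation lemma on `ℍ`: if `f` is invariant under `g ∈ GL₂(ℝ)⁺` fixing `z₀` and `f - f z₀`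
vanishes to order `m` at `z₀`, then `(det g / (c z₀ + d)²) ^ m = 1`. -/
theorem pow_eq_one_of_smul_invariant_GL {f : ℍ → ℂ} (hf : MDiff f) {g : GL (Fin 2) ℝ}
    (hg : 0 < g.val.det) {z₀ : ℍ} (hz : g • z₀ = z₀) (hinv : ∀ z, f (g • z) = f z) {m : ℕ}
    (hord : ordAt z₀ (fun z => f z - f z₀) = m) :
    ((g.val.det : ℂ) / denom g z₀ ^ 2) ^ m = 1 := by
  refine pow_eq_one_of_comp_eq (f := f ∘ ofComplex)
    (g := fun w => ((g • ofComplex w : ℍ) : ℂ)) (z₀ := (z₀ : ℂ))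
    (analyticAt_comp_ofComplex hf z₀) (z₀.hasStrictDerivAt_smul hg).hasDerivAt ?_ ?_ ?_
  · simp [ofComplex_apply, hz]
  · filter_upwards with w
    simp [Function.comp_apply, ofComplex_apply, hinv]
  · rw [← hord, ordAt]
    congr 1
    funext w
    simp [Function.comp_apply, ofComplex_apply]

/-- Rotation lemma for `SL(2, ℤ)`: if `f` is invariant under `γ` fixing `z₀` and `f - f z₀`
vanishes to order `m` at `z₀`, then `(c z₀ + d) ^ (2 m) = 1`. -/
theorem denom_pow_eq_one_of_smul_invariant {f : ℍ → ℂ} (hf : MDiff f) (γ : SL(2, ℤ))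
    {z₀ : ℍ} (hz : γ • z₀ = z₀) (hinv : ∀ z, f (γ • z) = f z) {m : ℕ}
    (hord : ordAt z₀ (fun z => f z - f z₀) = m) :
    denom γ z₀ ^ (2 * m) = 1 := by
  have hdet : ((γ : GL (Fin 2) ℝ).val.det) = 1 := by
    have : ((γ : GL (Fin 2) ℝ).det).val = 1 := by simp
    rw [← Matrix.GeneralLinearGroup.val_det_apply, this]
  have h := pow_eq_one_of_smul_invariant_GL hf (g := (γ : GL (Fin 2) ℝ))
    (by rw [hdet]; exact one_pos) hz hinv hord
  rw [hdet] at h
  have hd : denom γ z₀ ≠ 0 := denom_ne_zero γ z₀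
  rw [div_pow, ← pow_mul] at h
  have h2 : denom γ z₀ ^ (2 * m) ≠ 0 := pow_ne_zero _ hd
  field_simp at h
  simpa using h.symm

/-- Consequence: the order of the rotation number divides the vanishing order. -/
theorem orderOf_dvd_of_smul_invariant {f : ℍ → ℂ} (hf : MDiff f) (γ : SL(2, ℤ))
    {z₀ : ℍ} (hz : γ • z₀ = z₀) (hinv : ∀ z, f (γ • z) = f z) {m : ℕ}
    (hord : ordAt z₀ (fun z => f z - f z₀) = m) :
    orderOf (denom γ z₀ ^ 2) ∣ m := by
  apply orderOf_dvd_of_pow_eq_one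
  rw [← pow_mul]
  exact denom_pow_eq_one_of_smul_invariant hf γ hz hinv hord

end Rotation

end Fermat.Agent.M2.OrdVal

end
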