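import Fermat.Agent.M2.GaloisSetup
import Fermat.Agent.M2.OrdVal
import Fermat.Agent.M2.GaloisDescent
import Fermat.Agent.M2.NfullLe
import Fermat.Agent.M2.JSurj

set_option autoImplicit false

/-!
# M2 / III.e (finite places): the dictionary between points of `ℍ` and primes

`K = WHField (Gamma0 N)`, `L = WHField (Gamma N)`, `B = integralClosure ℂ[X] K`.
* `vF Γ z` : the point valuation (order of vanishing at `z`) on `WHField Γ`;
* `exists_point_of_prime` (E1): every height-one prime `P` of `B` comes from a point `z : ℍ`: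
  `vF (Gamma0 N) z = (P-adic valuation) ^ κ`, `κ ≥ 1`;
* `exists_prime_of_point` (E2): conversely every point gives such a prime.
-/

namespace Fermat.Agent.M2.Dict

open UpperHalfPlane MatrixGroups Polynomial CongruenceSubgroup WithZero IsDedekindDomain
open Fermat.Agent.M2.OrdVal

/-! ### Point valuations on the fields `WHField Γ` -/

section General

variable (Γ : Subgroup SL(2, ℤ))

/-- The point valuation on the field of modular functions of level `Γ`. -/
noncomputable def vF (z : ℍ) : Valuation (WHField Γ) ℤᵐ⁰ := ordValFrac Γ z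

theorem vF_def (z : ℍ) : vF Γ z = ordValFrac Γ z := rfl

theorem vF_algebraMap (z : ℍ) (f : WH Γ) :
    vF Γ z (algebraMap (WH Γ) (WHField Γ) f) = ordVal Γ z f :=
  ordValFrac_algebraMap Γ z f

theorem vF_poly_le_one (z : ℍ) (P : ℂ[X]) : vF Γ z (algebraMap ℂ[X] (WHField Γ) P) ≤ 1 := by
  rw [IsScalarTower.algebraMap_apply ℂ[X] (WH Γ) (WHField Γ), vF_algebraMap]
  exact ordVal_le_one Γ z _

theorem vF_poly_lt_one_iff (z : ℍ) (P : ℂ[X]) :
    vF Γ z (algebraMap ℂ[X] (WHField Γ) P) < 1 ↔ P.eval (jInv z) = 0 := by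
  rw [IsScalarTower.algebraMap_apply ℂ[X] (WH Γ) (WHField Γ), vF_algebraMap, ordVal_lt_one_iff,
    algebraMap_polyWH_apply]

theorem vF_hp (z : ℍ) :
    ∃ a : ℂ[X], a ≠ 0 ∧ vF Γ z (algebraMap ℂ[X] (WHField Γ) a) < 1 :=
  ⟨X - C (jInv z), X_sub_C_ne_zero _, (vF_poly_lt_one_iff Γ z _).mpr (by simp)⟩

theorem vF_hk (z : ℍ) (a : ℂ[X]) :
    ∃ c : ℂ, vF Γ z (algebraMap ℂ[X] (WHField Γ) (a - algebraMap ℂ ℂ[X] c)) < 1 :=
  ⟨a.eval (jInv z), (vF_poly_lt_one_iff Γ z _).mpr (by
    rw [← Polynomial.C_eq_algebraMap]; simp)⟩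

/-- The centre of the point valuation at `z` lies over `(X - j(z))`. -/
theorem under_center_vF (z : ℍ) :
    (GaloisPlaces.center ℂ[X] (vF Γ z) (vF_poly_le_one Γ z)).under ℂ[X] =
      Ideal.span {X - C (jInv z)} := by
  ext a
  rw [GaloisPlaces.mem_under_center_iff, vF_poly_lt_one_iff, Ideal.mem_span_singleton,
    dvd_iff_isRoot]
  rfl

section Tower

variable (Γ' : Subgroup SL(2, ℤ)) [hle : Fact (Γ' ≤ Γ)]

theorem ordVal_algebraMap_WHWH (z : ℍ) (f : WH Γ) :
    ordVal Γ' z (algebraMap (WH Γ) (WH Γ') f) = ordVal Γ z f := by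
  by_cases hf : f = 0
  · rw [hf, map_zero, map_zero, map_zero]
  have hf' : algebraMap (WH Γ) (WH Γ') f ≠ 0 := by
    intro h
    exact hf ((map_eq_zero_iff _ (algebraMap_WHWH_injective Γ Γ')).mp h)
  rw [ordVal_apply_of_ne_zero Γ' hf', ordVal_apply_of_ne_zero Γ hf]
  rfl

/-- Compatibility of the point valuations with the inclusion of function fields. -/
theorem vF_map (z : ℍ) (h : WHField Γ) :
    vF Γ' z (algebraMap (WHField Γ) (WHField Γ') h) = vF Γ z h := by
  obtain ⟨a, b, hb, rfl⟩ := IsFractionRing.div_surjective (A := WH Γ) h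
  rw [map_div₀, map_div₀, map_div₀,
    ← IsScalarTower.algebraMap_apply (WH Γ) (WHField Γ) (WHField Γ'),
    ← IsScalarTower.algebraMap_apply (WH Γ) (WHField Γ) (WHField Γ'),
    IsScalarTower.algebraMap_apply (WH Γ) (WH Γ') (WHField Γ'),
    IsScalarTower.algebraMap_apply (WH Γ) (WH Γ') (WHField Γ'),
    vF_algebraMap, vF_algebraMap, vF_algebraMap, vF_algebraMap,
    ordVal_algebraMap_WHWH, ordVal_algebraMap_WHWH]

end Tower

section Action

variable [hΓ : Γ.Normal]

theorem smul_algebraMap_WHField (g : Geff Γ) (f : WH Γ) :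
    g • algebraMap (WH Γ) (WHField Γ) f = algebraMap (WH Γ) (WHField Γ) (g • f) := by
  rw [Algebra.algebraMap_eq_smul_one, Algebra.algebraMap_eq_smul_one, smul_distrib_smul, smul_one]

instance instSMulCommClassGeffPoly : SMulCommClass (Geff Γ) ℂ[X] (WHField Γ) where
  smul_comm g P x := by
    rw [Algebra.smul_def, Algebra.smul_def, smul_mul',
      IsScalarTower.algebraMap_apply ℂ[X] (WH Γ) (WHField Γ), smul_algebraMap_WHField,
      smul_algebraMap]

/-- Equivariance of the point valuations. -/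
theorem vF_smul (σ : SL(2, ℤ)) (z : ℍ) (x : WHField Γ) :
    vF Γ z (piG Γ σ • x) = vF Γ (σ⁻¹ • z) x := by
  obtain ⟨a, b, hb, rfl⟩ := IsFractionRing.div_surjective (A := WH Γ) x
  rw [smul_div₀', smul_algebraMap_WHField, smul_algebraMap_WHField, map_div₀, map_div₀,
    vF_algebraMap, vF_algebraMap, vF_algebraMap, vF_algebraMap, piG_smul, piG_smul,
    ordVal_smul, ordVal_smul]

theorem conj_vF (σ : SL(2, ℤ)) (z : ℍ) :
    GaloisPlaces.conj (vF Γ z) (piG Γ σ) = vF Γ (σ • z) := by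
  ext x
  rw [GaloisPlaces.conj_apply, ← map_inv, vF_smul, inv_inv]

end Action

end General

/-! ### The dictionary at finite places for `Γ₀(N)` -/

section Gamma0

variable (N : ℕ) [NeZero N]

instance instFiniteDimensionalK : FiniteDimensional (RatFunc ℂ) (WHField (Gamma0 N)) :=
  finiteDimensional_WHField (Gamma0 N) (Gamma N)

instance instIsFractionRingB :
    IsFractionRing (integralClosure ℂ[X] (WHField (Gamma0 N))) (WHField (Gamma0 N)) :=
  integralClosure.isFractionRing_of_finite_extension (RatFunc ℂ) (WHField (Gamma0 N))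

instance instIsDedekindDomainB : IsDedekindDomain (integralClosure ℂ[X] (WHField (Gamma0 N))) :=
  integralClosure.isDedekindDomain ℂ[X] (RatFunc ℂ) (WHField (Gamma0 N))

omit [NeZero N] in
/-- The restriction to `K` of a conjugate of the point valuation at `z` on `L` is the point
valuation at the translated point. -/
theorem resVal_vF (σ : SL(2, ℤ)) (z : ℍ) :
    GaloisPlaces.resVal (WHField (Gamma0 N)) (vF (Gamma N) z) (piG (Gamma N) σ) =
      vF (Gamma0 N) (σ • z) := by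
  ext x
  rw [GaloisPlaces.resVal_apply, ← map_inv, vF_smul, inv_inv, vF_map]

/-- Every maximal ideal of `ℂ[X]` is generated by some `X - c`. -/
theorem exists_eq_span_X_sub_C (p : Ideal ℂ[X]) [hp : p.IsPrime] (h0 : p ≠ ⊥) :
    ∃ c : ℂ, p = Ideal.span {X - C c} := by
  obtain ⟨f, rfl⟩ := (IsPrincipalIdealRing.principal p).principal
  have hf0 : f ≠ 0 := by
    rintro rfl
    exact h0 (by simp)
  have hprime : Prime f := (Ideal.span_singleton_prime hf0).mp (by simpa using hp)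
  have hdeg := IsAlgClosed.degree_eq_one_of_irreducible ℂ hprime.irreducible
  obtain ⟨c, hc⟩ := IsAlgClosed.exists_root f (by rw [hdeg]; exact one_ne_zero)
  refine ⟨c, ?_⟩
  have hdvd : X - C c ∣ f := dvd_iff_isRoot.mpr hc
  obtain ⟨g, rfl⟩ := hdvd
  have hirr := hprime.irreducible
  have hg : IsUnit g := (hirr.isUnit_or_isUnit rfl).resolve_left (not_isUnit_X_sub_C c)
  show Ideal.span {(X - C c) * g} = _
  rw [Ideal.span_singleton_mul_right_unit hg]

/-- **(E1)** Every height-one prime of `B` is the centre of a point valuation. -/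
theorem exists_point_of_prime
    (P : HeightOneSpectrum (integralClosure ℂ[X] (WHField (Gamma0 N)))) :
    ∃ (z : ℍ) (κ : ℕ), 1 ≤ κ ∧
      ∀ h : WHField (Gamma0 N), vF (Gamma0 N) z h = (P.valuation (WHField (Gamma0 N)) h) ^ κ := by
  -- the prime of `ℂ[X]` below `P`
  have hne : P.asIdeal.under ℂ[X] ≠ ⊥ :=
    Ideal.under_ne_bot ℂ[X] P.ne_bot
  obtain ⟨c, hc⟩ := exists_eq_span_X_sub_C (P.asIdeal.under ℂ[X]) hne
  obtain ⟨z₀, hz₀⟩ := JSurj.exists_j_eq c
  have hz₀' : jInv z₀ = c := hz₀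
  have hunder : P.asIdeal.under ℂ[X] =
      (GaloisPlaces.center ℂ[X] (vF (Gamma N) z₀) (vF_poly_le_one (Gamma N) z₀)).under ℂ[X] := by
    rw [under_center_vF, hz₀', hc]
  obtain ⟨g, hg⟩ := GaloisPlaces.exists_centerK_eq (G := Geff (Gamma N)) (RatFunc ℂ)
    (WHField (Gamma0 N)) (vF (Gamma N) z₀) (vF_poly_le_one (Gamma N) z₀) P.asIdeal hunder
  obtain ⟨σ, rfl⟩ := piG_surjective (Gamma N) g
  obtain ⟨κ, hκ1, hκ⟩ := GaloisPlaces.exists_pow_eq (RatFunc ℂ)
    (GaloisPlaces.resVal (WHField (Gamma0 N)) (vF (Gamma N) z₀) (piG (Gamma N) σ))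
    (GaloisPlaces.resVal_le_one (WHField (Gamma0 N)) (vF (Gamma N) z₀)
      (vF_poly_le_one (Gamma N) z₀) (piG (Gamma N) σ))
    (GaloisPlaces.resVal_hp (WHField (Gamma0 N)) (vF (Gamma N) z₀) (vF_hp (Gamma N) z₀)
      (piG (Gamma N) σ))
  refine ⟨σ • z₀, κ, hκ1, fun h => ?_⟩
  have hP : GaloisPlaces.centerHOS (RatFunc ℂ)
      (GaloisPlaces.resVal (WHField (Gamma0 N)) (vF (Gamma N) z₀) (piG (Gamma N) σ))
      (GaloisPlaces.resVal_le_one (WHField (Gamma0 N)) (vF (Gamma N) z₀)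
        (vF_poly_le_one (Gamma N) z₀) (piG (Gamma N) σ))
      (GaloisPlaces.resVal_hp (WHField (Gamma0 N)) (vF (Gamma N) z₀) (vF_hp (Gamma N) z₀)
        (piG (Gamma N) σ)) = P := by
    apply HeightOneSpectrum.ext
    exact hg.symm
  rw [← hP, ← hκ h, resVal_vF]

/-- **(E2)** Every point of `ℍ` is the centre of a height-one prime of `B`. -/
theorem exists_prime_of_point (z : ℍ) :
    ∃ (P : HeightOneSpectrum (integralClosure ℂ[X] (WHField (Gamma0 N)))) (κ : ℕ), 1 ≤ κ ∧
      ∀ h : WHField (Gamma0 N), vF (Gamma0 N) z h = (P.valuation (WHField (Gamma0 N)) h) ^ κ := by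
  obtain ⟨κ, hκ1, hκ⟩ := GaloisPlaces.exists_pow_eq (RatFunc ℂ) (vF (Gamma0 N) z)
    (vF_poly_le_one (Gamma0 N) z) (vF_hp (Gamma0 N) z)
  exact ⟨_, κ, hκ1, hκ⟩

end Gamma0

end Fermat.Agent.M2.Dict
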