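import Fermat.Agent.M2.DictFinite
import Fermat.Agent.M2.JOrder
import Fermat.Agent.M2.Stabilizer

set_option autoImplicit false

/-!
# M2 / III.e: the decomposition group of a point (the SQUEEZE at finite places)

For `z : ℍ`, the stabiliser in `Geff (Gamma N)` of the centre `Q_z` of the point valuation at `z`
on `integralClosure ℂ[X] (WHField (Gamma N))` is the image of `stabilizer SL(2, ℤ) z`.
-/

namespace Fermat.Agent.M2.Dict

open UpperHalfPlane MatrixGroups Polynomial CongruenceSubgroup WithZero IsDedekindDomain MulAction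
open Fermat.Agent.M2.OrdVal
open scoped Pointwise

/-- In a finite group with an injective character to `ℂˣ`, a subgroup of even order `2ν` contains an
element `c` with `χ c ^ 2` of order `ν`. -/
theorem exists_orderOf_sq_eq {S : Type*} [Group S] [Finite S] (χ : S →* ℂˣ)
    (hχ : Function.Injective χ) (C : Subgroup S) (hC : 2 ∣ Nat.card C) :
    ∃ c ∈ C, orderOf (χ c ^ 2) = Nat.card C / 2 := by
  have hcyc : IsCyclic S :=
    isCyclic_of_injective_ringHom ((Units.coeHom ℂ).comp χ) (Units.val_injective.comp hχ)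
  have hcycC : IsCyclic C := Subgroup.isCyclic C
  obtain ⟨c, hc⟩ := IsCyclic.exists_generator (α := C)
  have hord : orderOf c = Nat.card C := orderOf_eq_card_of_forall_mem_zpowers hc
  refine ⟨c.1, c.2, ?_⟩
  have h1 : orderOf (χ c.1) = Nat.card C := by
    rw [orderOf_injective χ hχ, ← hord, Subgroup.orderOf_coe]
  rw [orderOf_pow' _ two_ne_zero, h1]
  obtain ⟨k, hk⟩ := hC
  rw [hk]
  have : Nat.gcd (2 * k) 2 = 2 := by
    rw [Nat.gcd_comm]; exact Nat.gcd_eq_left (dvd_mul_right 2 k)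
  rw [this]

section Squeeze

variable (N : ℕ) (z : ℍ)

/-- The restriction of `piG (Gamma N)` to the stabiliser of `z`. -/
noncomputable def stabHom : stabilizer SL(2, ℤ) z →* Geff (Gamma N) :=
  (piG (Gamma N)).comp (stabilizer SL(2, ℤ) z).subtype

theorem stabHom_range :
    (stabHom N z).range = (stabilizer SL(2, ℤ) z).map (piG (Gamma N)) := by
  rw [stabHom, MonoidHom.range_comp, Subgroup.range_subtype]

/-- Elements of the kernel act trivially on `WH (Gamma N)`. -/
theorem apply_smul_of_mem_ker {c : stabilizer SL(2, ℤ) z} (hc : c ∈ (stabHom N z).ker)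
    (f : WH (Gamma N)) (w : ℍ) : (f : ℍ → ℂ) (c.1 • w) = (f : ℍ → ℂ) w := by
  have h1 : c.1 ∈ Nfull N := hc
  have h2 : c.1⁻¹ ∈ Nfull N := (Nfull N).inv_mem h1
  rw [mem_Nfull_iff] at h2
  have := congrArg (fun g : WH (Gamma N) => (g : ℍ → ℂ) w) (h2 f)
  simpa [WH.smul_apply] using this

theorem neg_one_mem_ker :
    (⟨-1, Stab.neg_one_mem z⟩ : stabilizer SL(2, ℤ) z) ∈ (stabHom N z).ker := by
  show (-1 : SL(2, ℤ)) ∈ Nfull N
  rw [mem_Nfull_iff]
  intro f
  apply WH.ext
  intro w
  rw [WH.smul_apply, inv_neg, inv_one, ModularGroup.SL_neg_smul, one_smul]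

theorem two_dvd_card_ker : 2 ∣ Nat.card (stabHom N z).ker := by
  have h : orderOf (⟨⟨-1, Stab.neg_one_mem z⟩, neg_one_mem_ker N z⟩ : (stabHom N z).ker) = 2 := by
    rw [orderOf_eq_iff (by norm_num)]
    refine ⟨?_, ?_⟩
    · ext : 2
      simp
    · intro m hm hm0
      have hm1 : m = 1 := by omega
      subst hm1
      intro h
      have h1 := congrArg (fun g : (stabHom N z).ker => (g.1.1 : SL(2, ℤ)) 0 0) h
      simp at h1
  have h2 := orderOf_dvd_natCard
    (⟨⟨-1, Stab.neg_one_mem z⟩, neg_one_mem_ker N z⟩ : (stabHom N z).ker)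
  rwa [h] at h2

theorem card_ker_mul_card_range :
    Nat.card (stabHom N z).ker * Nat.card (stabHom N z).range =
      Nat.card (stabilizer SL(2, ℤ) z) := by
  rw [← Subgroup.index_ker, Subgroup.card_mul_index]

/-- The rotation lemma: orders of vanishing at `z` of elements of `WH (Gamma N)` are divisible by
half the order of the kernel. -/
theorem half_card_ker_dvd_ordNat (f : WH (Gamma N)) (hf : f ≠ 0) :
    Nat.card (stabHom N z).ker / 2 ∣ ordNat (Gamma N) z f := by
  by_cases hfz : (f : ℍ → ℂ) z ≠ 0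
  · rw [(ordNat_eq_zero_iff (Gamma N) hf).mpr hfz]
    exact dvd_zero _
  rw [not_not] at hfz
  obtain ⟨c, hc, hord⟩ := exists_orderOf_sq_eq (Stab.epsHom z) (Stab.epsHom_injective z)
    (stabHom N z).ker (two_dvd_card_ker N z)
  rw [← hord]
  have hcz : c.1 • z = z := c.2
  have h1 := orderOf_dvd_of_smul_invariant (f := (f : ℍ → ℂ)) f.2.1 c.1 hcz
    (fun w => apply_smul_of_mem_ker N z hc f w) (m := ordNat (Gamma N) z f) (by
      rw [hfz]
      simp only [sub_zero]
      exact (coe_ordNat (Gamma N) hf).symm)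
  have h2 : orderOf (Stab.epsHom z c ^ 2) = orderOf (denom (c.1 : SL(2, ℤ)) z ^ 2) := by
    rw [← orderOf_units]
    have h3 : ((Stab.epsHom z c ^ 2 : ℂˣ) : ℂ) = denom (c.1 : SL(2, ℤ)) z ^ 2 := by
      simp [Stab.epsHom, Stab.eps, denom]
    rw [h3]
  rw [h2]
  exact h1

theorem vF_hν (h : WHField (Gamma N)) (hh : h ≠ 0) :
    ∃ m : ℤ, vF (Gamma N) z h = exp (((Nat.card (stabHom N z).ker / 2 : ℕ) : ℤ) * m) := by
  obtain ⟨a, b, hb, rfl⟩ := IsFractionRing.div_surjective (A := WH (Gamma N)) h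
  have hb0 : b ≠ 0 := nonZeroDivisors.ne_zero hb
  have ha0 : a ≠ 0 := by
    rintro rfl
    simp at hh
  obtain ⟨ka, hka⟩ := half_card_ker_dvd_ordNat N z a ha0
  obtain ⟨kb, hkb⟩ := half_card_ker_dvd_ordNat N z b hb0
  refine ⟨(kb : ℤ) - ka, ?_⟩
  rw [map_div₀, vF_algebraMap, vF_algebraMap, ordVal_apply_of_ne_zero _ ha0,
    ordVal_apply_of_ne_zero _ hb0, ← exp_sub, hka, hkb]
  congr 1
  push_cast
  ring

/-- The order of `X - j(z)` at `z`. -/
theorem vF_X_sub_C :
    vF (Gamma N) z (algebraMap ℂ[X] (WHField (Gamma N)) (X - C (jInv z))) =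
      exp (-((Nat.card (stabilizer SL(2, ℤ) z) / 2 : ℕ) : ℤ)) := by
  rw [IsScalarTower.algebraMap_apply ℂ[X] (WH (Gamma N)) (WHField (Gamma N)), vF_algebraMap]
  have hne : algebraMap ℂ[X] (WH (Gamma N)) (X - C (jInv z)) ≠ 0 := by
    rw [Ne, map_eq_zero_iff _ (algebraMap_polyWH_injective (Gamma N))]
    exact X_sub_C_ne_zero _
  rw [ordVal_apply_of_ne_zero _ hne]
  congr 3
  have h1 : ((algebraMap ℂ[X] (WH (Gamma N)) (X - C (jInv z)) : WH (Gamma N)) : ℍ → ℂ) =
      fun w => jInv w - jInv z := by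
    ext w
    rw [algebraMap_polyWH_apply]
    simp
  have h2 : ordAt z (fun w => jInv w - jInv z) =
      ((Nat.card (stabilizer SL(2, ℤ) z) / 2 : ℕ) : ℕ∞) := by
    rw [ordAt_def, ← JOrder.analyticOrderAt_jC_sub z]
    congr 1
    ext s
    simp only [Function.comp_apply, JOrder.jC, JOrder.jH, jInv, ofComplex_apply]
  rw [ordNat, h1, h2]
  rfl

set_option synthInstance.maxHeartbeats 400000 in
variable [NeZero N] in
/-- **SQUEEZE**: the decomposition group of `Q_z` is the image of the stabiliser of `z`. -/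
theorem stabilizer_center_vF :
    stabilizer (Geff (Gamma N))
      (GaloisPlaces.center ℂ[X] (vF (Gamma N) z) (vF_poly_le_one (Gamma N) z)) =
      (stabilizer SL(2, ℤ) z).map (piG (Gamma N)) := by
  rw [← stabHom_range]
  refine GaloisPlaces.stabilizer_center_eq (RatFunc ℂ) (vF (Gamma N) z)
    (vF_poly_le_one (Gamma N) z) (vF_hp (Gamma N) z) ℂ (vF_hk (Gamma N) z) (stabHom N z).range ?_
    (Nat.card (stabilizer SL(2, ℤ) z) / 2) (Nat.card (stabHom N z).ker / 2) (X - C (jInv z))
    (under_center_vF (Gamma N) z) (vF_X_sub_C N z) (vF_hν N z) ?_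
  · rintro s ⟨c, rfl⟩ h
    show vF (Gamma N) z (piG (Gamma N) c.1 • h) = _
    rw [vF_smul]
    have : c.1 • z = z := c.2
    have h2 : (c.1)⁻¹ • z = z := by rw [inv_smul_eq_iff, this]
    rw [h2]
  · obtain ⟨k, hk⟩ := two_dvd_card_ker N z
    have h1 := card_ker_mul_card_range N z
    rw [hk] at h1 ⊢
    rw [← h1, Nat.mul_div_cancel_left k (by norm_num), mul_assoc,
      Nat.mul_div_cancel_left _ (by norm_num)]

end Squeeze

end Fermat.Agent.M2.Dict
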