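import Mathlib
import Fermat.Agent.M2.WH
import Fermat.Agent.M2.LevelOnePoly

/-!
# M2 / III.c : the valuation at the cusp `i∞`

For `N ≥ 1` and `f : ℍ → ℂ` holomorphic, `N`-periodic and meromorphic at `i∞` (`IsPerMero N f`),
the cusp function `q ↦ f (z_q)` (`q = exp (2πi z / N)`) is meromorphic at `q = 0`; its order there
is `cuspOrd N f : WithTop ℤ`.  We prove the valuation axioms, compute `cuspOrd N j = -N`, and
package everything as `Valuation (WH Γ) ℤᵐ⁰`.
-/

set_option autoImplicit false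

namespace Fermat.Agent.M2.CuspVal

open UpperHalfPlane ModularForm MatrixGroups Filter Function Complex
open scoped Manifold Topology Real WithZero

local notation "Δ" => ModularForm.discriminant
local notation "𝕢" => Periodic.qParam
local notation "I∞" => comap Complex.im atTop

/-! ### Basic properties of the cusp function, no hypotheses on `f` -/

section Basic

variable (N : ℕ) (f g : ℍ → ℂ)

/-- The point of `ℍ` (junk outside the unit disc) attached to `q`. -/
noncomputable def pt (q : ℂ) : ℍ := ofComplex (Periodic.invQParam (N : ℝ) q)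

lemma cuspFunction_apply {q : ℂ} (hq : q ≠ 0) : cuspFunction (N : ℝ) f q = f (pt N q) := by
  rw [cuspFunction, Periodic.cuspFunction_eq_of_nonzero _ _ hq]
  rfl

lemma cuspFunction_mul_eventuallyEq :
    cuspFunction (N : ℝ) (f * g) =ᶠ[𝓝[≠] 0] cuspFunction (N : ℝ) f * cuspFunction (N : ℝ) g := by
  filter_upwards [self_mem_nhdsWithin] with q hq
  rw [Pi.mul_apply, cuspFunction_apply N _ hq, cuspFunction_apply N _ hq,
    cuspFunction_apply N _ hq, Pi.mul_apply]

lemma cuspFunction_add_eventuallyEq :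
    cuspFunction (N : ℝ) (f + g) =ᶠ[𝓝[≠] 0] cuspFunction (N : ℝ) f + cuspFunction (N : ℝ) g := by
  filter_upwards [self_mem_nhdsWithin] with q hq
  rw [Pi.add_apply, cuspFunction_apply N _ hq, cuspFunction_apply N _ hq,
    cuspFunction_apply N _ hq, Pi.add_apply]

lemma cuspFunction_const_eventuallyEq (c : ℂ) :
    cuspFunction (N : ℝ) (fun _ => c) =ᶠ[𝓝[≠] 0] fun _ => c := by
  filter_upwards [self_mem_nhdsWithin] with q hq
  rw [cuspFunction_apply N _ hq]

/-- The order of `f` at the cusp `i∞`, measured in the parameter `q_N = exp (2πi z / N)`. -/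
noncomputable def cuspOrd : WithTop ℤ := meromorphicOrderAt (cuspFunction (N : ℝ) f) 0

end Basic

/-! ### Holomorphic periodic functions, meromorphic at the cusp -/

/-- `f` is holomorphic on `ℍ`, `N`-periodic, and meromorphic at `i∞`. -/
structure IsPerMero (N : ℕ) (f : ℍ → ℂ) : Prop where
  mdiff : MDiff f
  periodic : Periodic (f ∘ ofComplex) (N : ℝ)
  mero : ∃ m : ℕ, IsBoundedAtImInfty (fun z : ℍ => f z * Δ z ^ m)

lemma periodic_discriminant (N : ℕ) : Periodic ((Δ : ℍ → ℂ) ∘ ofComplex) (N : ℝ) := by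
  have h1 : Periodic ((Δ : ℍ → ℂ) ∘ ofComplex) ((1 : ℝ) : ℂ) := by
    have := SlashInvariantFormClass.periodic_comp_ofComplex (f := CuspForm.discriminant)
      (Γ := 𝒮ℒ) (h := 1) (k := 12) (by simp)
    simpa using this
  have := h1.nat_mul N
  simpa using this

lemma mdiff_discriminant_pow (m : ℕ) : MDiff (fun z : ℍ => Δ z ^ m) := by
  have h := mdiff_discriminant
  rw [UpperHalfPlane.mdifferentiable_iff] at h ⊢
  have : ((fun z : ℍ => Δ z ^ m) ∘ ofComplex) = fun w => ((Δ : ℍ → ℂ) ∘ ofComplex) w ^ m := by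
    ext w; rfl
  rw [this]
  exact h.pow m

lemma periodic_discriminant_pow (N m : ℕ) :
    Periodic ((fun z : ℍ => Δ z ^ m) ∘ ofComplex) (N : ℝ) := by
  intro w
  have := periodic_discriminant N w
  simp only [Function.comp_apply] at this ⊢
  rw [this]

namespace IsPerMero

variable {N : ℕ} {f g : ℍ → ℂ}

lemma const (N : ℕ) (c : ℂ) : IsPerMero N (fun _ => c) :=
  ⟨mdifferentiable_const, fun _ => rfl, ⟨0, by
    simp only [pow_zero, mul_one]
    exact Filter.const_boundedAtFilter atImInfty c⟩⟩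

lemma add (hf : IsPerMero N f) (hg : IsPerMero N g) : IsPerMero N (f + g) := by
  refine ⟨hf.mdiff.add hg.mdiff, fun w => ?_, ?_⟩
  · have h1 := hf.periodic w
    have h2 := hg.periodic w
    simp only [Function.comp_apply, Pi.add_apply] at h1 h2 ⊢
    rw [h1, h2]
  · obtain ⟨m₁, h₁⟩ := hf.mero
    obtain ⟨m₂, h₂⟩ := hg.mero
    refine ⟨m₁ + m₂, ?_⟩
    have := (h₁.mul (isBoundedAtImInfty_discriminant_pow m₂)).add
      (h₂.mul (isBoundedAtImInfty_discriminant_pow m₁))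
    have e : (fun z : ℍ => (f + g) z * Δ z ^ (m₁ + m₂)) =
        ((fun z => f z * Δ z ^ m₁) * fun z => Δ z ^ m₂) +
          (fun z => g z * Δ z ^ m₂) * fun z => Δ z ^ m₁ := by
      ext z
      simp only [Pi.add_apply, Pi.mul_apply, pow_add]
      ring
    rw [e]
    exact this

lemma mul (hf : IsPerMero N f) (hg : IsPerMero N g) : IsPerMero N (f * g) := by
  refine ⟨hf.mdiff.mul hg.mdiff, fun w => ?_, ?_⟩
  · have h1 := hf.periodic w
    have h2 := hg.periodic w
    simp only [Function.comp_apply, Pi.mul_apply] at h1 h2 ⊢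
    rw [h1, h2]
  · obtain ⟨m₁, h₁⟩ := hf.mero
    obtain ⟨m₂, h₂⟩ := hg.mero
    refine ⟨m₁ + m₂, ?_⟩
    have := h₁.mul h₂
    have e : (fun z : ℍ => (f * g) z * Δ z ^ (m₁ + m₂)) =
        (fun z => f z * Δ z ^ m₁) * fun z => g z * Δ z ^ m₂ := by
      ext z
      simp only [Pi.mul_apply, pow_add]
      ring
    rw [e]
    exact this

/-- A bounded holomorphic periodic function is in particular meromorphic at the cusp. -/
lemma of_bounded (hf : MDiff f) (hper : Periodic (f ∘ ofComplex) (N : ℝ))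
    (hbd : IsBoundedAtImInfty f) : IsPerMero N f :=
  ⟨hf, hper, ⟨0, by simpa using hbd⟩⟩

lemma discriminant_pow (N m : ℕ) : IsPerMero N (fun z : ℍ => Δ z ^ m) :=
  of_bounded (mdiff_discriminant_pow m) (periodic_discriminant_pow N m)
    (isBoundedAtImInfty_discriminant_pow m)

end IsPerMero

/-! ### Meromorphy of the cusp function -/

section Mero

variable {N : ℕ} {f g : ℍ → ℂ}

lemma analyticAt_of_bounded (hN : 0 < N) (hf : MDiff f)
    (hper : Periodic (f ∘ ofComplex) (N : ℝ)) (hbd : IsBoundedAtImInfty f) :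
    AnalyticAt ℂ (cuspFunction (N : ℝ) f) 0 :=
  analyticAt_cuspFunction_zero (by exact_mod_cast hN) hper hf hbd

theorem meromorphicAt_cuspFunction (hN : 0 < N) (hf : IsPerMero N f) :
    MeromorphicAt (cuspFunction (N : ℝ) f) 0 := by
  obtain ⟨m, hm⟩ := hf.mero
  have hG : AnalyticAt ℂ (cuspFunction (N : ℝ) (fun z : ℍ => f z * Δ z ^ m)) 0 :=
    analyticAt_of_bounded hN (hf.mul (IsPerMero.discriminant_pow N m)).mdiff
      (hf.mul (IsPerMero.discriminant_pow N m)).periodic hm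
  have hD : AnalyticAt ℂ (cuspFunction (N : ℝ) (fun z : ℍ => Δ z ^ m)) 0 :=
    analyticAt_of_bounded hN (mdiff_discriminant_pow m) (periodic_discriminant_pow N m)
      (isBoundedAtImInfty_discriminant_pow m)
  refine (hG.meromorphicAt.div hD.meromorphicAt).congr ?_
  filter_upwards [self_mem_nhdsWithin] with q hq
  rw [Pi.div_apply, cuspFunction_apply N _ hq, cuspFunction_apply N _ hq,
    cuspFunction_apply N _ hq]
  rw [mul_div_assoc, div_self (pow_ne_zero m (discriminant_ne_zero _)), mul_one]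

end Mero

/-! ### Transfer between `atImInfty` and the punctured neighbourhood of `q = 0` -/

section Transfer

variable {N : ℕ} {f g : ℍ → ℂ}

lemma tendsto_qParam (hN : 0 < N) :
    Tendsto (fun z : ℍ => 𝕢 (N : ℝ) (z : ℂ)) atImInfty (𝓝[≠] 0) :=
  (Periodic.qParam_tendsto (by exact_mod_cast hN)).comp tendsto_coe_atImInfty

lemma tendsto_pt (hN : 0 < N) : Tendsto (pt N) (𝓝[≠] 0) atImInfty :=
  tendsto_comap_im_ofComplex.comp (Periodic.invQParam_tendsto (by exact_mod_cast hN))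

lemma cuspFunction_qParam (hN : 0 < N) (hper : Periodic (f ∘ ofComplex) (N : ℝ)) (z : ℍ) :
    cuspFunction (N : ℝ) f (𝕢 (N : ℝ) (z : ℂ)) = f z :=
  eq_cuspFunction z (by exact_mod_cast hN.ne') hper

/-- Limits of the cusp function at `0` are limits of `f` at `i∞`. -/
theorem tendsto_cuspFunction_iff (hN : 0 < N) (hper : Periodic (f ∘ ofComplex) (N : ℝ))
    (l : Filter ℂ) :
    Tendsto (cuspFunction (N : ℝ) f) (𝓝[≠] 0) l ↔ Tendsto f atImInfty l := by
  constructor
  · intro h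
    have := h.comp (tendsto_qParam hN)
    refine this.congr fun z => ?_
    exact cuspFunction_qParam hN hper z
  · intro h
    have := h.comp (tendsto_pt hN)
    refine this.congr' ?_
    filter_upwards [self_mem_nhdsWithin] with q hq
    exact (cuspFunction_apply N f hq).symm

/-- Eventual properties of the cusp function near `0` are eventual properties of `f` near `i∞`. -/
theorem eventually_cuspFunction_iff (hN : 0 < N) (hper : Periodic (f ∘ ofComplex) (N : ℝ))
    (P : ℂ → Prop) :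
    (∀ᶠ q in 𝓝[≠] 0, P (cuspFunction (N : ℝ) f q)) ↔ ∀ᶠ z in atImInfty, P (f z) := by
  constructor
  · intro h
    have := (tendsto_qParam hN).eventually h
    filter_upwards [this] with z hz
    rwa [cuspFunction_qParam hN hper z] at hz
  · intro h
    have := (tendsto_pt hN).eventually h
    filter_upwards [this, self_mem_nhdsWithin] with q hq hq0
    rwa [cuspFunction_apply N f hq0]

/-- A holomorphic function on `ℍ` vanishing near `i∞` vanishes identically. -/
lemma eq_zero_of_eventually_atImInfty (hf : MDiff f) (h : ∀ᶠ z in atImInfty, f z = 0) : f = 0 := by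
  obtain ⟨A, hA⟩ := (atImInfty_mem _).mp h
  -- the point `z₀ = (|A| + 1) i` and its neighbourhood `{im > A}`
  let z₀ : ℍ := ⟨⟨0, |A| + 1⟩, by simp; positivity⟩
  have hz₀ : A < z₀.im := by
    show A < |A| + 1
    linarith [le_abs_self A]
  refine eq_zero_of_frequently hf (τ := z₀) (Eventually.frequently ?_)
  have hopen : IsOpen {z : ℍ | A < z.im} := isOpen_lt continuous_const UpperHalfPlane.continuous_im
  have hmem : {z : ℍ | A < z.im} ∈ 𝓝 z₀ := hopen.mem_nhds hz₀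
  filter_upwards [nhdsWithin_le_nhds hmem] with z hz
  exact hA z hz.le

end Transfer

/-! ### The valuation axioms for `cuspOrd` -/

section Axioms

variable {N : ℕ} {f g : ℍ → ℂ}

theorem cuspOrd_mul (hN : 0 < N) (hf : IsPerMero N f) (hg : IsPerMero N g) :
    cuspOrd N (f * g) = cuspOrd N f + cuspOrd N g := by
  rw [cuspOrd, meromorphicOrderAt_congr (cuspFunction_mul_eventuallyEq N f g),
    meromorphicOrderAt_mul (meromorphicAt_cuspFunction hN hf) (meromorphicAt_cuspFunction hN hg)]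
  rfl

theorem cuspOrd_add (hN : 0 < N) (hf : IsPerMero N f) (hg : IsPerMero N g) :
    min (cuspOrd N f) (cuspOrd N g) ≤ cuspOrd N (f + g) := by
  rw [cuspOrd, cuspOrd, cuspOrd, meromorphicOrderAt_congr (cuspFunction_add_eventuallyEq N f g)]
  exact meromorphicOrderAt_add (meromorphicAt_cuspFunction hN hf)
    (meromorphicAt_cuspFunction hN hg)

theorem cuspOrd_const (N : ℕ) {c : ℂ} (hc : c ≠ 0) : cuspOrd N (fun _ => c) = 0 := by
  classical
  rw [cuspOrd, meromorphicOrderAt_congr (cuspFunction_const_eventuallyEq N c),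
    meromorphicOrderAt_const, if_neg hc]

theorem cuspOrd_zero (N : ℕ) : cuspOrd N (0 : ℍ → ℂ) = ⊤ := by
  classical
  have : (0 : ℍ → ℂ) = fun _ => (0 : ℂ) := rfl
  rw [this, cuspOrd, meromorphicOrderAt_congr (cuspFunction_const_eventuallyEq N 0),
    meromorphicOrderAt_const, if_pos rfl]

theorem cuspOrd_eq_top_iff (hN : 0 < N) (hf : IsPerMero N f) : cuspOrd N f = ⊤ ↔ f = 0 := by
  constructor
  · intro h
    rw [cuspOrd, meromorphicOrderAt_eq_top_iff] at h
    have := (eventually_cuspFunction_iff hN hf.periodic (fun w => w = 0)).mp h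
    exact eq_zero_of_eventually_atImInfty hf.mdiff this
  · rintro rfl
    exact cuspOrd_zero N

/-- `f` is bounded at `i∞` iff its cusp order is nonnegative. -/
theorem cuspOrd_nonneg_iff (hN : 0 < N) (hf : IsPerMero N f) :
    0 ≤ cuspOrd N f ↔ IsBoundedAtImInfty f := by
  constructor
  · intro h
    obtain ⟨c, hc⟩ := tendsto_nhds_of_meromorphicOrderAt_nonneg (meromorphicAt_cuspFunction hN hf) h
    have := (tendsto_cuspFunction_iff hN hf.periodic (𝓝 c)).mp hc
    exact this.isBigO_one ℝ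
  · intro h
    exact (analyticAt_of_bounded hN hf.mdiff hf.periodic h).meromorphicOrderAt_nonneg

/-- `f` vanishes at `i∞` iff its cusp order is positive. -/
theorem cuspOrd_pos_iff (hN : 0 < N) (hf : IsPerMero N f) :
    0 < cuspOrd N f ↔ IsZeroAtImInfty f := by
  rw [cuspOrd, ← tendsto_zero_iff_meromorphicOrderAt_pos (meromorphicAt_cuspFunction hN hf),
    tendsto_cuspFunction_iff hN hf.periodic]
  rfl

/-- `f` tends to a nonzero limit at `i∞` iff its cusp order is zero. -/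
theorem cuspOrd_eq_zero_iff (hN : 0 < N) (hf : IsPerMero N f) :
    cuspOrd N f = 0 ↔ ∃ c ≠ 0, Tendsto f atImInfty (𝓝 c) := by
  rw [cuspOrd, ← tendsto_ne_zero_iff_meromorphicOrderAt_eq_zero (meromorphicAt_cuspFunction hN hf)]
  simp only [tendsto_cuspFunction_iff hN hf.periodic]

end Axioms

/-! ### Leading terms -/

section Leading

variable {N : ℕ} {f g : ℍ → ℂ}

lemma coe_pt {q : ℂ} (hN : 0 < N) (hq : q ≠ 0) (hq1 : ‖q‖ < 1) :
    ((pt N q : ℍ) : ℂ) = Periodic.invQParam (N : ℝ) q := by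
  have him := Periodic.im_invQParam_pos_of_norm_lt_one (h := (N : ℝ)) (by exact_mod_cast hN) hq1 hq
  rw [pt, ofComplex_apply_of_im_pos him]

lemma qParam_pt {q : ℂ} (hN : 0 < N) (hq : q ≠ 0) (hq1 : ‖q‖ < 1) :
    𝕢 (N : ℝ) ((pt N q : ℍ) : ℂ) = q := by
  rw [coe_pt hN hq hq1]
  exact Periodic.qParam_right_inv (by exact_mod_cast hN.ne') hq

lemma eventually_norm_lt_one : ∀ᶠ q : ℂ in 𝓝[≠] 0, q ≠ 0 ∧ ‖q‖ < 1 := by
  have h1 : ∀ᶠ q : ℂ in 𝓝[≠] 0, q ≠ 0 := self_mem_nhdsWithin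
  have h2 : ∀ᶠ q : ℂ in 𝓝[≠] 0, ‖q‖ < 1 := by
    apply nhdsWithin_le_nhds
    have := Metric.ball_mem_nhds (0 : ℂ) one_pos
    filter_upwards [this] with q hq
    simpa using hq
  exact h1.and h2

/-- **Leading term criterion.** If `f z * q_N ^ (-n)` tends to a nonzero limit at `i∞`, then the
cusp order of `f` is `n`. -/
theorem cuspOrd_eq_of_tendsto (hN : 0 < N) (hf : IsPerMero N f) (n : ℤ) {c : ℂ} (hc : c ≠ 0)
    (h : Tendsto (fun z : ℍ => f z * (𝕢 (N : ℝ) (z : ℂ)) ^ (-n)) atImInfty (𝓝 c)) :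
    cuspOrd N f = n := by
  have hF := meromorphicAt_cuspFunction hN hf
  have hZ : MeromorphicAt (fun q : ℂ => q ^ (-n)) 0 := by fun_prop
  have hH : Tendsto (cuspFunction (N : ℝ) f * fun q : ℂ => q ^ (-n)) (𝓝[≠] 0) (𝓝 c) := by
    have := h.comp (tendsto_pt hN)
    refine this.congr' ?_
    filter_upwards [eventually_norm_lt_one] with q hq
    simp only [Function.comp_apply, Pi.mul_apply]
    rw [cuspFunction_apply N f hq.1, qParam_pt hN hq.1 hq.2]
  have h0 : meromorphicOrderAt (cuspFunction (N : ℝ) f * fun q : ℂ => q ^ (-n)) 0 = 0 :=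
    (tendsto_ne_zero_iff_meromorphicOrderAt_eq_zero (hF.mul hZ)).mp ⟨c, hc, hH⟩
  rw [meromorphicOrderAt_mul hF hZ] at h0
  have h1 : meromorphicOrderAt (fun q : ℂ => q ^ (-n)) 0 = ((-n : ℤ) : WithTop ℤ) := by
    have e : (fun q : ℂ => q ^ (-n)) = ((· - (0 : ℂ)) ^ (-n)) := by
      ext q; simp
    rw [e, meromorphicOrderAt_zpow_id_sub_const]
  rw [h1] at h0
  rw [cuspOrd]
  cases hord : meromorphicOrderAt (cuspFunction (N : ℝ) f) 0 with
  | top => rw [hord] at h0; simp at h0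
  | coe a =>
    rw [hord] at h0
    have h2 : ((a + -n : ℤ) : WithTop ℤ) = ((0 : ℤ) : WithTop ℤ) := by
      rw [WithTop.coe_add]; exact h0
    have h3 : a + -n = 0 := by exact_mod_cast h2
    have : a = n := by omega
    rw [this]

lemma qParam_pow (hN : 0 < N) (z : ℂ) : (𝕢 (N : ℝ) z) ^ N = 𝕢 (1 : ℝ) z := by
  simp only [Periodic.qParam]
  rw [← Complex.exp_nat_mul]
  congr 1
  have : (N : ℂ) ≠ 0 := by exact_mod_cast hN.ne'
  push_cast
  field_simp

theorem cuspOrd_discriminant (hN : 0 < N) : cuspOrd N (Δ : ℍ → ℂ) = (N : ℤ) := by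
  have hΔ : IsPerMero N (Δ : ℍ → ℂ) := by
    have := IsPerMero.discriminant_pow N 1
    simpa using this
  refine cuspOrd_eq_of_tendsto hN hΔ (N : ℤ) one_ne_zero ?_
  refine tendsto_atImInfty_tprod_one_sub_eta_q_pow.congr fun z => ?_
  rw [discriminant_eq_q_prod z, zpow_neg, zpow_natCast, qParam_pow hN]
  have hq : 𝕢 (1 : ℝ) (z : ℂ) ≠ 0 := Periodic.qParam_ne_zero _
  field_simp

end Leading

/-! ### Weakly holomorphic modular functions are periodic and meromorphic at `i∞` -/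

section WHPer

variable {N : ℕ} {f g : ℍ → ℂ}

/-- Invariance under the real translation `z ↦ a + z` gives periodicity of `f ∘ ofComplex`. -/
lemma periodic_of_vadd {a : ℝ} (h : ∀ z : ℍ, f (a +ᵥ z) = f z) :
    Periodic (f ∘ ofComplex) (a : ℂ) := by
  intro w
  by_cases! hw : 0 < im w
  · have h2 : 0 < im (w + a) := by simp [hw]
    simp only [comp_apply, ofComplex_apply_of_im_pos h2, ofComplex_apply_of_im_pos hw]
    rw [← h ⟨w, hw⟩]
    congr 1
    ext
    simp [add_comm]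
  · have h2 : im (w + a) ≤ 0 := by simpa using hw
    simp [ofComplex_apply_of_im_nonpos h2, ofComplex_apply_of_im_nonpos hw]

lemma vadd_of_periodic {a : ℝ} (h : Periodic (f ∘ ofComplex) (a : ℂ)) (z : ℍ) :
    f (a +ᵥ z) = f z := by
  have := h (z : ℂ)
  simp only [comp_apply, ofComplex_apply] at this
  rw [← this]
  congr 1
  ext
  have him : 0 < im ((z : ℂ) + (a : ℂ)) := by simp [z.im_pos]
  rw [ofComplex_apply_of_im_pos him]
  simp [add_comm]

/-- Elements of `WH Γ` are `N`-periodic and meromorphic at `i∞` as soon as `T ^ N ∈ Γ`. -/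
theorem IsPerMero.of_isWH {Γ : Subgroup SL(2, ℤ)} (hT : ModularGroup.T ^ N ∈ Γ)
    (hf : IsWH Γ f) : IsPerMero N f := by
  refine ⟨hf.1, ?_, ?_⟩
  · have : ∀ z : ℍ, f (((N : ℝ)) +ᵥ z) = f z := by
      intro z
      have h1 := hf.2.1 _ hT z
      have h2 : ModularGroup.T ^ N • z = ((N : ℝ)) +ᵥ z := by
        have := modular_T_zpow_smul z (N : ℤ)
        simpa using this
      rw [h2] at h1
      exact h1
    exact periodic_of_vadd this
  · obtain ⟨m, hm⟩ := hf.2.2 1
    exact ⟨m, by simpa using hm⟩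

/-- For normal `Γ`, every `SL(2,ℤ)`-translate of an element of `WH Γ` is `N`-periodic and
meromorphic at `i∞`. -/
theorem IsPerMero.of_isWH_smul {Γ : Subgroup SL(2, ℤ)} [Γ.Normal] (hT : ModularGroup.T ^ N ∈ Γ)
    (hf : IsWH Γ f) (δ : SL(2, ℤ)) : IsPerMero N (fun z => f (δ • z)) :=
  IsPerMero.of_isWH hT (hf.comp_smul δ)

lemma one_mem_strictPeriods_SL : (1 : ℝ) ∈ (𝒮ℒ : Subgroup (GL (Fin 2) ℝ)).strictPeriods := by
  simp

lemma isPerMero_of_modularForm (N : ℕ) {k : ℤ} (F : ModularForm 𝒮ℒ k) :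
    IsPerMero N (F : ℍ → ℂ) := by
  refine IsPerMero.of_bounded F.holo' ?_ (ModularFormClass.bdd_at_infty F)
  have h1 : Periodic ((F : ℍ → ℂ) ∘ ofComplex) ((1 : ℝ) : ℂ) :=
    SlashInvariantFormClass.periodic_comp_ofComplex F one_mem_strictPeriods_SL
  have := h1.nat_mul N
  simpa using this

theorem cuspOrd_E₄ (hN : 0 < N) : cuspOrd N (E₄ : ℍ → ℂ) = 0 :=
  (cuspOrd_eq_zero_iff hN (isPerMero_of_modularForm N E₄)).mpr
    ⟨1, one_ne_zero, LevelOnePoly.tendsto_E₄_atImInfty⟩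

lemma isPerMero_jInv (N : ℕ) : IsPerMero N jInv :=
  IsPerMero.of_isWH (Γ := ⊤) (Subgroup.mem_top _) (isWH_jInv ⊤)

/-- `j` has a pole of order `N` in the parameter `q_N`. -/
theorem cuspOrd_jInv (hN : 0 < N) : cuspOrd N jInv = ((-(N : ℤ) : ℤ) : WithTop ℤ) := by
  have hΔ : IsPerMero N (Δ : ℍ → ℂ) := by
    have := IsPerMero.discriminant_pow N 1
    simpa using this
  have hE := isPerMero_of_modularForm N E₄
  have h1 : jInv * (Δ : ℍ → ℂ) = (E₄ : ℍ → ℂ) * ((E₄ : ℍ → ℂ) * (E₄ : ℍ → ℂ)) := by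
    ext z
    simp only [Pi.mul_apply]
    rw [jInv_mul_discriminant]
    ring
  have h2 := congrArg (cuspOrd N) h1
  rw [cuspOrd_mul hN (isPerMero_jInv N) hΔ, cuspOrd_mul hN hE (hE.mul hE), cuspOrd_mul hN hE hE,
    cuspOrd_E₄ hN, cuspOrd_discriminant hN] at h2
  cases hj : cuspOrd N jInv with
  | top => rw [hj] at h2; simp at h2
  | coe a =>
    rw [hj] at h2
    have h3 : ((a + (N : ℤ) : ℤ) : WithTop ℤ) = ((0 : ℤ) : WithTop ℤ) := by
      rw [WithTop.coe_add]; simpa using h2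
    have h4 : a + (N : ℤ) = 0 := by exact_mod_cast h3
    have : a = -(N : ℤ) := by omega
    rw [this]

end WHPer

/-! ### Change of level and translations -/

section Level

variable {w k : ℕ} {f : ℍ → ℂ}

lemma qParam_pow_level (hw : 0 < w) (hk : 0 < k) (z : ℂ) :
    (𝕢 ((w * k : ℕ) : ℝ) z) ^ k = 𝕢 (w : ℝ) z := by
  simp only [Periodic.qParam]
  rw [← Complex.exp_nat_mul]
  congr 1
  have h1 : (w : ℂ) ≠ 0 := by exact_mod_cast hw.ne'
  have h2 : (k : ℂ) ≠ 0 := by exact_mod_cast hk.ne'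
  push_cast
  field_simp

/-- The cusp function at level `w * k` is the cusp function at level `w` composed with
`q ↦ q ^ k`. -/
theorem cuspFunction_level (hw : 0 < w) (hk : 0 < k) (hper : Periodic (f ∘ ofComplex) (w : ℝ))
    {q : ℂ} (hq : q ≠ 0) (hq1 : ‖q‖ < 1) :
    cuspFunction ((w * k : ℕ) : ℝ) f q = cuspFunction (w : ℝ) f (q ^ k) := by
  have hwk : 0 < w * k := Nat.mul_pos hw hk
  rw [cuspFunction_apply (w * k) f hq, ← cuspFunction_qParam hw hper (pt (w * k) q),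
    ← qParam_pow_level hw hk, qParam_pt hwk hq hq1]

lemma IsPerMero.of_dvd (hf : IsPerMero w f) (k : ℕ) : IsPerMero (w * k) f := by
  refine ⟨hf.mdiff, ?_, hf.mero⟩
  have := hf.periodic.nat_mul k
  have e : ((k : ℂ) * ((w : ℝ) : ℂ)) = (((w * k : ℕ) : ℝ) : ℂ) := by
    push_cast; ring
  rwa [e] at this

/-- **Change of level**: the order in `q_{wk}` is `k` times the order in `q_w`. -/
theorem cuspOrd_level (hw : 0 < w) (hk : 0 < k) (hf : IsPerMero w f) :
    cuspOrd (w * k) f = cuspOrd w f * (k : ℤ) := by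
  have hF := meromorphicAt_cuspFunction hw hf
  have h0 : (0 : ℂ) ^ k = 0 := zero_pow hk.ne'
  have hF' : MeromorphicAt (cuspFunction (w : ℝ) f) ((fun q : ℂ => q ^ k) 0) := by
    simpa [h0] using hF
  have hg : AnalyticAt ℂ (fun q : ℂ => q ^ k) 0 := by fun_prop
  have hord : analyticOrderAt (fun q : ℂ => (fun q : ℂ => q ^ k) q - (fun q : ℂ => q ^ k) 0) 0
      = (k : ℕ∞) := by
    have e : (fun q : ℂ => (fun q : ℂ => q ^ k) q - (fun q : ℂ => q ^ k) 0)
        = ((· - (0 : ℂ)) ^ k) := by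
      ext q; simp [h0]
    rw [e, analyticOrderAt_centeredMonomial]
  have hnc : ¬ EventuallyConst (fun q : ℂ => q ^ k) (𝓝 0) := by
    rw [eventuallyConst_iff_analyticOrderAt_sub_eq_top, hord]
    exact ENat.natCast_ne_top k
  have hcomp := MeromorphicAt.meromorphicOrderAt_comp (f := cuspFunction (w : ℝ) f)
    (g := fun q : ℂ => q ^ k) hF' hg hnc
  rw [hord] at hcomp
  have hcongr : cuspFunction ((w * k : ℕ) : ℝ) f =ᶠ[𝓝[≠] 0]
      (cuspFunction (w : ℝ) f ∘ fun q : ℂ => q ^ k) := by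
    filter_upwards [eventually_norm_lt_one] with q hq
    exact cuspFunction_level hw hk hf.periodic hq.1 hq.2
  rw [cuspOrd, meromorphicOrderAt_congr hcongr, hcomp]
  simp only [h0, cuspOrd]
  rfl

end Level

section Translate

variable {N : ℕ} {f : ℍ → ℂ}

/-- The cusp function of a real translate. -/
theorem cuspFunction_vadd (hN : 0 < N) (hper : Periodic (f ∘ ofComplex) (N : ℝ)) (a : ℝ)
    {q : ℂ} (hq : q ≠ 0) (hq1 : ‖q‖ < 1) :
    cuspFunction (N : ℝ) (fun z : ℍ => f (a +ᵥ z)) q =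
      cuspFunction (N : ℝ) f (𝕢 (N : ℝ) (a : ℂ) * q) := by
  rw [cuspFunction_apply N _ hq, ← cuspFunction_qParam hN hper (a +ᵥ pt N q)]
  congr 1
  have h1 : ((a +ᵥ pt N q : ℍ) : ℂ) = (a : ℂ) + ((pt N q : ℍ) : ℂ) := by simp
  rw [h1]
  have h2 : 𝕢 (N : ℝ) ((a : ℂ) + ((pt N q : ℍ) : ℂ)) =
      𝕢 (N : ℝ) (a : ℂ) * 𝕢 (N : ℝ) ((pt N q : ℍ) : ℂ) := by
    simp only [Periodic.qParam]
    rw [← Complex.exp_add]
    congr 1
    ring
  rw [h2, qParam_pt hN hq hq1]

lemma tendsto_vadd_atImInfty (a : ℝ) : Tendsto (fun z : ℍ => a +ᵥ z) atImInfty atImInfty := by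
  rw [atImInfty, tendsto_comap_iff]
  have : (UpperHalfPlane.im ∘ fun z : ℍ => a +ᵥ z) = UpperHalfPlane.im := by
    ext z; simp
  rw [this]
  exact tendsto_comap

lemma discriminant_vadd_int (k : ℤ) (z : ℍ) : Δ (((k : ℝ)) +ᵥ z) = Δ z := by
  have h1 : Periodic ((Δ : ℍ → ℂ) ∘ ofComplex) ((1 : ℝ) : ℂ) := by
    have := periodic_discriminant 1
    simpa using this
  have h2 := h1.int_mul k
  have e : ((k : ℂ) * ((1 : ℝ) : ℂ)) = (((k : ℝ)) : ℂ) := by push_cast; ring
  rw [e] at h2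
  exact vadd_of_periodic h2 z

lemma T_zpow_smul (k : ℤ) (z : ℍ) : ModularGroup.T ^ k • z = ((k : ℝ)) +ᵥ z :=
  modular_T_zpow_smul z k

/-- Translates by powers of `T` stay periodic and meromorphic at `i∞`. -/
lemma IsPerMero.comp_T_zpow (hf : IsPerMero N f) (k : ℤ) :
    IsPerMero N (fun z : ℍ => f (ModularGroup.T ^ k • z)) := by
  refine ⟨mdiff_comp_smul hf.mdiff (ModularGroup.T ^ k), ?_, ?_⟩
  · apply periodic_of_vadd
    intro z
    rw [T_zpow_smul, T_zpow_smul]
    have := vadd_of_periodic hf.periodic (((k : ℝ)) +ᵥ z)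
    rw [← this]
    congr 1
    ext
    simp
    ring
  · obtain ⟨m, hm⟩ := hf.mero
    refine ⟨m, ?_⟩
    have := hm.comp_tendsto (tendsto_vadd_atImInfty (k : ℝ))
    refine this.congr' (Eventually.of_forall fun z => ?_) (EventuallyEq.refl _ _)
    simp only [Function.comp_apply]
    rw [T_zpow_smul, discriminant_vadd_int]

/-- **Translation invariance** of the cusp order. -/
theorem cuspOrd_comp_T_zpow (hN : 0 < N) (hf : IsPerMero N f) (k : ℤ) :
    cuspOrd N (fun z : ℍ => f (ModularGroup.T ^ k • z)) = cuspOrd N f := by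
  set ζ : ℂ := 𝕢 (N : ℝ) (((k : ℝ)) : ℂ) with hζ
  have hζ0 : ζ ≠ 0 := Periodic.qParam_ne_zero _
  have hcongr : cuspFunction (N : ℝ) (fun z : ℍ => f (ModularGroup.T ^ k • z)) =ᶠ[𝓝[≠] 0]
      (cuspFunction (N : ℝ) f ∘ fun q : ℂ => ζ * q) := by
    filter_upwards [eventually_norm_lt_one] with q hq
    have e : (fun z : ℍ => f (ModularGroup.T ^ k • z)) = fun z : ℍ => f (((k : ℝ)) +ᵥ z) := by
      ext z; rw [T_zpow_smul]
    rw [e, cuspFunction_vadd hN hf.periodic (k : ℝ) hq.1 hq.2]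
    rfl
  have hg : AnalyticAt ℂ (fun q : ℂ => ζ * q) 0 := by fun_prop
  have hg' : deriv (fun q : ℂ => ζ * q) 0 ≠ 0 := by
    have : deriv (fun q : ℂ => ζ * q) 0 = ζ := by
      simp
    rw [this]; exact hζ0
  rw [cuspOrd, meromorphicOrderAt_congr hcongr,
    meromorphicOrderAt_comp_of_deriv_ne_zero (f := cuspFunction (N : ℝ) f) hg hg']
  simp only [mul_zero]
  rfl

end Translate

/-! ### From additive orders to `ℤᵐ⁰`-valued valuations -/

section ToVal

/-- `⊤ ↦ 0`, `n ↦ exp (-n)`. -/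
noncomputable def toVal (a : WithTop ℤ) : ℤᵐ⁰ :=
  a.recTopCoe 0 (fun n => WithZero.exp (-n))

@[simp] lemma toVal_top : toVal ⊤ = 0 := rfl

@[simp] lemma toVal_coe (n : ℤ) : toVal (n : WithTop ℤ) = WithZero.exp (-n) := rfl

@[simp] lemma toVal_zero : toVal 0 = 1 := by
  have : (0 : WithTop ℤ) = ((0 : ℤ) : WithTop ℤ) := rfl
  rw [this, toVal_coe]
  simp

lemma toVal_add (a b : WithTop ℤ) : toVal (a + b) = toVal a * toVal b := by
  cases a with
  | top => simp
  | coe m =>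
    cases b with
    | top => simp
    | coe n =>
      rw [← WithTop.coe_add, toVal_coe, toVal_coe, toVal_coe, neg_add, WithZero.exp_add]

lemma toVal_eq_zero_iff (a : WithTop ℤ) : toVal a = 0 ↔ a = ⊤ := by
  cases a with
  | top => simp
  | coe m => simp

lemma toVal_le_toVal_iff (a b : WithTop ℤ) : toVal a ≤ toVal b ↔ b ≤ a := by
  cases a with
  | top => simp
  | coe m =>
    cases b with
    | top => simp [toVal_coe]
    | coe n =>
      rw [toVal_coe, toVal_coe, WithZero.exp_le_exp, neg_le_neg_iff]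
      exact WithTop.coe_le_coe.symm

lemma toVal_lt_toVal_iff (a b : WithTop ℤ) : toVal a < toVal b ↔ b < a := by
  rw [lt_iff_not_ge, toVal_le_toVal_iff, not_le]

lemma toVal_le_one_iff (a : WithTop ℤ) : toVal a ≤ 1 ↔ 0 ≤ a := by
  rw [← toVal_zero, toVal_le_toVal_iff]

lemma toVal_lt_one_iff (a : WithTop ℤ) : toVal a < 1 ↔ 0 < a := by
  rw [← toVal_zero, toVal_lt_toVal_iff]

lemma toVal_min (a b : WithTop ℤ) : toVal (min a b) = max (toVal a) (toVal b) := by
  rcases le_total a b with h | h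
  · rw [min_eq_left h, max_eq_left ((toVal_le_toVal_iff _ _).mpr h)]
  · rw [min_eq_right h, max_eq_right ((toVal_le_toVal_iff _ _).mpr h)]

end ToVal

/-! ### The valuation on `WH Γ` -/

section Val

variable {N : ℕ} (hN : 0 < N) (Γ : Subgroup SL(2, ℤ)) (hT : ModularGroup.T ^ N ∈ Γ)

lemma WH.isPerMero (hT : ModularGroup.T ^ N ∈ Γ) (f : WH Γ) : IsPerMero N (f : ℍ → ℂ) :=
  IsPerMero.of_isWH hT f.2

/-- The valuation of `WH Γ` at the cusp `i∞`, normalised by the parameter `q_N`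
(`T ^ N ∈ Γ`): `cuspVal f = exp (- ord_{q_N} f)`. -/
noncomputable def cuspVal : Valuation (WH Γ) ℤᵐ⁰ where
  toFun f := toVal (cuspOrd N (f : ℍ → ℂ))
  map_zero' := by
    show toVal (cuspOrd N (0 : ℍ → ℂ)) = 0
    rw [cuspOrd_zero, toVal_top]
  map_one' := by
    show toVal (cuspOrd N (1 : ℍ → ℂ)) = 1
    have : (1 : ℍ → ℂ) = fun _ => (1 : ℂ) := rfl
    rw [this, cuspOrd_const N one_ne_zero, toVal_zero]
  map_mul' f g := by
    show toVal (cuspOrd N ((f : ℍ → ℂ) * (g : ℍ → ℂ))) = _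
    rw [cuspOrd_mul hN (WH.isPerMero Γ hT f) (WH.isPerMero Γ hT g), toVal_add]
  map_add_le_max' f g := by
    show toVal (cuspOrd N ((f : ℍ → ℂ) + (g : ℍ → ℂ))) ≤ _
    rw [← toVal_min, toVal_le_toVal_iff]
    exact cuspOrd_add hN (WH.isPerMero Γ hT f) (WH.isPerMero Γ hT g)

lemma cuspVal_apply (f : WH Γ) : cuspVal hN Γ hT f = toVal (cuspOrd N (f : ℍ → ℂ)) := rfl

theorem cuspVal_le_one_iff (f : WH Γ) :
    cuspVal hN Γ hT f ≤ 1 ↔ IsBoundedAtImInfty (f : ℍ → ℂ) := by
  rw [cuspVal_apply, toVal_le_one_iff, cuspOrd_nonneg_iff hN (WH.isPerMero Γ hT f)]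

theorem cuspVal_lt_one_iff (f : WH Γ) :
    cuspVal hN Γ hT f < 1 ↔ IsZeroAtImInfty (f : ℍ → ℂ) := by
  rw [cuspVal_apply, toVal_lt_one_iff, cuspOrd_pos_iff hN (WH.isPerMero Γ hT f)]

theorem cuspVal_jWH : cuspVal hN Γ hT (jWH Γ) = WithZero.exp (N : ℤ) := by
  rw [cuspVal_apply]
  show toVal (cuspOrd N jInv) = _
  rw [cuspOrd_jInv hN, toVal_coe, neg_neg]

theorem cuspVal_algebraMap {c : ℂ} (hc : c ≠ 0) :
    cuspVal hN Γ hT (algebraMap ℂ (WH Γ) c) = 1 := by
  rw [cuspVal_apply]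
  show toVal (cuspOrd N (fun _ : ℍ => c)) = 1
  rw [cuspOrd_const N hc, toVal_zero]

theorem cuspVal_eq_zero_iff (f : WH Γ) : cuspVal hN Γ hT f = 0 ↔ f = 0 := by
  rw [cuspVal_apply, toVal_eq_zero_iff, cuspOrd_eq_top_iff hN (WH.isPerMero Γ hT f)]
  constructor
  · intro h; exact Subtype.ext h
  · intro h; rw [h]; rfl

/-- Extension of the cusp valuation to a fraction field of `WH Γ`. -/
noncomputable def cuspValFrac (K : Type*) [Field K] [Algebra (WH Γ) K]
    [IsFractionRing (WH Γ) K] : Valuation K ℤᵐ⁰ :=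
  (cuspVal hN Γ hT).extendToLocalization (S := nonZeroDivisors (WH Γ))
    (fun x hx hx0 => nonZeroDivisors.ne_zero hx
      ((cuspVal_eq_zero_iff hN Γ hT x).mp hx0)) K

@[simp] theorem cuspValFrac_algebraMap (K : Type*) [Field K] [Algebra (WH Γ) K]
    [IsFractionRing (WH Γ) K] (f : WH Γ) :
    cuspValFrac hN Γ hT K (algebraMap (WH Γ) K f) = cuspVal hN Γ hT f :=
  Valuation.extendToLocalization_apply_map_apply _ _ K f

/-! #### The other cusps: conjugates under `SL(2,ℤ)` (for normal `Γ`) -/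

variable [Γ.Normal]

/-- The valuation at the cusp `δ • i∞`: `f ↦ ord_{q_N} (f (δ • ·))`. -/
noncomputable def cuspValAt (δ : SL(2, ℤ)) : Valuation (WH Γ) ℤᵐ⁰ :=
  (cuspVal hN Γ hT).comap (MulSemiringAction.toRingHom SL(2, ℤ) (WH Γ) δ⁻¹)

theorem cuspValAt_apply (δ : SL(2, ℤ)) (f : WH Γ) :
    cuspValAt hN Γ hT δ f = toVal (cuspOrd N (fun z : ℍ => (f : ℍ → ℂ) (δ • z))) := by
  show toVal (cuspOrd N (((δ⁻¹ • f : WH Γ) : ℍ → ℂ))) = _
  congr 2
  ext z
  rw [WH.smul_apply, inv_inv]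

theorem cuspValAt_one : cuspValAt hN Γ hT 1 = cuspVal hN Γ hT := by
  ext f
  rw [cuspValAt_apply, cuspVal_apply]
  simp

/-- Equivariance: `v_δ (σ • f) = v_{σ⁻¹ δ} f`. -/
theorem cuspValAt_smul (δ σ : SL(2, ℤ)) (f : WH Γ) :
    cuspValAt hN Γ hT δ (σ • f) = cuspValAt hN Γ hT (σ⁻¹ * δ) f := by
  rw [cuspValAt_apply, cuspValAt_apply]
  congr 2
  ext z
  rw [WH.smul_apply, mul_smul]

/-- The valuation at `δ • i∞` only depends on the coset `δ ⟨T⟩`. -/
theorem cuspValAt_mul_T_zpow (δ : SL(2, ℤ)) (k : ℤ) :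
    cuspValAt hN Γ hT (δ * ModularGroup.T ^ k) = cuspValAt hN Γ hT δ := by
  ext f
  rw [cuspValAt_apply, cuspValAt_apply]
  have h := cuspOrd_comp_T_zpow hN (IsPerMero.of_isWH_smul hT f.2 δ) k
  rw [← h]
  congr 2
  ext z
  rw [mul_smul]

/-- The valuation at `δ • i∞` only depends on the coset `Γ δ`. -/
theorem cuspValAt_mul_of_mem {γ : SL(2, ℤ)} (hγ : γ ∈ Γ) (δ : SL(2, ℤ)) :
    cuspValAt hN Γ hT (γ * δ) = cuspValAt hN Γ hT δ := by
  ext f
  rw [cuspValAt_apply, cuspValAt_apply]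
  congr 2
  ext z
  rw [mul_smul]
  exact f.2.2.1 γ hγ _

theorem cuspValAt_neg (δ : SL(2, ℤ)) : cuspValAt hN Γ hT (-δ) = cuspValAt hN Γ hT δ := by
  ext f
  rw [cuspValAt_apply, cuspValAt_apply]
  congr 2
  ext z
  rw [ModularGroup.SL_neg_smul]

theorem cuspValAt_jWH (δ : SL(2, ℤ)) : cuspValAt hN Γ hT δ (jWH Γ) = WithZero.exp (N : ℤ) := by
  rw [cuspValAt_apply]
  have : (fun z : ℍ => ((jWH Γ : WH Γ) : ℍ → ℂ) (δ • z)) = jInv := by
    ext z
    exact jInv_smul δ z
  rw [this, cuspOrd_jInv hN, toVal_coe, neg_neg]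

theorem cuspValAt_le_one_iff (δ : SL(2, ℤ)) (f : WH Γ) :
    cuspValAt hN Γ hT δ f ≤ 1 ↔ IsBoundedAtImInfty (fun z : ℍ => (f : ℍ → ℂ) (δ • z)) := by
  rw [cuspValAt_apply, toVal_le_one_iff,
    cuspOrd_nonneg_iff hN (IsPerMero.of_isWH_smul hT f.2 δ)]

theorem cuspValAt_lt_one_iff (δ : SL(2, ℤ)) (f : WH Γ) :
    cuspValAt hN Γ hT δ f < 1 ↔ IsZeroAtImInfty (fun z : ℍ => (f : ℍ → ℂ) (δ • z)) := by
  rw [cuspValAt_apply, toVal_lt_one_iff,
    cuspOrd_pos_iff hN (IsPerMero.of_isWH_smul hT f.2 δ)]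

end Val

end Fermat.Agent.M2.CuspVal
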