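import Fermat.Agent.M2.GaloisSetup
import Fermat.Agent.M2.CuspVal
import Fermat.Agent.M2.GaloisDescent

set_option autoImplicit false

/-!
# M2 / III.e + V.4: the cusp valuations on `K = WHField (Gamma0 N)`

For `δ : SL(2,ℤ)` the valuation `cuspValK N δ` on `K = WHField (Gamma0 N)` is the order at the cusp
`δ • i∞`, measured in the parameter `q_N` of the full level `Γ(N)`:
`cuspValK N δ a = toVal (cuspOrd N (a ∘ (δ • ·)))` for `a : WH (Gamma0 N)`.

* `cuspValL N` : the valuation at `i∞` on `L = WHField (Gamma N)`;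
* `cuspValWH N δ`, `cuspValK N δ` : the valuation at `δ • i∞` on `WH (Gamma0 N)` / on `K`;
* `cuspValK_algebraMap` : the value on `WH (Gamma0 N)`;
* `resVal_cuspValL` / `cuspValK_apply` : `cuspValK N δ` is the restriction to `K` of the
  `δ`-conjugate of `cuspValL N` (the shape produced by `GaloisDescent`).
-/

namespace Fermat.Agent.M2.CuspValK

open UpperHalfPlane MatrixGroups CongruenceSubgroup WithZero
open Fermat.Agent.M2.CuspVal

variable (N : ℕ)

lemma T_pow_mem_Gamma : ModularGroup.T ^ N ∈ Gamma N := by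
  have := ModularGroup_T_pow_mem_Gamma (N : ℤ) (N : ℤ) dvd_rfl
  simpa using this

variable [NeZero N]

/-- The valuation at the cusp `i∞` on `L = WHField (Gamma N)`. -/
noncomputable def cuspValL : Valuation (WHField (Gamma N)) ℤᵐ⁰ :=
  cuspValFrac (NeZero.pos N) (Gamma N) (T_pow_mem_Gamma N) (WHField (Gamma N))

theorem cuspValL_algebraMap (f : WH (Gamma N)) :
    cuspValL N (algebraMap (WH (Gamma N)) (WHField (Gamma N)) f) =
      toVal (cuspOrd N (f : ℍ → ℂ)) := by
  rw [cuspValL, cuspValFrac_algebraMap, cuspVal_apply]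

/-- The valuation at the cusp `δ • i∞` on `WH (Gamma0 N)`. -/
noncomputable def cuspValWH (δ : SL(2, ℤ)) : Valuation (WH (Gamma0 N)) ℤᵐ⁰ :=
  (cuspValAt (NeZero.pos N) (Gamma N) (T_pow_mem_Gamma N) δ).comap
    (algebraMap (WH (Gamma0 N)) (WH (Gamma N)))

theorem cuspValWH_apply (δ : SL(2, ℤ)) (a : WH (Gamma0 N)) :
    cuspValWH N δ a = toVal (cuspOrd N (fun z : ℍ => (a : ℍ → ℂ) (δ • z))) := by
  rw [cuspValWH, Valuation.comap_apply, cuspValAt_apply]
  rfl

theorem cuspValWH_eq_zero_iff (δ : SL(2, ℤ)) (a : WH (Gamma0 N)) :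
    cuspValWH N δ a = 0 ↔ a = 0 := by
  rw [cuspValWH_apply, toVal_eq_zero_iff]
  have hper : IsPerMero N (fun z : ℍ => (a : ℍ → ℂ) (δ • z)) :=
    IsPerMero.of_isWH_smul (Γ := Gamma N) (T_pow_mem_Gamma N)
      (WH_le (Gamma_le_Gamma0 N) a.2) δ
  rw [cuspOrd_eq_top_iff (NeZero.pos N) hper]
  constructor
  · intro h
    apply WH.ext
    intro z
    have := congrFun h (δ⁻¹ • z)
    simpa using this
  · intro h
    rw [h]
    rfl

/-- The valuation at the cusp `δ • i∞` on `K = WHField (Gamma0 N)`. -/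
noncomputable def cuspValK (δ : SL(2, ℤ)) : Valuation (WHField (Gamma0 N)) ℤᵐ⁰ :=
  (cuspValWH N δ).extendToLocalization (S := nonZeroDivisors (WH (Gamma0 N)))
    (fun x hx hx0 => nonZeroDivisors.ne_zero hx ((cuspValWH_eq_zero_iff N δ x).mp hx0))
    (WHField (Gamma0 N))

theorem cuspValK_algebraMap' (δ : SL(2, ℤ)) (a : WH (Gamma0 N)) :
    cuspValK N δ (algebraMap (WH (Gamma0 N)) (WHField (Gamma0 N)) a) = cuspValWH N δ a :=
  Valuation.extendToLocalization_apply_map_apply _ _ (WHField (Gamma0 N)) a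

/-- The value of `cuspValK N δ` on `WH (Gamma0 N)`. -/
theorem cuspValK_algebraMap (δ : SL(2, ℤ)) (a : WH (Gamma0 N)) :
    cuspValK N δ (algebraMap (WH (Gamma0 N)) (WHField (Gamma0 N)) a) =
      toVal (cuspOrd N (fun z : ℍ => (a : ℍ → ℂ) (δ • z))) := by
  rw [cuspValK_algebraMap', cuspValWH_apply]

/-- Same statement with `K` written as `FractionRing (WH (Gamma0 N))` (the shape of
`HoloRange.range_toK_eq`). -/
theorem cuspValK_algebraMap_fractionRing (δ : SL(2, ℤ)) (a : WH (Gamma0 N)) :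
    (cuspValK N δ : Valuation (FractionRing (WH (Gamma0 N))) ℤᵐ⁰)
        (algebraMap (WH (Gamma0 N)) (FractionRing (WH (Gamma0 N))) a) =
      toVal (cuspOrd N (fun z : ℍ => (a : ℍ → ℂ) (δ • z))) :=
  cuspValK_algebraMap N δ a

theorem smul_algebraMap_WHField (Γ : Subgroup SL(2, ℤ)) [Γ.Normal] (g : Geff Γ) (f : WH Γ) :
    g • algebraMap (WH Γ) (WHField Γ) f = algebraMap (WH Γ) (WHField Γ) (g • f) := by
  rw [Algebra.algebraMap_eq_smul_one, Algebra.algebraMap_eq_smul_one, smul_distrib_smul, smul_one]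

/-- `cuspValK N δ` is the restriction to `K` of the `δ`-conjugate of the valuation at `i∞`
on `L`. -/
theorem cuspValK_apply (δ : SL(2, ℤ)) (x : WHField (Gamma0 N)) :
    cuspValK N δ x =
      cuspValL N ((piG (Gamma N) δ)⁻¹ •
        algebraMap (WHField (Gamma0 N)) (WHField (Gamma N)) x) := by
  obtain ⟨a, b, hb, rfl⟩ := IsFractionRing.div_surjective (A := WH (Gamma0 N)) x
  rw [map_div₀, map_div₀, smul_div₀', map_div₀,
    ← IsScalarTower.algebraMap_apply (WH (Gamma0 N)) (WHField (Gamma0 N)) (WHField (Gamma N)),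
    ← IsScalarTower.algebraMap_apply (WH (Gamma0 N)) (WHField (Gamma0 N)) (WHField (Gamma N)),
    IsScalarTower.algebraMap_apply (WH (Gamma0 N)) (WH (Gamma N)) (WHField (Gamma N)),
    IsScalarTower.algebraMap_apply (WH (Gamma0 N)) (WH (Gamma N)) (WHField (Gamma N)),
    smul_algebraMap_WHField, smul_algebraMap_WHField, cuspValL_algebraMap, cuspValL_algebraMap,
    cuspValK_algebraMap, cuspValK_algebraMap, ← map_inv, piG_smul, piG_smul]
  congr 3 <;>
  · ext z
    rw [WH.smul_apply, inv_inv]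
    rfl

/-- The same in the `GaloisDescent.resVal` shape. -/
theorem resVal_cuspValL (δ : SL(2, ℤ)) :
    GaloisPlaces.resVal (WHField (Gamma0 N)) (cuspValL N) (piG (Gamma N) δ) = cuspValK N δ := by
  ext x
  rw [GaloisPlaces.resVal_apply, cuspValK_apply]

/-- Dependence on `δ`: right multiplication by powers of `T` does not change the valuation. -/
theorem cuspValK_mul_T_zpow (δ : SL(2, ℤ)) (k : ℤ) :
    cuspValK N (δ * ModularGroup.T ^ k) = cuspValK N δ := by
  ext x
  obtain ⟨a, b, hb, rfl⟩ := IsFractionRing.div_surjective (A := WH (Gamma0 N)) x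
  rw [map_div₀, map_div₀, cuspValK_algebraMap', cuspValK_algebraMap', cuspValK_algebraMap',
    cuspValK_algebraMap', cuspValWH, cuspValWH, cuspValAt_mul_T_zpow]

/-- Dependence on `δ`: left multiplication by `Γ₀(N)` does not change the valuation. -/
theorem cuspValK_mul_of_mem {γ : SL(2, ℤ)} (hγ : γ ∈ Gamma0 N) (δ : SL(2, ℤ)) :
    cuspValK N (γ * δ) = cuspValK N δ := by
  ext x
  obtain ⟨a, b, hb, rfl⟩ := IsFractionRing.div_surjective (A := WH (Gamma0 N)) x
  have key : ∀ c : WH (Gamma0 N),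
      (fun z : ℍ => (c : ℍ → ℂ) ((γ * δ) • z)) = fun z : ℍ => (c : ℍ → ℂ) (δ • z) := by
    intro c
    ext z
    rw [mul_smul]
    exact c.2.2.1 γ hγ _
  rw [map_div₀, map_div₀, cuspValK_algebraMap, cuspValK_algebraMap, cuspValK_algebraMap,
    cuspValK_algebraMap, key a, key b]

theorem cuspValK_neg (δ : SL(2, ℤ)) : cuspValK N (-δ) = cuspValK N δ := by
  ext x
  obtain ⟨a, b, hb, rfl⟩ := IsFractionRing.div_surjective (A := WH (Gamma0 N)) x
  rw [map_div₀, map_div₀, cuspValK_algebraMap', cuspValK_algebraMap', cuspValK_algebraMap',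
    cuspValK_algebraMap', cuspValWH, cuspValWH, cuspValAt_neg]

/-- The value on `j`. -/
theorem cuspValK_jWH (δ : SL(2, ℤ)) :
    cuspValK N δ (algebraMap (WH (Gamma0 N)) (WHField (Gamma0 N)) (jWH (Gamma0 N))) =
      WithZero.exp (N : ℤ) := by
  rw [cuspValK_algebraMap]
  have : (fun z : ℍ => ((jWH (Gamma0 N) : WH (Gamma0 N)) : ℍ → ℂ) (δ • z)) = jInv := by
    ext z
    exact jInv_smul δ z
  rw [this, cuspOrd_jInv (NeZero.pos N), toVal_coe, neg_neg]

/-- Nonzero constants have valuation one. -/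
theorem cuspValK_const (δ : SL(2, ℤ)) {c : ℂ} (hc : c ≠ 0) :
    cuspValK N δ (algebraMap ℂ (WHField (Gamma0 N)) c) = 1 := by
  rw [IsScalarTower.algebraMap_apply ℂ (WH (Gamma0 N)) (WHField (Gamma0 N)), cuspValK_algebraMap]
  have : (fun z : ℍ => ((algebraMap ℂ (WH (Gamma0 N)) c : WH (Gamma0 N)) : ℍ → ℂ) (δ • z)) =
      fun _ => c := by
    ext z
    rfl
  rw [this, cuspOrd_const N hc, toVal_zero]

end Fermat.Agent.M2.CuspValK
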