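import Mathlib

set_option autoImplicit false

/-!
# Double-coset bookkeeping (pure group theory)

For subgroups `H S` of a group `G`, the orbits of `H` on `G ⧸ S` are the double cosets `H \ G / S`.
We prove
* `card_orbits_symm`: `#(H-orbits on G ⧸ S) = #(S-orbits on G ⧸ H)`;
* `card_orbits_map`: for a surjective `π : G₀ →* G` and `H₀ S₀ ≤ G₀` with `ker π ≤ H₀`,
  `#(π H₀-orbits on G ⧸ π S₀) = #(H₀-orbits on G₀ ⧸ S₀)`;
* `card_orbits_map_symm`: the combination, in the form used for the places of `X₀(N)`.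
-/

namespace Fermat.Agent.M2.DC

open MulAction

/-- Two surjections with the same kernel relation have equinumerous targets. -/
theorem card_eq_of_surjective_of_iff {A B C : Type*} (f : A → B) (g : A → C)
    (hf : Function.Surjective f) (hg : Function.Surjective g)
    (h : ∀ a a' : A, f a = f a' ↔ g a = g a') : Nat.card B = Nat.card C := by
  have hker : Setoid.ker f = Setoid.ker g := by
    ext a a'
    exact h a a'
  have e1 : Quotient (Setoid.ker f) ≃ B := Setoid.quotientKerEquivOfSurjective f hf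
  have e2 : Quotient (Setoid.ker g) ≃ C := Setoid.quotientKerEquivOfSurjective g hg
  rw [← Nat.card_congr e1, ← Nat.card_congr e2, hker]

variable {G : Type*} [Group G]

/-- The class of `g` in `H \ G / S`, realised as the `H`-orbit of `g S`. -/
def toOrbit (H S : Subgroup G) (g : G) : orbitRel.Quotient H (G ⧸ S) :=
  Quotient.mk'' (g : G ⧸ S)

theorem toOrbit_surjective (H S : Subgroup G) : Function.Surjective (toOrbit H S) := by
  intro q
  induction q using Quotient.inductionOn' with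
  | _ x =>
    induction x using QuotientGroup.induction_on with
    | _ g => exact ⟨g, rfl⟩

theorem toOrbit_eq_iff (H S : Subgroup G) (g g' : G) :
    toOrbit H S g = toOrbit H S g' ↔ ∃ h ∈ H, ∃ s ∈ S, g = h * g' * s := by
  unfold toOrbit
  rw [Quotient.eq'']
  show (orbitRel H (G ⧸ S)) _ _ ↔ _
  rw [orbitRel_apply]
  constructor
  · rintro ⟨⟨h, hh⟩, hx⟩
    have hx' : ((h * g' : G) : G ⧸ S) = (g : G ⧸ S) := hx
    rw [QuotientGroup.eq] at hx'
    exact ⟨h, hh, (h * g')⁻¹ * g, hx', by group⟩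
  · rintro ⟨h, hh, s, hs, rfl⟩
    refine ⟨⟨h, hh⟩, ?_⟩
    show ((h * g' : G) : G ⧸ S) = ((h * g' * s : G) : G ⧸ S)
    rw [QuotientGroup.eq]
    have : (h * g')⁻¹ * (h * g' * s) = s := by group
    rw [this]
    exact hs

/-- `H \ G / S ≃ S \ G / H` by inversion. -/
theorem card_orbits_symm (H S : Subgroup G) :
    Nat.card (orbitRel.Quotient H (G ⧸ S)) = Nat.card (orbitRel.Quotient S (G ⧸ H)) := by
  refine card_eq_of_surjective_of_iff (toOrbit H S) (fun g => toOrbit S H g⁻¹)
    (toOrbit_surjective H S) ?_ ?_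
  · intro q
    obtain ⟨g, rfl⟩ := toOrbit_surjective S H q
    exact ⟨g⁻¹, by simp only [inv_inv]⟩
  · intro a a'
    rw [toOrbit_eq_iff, toOrbit_eq_iff]
    constructor
    · rintro ⟨h, hh, s, hs, rfl⟩
      exact ⟨s⁻¹, S.inv_mem hs, h⁻¹, H.inv_mem hh, by group⟩
    · rintro ⟨s, hs, h, hh, e⟩
      refine ⟨h⁻¹, H.inv_mem hh, s⁻¹, S.inv_mem hs, ?_⟩
      have : a = (a⁻¹)⁻¹ := (inv_inv a).symm
      rw [this, e]
      group

variable {G₀ : Type*} [Group G₀]

/-- Double cosets are unchanged under a quotient whose kernel lies in the left subgroup. -/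
theorem card_orbits_map (π : G₀ →* G) (hπ : Function.Surjective π) (H₀ S₀ : Subgroup G₀)
    (hker : π.ker ≤ H₀) :
    Nat.card (orbitRel.Quotient (H₀.map π) (G ⧸ S₀.map π)) =
      Nat.card (orbitRel.Quotient H₀ (G₀ ⧸ S₀)) := by
  refine card_eq_of_surjective_of_iff (fun g => toOrbit (H₀.map π) (S₀.map π) (π g))
    (toOrbit H₀ S₀) ?_ (toOrbit_surjective H₀ S₀) ?_
  · intro q
    obtain ⟨g, rfl⟩ := toOrbit_surjective _ _ q
    obtain ⟨g₀, rfl⟩ := hπ g
    exact ⟨g₀, rfl⟩
  · intro a a'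
    rw [toOrbit_eq_iff, toOrbit_eq_iff]
    constructor
    · rintro ⟨h, hh, s, hs, e⟩
      obtain ⟨h₀, hh₀, rfl⟩ := Subgroup.mem_map.mp hh
      obtain ⟨s₀, hs₀, rfl⟩ := Subgroup.mem_map.mp hs
      -- `a = k * (h₀ a' s₀)` with `k ∈ ker π ≤ H₀`
      have hk : a * (h₀ * a' * s₀)⁻¹ ∈ π.ker := by
        rw [MonoidHom.mem_ker, map_mul, map_inv, e, map_mul, map_mul, mul_inv_cancel]
      refine ⟨a * (h₀ * a' * s₀)⁻¹ * h₀, H₀.mul_mem (hker hk) hh₀, s₀, hs₀, ?_⟩
      group
    · rintro ⟨h, hh, s, hs, rfl⟩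
      exact ⟨π h, Subgroup.mem_map_of_mem π hh, π s, Subgroup.mem_map_of_mem π hs, by
        simp only [map_mul]⟩

/-- The form used for the places of `X₀(N)`: orbits of `π(H₀)` on `G ⧸ π(S₀)` are counted by the
orbits of `S₀` on `G₀ ⧸ H₀`. -/
theorem card_orbits_map_symm (π : G₀ →* G) (hπ : Function.Surjective π) (H₀ S₀ : Subgroup G₀)
    (hker : π.ker ≤ H₀) :
    Nat.card (orbitRel.Quotient (H₀.map π) (G ⧸ S₀.map π)) =
      Nat.card (orbitRel.Quotient S₀ (G₀ ⧸ H₀)) := by
  rw [card_orbits_map π hπ H₀ S₀ hker, card_orbits_symm]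

/-- Index is unchanged under a quotient whose kernel lies in the subgroup. -/
theorem index_map_of_ker_le (π : G₀ →* G) (hπ : Function.Surjective π) (H₀ : Subgroup G₀)
    (hker : π.ker ≤ H₀) : (H₀.map π).index = H₀.index :=
  Subgroup.index_map_eq H₀ hπ hker

end Fermat.Agent.M2.DC
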