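import Mathlib

/-!
# M2 / I.5: elliptic points of `SL(2,ℤ)`

Packaging of Mathlib's fundamental-domain lemmas (`ModularGroup.stabilizer_I`, `stabilizer_ρ`,
`stabilizer_of_ne`): stabilisers in `SL(2,ℤ)` of points of the upper half plane.
-/

namespace Fermat.Agent.M2.Elliptic

open UpperHalfPlane ModularGroup MulAction
open scoped MatrixGroups Modular

/-- `-1` acts trivially. -/
theorem neg_one_smul_eq (z : ℍ) : (-1 : SL(2, ℤ)) • z = z := by
  rw [SL_neg_smul, one_smul]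

theorem eq_of_conj_eq_one {γ g : SL(2, ℤ)} (h : γ * g * γ⁻¹ = 1) : g = 1 := by
  have : g = γ⁻¹ * (γ * g * γ⁻¹) * γ := by group
  rw [this, h]; group

theorem eq_of_conj_eq_neg_one {γ g : SL(2, ℤ)} (h : γ * g * γ⁻¹ = -1) : g = -1 := by
  have : g = γ⁻¹ * (γ * g * γ⁻¹) * γ := by group
  rw [this, h, mul_neg, mul_one, neg_mul, inv_mul_cancel]

/-- **Trichotomy**: every point of `ℍ` is `SL(2,ℤ)`-equivalent to `I`, or to `ρ`, or has
stabiliser `{±1}`. -/
theorem trichotomy (z : ℍ) :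
    (∃ γ : SL(2, ℤ), γ • z = I) ∨ (∃ γ : SL(2, ℤ), γ • z = ρ) ∨
      (∀ g : SL(2, ℤ), g • z = z → g = 1 ∨ g = -1) := by
  obtain ⟨γ, hγ⟩ := exists_smul_mem_fd z
  by_cases h1 : γ • z = I
  · exact Or.inl ⟨γ, h1⟩
  by_cases h2 : γ • z = ρ
  · exact Or.inr (Or.inl ⟨γ, h2⟩)
  by_cases h3 : γ • z = (1 : ℝ) +ᵥ ρ
  · refine Or.inr (Or.inl ⟨T⁻¹ * γ, ?_⟩)
    rw [mul_smul, h3, inv_smul_eq_iff, modular_T_smul]
  · refine Or.inr (Or.inr ?_)
    intro g hg
    have hfix : (γ * g * γ⁻¹) • (γ • z) = γ • z := by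
      rw [mul_smul, mul_smul, inv_smul_smul, hg]
    rcases stabilizer_of_ne hγ hfix h1 h2 h3 with h | h
    · exact Or.inl (eq_of_conj_eq_one h)
    · exact Or.inr (eq_of_conj_eq_neg_one h)

theorem S_sq : S ^ 2 = -1 := by decide

theorem S_pow_three : S ^ 3 = -S := by decide

theorem S_pow_four : S ^ 4 = 1 := by decide

theorem ST_sq : (S * T) ^ 2 = T⁻¹ * S := by decide

theorem ST_cube : (S * T) ^ 3 = -1 := by decide

theorem ST_pow_four : (S * T) ^ 4 = -(S * T) := by decide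

theorem ST_pow_five : (S * T) ^ 5 = -(T⁻¹ * S) := by decide

theorem ST_pow_six : (S * T) ^ 6 = 1 := by decide

theorem S_smul_I : S • I = I := stabilizer_I.2 (by simp)

theorem ST_smul_rho : (S * T) • ρ = ρ := stabilizer_ρ.2 (by simp)

/-- The stabiliser of `I` is the cyclic group of order four generated by `S`. -/
theorem stabilizer_I_eq : stabilizer SL(2, ℤ) I = Subgroup.zpowers S := by
  apply le_antisymm
  · intro g hg
    have := stabilizer_I.1 (mem_stabilizer_iff.1 hg)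
    simp only [Finset.mem_insert, Finset.mem_singleton] at this
    rcases this with rfl | rfl | rfl | rfl
    · exact one_mem _
    · rw [← S_sq]; exact Subgroup.pow_mem _ (Subgroup.mem_zpowers S) 2
    · exact Subgroup.mem_zpowers S
    · rw [← S_pow_three]; exact Subgroup.pow_mem _ (Subgroup.mem_zpowers S) 3
  · rw [Subgroup.zpowers_le]
    exact mem_stabilizer_iff.2 S_smul_I

/-- The stabiliser of `ρ` is the cyclic group of order six generated by `S * T`. -/
theorem stabilizer_rho_eq : stabilizer SL(2, ℤ) ρ = Subgroup.zpowers (S * T) := by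
  apply le_antisymm
  · intro g hg
    have := stabilizer_ρ.1 (mem_stabilizer_iff.1 hg)
    simp only [Finset.mem_insert, Finset.mem_singleton] at this
    have hmem := Subgroup.mem_zpowers (S * T)
    rcases this with rfl | rfl | rfl | rfl | rfl | rfl
    · exact one_mem _
    · rw [← ST_cube]; exact Subgroup.pow_mem _ hmem 3
    · exact hmem
    · rw [← ST_pow_four]; exact Subgroup.pow_mem _ hmem 4
    · rw [← ST_sq]; exact Subgroup.pow_mem _ hmem 2
    · rw [← ST_pow_five]; exact Subgroup.pow_mem _ hmem 5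
  · rw [Subgroup.zpowers_le]
    exact mem_stabilizer_iff.2 ST_smul_rho

theorem orderOf_S : orderOf S = 4 := by
  have h := orderOf_eq_prime_pow (x := S) (p := 2) (n := 1) (by decide) (by decide)
  simpa using h

theorem orderOf_ST : orderOf (S * T) = 6 := by
  rw [orderOf_eq_iff (by norm_num)]
  refine ⟨ST_pow_six, ?_⟩
  intro m hm hm0
  interval_cases m <;> decide

theorem card_stabilizer_I : Nat.card (stabilizer SL(2, ℤ) I) = 4 := by
  rw [stabilizer_I_eq, Nat.card_zpowers, orderOf_S]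

theorem card_stabilizer_rho : Nat.card (stabilizer SL(2, ℤ) ρ) = 6 := by
  rw [stabilizer_rho_eq, Nat.card_zpowers, orderOf_ST]

/-- `I` and `ρ` are not `SL(2,ℤ)`-equivalent. -/
theorem smul_I_ne_rho (γ : SL(2, ℤ)) : γ • I ≠ ρ := by
  intro h
  have hfix : (γ * S * γ⁻¹) • ρ = ρ := by
    rw [← h, mul_smul, mul_smul, inv_smul_smul, S_smul_I]
  have hsq : (γ * S * γ⁻¹) ^ 2 = -1 := by
    rw [conj_pow, S_sq, mul_neg, mul_one, neg_mul, mul_inv_cancel]
  have := stabilizer_ρ.1 hfix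
  simp only [Finset.mem_insert, Finset.mem_singleton] at this
  rcases this with h | h | h | h | h | h <;> rw [h] at hsq <;> revert hsq <;> decide

theorem smul_rho_ne_I (γ : SL(2, ℤ)) : γ • ρ ≠ I := by
  intro h
  apply smul_I_ne_rho γ⁻¹
  rw [← h, inv_smul_smul]

/-- Transport of a cyclic stabiliser along the action. -/
theorem stabilizer_eq_zpowers_conj {γ : SL(2, ℤ)} {z w : ℍ} (h : γ • z = w) {g : SL(2, ℤ)}
    (hw : stabilizer SL(2, ℤ) w = Subgroup.zpowers g) :
    stabilizer SL(2, ℤ) z = Subgroup.zpowers (γ⁻¹ * g * γ) := by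
  have hz : z = γ⁻¹ • w := by rw [← h, inv_smul_smul]
  rw [hz, stabilizer_smul_eq_stabilizer_map_conj, hw, MonoidHom.map_zpowers]
  simp

theorem orderOf_conj' (γ g : SL(2, ℤ)) : orderOf (γ⁻¹ * g * γ) = orderOf g := by
  have := orderOf_injective (MulAut.conj γ⁻¹).toMonoidHom (MulAut.conj γ⁻¹).injective g
  simpa [MulAut.conj_apply] using this

/-- Stabiliser of a point equivalent to `I`. -/
theorem stabilizer_eq_of_smul_eq_I {γ : SL(2, ℤ)} {z : ℍ} (h : γ • z = I) :
    stabilizer SL(2, ℤ) z = Subgroup.zpowers (γ⁻¹ * S * γ) :=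
  stabilizer_eq_zpowers_conj h stabilizer_I_eq

/-- Stabiliser of a point equivalent to `ρ`. -/
theorem stabilizer_eq_of_smul_eq_rho {γ : SL(2, ℤ)} {z : ℍ} (h : γ • z = ρ) :
    stabilizer SL(2, ℤ) z = Subgroup.zpowers (γ⁻¹ * (S * T) * γ) :=
  stabilizer_eq_zpowers_conj h stabilizer_rho_eq

theorem card_stabilizer_of_smul_eq_I {γ : SL(2, ℤ)} {z : ℍ} (h : γ • z = I) :
    Nat.card (stabilizer SL(2, ℤ) z) = 4 := by
  rw [stabilizer_eq_of_smul_eq_I h, Nat.card_zpowers, orderOf_conj', orderOf_S]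

theorem card_stabilizer_of_smul_eq_rho {γ : SL(2, ℤ)} {z : ℍ} (h : γ • z = ρ) :
    Nat.card (stabilizer SL(2, ℤ) z) = 6 := by
  rw [stabilizer_eq_of_smul_eq_rho h, Nat.card_zpowers, orderOf_conj', orderOf_ST]

theorem neg_one_sq : (-1 : SL(2, ℤ)) ^ 2 = 1 := by decide

theorem orderOf_neg_one : orderOf (-1 : SL(2, ℤ)) = 2 := by
  have h := orderOf_eq_prime_pow (x := (-1 : SL(2, ℤ))) (p := 2) (n := 0) (by decide) (by decide)
  simpa using h

/-- Stabiliser of a non-elliptic point. -/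
theorem stabilizer_eq_of_forall {z : ℍ} (h : ∀ g : SL(2, ℤ), g • z = z → g = 1 ∨ g = -1) :
    stabilizer SL(2, ℤ) z = Subgroup.zpowers (-1) := by
  apply le_antisymm
  · intro g hg
    rcases h g (mem_stabilizer_iff.1 hg) with rfl | rfl
    · exact one_mem _
    · exact Subgroup.mem_zpowers _
  · rw [Subgroup.zpowers_le]
    exact mem_stabilizer_iff.2 (neg_one_smul_eq z)

theorem card_stabilizer_of_forall {z : ℍ}
    (h : ∀ g : SL(2, ℤ), g • z = z → g = 1 ∨ g = -1) :
    Nat.card (stabilizer SL(2, ℤ) z) = 2 := by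
  rw [stabilizer_eq_of_forall h, Nat.card_zpowers, orderOf_neg_one]

/-- Every stabiliser is cyclic of order `2`, `4` or `6`, generated by a conjugate of
`-1`, `S` or `S * T`. -/
theorem exists_stabilizer_eq_zpowers (z : ℍ) :
    ∃ g : SL(2, ℤ), stabilizer SL(2, ℤ) z = Subgroup.zpowers g ∧
      (orderOf g = 2 ∨ orderOf g = 4 ∨ orderOf g = 6) := by
  rcases trichotomy z with ⟨γ, h⟩ | ⟨γ, h⟩ | h
  · exact ⟨_, stabilizer_eq_of_smul_eq_I h, Or.inr (Or.inl (by rw [orderOf_conj', orderOf_S]))⟩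
  · exact ⟨_, stabilizer_eq_of_smul_eq_rho h,
      Or.inr (Or.inr (by rw [orderOf_conj', orderOf_ST]))⟩
  · exact ⟨_, stabilizer_eq_of_forall h, Or.inl orderOf_neg_one⟩

instance finite_stabilizer (z : ℍ) : Finite (stabilizer SL(2, ℤ) z) := by
  obtain ⟨g, hg, ho⟩ := exists_stabilizer_eq_zpowers z
  have hpos : 0 < orderOf g := by rcases ho with h | h | h <;> omega
  have : Nat.card (stabilizer SL(2, ℤ) z) ≠ 0 := by
    rw [hg, Nat.card_zpowers]; exact hpos.ne'
  exact Nat.finite_of_card_ne_zero this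

/-! ### Multipliers at the elliptic points -/

theorem denom_eq (g : SL(2, ℤ)) (z : ℍ) :
    denom (g : GL (Fin 2) ℝ) z = (g 1 0 : ℂ) * z + (g 1 1 : ℂ) := by
  simp [denom]

/-- The multiplier of `S` at `I` is `I`; the derivative of `z ↦ S • z` at `I` is `1 / I ^ 2 = -1`. -/
theorem denom_S_I : denom ((S : SL(2, ℤ)) : GL (Fin 2) ℝ) I = Complex.I := by
  rw [denom_eq]
  have h1 : (S : SL(2, ℤ)) 1 0 = 1 := by decide
  have h2 : (S : SL(2, ℤ)) 1 1 = 0 := by decide
  rw [h1, h2]; simp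

theorem denom_S_I_sq : denom ((S : SL(2, ℤ)) : GL (Fin 2) ℝ) I ^ 2 = -1 := by
  rw [denom_S_I, Complex.I_sq]

/-- The multiplier of `S * T` at `ρ` is `ρ + 1`, a primitive sixth root of unity. -/
theorem denom_ST_rho : denom ((S * T : SL(2, ℤ)) : GL (Fin 2) ℝ) ρ = (ρ : ℂ) + 1 := by
  rw [denom_eq]
  have h1 : (S * T : SL(2, ℤ)) 1 0 = 1 := by decide
  have h2 : (S * T : SL(2, ℤ)) 1 1 = 1 := by decide
  rw [h1, h2]; simp

/-- `(ρ + 1) ^ 2 = ρ`: the derivative of `z ↦ (S * T) • z` at `ρ` is `1 / ρ = ρ ^ 2`. -/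
theorem denom_ST_rho_sq : denom ((S * T : SL(2, ℤ)) : GL (Fin 2) ℝ) ρ ^ 2 = (ρ : ℂ) := by
  rw [denom_ST_rho]
  linear_combination ρ_sq

theorem rho_cube : (ρ : ℂ) ^ 3 = 1 := by
  linear_combination ((ρ : ℂ) - 1) * ρ_sq

theorem rho_ne_one : (ρ : ℂ) ≠ 1 := by
  intro h
  have := congrArg Complex.im h
  rw [coe_im] at this
  have h2 : (ρ : ℍ).im = Real.sqrt 3 / 2 := rfl
  rw [h2, Complex.one_im] at this
  have : Real.sqrt 3 = 0 := by linarith
  rw [Real.sqrt_eq_zero'] at this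
  norm_num at this

end Fermat.Agent.M2.Elliptic
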