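import Fermat.Agent.M2.P1Hurwitz
import Fermat.Agent.M2.Elliptic
import Fermat.Agent.M2.WH
import Fermat.Agent.M2.WPModular

set_option autoImplicit false

/-!
# Orbits of point stabilisers on `SL(2, ℤ) ⧸ Γ₀(N)`, indexed by the value of `j`

For `z : ℍ` let `fibreCount N z` be the number of orbits of `stabilizer SL(2, ℤ) z` on
`SL(2, ℤ) ⧸ Γ₀(N)` (= the number of points of `X₀(N)` above the image of `z` in `X(1)`).
* `jInv_I : jInv I = 1728`, `jInv_rho : jInv ρ = 0`;
* `fibreCount_of_ne` : `= ψ(N)` if `jInv z ∉ {0, 1728}`;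
* `fibreCount_of_eq_1728` : `= o_S` if `jInv z = 1728`;
* `fibreCount_of_eq_zero` : `= o_{ST}` if `jInv z = 0`;
* `finsum_sub_fibreCount`: for any section `zc` of `jInv`,
  `∑ᶠ c, (ψ - fibreCount N (zc c)) = (ψ - o_S) + (ψ - o_{ST})`.
-/

namespace Fermat.Agent.M2.FibreOrbits

open UpperHalfPlane ModularGroup MulAction ModularForm EisensteinSeries ModularCurve
open scoped MatrixGroups Modular

open Fermat.Agent.M2.P1

/-! ### Values of `j` at the elliptic points -/

theorem E₆_I : E₆ I = 0 := by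
  have h := levelOne_smul E₆ S I
  rw [Elliptic.S_smul_I, Elliptic.denom_S_I] at h
  have h6 : (Complex.I : ℂ) ^ (6 : ℤ) = -1 := by
    have : (Complex.I : ℂ) ^ (6 : ℕ) = -1 := by
      calc (Complex.I : ℂ) ^ 6 = (Complex.I ^ 2) ^ 3 := by ring
        _ = -1 := by rw [Complex.I_sq]; norm_num
    exact_mod_cast this
  rw [h6] at h
  have : (2 : ℂ) * E₆ I = 0 := by linear_combination h
  simpa using this

theorem E₄_rho : E₄ ρ = 0 := by
  have h := levelOne_smul E₄ (S * T) ρ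
  rw [Elliptic.ST_smul_rho] at h
  have h4 : denom ((S * T : SL(2, ℤ)) : GL (Fin 2) ℝ) ρ ^ (4 : ℤ) = (ρ : ℂ) ^ 2 := by
    have : denom ((S * T : SL(2, ℤ)) : GL (Fin 2) ℝ) ρ ^ (4 : ℕ) = (ρ : ℂ) ^ 2 := by
      calc denom ((S * T : SL(2, ℤ)) : GL (Fin 2) ℝ) ρ ^ 4
          = (denom ((S * T : SL(2, ℤ)) : GL (Fin 2) ℝ) ρ ^ 2) ^ 2 := by ring
        _ = (ρ : ℂ) ^ 2 := by rw [Elliptic.denom_ST_rho_sq]
    exact_mod_cast this
  rw [h4] at h
  have h1 : ((ρ : ℂ) ^ 2 - 1) * E₄ ρ = 0 := by linear_combination -h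
  rcases mul_eq_zero.mp h1 with h2 | h2
  · exfalso
    -- `ρ² = 1` and `ρ³ = 1` give `ρ = 1`
    have h3 : (ρ : ℂ) = 1 := by
      have hc := Elliptic.rho_cube
      have : (ρ : ℂ) ^ 3 = ρ * ρ ^ 2 := by ring
      rw [this, sub_eq_zero.mp h2, mul_one] at hc
      exact hc
    exact Elliptic.rho_ne_one h3
  · exact h2

theorem jInv_I : jInv I = 1728 := by
  have h := jInv_sub I
  rw [E₆_I] at h
  simpa [sub_eq_zero] using h

theorem jInv_rho : jInv ρ = 0 := by
  rw [jInv, E₄_rho]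
  simp

theorem exists_smul_eq_of_jInv_eq {z w : ℍ} (h : jInv z = jInv w) : ∃ γ : SL(2, ℤ), γ • z = w := by
  obtain ⟨γ, hγ⟩ := WPRigid.exists_smul_eq_of_j_eq z w h
  exact ⟨γ, hγ.symm⟩

/-! ### Orbit counts -/

/-- The number of orbits of the stabiliser of `z` on `SL(2, ℤ) ⧸ Γ₀(N)`. -/
noncomputable def fibreCount (N : ℕ) (z : ℍ) : ℕ :=
  Nat.card (orbitRel.Quotient (stabilizer SL(2, ℤ) z) (SL(2, ℤ) ⧸ CongruenceSubgroup.Gamma0 N))

theorem fibreCount_def (N : ℕ) (z : ℍ) : fibreCount N z =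
    Nat.card (orbitRel.Quotient (stabilizer SL(2, ℤ) z)
      (SL(2, ℤ) ⧸ CongruenceSubgroup.Gamma0 N)) := rfl

variable {N : ℕ}

/-- The count only depends on the `SL(2, ℤ)`-orbit of `z`. -/
theorem fibreCount_smul (γ : SL(2, ℤ)) (z : ℍ) : fibreCount N (γ • z) = fibreCount N z := by
  rw [fibreCount_def, fibreCount_def, stabilizer_smul_eq_stabilizer_map_conj]
  exact card_orbits_conj (stabilizer SL(2, ℤ) z) γ

theorem fibreCount_I : fibreCount N I = orbitCount N S := by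
  rw [fibreCount_def, Elliptic.stabilizer_I_eq]
  rfl

theorem fibreCount_rho : fibreCount N ρ = orbitCount N (S * T) := by
  rw [fibreCount_def, Elliptic.stabilizer_rho_eq]
  rfl

theorem fibreCount_of_eq_1728 {z : ℍ} (h : jInv z = 1728) : fibreCount N z = orbitCount N S := by
  obtain ⟨γ, hγ⟩ := exists_smul_eq_of_jInv_eq (jInv_I.trans h.symm)
  rw [← hγ, fibreCount_smul, fibreCount_I]

theorem fibreCount_of_eq_zero {z : ℍ} (h : jInv z = 0) : fibreCount N z = orbitCount N (S * T) := by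
  obtain ⟨γ, hγ⟩ := exists_smul_eq_of_jInv_eq (jInv_rho.trans h.symm)
  rw [← hγ, fibreCount_smul, fibreCount_rho]

theorem fibreCount_of_ne (hN : N ≠ 0) {z : ℍ} (h0 : jInv z ≠ 0) (h1 : jInv z ≠ 1728) :
    fibreCount N z = dedekindPsi N := by
  rcases Elliptic.trichotomy z with ⟨γ, hγ⟩ | ⟨γ, hγ⟩ | h
  · exact absurd (by rw [← jInv_smul γ z, hγ, jInv_I]) h1
  · exact absurd (by rw [← jInv_smul γ z, hγ, jInv_rho]) h0
  · exact card_orbits_of_le_pm_one hN _ (fun g hg => h g (mem_stabilizer_iff.mp hg))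

/-- The total ramification over the finite part of the `j`-line, for any section of `j`. -/
theorem finsum_sub_fibreCount (hN : N ≠ 0) (zc : ℂ → ℍ) (hzc : ∀ c, jInv (zc c) = c) :
    ∑ᶠ c : ℂ, (dedekindPsi N - fibreCount N (zc c)) =
      (dedekindPsi N - orbitCount N S) + (dedekindPsi N - orbitCount N (S * T)) := by
  have hsupp : (Function.support fun c : ℂ => dedekindPsi N - fibreCount N (zc c)) ⊆
      (({1728, 0} : Finset ℂ) : Set ℂ) := by
    intro c hc
    rw [Function.mem_support] at hc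
    by_contra hcon
    simp only [Finset.coe_insert, Finset.coe_singleton, Set.mem_insert_iff,
      Set.mem_singleton_iff, not_or] at hcon
    apply hc
    rw [fibreCount_of_ne hN (by rw [hzc]; exact hcon.2) (by rw [hzc]; exact hcon.1), Nat.sub_self]
  rw [finsum_eq_sum_of_support_subset _ hsupp,
    Finset.sum_pair (by norm_num : (1728 : ℂ) ≠ 0), fibreCount_of_eq_1728 (hzc 1728),
    fibreCount_of_eq_zero (hzc 0)]

end Fermat.Agent.M2.FibreOrbits
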