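import Fermat.Agent.M2.DictSqueeze
import Fermat.Agent.M2.DoubleCoset
import Fermat.Agent.M2.FibreOrbits

set_option autoImplicit false

/-!
# M2 / III.e (D4): counting primes of `B = integralClosure ℂ[X] K`, `K = WHField (Gamma0 N)`

* `finrank_K : finrank (RatFunc ℂ) K = dedekindPsi N`;
* `card_primesOver z` : the number of primes of `B` over `(X - j(z))` is the number of orbits of
  `stabilizer SL(2, ℤ) z` on `SL(2, ℤ) ⧸ Gamma0 N`;
* `card_primesOver_of_ne`, `card_primesOver_1728`, `card_primesOver_zero`: the three cases.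
-/

namespace Fermat.Agent.M2.Dict

open UpperHalfPlane MatrixGroups Polynomial CongruenceSubgroup WithZero IsDedekindDomain MulAction
open ModularCurve
open scoped Pointwise

/-- Mathlib's double coset space has as many elements as the orbit space. -/
theorem card_doubleCosetQuotient {G : Type*} [Group G] (H S : Subgroup G) :
    Nat.card (DoubleCoset.Quotient (H : Set G) (S : Set G)) =
      Nat.card (orbitRel.Quotient H (G ⧸ S)) := by
  refine DC.card_eq_of_surjective_of_iff (DoubleCoset.mk H S) (DC.toOrbit H S)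
    Quotient.mk''_surjective (DC.toOrbit_surjective H S) ?_
  intro a a'
  rw [DC.toOrbit_eq_iff, eq_comm, DoubleCoset.eq]

variable (N : ℕ) [NeZero N]

set_option synthInstance.maxHeartbeats 400000 in
/-- **(D4)** The primes of `B` over `(X - j(z))` are counted by the orbits of the stabiliser of `z`
on `SL(2, ℤ) ⧸ Gamma0 N`. -/
theorem card_primesOver (z : ℍ) :
    Nat.card ((Ideal.span {X - C (jInv z)}).primesOver
      (integralClosure ℂ[X] (WHField (Gamma0 N)))) = FibreOrbits.fibreCount N z := by
  rw [← under_center_vF (Gamma N) z,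
    GaloisPlaces.card_primesOver_eq (RatFunc ℂ) (WHField (Gamma0 N))
      (Heff (Gamma0 N) (Gamma N)) (vF (Gamma N) z) (vF_poly_le_one (Gamma N) z),
    stabilizer_center_vF, card_doubleCosetQuotient]
  exact DC.card_orbits_map_symm (piG (Gamma N)) (piG_surjective (Gamma N)) (Gamma0 N)
    (stabilizer SL(2, ℤ) z) (Nfull_le_Gamma0 N)

theorem card_primesOver_of_eq {c : ℂ} {z : ℍ} (hz : jInv z = c) :
    Nat.card ((Ideal.span {X - C c}).primesOver
      (integralClosure ℂ[X] (WHField (Gamma0 N)))) = FibreOrbits.fibreCount N z := by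
  rw [← hz, card_primesOver]

theorem card_primesOver_of_ne {c : ℂ} (h0 : c ≠ 0) (h1 : c ≠ 1728) :
    Nat.card ((Ideal.span {X - C c}).primesOver
      (integralClosure ℂ[X] (WHField (Gamma0 N)))) = dedekindPsi N := by
  obtain ⟨z, hz⟩ := JSurj.exists_j_eq c
  have hz' : jInv z = c := hz
  rw [card_primesOver_of_eq N hz', FibreOrbits.fibreCount_of_ne (NeZero.ne N) (by rwa [hz'])
    (by rwa [hz'])]

theorem card_primesOver_1728 :
    Nat.card ((Ideal.span {X - C (1728 : ℂ)}).primesOver
      (integralClosure ℂ[X] (WHField (Gamma0 N)))) = P1.orbitCount N ModularGroup.S := by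
  rw [card_primesOver_of_eq N FibreOrbits.jInv_I, FibreOrbits.fibreCount_I]

theorem card_primesOver_zero :
    Nat.card ((Ideal.span {X - C (0 : ℂ)}).primesOver
      (integralClosure ℂ[X] (WHField (Gamma0 N)))) =
      P1.orbitCount N (ModularGroup.S * ModularGroup.T) := by
  rw [card_primesOver_of_eq N FibreOrbits.jInv_rho, FibreOrbits.fibreCount_rho]

/-- **(D4)** The degree of `K = WHField (Gamma0 N)` over `ℂ(j)` is `ψ(N)`. -/
theorem finrank_K : Module.finrank (RatFunc ℂ) (WHField (Gamma0 N)) = dedekindPsi N := by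
  have h1 : Nat.card (Geff (Gamma N)) = Module.finrank (RatFunc ℂ) (WHField (Gamma N)) :=
    IsGaloisGroup.card_eq_finrank (Geff (Gamma N)) (RatFunc ℂ) (WHField (Gamma N))
  have h2 : Nat.card (Heff (Gamma0 N) (Gamma N)) =
      Module.finrank (WHField (Gamma0 N)) (WHField (Gamma N)) :=
    IsGaloisGroup.card_eq_finrank (Heff (Gamma0 N) (Gamma N)) (WHField (Gamma0 N))
      (WHField (Gamma N))
  have h3 := Module.finrank_mul_finrank (RatFunc ℂ) (WHField (Gamma0 N)) (WHField (Gamma N))
  have h4 := Subgroup.index_mul_card (Heff (Gamma0 N) (Gamma N))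
  have h5 : (Heff (Gamma0 N) (Gamma N)).index = (Gamma0 N).index :=
    DC.index_map_of_ker_le (piG (Gamma N)) (piG_surjective (Gamma N)) (Gamma0 N)
      (Nfull_le_Gamma0 N)
  rw [P1.index_Gamma0 N (NeZero.ne N)] at h5
  rw [h5, h1, h2, ← h3] at h4
  have hpos : 0 < Module.finrank (WHField (Gamma0 N)) (WHField (Gamma N)) := by
    rw [← h2]
    exact Nat.card_pos
  exact (Nat.eq_of_mul_eq_mul_right hpos h4).symm

end Fermat.Agent.M2.Dict
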