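import Mathlib
import Fermat.Agent.M2.TameDifferent

/-!
# Fibre regrouping of the different (M2, task IV.6)
-/

set_option autoImplicit false

open Ideal UniqueFactorizationMonoid Module

namespace Fermat.Agent.M2.FibreCount

/-! ### Inertia degree one over an algebraically closed constant field -/

section inertia

variable (k : Type*) [Field k] [IsAlgClosed k] {A B : Type*} [CommRing A] [CommRing B]
  [Algebra A B] [Algebra k A] [Algebra k B] [IsScalarTower k A B] [Module.Finite A B]

/-- If `A ⧸ p` is `k` (alg. closed) then every maximal `P` over `p` has inertia degree one. -/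
theorem inertiaDeg_eq_one (p : Ideal A) [p.IsMaximal]
    (hp : Function.Surjective (algebraMap k (A ⧸ p)))
    (P : Ideal B) [P.IsMaximal] [P.LiesOver p] : P.inertiaDeg A = 1 := by
  rw [Ideal.inertiaDeg_eq_of_isMaximal p P]
  let _ : Field (A ⧸ p) := Ideal.Quotient.field p
  let _ : Field (B ⧸ P) := Ideal.Quotient.field P
  -- `B ⧸ P` is a finite extension of `k`
  have hfinA : Module.Finite (A ⧸ p) (B ⧸ P) := inferInstance
  have hfink : Module.Finite k (A ⧸ p) :=
    Module.Finite.of_surjective (Algebra.linearMap k (A ⧸ p)) hp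
  have hfinkB : Module.Finite k (B ⧸ P) := Module.Finite.trans (A ⧸ p) (B ⧸ P)
  have hbijk : Function.Bijective (algebraMap k (B ⧸ P)) :=
    IsAlgClosed.algebraMap_bijective_of_isIntegral
  have hsurj : Function.Surjective (algebraMap (A ⧸ p) (B ⧸ P)) := by
    intro y
    obtain ⟨c, rfl⟩ := hbijk.2 y
    exact ⟨algebraMap k (A ⧸ p) c, (IsScalarTower.algebraMap_apply k (A ⧸ p) (B ⧸ P) c).symm⟩
  have hbij : Function.Bijective (algebraMap (A ⧸ p) (B ⧸ P)) :=
    ⟨(algebraMap (A ⧸ p) (B ⧸ P)).injective, hsurj⟩
  let e : (A ⧸ p) ≃ₗ[A ⧸ p] (B ⧸ P) :=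
    LinearEquiv.ofBijective (Algebra.linearMap (A ⧸ p) (B ⧸ P)) hbij
  rw [← e.finrank_eq, Module.finrank_self]

end inertia

/-! ### Sum of ramification indices in a fibre -/

section fibre

variable {A B : Type*} [CommRing A] [CommRing B] [Algebra A B] [IsDedekindDomain A]
  [IsDedekindDomain B] [Module.IsTorsionFree A B] [Module.Finite A B]

theorem sum_ramificationIdx_eq_finrank (p : Ideal A) [p.IsMaximal]
    (hf : ∀ P : p.primesOver B, P.1.inertiaDeg A = 1) :
    ∑ P : p.primesOver B, P.1.ramificationIdx A = Module.finrank A B := by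
  rw [← Ideal.sum_ramification_inertia_eq_finrank p B]
  exact Finset.sum_congr rfl fun P _ => by rw [hf P, mul_one]

theorem sum_ramificationIdx_sub_one (p : Ideal A) [p.IsMaximal]
    (hf : ∀ P : p.primesOver B, P.1.inertiaDeg A = 1) :
    ∑ P : p.primesOver B, (P.1.ramificationIdx A - 1) =
      Module.finrank A B - (p.primesOver B).ncard := by
  have h1 := sum_ramificationIdx_eq_finrank p hf
  have hpos : ∀ P : p.primesOver B, 1 ≤ P.1.ramificationIdx A := fun P => by
    have : P.1.IsPrime := P.2.1
    exact Ideal.ramificationIdx_pos P.1 A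
  have h2 : ∑ P : p.primesOver B, (P.1.ramificationIdx A - 1) + (p.primesOver B).ncard =
      Module.finrank A B := by
    rw [← h1, ← Set.fintypeCard_eq_ncard, ← Finset.card_univ, Finset.card_eq_sum_ones,
      ← Finset.sum_add_distrib]
    exact Finset.sum_congr rfl fun P _ => Nat.sub_add_cancel (hpos P)
  omega

end fibre

/-! ### Regrouping the different by fibres -/

section different

attribute [local instance] FractionRing.liftAlgebra FractionRing.isScalarTower_liftAlgebra

variable {A B : Type*} [CommRing A] [CommRing B] [Algebra A B] [IsDedekindDomain A]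
  [IsDedekindDomain B] [Module.IsTorsionFree A B] [Module.Finite A B]
  [Algebra.IsSeparable (FractionRing A) (FractionRing B)]

/-- The contribution of one fibre to the different. -/
theorem sum_count_differentIdeal_fibre (p : Ideal A) [p.IsMaximal] (hp : p ≠ ⊥)
    [CharZero (A ⧸ p)] (hf : ∀ P : p.primesOver B, P.1.inertiaDeg A = 1) :
    ∑ P : p.primesOver B, (normalizedFactors (differentIdeal A B)).count P.1 =
      Module.finrank A B - (p.primesOver B).ncard := by
  rw [← sum_ramificationIdx_sub_one p hf]
  refine Finset.sum_congr rfl fun P _ => ?_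
  have : P.1.IsPrime := P.2.1
  have : P.1.LiesOver p := P.2.2
  exact TameDifferent.count_normalizedFactors_differentIdeal hp P.1

/-- **Fibre regrouping**: the number of prime factors of the different (with multiplicity) is
the sum over the branch points `p` of `n - #(primes over p)`. -/
theorem card_normalizedFactors_differentIdeal
    (hchar : ∀ p : Ideal A, p.IsMaximal → CharZero (A ⧸ p))
    (hf : ∀ P : Ideal B, P.IsPrime → P ≠ ⊥ → P.inertiaDeg A = 1)
    (S : Finset (Ideal A)) (hS : ∀ p ∈ S, p.IsMaximal ∧ p ≠ ⊥)
    (hcover : ∀ P ∈ normalizedFactors (differentIdeal A B), P.under A ∈ S) :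
    Multiset.card (normalizedFactors (differentIdeal A B)) =
      ∑ p ∈ S, (Module.finrank A B - (p.primesOver B).ncard) := by
  set M := normalizedFactors (differentIdeal A B) with hM
  rw [← Multiset.toFinset_sum_count_eq M,
    ← Finset.sum_fiberwise_of_maps_to (s := M.toFinset) (t := S) (g := fun P => P.under A)
      (fun P hP => hcover P (Multiset.mem_toFinset.mp hP))]
  refine Finset.sum_congr rfl fun p hpS => ?_
  obtain ⟨hpmax, hpbot⟩ := hS p hpS
  have := hchar p hpmax
  have hfp : ∀ P : p.primesOver B, P.1.inertiaDeg A = 1 := fun P =>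
    hf P.1 P.2.1 (by
      have : P.1.LiesOver p := P.2.2
      exact TameDifferent.ne_bot_of_liesOver_of_ne_bot hpbot P.1)
  rw [← sum_count_differentIdeal_fibre p hpbot hfp]
  -- both sides are sums of `count` over suitable finsets of primes over `p`
  rw [Finset.sum_set_coe (p.primesOver B) (f := fun P : Ideal B => M.count P)]
  refine Finset.sum_subset ?_ ?_
  · intro P hP
    rw [Finset.mem_filter, Multiset.mem_toFinset] at hP
    rw [Set.mem_toFinset]
    have hprime : Prime P := prime_of_normalized_factor P hP.1
    exact ⟨Ideal.isPrime_of_prime hprime, ⟨hP.2.symm⟩⟩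
  · intro P hPT hP
    rw [Finset.mem_filter, Multiset.mem_toFinset, not_and] at hP
    by_contra hne
    have hmem : P ∈ M := Multiset.count_pos.mp (Nat.pos_of_ne_zero hne)
    apply hP hmem
    exact ((Set.mem_toFinset.mp hPT).2.over).symm

/-- Local base (e.g. `A = O_∞`): the different has `n - #(maximal ideals of B)` prime factors. -/
theorem card_normalizedFactors_differentIdeal_of_isLocalRing [IsLocalRing A]
    (hA : IsLocalRing.maximalIdeal A ≠ ⊥) [CharZero (A ⧸ IsLocalRing.maximalIdeal A)]
    (hf : ∀ P : Ideal B, P.IsPrime → P ≠ ⊥ → P.inertiaDeg A = 1) :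
    Multiset.card (normalizedFactors (differentIdeal A B)) =
      Module.finrank A B - ((IsLocalRing.maximalIdeal A).primesOver B).ncard := by
  have hmaxeq : ∀ p : Ideal A, p.IsMaximal → p = IsLocalRing.maximalIdeal A :=
    fun p hp => IsLocalRing.eq_maximalIdeal hp
  rw [card_normalizedFactors_differentIdeal
    (fun p hp => by rw [hmaxeq p hp]; infer_instance) hf {IsLocalRing.maximalIdeal A}
    (fun p hp => by
      rw [Finset.mem_singleton] at hp
      subst hp
      exact ⟨IsLocalRing.maximalIdeal.isMaximal A, hA⟩)
    (fun P hP => by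
      rw [Finset.mem_singleton]
      have hprime : Prime P := prime_of_normalized_factor P hP
      have hPp : P.IsPrime := Ideal.isPrime_of_prime hprime
      have hPmax : P.IsMaximal := hPp.isMaximal hprime.ne_zero
      exact hmaxeq _ (Ideal.isMaximal_comap_of_isIntegral_of_isMaximal P)),
    Finset.sum_singleton]

omit [Algebra.IsSeparable (FractionRing A) (FractionRing B)] in
/-- Over a local Dedekind base which is not a field, the primes over the maximal ideal are
exactly the maximal ideals of `B`. -/
theorem primesOver_maximalIdeal_eq [IsLocalRing A] (hA : IsLocalRing.maximalIdeal A ≠ ⊥) :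
    (IsLocalRing.maximalIdeal A).primesOver B = {P : Ideal B | P.IsMaximal} := by
  ext P
  constructor
  · rintro ⟨hP, hPo⟩
    exact hP.isMaximal (TameDifferent.ne_bot_of_liesOver_of_ne_bot hA P)
  · intro hP
    have hP' : P.IsMaximal := hP
    refine ⟨hP'.isPrime, ⟨?_⟩⟩
    exact (IsLocalRing.eq_maximalIdeal
      (Ideal.isMaximal_comap_of_isIntegral_of_isMaximal P)).symm

/-- Local base with residue field `k` algebraically closed of characteristic zero. -/
theorem card_normalizedFactors_differentIdeal_local (k : Type*) [Field k] [IsAlgClosed k]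
    [CharZero k] [Algebra k A] [Algebra k B] [IsScalarTower k A B] [IsLocalRing A]
    (hA : IsLocalRing.maximalIdeal A ≠ ⊥)
    (hres : Function.Surjective (algebraMap k (A ⧸ IsLocalRing.maximalIdeal A))) :
    Multiset.card (normalizedFactors (differentIdeal A B)) =
      Module.finrank A B - ({P : Ideal B | P.IsMaximal}).ncard := by
  have : CharZero (A ⧸ IsLocalRing.maximalIdeal A) :=
    charZero_of_injective_algebraMap (algebraMap k (A ⧸ IsLocalRing.maximalIdeal A)).injective
  rw [← primesOver_maximalIdeal_eq hA]
  refine card_normalizedFactors_differentIdeal_of_isLocalRing hA fun P hP hP0 => ?_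
  have hPmax : P.IsMaximal := hP.isMaximal hP0
  have hover : P.LiesOver (IsLocalRing.maximalIdeal A) :=
    ⟨(IsLocalRing.eq_maximalIdeal (Ideal.isMaximal_comap_of_isIntegral_of_isMaximal P)).symm⟩
  exact inertiaDeg_eq_one k (IsLocalRing.maximalIdeal A) hres P

end different

/-! ### The case `A = k[X]`, `k` algebraically closed of characteristic zero -/

section polynomial

open Polynomial

variable {k : Type*} [Field k]

/-- The maximal ideal `(X - c)` of `k[X]`. -/
noncomputable abbrev pt (c : k) : Ideal k[X] := Ideal.span {X - C c}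

theorem algebraMap_quotient_pt_surjective (c : k) :
    Function.Surjective (algebraMap k (k[X] ⧸ pt c)) := by
  intro y
  refine ⟨quotientSpanXSubCAlgEquiv c y, ?_⟩
  rw [← quotientSpanXSubCAlgEquiv_symm_apply, AlgEquiv.symm_apply_apply]

instance pt_isMaximal (c : k) : (pt c).IsMaximal :=
  Ideal.Quotient.maximal_of_isField _
    ((quotientSpanXSubCAlgEquiv c).toRingEquiv.toMulEquiv.isField (Field.toIsField k))

theorem pt_ne_bot (c : k) : pt c ≠ ⊥ := by
  rw [Ne, Ideal.span_singleton_eq_bot]
  exact X_sub_C_ne_zero c

theorem pt_injective : Function.Injective (pt : k → Ideal k[X]) := by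
  intro c c' h
  have hmem : X - C c' ∈ pt c := by rw [h]; exact Ideal.subset_span rfl
  rw [Ideal.mem_span_singleton, dvd_iff_isRoot] at hmem
  simpa [sub_eq_zero] using hmem

instance charZero_quotient_pt [CharZero k] (c : k) : CharZero (k[X] ⧸ pt c) :=
  charZero_of_injective_ringHom (f := algebraMap k (k[X] ⧸ pt c)) (by
    intro a b hab
    have := congrArg (quotientSpanXSubCAlgEquiv c) hab
    simpa [← quotientSpanXSubCAlgEquiv_symm_apply] using this)

/-- Over an algebraically closed field every maximal ideal of `k[X]` is some `(X - c)`. -/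
theorem exists_eq_pt [IsAlgClosed k] (p : Ideal k[X]) [hp : p.IsMaximal] : ∃ c, p = pt c := by
  obtain ⟨q, hq⟩ := (IsPrincipalIdealRing.principal p).principal
  have hq' : p = Ideal.span {q} := hq
  have hq0 : q ≠ 0 := by
    rintro rfl
    rw [hq', Ideal.span_singleton_zero] at hp
    exact Polynomial.not_isField k (Ring.isField_iff_maximal_bot.mpr hp)
  have hdeg : q.degree ≠ 0 := by
    intro h0
    have hunit : IsUnit q := Polynomial.isUnit_iff_degree_eq_zero.mpr h0
    exact hp.ne_top (by rw [hq']; exact Ideal.span_singleton_eq_top.mpr hunit)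
  obtain ⟨c, hc⟩ := IsAlgClosed.exists_root q hdeg
  refine ⟨c, hp.eq_of_le (pt_isMaximal c).ne_top ?_⟩
  rw [hq']
  exact Ideal.span_singleton_le_span_singleton.mpr (dvd_iff_isRoot.mpr hc)

section main

attribute [local instance] FractionRing.liftAlgebra FractionRing.isScalarTower_liftAlgebra

variable [IsAlgClosed k] [CharZero k] {B : Type*} [CommRing B] [Algebra k[X] B] [Algebra k B]
  [IsScalarTower k k[X] B] [IsDedekindDomain B] [Module.IsTorsionFree k[X] B]
  [Module.Finite k[X] B]

omit [CharZero k] [Module.IsTorsionFree k[X] B] in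
/-- Every nonzero prime of `B` has inertia degree one over `k[X]`. -/
theorem inertiaDeg_polynomial_eq_one (P : Ideal B) (hP : P.IsPrime) (hP0 : P ≠ ⊥) :
    P.inertiaDeg k[X] = 1 := by
  have hPmax : P.IsMaximal := hP.isMaximal hP0
  have hmax : (P.under k[X]).IsMaximal := Ideal.isMaximal_comap_of_isIntegral_of_isMaximal P
  obtain ⟨c, hc⟩ := exists_eq_pt (P.under k[X])
  have : P.LiesOver (pt c) := ⟨hc.symm⟩
  exact inertiaDeg_eq_one k (pt c) (algebraMap_quotient_pt_surjective c) P

omit [CharZero k] in
/-- (a) the ramification indices over `(X - c)` sum to `n`. -/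
theorem sum_ramificationIdx_pt (c : k) :
    ∑ P : (pt c).primesOver B, P.1.ramificationIdx k[X] = Module.finrank k[X] B :=
  sum_ramificationIdx_eq_finrank (pt c) fun P =>
    inertiaDeg_polynomial_eq_one P.1 P.2.1 (by
      have : P.1.LiesOver (pt c) := P.2.2
      exact TameDifferent.ne_bot_of_liesOver_of_ne_bot (pt_ne_bot c) P.1)

omit [CharZero k] in
/-- (a') hence `∑ (e_P - 1) = n - #(primes over (X - c))`. -/
theorem sum_ramificationIdx_sub_one_pt (c : k) :
    ∑ P : (pt c).primesOver B, (P.1.ramificationIdx k[X] - 1) =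
      Module.finrank k[X] B - ((pt c).primesOver B).ncard :=
  sum_ramificationIdx_sub_one (pt c) fun P =>
    inertiaDeg_polynomial_eq_one P.1 P.2.1 (by
      have : P.1.LiesOver (pt c) := P.2.2
      exact TameDifferent.ne_bot_of_liesOver_of_ne_bot (pt_ne_bot c) P.1)

omit [CharZero k] [Algebra k B] [IsScalarTower k k[X] B] [IsDedekindDomain B]
  [Module.IsTorsionFree k[X] B] in
/-- (b) every maximal ideal of `B` lies over exactly one `(X - c)`. -/
theorem existsUnique_liesOver_pt (P : Ideal B) [hP : P.IsMaximal] :
    ∃! c : k, P.LiesOver (pt c) := by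
  have hmax : (P.under k[X]).IsMaximal := Ideal.isMaximal_comap_of_isIntegral_of_isMaximal P
  obtain ⟨c, hc⟩ := exists_eq_pt (P.under k[X])
  refine ⟨c, ⟨hc.symm⟩, fun c' hc' => ?_⟩
  exact pt_injective (hc'.over.trans hc)

variable [Algebra.IsSeparable (FractionRing k[X]) (FractionRing B)]

/-- (c) **Fibre regrouping over `k[X]`**: if `S` contains all branch values then the different
has `∑ c ∈ S, (n - #(primes over (X - c)))` prime factors counted with multiplicity. -/
theorem card_normalizedFactors_differentIdeal_polynomial (S : Finset k)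
    (hS : ∀ c ∉ S, ((pt c).primesOver B).ncard = Module.finrank k[X] B) :
    Multiset.card (normalizedFactors (differentIdeal k[X] B)) =
      ∑ c ∈ S, (Module.finrank k[X] B - ((pt c).primesOver B).ncard) := by
  classical
  have hchar : ∀ p : Ideal k[X], p.IsMaximal → CharZero (k[X] ⧸ p) := by
    intro p hp
    obtain ⟨c, rfl⟩ := exists_eq_pt p
    infer_instance
  rw [card_normalizedFactors_differentIdeal hchar inertiaDeg_polynomial_eq_one (S.image pt)
    (fun p hp => by
      obtain ⟨c, -, rfl⟩ := Finset.mem_image.mp hp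
      exact ⟨pt_isMaximal c, pt_ne_bot c⟩)
    ?_, Finset.sum_image (fun c _ c' _ h => pt_injective h)]
  intro P hP
  have hprime : Prime P := prime_of_normalized_factor P hP
  have hPp : P.IsPrime := Ideal.isPrime_of_prime hprime
  have hPmax : P.IsMaximal := hPp.isMaximal hprime.ne_zero
  have hmax : (P.under k[X]).IsMaximal := Ideal.isMaximal_comap_of_isIntegral_of_isMaximal P
  obtain ⟨c, hc⟩ := exists_eq_pt (P.under k[X])
  rw [hc]
  refine Finset.mem_image_of_mem pt ?_
  by_contra hcS
  -- the fibre over `c` is unramified, contradiction with `P ∣ 𝔇`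
  have hPover : P.LiesOver (pt c) := ⟨hc.symm⟩
  have h1 := sum_ramificationIdx_sub_one_pt (B := B) c
  rw [hS c hcS, Nat.sub_self] at h1
  have h2 : P.ramificationIdx k[X] - 1 = 0 :=
    Finset.sum_eq_zero_iff.mp h1 ⟨P, hPp, hPover⟩ (Finset.mem_univ _)
  have h3 := TameDifferent.count_normalizedFactors_differentIdeal (pt_ne_bot c) P
  rw [h2] at h3
  exact (Multiset.count_pos.mpr hP).ne' h3

end main

end polynomial


end Fermat.Agent.M2.FibreCount
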