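import Fermat.Agent.M2.CuspSqueeze
import Fermat.Agent.M2.CuspValK
import Fermat.Agent.M2.DictCount
import Fermat.Agent.M2.FibreCount

set_option autoImplicit false

/-!
# M2 / III.e (places at infinity): the dictionary between cusps and primes of `Binf`

`K = WHField (Gamma0 N)`, `L = WHField (Gamma N)`, `Binf = integralClosure (DW.Oinf ℂ) K`.
* `exists_cusp_of_prime` (E3): every height-one prime `Q` of `Binf` comes from a cusp `δ • i∞`:
  `CuspValK.cuspValK N δ = (Q-adic valuation) ^ κ`, `κ ≥ 1`;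
* `exists_prime_of_cusp` (E4): conversely every cusp gives such a prime;
* `card_primesOver_inf`, `card_primesOver_piInf`, `ncard_isMaximal_inf`,
  `card_heightOneSpectrum_inf` (D4 at infinity): the number of primes of `Binf` is
  `P1.orbitCount N T`, the number of orbits of `⟨T⟩` on `SL(2,ℤ) ⧸ Γ₀(N)`.
-/

namespace Fermat.Agent.M2.DictInf

open UpperHalfPlane MatrixGroups Polynomial CongruenceSubgroup WithZero IsDedekindDomain
open Fermat.Agent.M2.CuspSqueeze Fermat.Agent.M2.CuspValK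
open scoped Pointwise

variable (N : ℕ) [NeZero N]

local notation "K" => WHField (Gamma0 N)
local notation "L" => WHField (Gamma N)

instance instIsScalarTowerOinfKL : IsScalarTower (DW.Oinf ℂ) K L :=
  IsScalarTower.of_algebraMap_eq fun a => by
    rw [algebraMap_Oinf_apply, algebraMap_Oinf_apply,
      ← IsScalarTower.algebraMap_apply (RatFunc ℂ) K L]

instance instIsFractionRingBinf :
    IsFractionRing (integralClosure (DW.Oinf ℂ) K) K :=
  integralClosure.isFractionRing_of_finite_extension (RatFunc ℂ) K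

instance instIsDedekindDomainBinf : IsDedekindDomain (integralClosure (DW.Oinf ℂ) K) :=
  integralClosure.isDedekindDomain (DW.Oinf ℂ) (RatFunc ℂ) K

lemma vInfL_eq_cuspValL : vInfL N = cuspValL N := rfl

/-- `cuspValK N δ` as a restricted conjugate of `vInfL N`. -/
theorem resVal_vInfL (δ : SL(2, ℤ)) :
    GaloisPlaces.resVal K (vInfL N) (piG (Gamma N) δ) = cuspValK N δ :=
  resVal_cuspValL N δ

theorem cuspValK_le_one (δ : SL(2, ℤ)) (a : DW.Oinf ℂ) :
    cuspValK N δ (algebraMap (DW.Oinf ℂ) K a) ≤ 1 := by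
  rw [← resVal_vInfL]
  exact GaloisPlaces.resVal_le_one K (vInfL N) (vInfL_le_one N) (piG (Gamma N) δ) a

theorem cuspValK_hp (δ : SL(2, ℤ)) :
    ∃ a : DW.Oinf ℂ, a ≠ 0 ∧ cuspValK N δ (algebraMap (DW.Oinf ℂ) K a) < 1 := by
  rw [← resVal_vInfL]
  exact GaloisPlaces.resVal_hp K (vInfL N) (exists_vInfL_lt_one N) (piG (Gamma N) δ)

/-- **(E4)** Every cusp `δ • i∞` is the centre of a height-one prime of `Binf`. -/
theorem exists_prime_of_cusp (δ : SL(2, ℤ)) :
    ∃ (Q : HeightOneSpectrum (integralClosure (DW.Oinf ℂ) K)) (κ : ℕ), 1 ≤ κ ∧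
      ∀ h : K, cuspValK N δ h = (Q.valuation K h) ^ κ := by
  obtain ⟨κ, hκ1, hκ⟩ := GaloisPlaces.exists_pow_eq (RatFunc ℂ) (cuspValK N δ)
    (cuspValK_le_one N δ) (cuspValK_hp N δ)
  exact ⟨_, κ, hκ1, hκ⟩

/-- Every nonzero prime of `Binf` lies over the maximal ideal of `Oinf`. -/
theorem under_eq_of_prime (Q : Ideal (integralClosure (DW.Oinf ℂ) K)) [Q.IsPrime] (hQ : Q ≠ ⊥) :
    Q.under (DW.Oinf ℂ) =
      (GaloisPlaces.center (DW.Oinf ℂ) (vInfL N) (vInfL_le_one N)).under (DW.Oinf ℂ) := by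
  rw [under_center_vInfL, ← DW.maximalIdeal_Oinf_eq]
  have hne : Q.under (DW.Oinf ℂ) ≠ ⊥ := Ideal.under_ne_bot (DW.Oinf ℂ) hQ
  have hprime : (Q.under (DW.Oinf ℂ)).IsPrime := Ideal.IsPrime.under _ Q
  have hmax : (Q.under (DW.Oinf ℂ)).IsMaximal := hprime.isMaximal hne
  exact IsLocalRing.eq_maximalIdeal hmax

/-- **(E3)** Every height-one prime of `Binf` is the centre of a cusp valuation. -/
theorem exists_cusp_of_prime (Q : HeightOneSpectrum (integralClosure (DW.Oinf ℂ) K)) :
    ∃ (δ : SL(2, ℤ)) (κ : ℕ), 1 ≤ κ ∧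
      ∀ h : K, cuspValK N δ h = (Q.valuation K h) ^ κ := by
  have hunder := under_eq_of_prime N Q.asIdeal Q.ne_bot
  obtain ⟨g, hg⟩ := GaloisPlaces.exists_centerK_eq (G := Geff (Gamma N)) (RatFunc ℂ) K
    (vInfL N) (vInfL_le_one N) Q.asIdeal hunder
  obtain ⟨σ, rfl⟩ := piG_surjective (Gamma N) g
  obtain ⟨κ, hκ1, hκ⟩ := GaloisPlaces.exists_pow_eq (RatFunc ℂ)
    (GaloisPlaces.resVal K (vInfL N) (piG (Gamma N) σ))
    (GaloisPlaces.resVal_le_one K (vInfL N) (vInfL_le_one N) (piG (Gamma N) σ))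
    (GaloisPlaces.resVal_hp K (vInfL N) (exists_vInfL_lt_one N) (piG (Gamma N) σ))
  refine ⟨σ, κ, hκ1, fun h => ?_⟩
  have hP : GaloisPlaces.centerHOS (RatFunc ℂ)
      (GaloisPlaces.resVal K (vInfL N) (piG (Gamma N) σ))
      (GaloisPlaces.resVal_le_one K (vInfL N) (vInfL_le_one N) (piG (Gamma N) σ))
      (GaloisPlaces.resVal_hp K (vInfL N) (exists_vInfL_lt_one N) (piG (Gamma N) σ)) = Q := by
    apply HeightOneSpectrum.ext
    exact hg.symm
  rw [← hP, ← hκ h, resVal_vInfL]

instance instModuleFiniteBinf : Module.Finite (DW.Oinf ℂ) (integralClosure (DW.Oinf ℂ) K) :=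
  IsIntegralClosure.finite (DW.Oinf ℂ) (RatFunc ℂ) K _

/-- **(D4) at infinity**: the number of primes of `Binf` over the maximal ideal of `Oinf` is the
number of orbits of `⟨T⟩` on `SL(2,ℤ) ⧸ Γ₀(N)` (the number of cusps). -/
theorem card_primesOver_inf :
    Nat.card ((IsLocalRing.maximalIdeal (DW.Oinf ℂ)).primesOver
      (integralClosure (DW.Oinf ℂ) K)) = P1.orbitCount N ModularGroup.T := by
  have h1 := GaloisPlaces.card_primesOver_eq (RatFunc ℂ) K (Heff (Gamma0 N) (Gamma N))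
    (vInfL N) (vInfL_le_one N)
  rw [under_center_vInfL, ← DW.maximalIdeal_Oinf_eq, stabilizer_center_vInfL] at h1
  rw [h1, Dict.card_doubleCosetQuotient, P1.orbitCount_def, Heff, ← MonoidHom.map_zpowers]
  exact DC.card_orbits_map_symm (piG (Gamma N)) (piG_surjective (Gamma N)) (Gamma0 N)
    (Subgroup.zpowers ModularGroup.T) (Nfull_le_Gamma0 N)

theorem card_primesOver_piInf :
    Nat.card ((Ideal.span {DW.piInf ℂ}).primesOver
      (integralClosure (DW.Oinf ℂ) K)) = P1.orbitCount N ModularGroup.T := by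
  rw [← DW.maximalIdeal_Oinf_eq, card_primesOver_inf]

lemma maximalIdeal_Oinf_ne_bot : IsLocalRing.maximalIdeal (DW.Oinf ℂ) ≠ ⊥ := by
  rw [DW.maximalIdeal_Oinf_eq, Ne, Ideal.span_singleton_eq_bot]
  exact DW.piInf_ne_zero

/-- The number of maximal ideals of `Binf` is the number of cusps. -/
theorem ncard_isMaximal_inf :
    ({P : Ideal (integralClosure (DW.Oinf ℂ) K) | P.IsMaximal}).ncard =
      P1.orbitCount N ModularGroup.T := by
  rw [← FibreCount.primesOver_maximalIdeal_eq maximalIdeal_Oinf_ne_bot, ← card_primesOver_inf N,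
    Nat.card_coe_set_eq]

/-- Height-one primes of `Binf` are the primes over the maximal ideal of `Oinf`. -/
noncomputable def heightOneSpectrumEquiv :
    HeightOneSpectrum (integralClosure (DW.Oinf ℂ) K) ≃
      (IsLocalRing.maximalIdeal (DW.Oinf ℂ)).primesOver (integralClosure (DW.Oinf ℂ) K) where
  toFun Q := ⟨Q.asIdeal, Q.isPrime, ⟨by
    have := under_eq_of_prime N Q.asIdeal Q.ne_bot
    rw [under_center_vInfL, ← DW.maximalIdeal_Oinf_eq] at this
    exact this.symm⟩⟩
  invFun P := ⟨P.1, P.2.1, by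
    have := P.2.2
    exact TameDifferent.ne_bot_of_liesOver_of_ne_bot maximalIdeal_Oinf_ne_bot P.1⟩
  left_inv Q := rfl
  right_inv P := rfl

theorem card_heightOneSpectrum_inf :
    Nat.card (HeightOneSpectrum (integralClosure (DW.Oinf ℂ) K)) =
      P1.orbitCount N ModularGroup.T := by
  rw [Nat.card_congr (heightOneSpectrumEquiv N), card_primesOver_inf]

end Fermat.Agent.M2.DictInf
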