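/-
M2 / Part IV (algebra), A0: the valuation ring at infinity of `k(x)`.
-/
import Mathlib

set_option autoImplicit false

open Polynomial

namespace Fermat.Agent.M2

noncomputable section

open scoped Classical in
/-- The valuation ring at infinity of `k(x)`: rational functions of degree `≤ 0`. -/
abbrev Oinf (k : Type*) [Field k] : ValuationSubring (RatFunc k) :=
  (RatFunc.inftyValuation k).valuationSubring

variable {k : Type*} [Field k]

open scoped Classical in
theorem inftyValuation_eq_exp {f : RatFunc k} (hf : f ≠ 0) :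
    RatFunc.inftyValuation k f = WithZero.exp f.intDegree := by
  rw [RatFunc.inftyValuation_apply, RatFunc.inftyValuation_of_nonzero _ hf]

open scoped Classical in
theorem inftyValuation_le_one_iff {f : RatFunc k} :
    RatFunc.inftyValuation k f ≤ 1 ↔ f = 0 ∨ f.intDegree ≤ 0 := by
  by_cases hf : f = 0
  · simp [hf]
  · rw [inftyValuation_eq_exp hf]
    simp [hf, ← WithZero.exp_zero]

theorem mem_Oinf_iff {f : RatFunc k} : f ∈ Oinf k ↔ f = 0 ∨ f.intDegree ≤ 0 := by
  rw [Valuation.mem_valuationSubring_iff]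
  exact inftyValuation_le_one_iff

theorem mem_Oinf_of_intDegree_le {f : RatFunc k} (h : f.intDegree ≤ 0) : f ∈ Oinf k :=
  mem_Oinf_iff.mpr (Or.inr h)

theorem C_mem_Oinf (c : k) : RatFunc.C c ∈ Oinf k := by
  refine mem_Oinf_iff.mpr (Or.inr ?_)
  simp

/-- `intDegree` is additive on integer powers. -/
theorem intDegree_zpow (f : RatFunc k) (m : ℤ) : (f ^ m).intDegree = m * f.intDegree := by
  classical
  by_cases hf : f = 0
  · subst hf
    rcases eq_or_ne m 0 with rfl | hm
    · simp
    · simp [zero_zpow _ hm]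
  · have h1 : RatFunc.inftyValuation k (f ^ m) = WithZero.exp (f ^ m).intDegree :=
      inftyValuation_eq_exp (zpow_ne_zero _ hf)
    rw [map_zpow₀, inftyValuation_eq_exp hf, ← WithZero.exp_zsmul] at h1
    have := WithZero.exp_injective h1
    simpa [mul_comm] using this.symm

theorem intDegree_pow (f : RatFunc k) (m : ℕ) : (f ^ m).intDegree = m * f.intDegree := by
  have := intDegree_zpow f m
  simpa using this

@[simp]
theorem intDegree_X_zpow (m : ℤ) : ((RatFunc.X : RatFunc k) ^ m).intDegree = m := by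
  rw [intDegree_zpow, RatFunc.intDegree_X, mul_one]

theorem X_zpow_mem_Oinf {m : ℤ} (hm : m ≤ 0) : (RatFunc.X : RatFunc k) ^ m ∈ Oinf k := by
  refine mem_Oinf_iff.mpr (Or.inr ?_)
  simpa using hm

theorem X_zpow_mul_mem_Oinf_iff {f : RatFunc k} {m : ℤ} :
    (RatFunc.X : RatFunc k) ^ m * f ∈ Oinf k ↔ f = 0 ∨ f.intDegree ≤ -m := by
  rw [mem_Oinf_iff]
  by_cases hf : f = 0
  · simp [hf]
  · have hX : (RatFunc.X : RatFunc k) ^ m ≠ 0 := zpow_ne_zero _ RatFunc.X_ne_zero
    rw [RatFunc.intDegree_mul hX hf, intDegree_X_zpow]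
    simp only [mul_eq_zero, hX, hf, or_self, false_or]
    omega

/-- `k`-algebra structure on `Oinf k` (constants). -/
instance instAlgebraOinf : Algebra k (Oinf k) :=
  RingHom.toAlgebra
    { toFun := fun c => ⟨RatFunc.C c, C_mem_Oinf c⟩
      map_one' := by ext; simp
      map_mul' := fun a b => by ext; simp
      map_zero' := by ext; simp
      map_add' := fun a b => by ext; simp }

@[simp]
theorem coe_algebraMap_Oinf (c : k) : ((algebraMap k (Oinf k) c : Oinf k) : RatFunc k) = RatFunc.C c :=
  rfl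

instance instIsScalarTowerOinf : IsScalarTower k (Oinf k) (RatFunc k) :=
  IsScalarTower.of_algebraMap_eq fun c => by
    show _ = ((algebraMap k (Oinf k) c : Oinf k) : RatFunc k)
    rw [coe_algebraMap_Oinf, RatFunc.algebraMap_eq_C]

/-- The uniformizer `1/x` of `Oinf k`. -/
def piInf (k : Type*) [Field k] : Oinf k := ⟨(RatFunc.X : RatFunc k) ^ (-1 : ℤ), X_zpow_mem_Oinf (by norm_num)⟩

@[simp]
theorem coe_piInf : ((piInf k : Oinf k) : RatFunc k) = (RatFunc.X : RatFunc k)⁻¹ := by
  simp [piInf]

theorem piInf_ne_zero : piInf k ≠ 0 := by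
  intro h
  have := congrArg (fun a : Oinf k => (a : RatFunc k)) h
  simp [RatFunc.X_ne_zero] at this

/-- Units of `Oinf k` are the nonzero rational functions of degree `0`. -/
theorem isUnit_Oinf_iff {a : Oinf k} :
    IsUnit a ↔ (a : RatFunc k) ≠ 0 ∧ (a : RatFunc k).intDegree = 0 := by
  classical
  rw [(Valuation.valuationSubring.integers (RatFunc.inftyValuation k)).isUnit_iff_valuation_eq_one]
  show RatFunc.inftyValuation k (a : RatFunc k) = 1 ↔ _
  by_cases ha : (a : RatFunc k) = 0
  · simp [ha]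
  · rw [inftyValuation_eq_exp ha, ← WithZero.exp_zero, WithZero.exp_inj]
    simp [ha]

theorem mem_maximalIdeal_Oinf_iff {a : Oinf k} :
    a ∈ IsLocalRing.maximalIdeal (Oinf k) ↔ (a : RatFunc k) = 0 ∨ (a : RatFunc k).intDegree < 0 := by
  classical
  rw [Valuation.mem_maximalIdeal_iff]
  by_cases ha : (a : RatFunc k) = 0
  · simp [ha]
  · rw [inftyValuation_eq_exp ha, ← WithZero.exp_zero, WithZero.exp_lt_exp]
    simp [ha]

/-- Every element of `Oinf k` is congruent to a constant modulo the maximal ideal. -/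
theorem exists_sub_C_mem_maximalIdeal (a : Oinf k) :
    ∃ c : k, a - algebraMap k (Oinf k) c ∈ IsLocalRing.maximalIdeal (Oinf k) := by
  classical
  by_cases hmem : a ∈ IsLocalRing.maximalIdeal (Oinf k)
  · exact ⟨0, by simpa using hmem⟩
  rw [mem_maximalIdeal_Oinf_iff] at hmem
  push Not at hmem
  obtain ⟨ha0, hdeg⟩ := hmem
  have hle : (a : RatFunc k).intDegree ≤ 0 := by
    rcases mem_Oinf_iff.mp a.2 with h | h
    · exact absurd h ha0
    · exact h
  have hdeg0 : (a : RatFunc k).intDegree = 0 := le_antisymm hle hdeg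
  set f : RatFunc k := (a : RatFunc k) with hf
  set p := f.num with hp
  set q := f.denom with hq
  have hq0 : q ≠ 0 := RatFunc.denom_ne_zero f
  have hp0 : p ≠ 0 := by
    intro h
    exact ha0 (RatFunc.num_eq_zero_iff.mp h)
  have hnd : p.natDegree = q.natDegree := by
    have : f.intDegree = (p.natDegree : ℤ) - q.natDegree := rfl
    omega
  refine ⟨p.leadingCoeff / q.leadingCoeff, ?_⟩
  rw [mem_maximalIdeal_Oinf_iff]
  set c : k := p.leadingCoeff / q.leadingCoeff with hc
  have hqa : algebraMap k[X] (RatFunc k) q ≠ 0 := by simpa using hq0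
  have hfe : f = algebraMap k[X] (RatFunc k) p / algebraMap k[X] (RatFunc k) q :=
    (RatFunc.num_div_denom f).symm
  have hsub : ((a - algebraMap k (Oinf k) c : Oinf k) : RatFunc k)
      = algebraMap k[X] (RatFunc k) (p - Polynomial.C c * q) / algebraMap k[X] (RatFunc k) q := by
    have h1 : ((a - algebraMap k (Oinf k) c : Oinf k) : RatFunc k) = f - RatFunc.C c := by
      push_cast
      rw [coe_algebraMap_Oinf]
    rw [h1, hfe, map_sub, map_mul, sub_div, mul_div_assoc, div_self hqa,
      mul_one, RatFunc.algebraMap_C]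
  rw [hsub]
  by_cases hz : p - Polynomial.C c * q = 0
  · left; simp [hz]
  · right
    have hr : algebraMap k[X] (RatFunc k) (p - Polynomial.C c * q) ≠ 0 := by
      rwa [Ne, FaithfulSMul.algebraMap_eq_zero_iff]
    rw [RatFunc.intDegree_div hr hqa, RatFunc.intDegree_polynomial, RatFunc.intDegree_polynomial]
    have hlc : q.leadingCoeff ≠ 0 := by simpa using hq0
    have hc0 : c ≠ 0 := div_ne_zero (by simpa using hp0) hlc
    have hdeg' : (Polynomial.C c * q).degree = p.degree := by
      rw [Polynomial.degree_C_mul hc0, Polynomial.degree_eq_natDegree hq0,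
        Polynomial.degree_eq_natDegree hp0, hnd]
    have hlead : (Polynomial.C c * q).leadingCoeff = p.leadingCoeff := by
      rw [Polynomial.leadingCoeff_mul, Polynomial.leadingCoeff_C, hc, div_mul_cancel₀ _ hlc]
    have hlt : (p - Polynomial.C c * q).degree < p.degree :=
      Polynomial.degree_sub_lt_left hdeg'.symm hp0 hlead.symm
    have : (p - Polynomial.C c * q).natDegree < p.natDegree :=
      Polynomial.natDegree_lt_natDegree hz hlt
    omega

theorem maximalIdeal_Oinf_eq : IsLocalRing.maximalIdeal (Oinf k) = Ideal.span {piInf k} := by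
  apply le_antisymm
  · intro a ha
    rw [Ideal.mem_span_singleton']
    rw [mem_maximalIdeal_Oinf_iff] at ha
    have hmem : (RatFunc.X : RatFunc k) * (a : RatFunc k) ∈ Oinf k := by
      have := (X_zpow_mul_mem_Oinf_iff (k := k) (f := (a : RatFunc k)) (m := 1)).mpr
        (by rcases ha with h | h
            · exact Or.inl h
            · exact Or.inr (by omega))
      simpa using this
    refine ⟨⟨_, hmem⟩, ?_⟩
    ext
    simp [mul_comm, RatFunc.X_ne_zero]
  · rw [Ideal.span_singleton_le_iff_mem, mem_maximalIdeal_Oinf_iff]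
    right
    rw [coe_piInf, RatFunc.intDegree_inv, RatFunc.intDegree_X]
    norm_num

/-- Every nonzero rational function is `x ^ deg` times a unit of `Oinf k`. -/
theorem exists_unit_eq_X_zpow_mul {f : RatFunc k} (hf : f ≠ 0) :
    ∃ u : (Oinf k)ˣ, f = (RatFunc.X : RatFunc k) ^ f.intDegree * ((u : Oinf k) : RatFunc k) := by
  have hX : (RatFunc.X : RatFunc k) ^ (-f.intDegree) ≠ 0 := zpow_ne_zero _ RatFunc.X_ne_zero
  have hne : (RatFunc.X : RatFunc k) ^ (-f.intDegree) * f ≠ 0 := mul_ne_zero hX hf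
  have hdeg : ((RatFunc.X : RatFunc k) ^ (-f.intDegree) * f).intDegree = 0 := by
    rw [RatFunc.intDegree_mul hX hf, intDegree_X_zpow]; ring
  have hmem : (RatFunc.X : RatFunc k) ^ (-f.intDegree) * f ∈ Oinf k :=
    mem_Oinf_of_intDegree_le hdeg.le
  have hu : IsUnit (⟨_, hmem⟩ : Oinf k) := isUnit_Oinf_iff.mpr ⟨hne, hdeg⟩
  refine ⟨hu.unit, ?_⟩
  rw [IsUnit.unit_spec, ← mul_assoc, ← zpow_add₀ RatFunc.X_ne_zero]
  simp

theorem algebraMap_residue_Oinf_surjective :
    Function.Surjective (algebraMap k (Oinf k ⧸ IsLocalRing.maximalIdeal (Oinf k))) := by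
  intro x
  obtain ⟨a, rfl⟩ := Ideal.Quotient.mk_surjective x
  obtain ⟨c, hc⟩ := exists_sub_C_mem_maximalIdeal a
  refine ⟨c, ?_⟩
  rw [IsScalarTower.algebraMap_apply k (Oinf k) (Oinf k ⧸ IsLocalRing.maximalIdeal (Oinf k))]
  rw [Ideal.Quotient.algebraMap_eq, Eq.comm, Ideal.Quotient.eq]
  exact hc

end

end Fermat.Agent.M2
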