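import Fermat.Agent.M2.LevelOnePoly

/-!
# M2 / III.3a : integrality over `ℂ[j]` via the coset-product polynomial

For a finite-index subgroup `Γ ≤ SL(2,ℤ)` and a holomorphic `Γ`-invariant function `f` on `ℍ`
which is meromorphic at all cusps (`(f ∣[0] γ) Δ^m` bounded at `i∞` for each `γ`, some `m`),
the polynomial `∏_{q ∈ SL(2,ℤ)/Γ} (Y - f ∣ q⁻¹)` has coefficients in `ℂ[j]`.
-/

set_option linter.style.haveILetI false

namespace Fermat.Agent.M2.CosetPoly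

open UpperHalfPlane ModularForm MatrixGroups Polynomial
open scoped Manifold Topology

local notation "Δ" => ModularForm.discriminant

/-- Weight-zero slash by `SL(2,ℤ)` is composition with the Möbius action. -/
lemma slash_zero_apply (f : ℍ → ℂ) (γ : SL(2, ℤ)) (z : ℍ) : (f ∣[(0 : ℤ)] γ) z = f (γ • z) := by
  simp [SL_slash_apply]

/-- "Meromorphic at `i∞`": some power of `Δ` kills the pole. -/
def MeroAtInfty (h : ℍ → ℂ) : Prop := ∃ m : ℕ, IsBoundedAtImInfty (fun z => h z * Δ z ^ m)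

lemma isBoundedAtImInfty_discriminant_pow (m : ℕ) : IsBoundedAtImInfty (fun z => Δ z ^ m) := by
  have h : IsBoundedAtImInfty (Δ : ℍ → ℂ) := discriminant_isZeroAtImInfty.isBoundedAtImInfty
  induction m with
  | zero =>
    simp only [pow_zero]
    exact Filter.const_boundedAtFilter atImInfty (1 : ℂ)
  | succ m ih =>
    have : (fun z => Δ z ^ (m + 1)) = (fun z => Δ z ^ m) * Δ := by ext z; simp [pow_succ]
    rw [this]; exact ih.mul h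

lemma MeroAtInfty.mono {h : ℍ → ℂ} {m m' : ℕ} (hm : IsBoundedAtImInfty (fun z => h z * Δ z ^ m))
    (hmm : m ≤ m') : IsBoundedAtImInfty (fun z => h z * Δ z ^ m') := by
  have : (fun z => h z * Δ z ^ m') = (fun z => h z * Δ z ^ m) * (fun z => Δ z ^ (m' - m)) := by
    ext z
    simp only [Pi.mul_apply]
    rw [mul_assoc, ← pow_add, Nat.add_sub_cancel' hmm]
  rw [this]
  exact hm.mul (isBoundedAtImInfty_discriminant_pow _)

lemma MeroAtInfty.add {h₁ h₂ : ℍ → ℂ} (H₁ : MeroAtInfty h₁) (H₂ : MeroAtInfty h₂) :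
    MeroAtInfty (h₁ + h₂) := by
  obtain ⟨m₁, hm₁⟩ := H₁
  obtain ⟨m₂, hm₂⟩ := H₂
  refine ⟨m₁ + m₂, ?_⟩
  have : (fun z => (h₁ + h₂) z * Δ z ^ (m₁ + m₂)) =
      (fun z => h₁ z * Δ z ^ (m₁ + m₂)) + (fun z => h₂ z * Δ z ^ (m₁ + m₂)) := by
    ext z; simp [add_mul]
  rw [this]
  exact (MeroAtInfty.mono hm₁ (Nat.le_add_right _ _)).add
    (MeroAtInfty.mono hm₂ (Nat.le_add_left _ _))

lemma MeroAtInfty.mul {h₁ h₂ : ℍ → ℂ} (H₁ : MeroAtInfty h₁) (H₂ : MeroAtInfty h₂) :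
    MeroAtInfty (h₁ * h₂) := by
  obtain ⟨m₁, hm₁⟩ := H₁
  obtain ⟨m₂, hm₂⟩ := H₂
  refine ⟨m₁ + m₂, ?_⟩
  have : (fun z => (h₁ * h₂) z * Δ z ^ (m₁ + m₂)) =
      (fun z => h₁ z * Δ z ^ m₁) * (fun z => h₂ z * Δ z ^ m₂) := by
    ext z; simp [pow_add]; ring
  rw [this]
  exact hm₁.mul hm₂

lemma MeroAtInfty.const (c : ℂ) : MeroAtInfty (fun _ => c) :=
  ⟨0, by
    simp only [pow_zero, mul_one]
    exact Filter.const_boundedAtFilter atImInfty c⟩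

/-- The `ℂ`-algebra of holomorphic functions on `ℍ` that are meromorphic at `i∞`. -/
def holoMero : Subalgebra ℂ (ℍ → ℂ) where
  carrier := {h | MDiff h ∧ MeroAtInfty h}
  mul_mem' := fun ⟨ha, ha'⟩ ⟨hb, hb'⟩ => ⟨ha.mul hb, ha'.mul hb'⟩
  add_mem' := fun ⟨ha, ha'⟩ ⟨hb, hb'⟩ => ⟨ha.add hb, ha'.add hb'⟩
  algebraMap_mem' := fun c => ⟨mdifferentiable_const, MeroAtInfty.const c⟩

lemma mem_holoMero {h : ℍ → ℂ} : h ∈ holoMero ↔ MDiff h ∧ MeroAtInfty h := Iff.rfl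

section Coset

variable (Γ : Subgroup SL(2, ℤ))

/-- The translates `f ∣[0] γ⁻¹`, indexed by the left cosets `γΓ`. -/
noncomputable def cosetFun (f : ℍ → ℂ) (hinv : ∀ g ∈ Γ, f ∣[(0 : ℤ)] g = f) :
    SL(2, ℤ) ⧸ Γ → ℍ → ℂ :=
  fun q => Quotient.liftOn' q (fun γ : SL(2, ℤ) => f ∣[(0 : ℤ)] γ⁻¹) (by
    intro a b hab
    have hab' : a⁻¹ * b ∈ Γ := QuotientGroup.leftRel_apply.mp hab
    have hb : b⁻¹ = (a⁻¹ * b)⁻¹ * a⁻¹ := by group
    show f ∣[(0 : ℤ)] a⁻¹ = f ∣[(0 : ℤ)] b⁻¹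
    rw [hb, SlashAction.slash_mul, hinv _ (Γ.inv_mem hab')])

variable {Γ}

@[simp] lemma cosetFun_mk (f : ℍ → ℂ) (hinv : ∀ g ∈ Γ, f ∣[(0 : ℤ)] g = f) (γ : SL(2, ℤ)) :
    cosetFun Γ f hinv (γ : SL(2, ℤ) ⧸ Γ) = f ∣[(0 : ℤ)] γ⁻¹ := rfl

lemma cosetFun_one (f : ℍ → ℂ) (hinv : ∀ g ∈ Γ, f ∣[(0 : ℤ)] g = f) :
    cosetFun Γ f hinv ((1 : SL(2, ℤ)) : SL(2, ℤ) ⧸ Γ) = f := by
  rw [cosetFun_mk, inv_one, SlashAction.slash_one]

lemma cosetFun_slash (f : ℍ → ℂ) (hinv : ∀ g ∈ Γ, f ∣[(0 : ℤ)] g = f) (q : SL(2, ℤ) ⧸ Γ)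
    (δ : SL(2, ℤ)) : cosetFun Γ f hinv q ∣[(0 : ℤ)] δ = cosetFun Γ f hinv (δ⁻¹ • q) := by
  induction q using QuotientGroup.induction_on with
  | H γ =>
    rw [cosetFun_mk, MulAction.Quotient.smul_mk, cosetFun_mk, ← SlashAction.slash_mul]
    congr 1
    simp [mul_inv_rev]

lemma cosetFun_smul_apply (f : ℍ → ℂ) (hinv : ∀ g ∈ Γ, f ∣[(0 : ℤ)] g = f) (q : SL(2, ℤ) ⧸ Γ)
    (δ : SL(2, ℤ)) (z : ℍ) : cosetFun Γ f hinv q (δ • z) = cosetFun Γ f hinv (δ⁻¹ • q) z := by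
  rw [← cosetFun_slash, slash_zero_apply]

lemma cosetFun_mem_holoMero (f : ℍ → ℂ) (hinv : ∀ g ∈ Γ, f ∣[(0 : ℤ)] g = f) (hol : MDiff f)
    (hmero : ∀ γ : SL(2, ℤ), MeroAtInfty (f ∣[(0 : ℤ)] γ)) (q : SL(2, ℤ) ⧸ Γ) :
    cosetFun Γ f hinv q ∈ holoMero := by
  induction q using QuotientGroup.induction_on with
  | H γ =>
    rw [cosetFun_mk]
    exact ⟨hol.slash 0 _, hmero γ⁻¹⟩

/-- Evaluation at a point as a ring hom on `holoMero`. -/
def evalAt (z : ℍ) : holoMero →+* ℂ :=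
  (Pi.evalRingHom (fun _ : ℍ => ℂ) z).comp holoMero.val.toRingHom

@[simp] lemma evalAt_apply (z : ℍ) (h : holoMero) : evalAt z h = (h : ℍ → ℂ) z := rfl

variable [Γ.FiniteIndex]

/-- The coset-product polynomial over the ring `holoMero`. -/
noncomputable def cosetPolyA (f : ℍ → ℂ) (hinv : ∀ g ∈ Γ, f ∣[(0 : ℤ)] g = f) (hol : MDiff f)
    (hmero : ∀ γ : SL(2, ℤ), MeroAtInfty (f ∣[(0 : ℤ)] γ)) : holoMero[X] :=
  letI : Fintype (SL(2, ℤ) ⧸ Γ) := Subgroup.fintypeQuotientOfFiniteIndex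
  ∏ q : SL(2, ℤ) ⧸ Γ, (X - C ⟨cosetFun Γ f hinv q, cosetFun_mem_holoMero f hinv hol hmero q⟩)

lemma cosetPolyA_map_evalAt (f : ℍ → ℂ) (hinv : ∀ g ∈ Γ, f ∣[(0 : ℤ)] g = f) (hol : MDiff f)
    (hmero : ∀ γ : SL(2, ℤ), MeroAtInfty (f ∣[(0 : ℤ)] γ)) (z : ℍ) :
    letI : Fintype (SL(2, ℤ) ⧸ Γ) := Subgroup.fintypeQuotientOfFiniteIndex
    (cosetPolyA f hinv hol hmero).map (evalAt z) =
      ∏ q : SL(2, ℤ) ⧸ Γ, (X - C (cosetFun Γ f hinv q z)) := by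
  letI : Fintype (SL(2, ℤ) ⧸ Γ) := Subgroup.fintypeQuotientOfFiniteIndex
  simp only [cosetPolyA, Polynomial.map_prod, Polynomial.map_sub, Polynomial.map_X,
    Polynomial.map_C, evalAt_apply]

lemma cosetPolyA_monic (f : ℍ → ℂ) (hinv : ∀ g ∈ Γ, f ∣[(0 : ℤ)] g = f) (hol : MDiff f)
    (hmero : ∀ γ : SL(2, ℤ), MeroAtInfty (f ∣[(0 : ℤ)] γ)) :
    (cosetPolyA f hinv hol hmero).Monic := by
  letI : Fintype (SL(2, ℤ) ⧸ Γ) := Subgroup.fintypeQuotientOfFiniteIndex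
  exact monic_prod_of_monic _ _ fun q _ => monic_X_sub_C _

lemma cosetPolyA_natDegree (f : ℍ → ℂ) (hinv : ∀ g ∈ Γ, f ∣[(0 : ℤ)] g = f) (hol : MDiff f)
    (hmero : ∀ γ : SL(2, ℤ), MeroAtInfty (f ∣[(0 : ℤ)] γ)) :
    (cosetPolyA f hinv hol hmero).natDegree = Γ.index := by
  letI : Fintype (SL(2, ℤ) ⧸ Γ) := Subgroup.fintypeQuotientOfFiniteIndex
  haveI : Nontrivial holoMero := ⟨⟨0, 1, fun h => by
    have := congrArg (fun x : holoMero => (x : ℍ → ℂ) UpperHalfPlane.I) h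
    simp at this⟩⟩
  rw [cosetPolyA, natDegree_prod_of_monic _ _ fun q _ => monic_X_sub_C _]
  simp only [natDegree_X_sub_C, Finset.sum_const, Finset.card_univ, smul_eq_mul, mul_one]
  rw [Subgroup.index_eq_card, Nat.card_eq_fintype_card]

/-- The coefficients of the coset polynomial, as functions on `ℍ`, are `SL(2,ℤ)`-invariant. -/
lemma cosetPolyA_coeff_slash (f : ℍ → ℂ) (hinv : ∀ g ∈ Γ, f ∣[(0 : ℤ)] g = f) (hol : MDiff f)
    (hmero : ∀ γ : SL(2, ℤ), MeroAtInfty (f ∣[(0 : ℤ)] γ)) (k : ℕ) (δ : SL(2, ℤ)) :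
    (((cosetPolyA f hinv hol hmero).coeff k : holoMero) : ℍ → ℂ) ∣[(0 : ℤ)] δ =
      ((cosetPolyA f hinv hol hmero).coeff k : holoMero) := by
  letI : Fintype (SL(2, ℤ) ⧸ Γ) := Subgroup.fintypeQuotientOfFiniteIndex
  ext z
  rw [slash_zero_apply]
  have h1 : ∀ w : ℍ, (((cosetPolyA f hinv hol hmero).coeff k : holoMero) : ℍ → ℂ) w =
      ((cosetPolyA f hinv hol hmero).map (evalAt w)).coeff k := fun w => by
    rw [coeff_map, evalAt_apply]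
  rw [h1, h1, cosetPolyA_map_evalAt, cosetPolyA_map_evalAt]
  congr 1
  simp only [cosetFun_smul_apply]
  exact Fintype.prod_equiv (MulAction.toPerm δ⁻¹) _ _ fun q => rfl

/-- Each coefficient of the coset polynomial is a polynomial in `j = E₄³/Δ`. -/
lemma exists_poly_coeff (f : ℍ → ℂ) (hinv : ∀ g ∈ Γ, f ∣[(0 : ℤ)] g = f) (hol : MDiff f)
    (hmero : ∀ γ : SL(2, ℤ), MeroAtInfty (f ∣[(0 : ℤ)] γ)) (k : ℕ) :
    ∃ P : ℂ[X], ∀ z : ℍ, (((cosetPolyA f hinv hol hmero).coeff k : holoMero) : ℍ → ℂ) z =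
      P.eval (E₄ z ^ 3 / Δ z) := by
  obtain ⟨hc1, m, hm⟩ := ((cosetPolyA f hinv hol hmero).coeff k).2
  obtain ⟨P, -, hP⟩ := LevelOnePoly.exists_poly_of_weaklyHolomorphic _ hc1
    (cosetPolyA_coeff_slash f hinv hol hmero k) m hm
  exact ⟨P, hP⟩

/-- **III.3a** The coset-product polynomial has coefficients in `ℂ[j]`: there is a monic
`Q ∈ ℂ[X][Y]` of degree `[SL(2,ℤ) : Γ]` in `Y` with
`Q(j(z), Y) = ∏_{q ∈ SL(2,ℤ)/Γ} (Y - (f ∣ q⁻¹)(z))` for all `z`. -/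
theorem exists_cosetPoly (f : ℍ → ℂ) (hinv : ∀ g ∈ Γ, f ∣[(0 : ℤ)] g = f) (hol : MDiff f)
    (hmero : ∀ γ : SL(2, ℤ), MeroAtInfty (f ∣[(0 : ℤ)] γ)) :
    letI : Fintype (SL(2, ℤ) ⧸ Γ) := Subgroup.fintypeQuotientOfFiniteIndex
    ∃ Q : ℂ[X][X], Q.Monic ∧ Q.natDegree = Γ.index ∧ ∀ z : ℍ,
      Q.map (evalRingHom (E₄ z ^ 3 / Δ z)) =
        ∏ q : SL(2, ℤ) ⧸ Γ, (X - C (cosetFun Γ f hinv q z)) := by
  letI : Fintype (SL(2, ℤ) ⧸ Γ) := Subgroup.fintypeQuotientOfFiniteIndex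
  choose P hP using exists_poly_coeff f hinv hol hmero
  set n := Γ.index with hn
  set S : ℂ[X][X] := ∑ k ∈ Finset.range n, C (P k) * X ^ k with hS
  have hSdeg : S.degree < n := by
    refine (degree_sum_le _ _).trans_lt ?_
    refine (Finset.sup_lt_iff (WithBot.bot_lt_coe n)).mpr fun k hk => ?_
    exact (degree_C_mul_X_pow_le k _).trans_lt (WithBot.coe_lt_coe.mpr (Finset.mem_range.mp hk))
  have hnat : (X ^ n + S : ℂ[X][X]).natDegree = n := by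
    rw [natDegree_add_eq_left_of_degree_lt (by rwa [degree_X_pow]), natDegree_X_pow]
  refine ⟨X ^ n + S, monic_X_pow_add hSdeg, hnat, fun z => ?_⟩
  rw [← cosetPolyA_map_evalAt f hinv hol hmero z]
  set R : ℂ[X] := (cosetPolyA f hinv hol hmero).map (evalAt z) with hR
  have hRm : R.Monic := (cosetPolyA_monic f hinv hol hmero).map _
  have hRd : R.natDegree = n := by
    rw [hR, (cosetPolyA_monic f hinv hol hmero).natDegree_map, cosetPolyA_natDegree]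
  rw [hRm.as_sum, hRd, Polynomial.map_add, Polynomial.map_pow, Polynomial.map_X, hS,
    Polynomial.map_sum]
  congr 1
  refine Finset.sum_congr rfl fun k _ => ?_
  rw [Polynomial.map_mul, Polynomial.map_pow, Polynomial.map_X, Polynomial.map_C, hR, coeff_map,
    evalAt_apply, hP k z]
  rfl

/-- **III.3a (root form)** `f(z)` is a root of `Q(j(z), Y)`. -/
theorem exists_monic_poly_root (f : ℍ → ℂ) (hinv : ∀ g ∈ Γ, f ∣[(0 : ℤ)] g = f) (hol : MDiff f)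
    (hmero : ∀ γ : SL(2, ℤ), MeroAtInfty (f ∣[(0 : ℤ)] γ)) :
    ∃ Q : ℂ[X][X], Q.Monic ∧ Q.natDegree = Γ.index ∧ ∀ z : ℍ,
      (Q.map (evalRingHom (E₄ z ^ 3 / Δ z))).eval (f z) = 0 := by
  letI : Fintype (SL(2, ℤ) ⧸ Γ) := Subgroup.fintypeQuotientOfFiniteIndex
  obtain ⟨Q, hQm, hQd, hQ⟩ := exists_cosetPoly f hinv hol hmero
  refine ⟨Q, hQm, hQd, fun z => ?_⟩
  rw [hQ z, eval_prod]
  refine Finset.prod_eq_zero (Finset.mem_univ ((1 : SL(2, ℤ)) : SL(2, ℤ) ⧸ Γ)) ?_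
  rw [cosetFun_one]
  simp

/-! ### The case `f = F / Δ^m` with `F` a modular form of weight `12 m` for `Γ` -/

section Quotient

variable {m : ℕ} (F : ModularForm (Γ : Subgroup (GL (Fin 2) ℝ)) (12 * (m : ℤ)))

/-- The weakly holomorphic modular function `F / Δ^m`. -/
noncomputable def quot : ℍ → ℂ := fun z => F z / Δ z ^ m

omit [Γ.FiniteIndex] in
lemma quot_mul (z : ℍ) : quot F z * Δ z ^ m = F z :=
  div_mul_cancel₀ _ (pow_ne_zero _ (discriminant_ne_zero z))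

omit [Γ.FiniteIndex] in
lemma quot_slash (γ : SL(2, ℤ)) :
    quot F ∣[(0 : ℤ)] γ = fun z => (⇑F ∣[(12 * (m : ℤ))] γ) z / Δ z ^ m := by
  have h : quot F = (⇑F) / (fun z => Δ z ^ m) := rfl
  rw [h, show (0 : ℤ) = 12 * (m : ℤ) - 12 * (m : ℤ) by ring, div_slash_SL2,
    LevelOnePoly.discriminant_pow_slash]
  rfl

omit [Γ.FiniteIndex] in
lemma quot_inv : ∀ g ∈ Γ, quot F ∣[(0 : ℤ)] g = quot F := by
  intro g hg
  rw [quot_slash]
  have : (⇑F ∣[(12 * (m : ℤ))] g) = ⇑F :=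
    SlashInvariantFormClass.slash_action_eq F _ (Subgroup.mem_map_of_mem _ hg)
  rw [this]; rfl

omit [Γ.FiniteIndex] in
lemma quot_mdiff : MDiff (quot F) := by
  have h1 : MDiff (⇑F) := ModularFormClass.holo F
  have h2 : MDiff (fun z => Δ z ^ m) := LevelOnePoly.mdiff_discriminant_pow m
  exact h1.div h2 fun z => pow_ne_zero _ (discriminant_ne_zero z)

lemma quot_mero (γ : SL(2, ℤ)) : MeroAtInfty (quot F ∣[(0 : ℤ)] γ) := by
  refine ⟨m, ?_⟩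
  rw [quot_slash]
  have : (fun z => (⇑F ∣[(12 * (m : ℤ))] γ) z / Δ z ^ m * Δ z ^ m) = ⇑F ∣[(12 * (m : ℤ))] γ := by
    ext z
    exact div_mul_cancel₀ _ (pow_ne_zero _ (discriminant_ne_zero z))
  rw [this]
  exact ModularFormClass.bdd_at_infty_slash F γ

/-- **III.3a for `F/Δ^m`**: integrality over `ℂ[j]` with a monic polynomial of degree the index. -/
theorem exists_monic_poly_root_quot :
    ∃ Q : ℂ[X][X], Q.Monic ∧ Q.natDegree = Γ.index ∧ ∀ z : ℍ,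
      (Q.map (evalRingHom (E₄ z ^ 3 / Δ z))).eval (F z / Δ z ^ m) = 0 :=
  exists_monic_poly_root (quot F) (quot_inv F) (quot_mdiff F) (quot_mero F)

end Quotient

end Coset

end Fermat.Agent.M2.CosetPoly
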