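import Fermat.Agent.M2.P1Basic

set_option autoImplicit false

/-!
# The action of `SL(2, R)` on the projective line, and `SL(2, ℤ) ⧸ Γ₀(N) ≃ ℙ¹(ℤ/N)`

Column-vector convention: `g • (x : y) = (a x + b y : c x + d y)` for `g = !![a, b; c, d]`.
The base point is `∞ = (1 : 0)`; its stabiliser in `SL(2, ℤ)` (acting on `ℙ¹(ℤ/N)`) is `Γ₀(N)`.
-/

namespace Fermat.Agent.M2.P1

open Matrix MatrixGroups

variable {R : Type*} [CommRing R]

/-- A `2 × 2` matrix acting on a column vector. -/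
def mulVec2 (g : Matrix (Fin 2) (Fin 2) R) (v : R × R) : R × R :=
  (g 0 0 * v.1 + g 0 1 * v.2, g 1 0 * v.1 + g 1 1 * v.2)

theorem mulVec2_one (v : R × R) : mulVec2 1 v = v := by
  simp [mulVec2]

theorem mulVec2_mul (g h : Matrix (Fin 2) (Fin 2) R) (v : R × R) :
    mulVec2 (g * h) v = mulVec2 g (mulVec2 h v) := by
  simp only [mulVec2, Matrix.mul_apply, Fin.sum_univ_two]
  ext <;> simp <;> ring

theorem cross_mulVec2 (g : Matrix (Fin 2) (Fin 2) R) (v w : R × R) :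
    cross (mulVec2 g v) (mulVec2 g w) = g.det * cross v w := by
  simp only [mulVec2, cross, Matrix.det_fin_two]
  ring

theorem IsPrim.mulVec2 (g : SL(2, R)) {v : R × R} (hv : IsPrim v) : IsPrim (mulVec2 g.1 v) := by
  obtain ⟨p, q, hpq⟩ := hv
  have hdet : g.1 0 0 * g.1 1 1 - g.1 0 1 * g.1 1 0 = 1 := by
    rw [← Matrix.det_fin_two]; exact g.2
  refine ⟨p * g.1 1 1 - q * g.1 1 0, -p * g.1 0 1 + q * g.1 0 0, ?_⟩
  simp only [P1.mulVec2]
  linear_combination (p * v.1 + q * v.2) * hdet + hpq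

/-- The action of `SL(2, R)` on the projective line `ℙ¹(R)`. -/
instance instMulActionSL : MulAction SL(2, R) (ProjLine R) where
  smul g := Quotient.map' (s₁ := primSetoid R) (s₂ := primSetoid R)
    (fun v => ⟨mulVec2 g.1 v.1, v.2.mulVec2 g⟩) (fun v w h => by
      show cross _ _ = 0
      have h' : cross v.1 w.1 = 0 := h
      rw [cross_mulVec2, h', mul_zero])
  one_smul x := by
    obtain ⟨v, hv, rfl⟩ := mk_surjective x
    show mk _ _ = mk _ _
    congr 1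
    exact mulVec2_one v
  mul_smul g h x := by
    obtain ⟨v, hv, rfl⟩ := mk_surjective x
    show mk _ _ = mk _ _
    congr 1
    exact mulVec2_mul g.1 h.1 v

theorem smul_mk (g : SL(2, R)) (v : R × R) (hv : IsPrim v) :
    g • mk v hv = mk (mulVec2 g.1 v) (hv.mulVec2 g) := rfl

theorem isPrim_infty : IsPrim ((1 : R), (0 : R)) := ⟨1, 0, by simp⟩

/-- The point `∞ = (1 : 0)`. -/
def infty : ProjLine R := mk (1, 0) isPrim_infty

theorem isPrim_col (g : SL(2, R)) : IsPrim (g.1 0 0, g.1 1 0) := by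
  refine ⟨g.1 1 1, -g.1 0 1, ?_⟩
  have hdet : g.1 0 0 * g.1 1 1 - g.1 0 1 * g.1 1 0 = 1 := by
    rw [← Matrix.det_fin_two]; exact g.2
  linear_combination hdet

theorem smul_infty (g : SL(2, R)) :
    g • (infty : ProjLine R) = mk (g.1 0 0, g.1 1 0) (isPrim_col g) := by
  rw [infty, smul_mk, mk_eq_mk_iff]
  simp [mulVec2, cross]
  ring


/-! ### Lifting primitive vectors mod `N` to columns of `SL(2, ℤ)` -/

theorem exists_isCoprime_add_mul (a c n : ℤ) (hc : c ≠ 0)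
    (h : ∃ p q r : ℤ, p * a + q * c + r * n = 1) : ∃ t : ℤ, IsCoprime (a + t * n) c := by
  obtain ⟨p', q', r', hpqr⟩ := h
  let ps : Finset ℕ := {p ∈ c.natAbs.primeFactors | ¬ (p : ℤ) ∣ a}
  refine ⟨∏ p ∈ ps, (p : ℤ), ?_⟩
  rw [Int.isCoprime_iff_gcd_eq_one]
  apply Nat.coprime_of_dvd
  intro p pp hp hpc
  have hp' : (p : ℤ) ∣ a + (∏ p ∈ ps, (p : ℤ)) * n := Int.natCast_dvd.mpr hp
  have hpc' : (p : ℤ) ∣ c := Int.natCast_dvd.mpr hpc
  have pp' : Prime (p : ℤ) := Nat.prime_iff_prime_int.mp pp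
  by_cases hpa : (p : ℤ) ∣ a
  · have h1 : (p : ℤ) ∣ (∏ p ∈ ps, (p : ℤ)) * n := (dvd_add_right hpa).mp hp'
    rcases pp'.dvd_or_dvd h1 with h2 | h2
    · obtain ⟨q, hq, hq'⟩ := (Prime.dvd_finsetProd_iff pp' _).mp h2
      rw [Finset.mem_filter, Nat.mem_primeFactors] at hq
      have : p = q := (Nat.prime_dvd_prime_iff_eq pp hq.1.1).mp (Int.natCast_dvd_natCast.mp hq')
      exact hq.2 (this ▸ hpa)
    · have : (p : ℤ) ∣ 1 := by
        rw [← hpqr]
        exact dvd_add (dvd_add (hpa.mul_left _) (hpc'.mul_left _)) (h2.mul_left _)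
      exact pp'.not_isUnit (isUnit_of_dvd_one this)
  · have pps : p ∈ ps := Finset.mem_filter.mpr
      ⟨Nat.mem_primeFactors.mpr ⟨pp, hpc, Int.natAbs_ne_zero.mpr hc⟩, hpa⟩
    have h1 : (p : ℤ) ∣ (∏ p ∈ ps, (p : ℤ)) * n :=
      (Finset.dvd_prod_of_mem (fun p : ℕ => (p : ℤ)) pps).mul_right n
    exact hpa ((dvd_add_left h1).mp hp')

theorem exists_isCoprime_lift (N : ℕ) (x y : ZMod N) (h : ∃ p q : ZMod N, p * x + q * y = 1) :
    ∃ a c : ℤ, IsCoprime a c ∧ (a : ZMod N) = x ∧ (c : ZMod N) = y := by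
  obtain ⟨p, q, hpq⟩ := h
  obtain ⟨a₀, rfl⟩ := ZMod.intCast_surjective x
  obtain ⟨c₀, rfl⟩ := ZMod.intCast_surjective y
  obtain ⟨p₀, rfl⟩ := ZMod.intCast_surjective p
  obtain ⟨q₀, rfl⟩ := ZMod.intCast_surjective q
  have h1 : ((p₀ * a₀ + q₀ * c₀ - 1 : ℤ) : ZMod N) = 0 := by
    push_cast
    rw [hpq, sub_self]
  obtain ⟨r, hr⟩ := (ZMod.intCast_zmod_eq_zero_iff_dvd _ _).mp h1
  by_cases hc0 : c₀ = 0
  · subst hc0
    by_cases hN : (N : ℤ) = 0
    · refine ⟨a₀, 0, ⟨p₀, q₀, ?_⟩, rfl, rfl⟩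
      rw [hN] at hr
      linear_combination hr
    · obtain ⟨t, ht⟩ := exists_isCoprime_add_mul a₀ N N hN ⟨p₀, 0, -r, by linear_combination hr⟩
      refine ⟨a₀ + t * N, N, ht, ?_, ?_⟩
      · push_cast
        simp
      · simp
  · obtain ⟨t, ht⟩ := exists_isCoprime_add_mul a₀ c₀ N hc0 ⟨p₀, q₀, -r, by linear_combination hr⟩
    refine ⟨a₀ + t * N, c₀, ht, ?_, rfl⟩
    push_cast
    simp

theorem exists_SL_col (N : ℕ) (x y : ZMod N) (h : ∃ p q : ZMod N, p * x + q * y = 1) :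
    ∃ g : SL(2, ℤ), ((g 0 0 : ℤ) : ZMod N) = x ∧ ((g 1 0 : ℤ) : ZMod N) = y := by
  obtain ⟨a, c, ⟨u, v, huv⟩, rfl, rfl⟩ := exists_isCoprime_lift N x y h
  refine ⟨⟨!![a, -v; c, u], ?_⟩, ?_, ?_⟩
  · rw [Matrix.det_fin_two_of]
    linear_combination huv
  · simp
  · simp


/-! ### The action of `SL(2, ℤ)` on `ℙ¹(ℤ/N)` and the coset bijection -/

section ZModN

variable (N : ℕ)

/-- Reduction mod `N`. -/
def red : SL(2, ℤ) →* SL(2, ZMod N) := SpecialLinearGroup.map (Int.castRingHom (ZMod N))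

theorem red_apply (g : SL(2, ℤ)) (i j : Fin 2) : (red N g) i j = ((g i j : ℤ) : ZMod N) := rfl

/-- `SL(2, ℤ)` acts on `ℙ¹(ℤ/N)` through reduction mod `N`. -/
instance instMulActionSLInt : MulAction SL(2, ℤ) (ProjLine (ZMod N)) :=
  MulAction.compHom _ (red N)

variable {N}

theorem int_smul_def (g : SL(2, ℤ)) (x : ProjLine (ZMod N)) : g • x = red N g • x := rfl

theorem isPrim_int_mulVec2 (g : SL(2, ℤ)) {v : ZMod N × ZMod N} (hv : IsPrim v) :
    IsPrim (((g 0 0 : ℤ) : ZMod N) * v.1 + ((g 0 1 : ℤ) : ZMod N) * v.2,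
      ((g 1 0 : ℤ) : ZMod N) * v.1 + ((g 1 1 : ℤ) : ZMod N) * v.2) :=
  hv.mulVec2 (red N g)

theorem int_smul_mk (g : SL(2, ℤ)) (v : ZMod N × ZMod N) (hv : IsPrim v) :
    g • mk v hv = mk (((g 0 0 : ℤ) : ZMod N) * v.1 + ((g 0 1 : ℤ) : ZMod N) * v.2,
      ((g 1 0 : ℤ) : ZMod N) * v.1 + ((g 1 1 : ℤ) : ZMod N) * v.2) (isPrim_int_mulVec2 g hv) := rfl

theorem isPrim_int_col (g : SL(2, ℤ)) :
    IsPrim (((g 0 0 : ℤ) : ZMod N), ((g 1 0 : ℤ) : ZMod N)) :=
  isPrim_col (red N g)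

theorem int_smul_infty (g : SL(2, ℤ)) :
    g • (infty : ProjLine (ZMod N)) = mk (((g 0 0 : ℤ) : ZMod N), ((g 1 0 : ℤ) : ZMod N))
      (isPrim_int_col g) := by
  rw [int_smul_def, smul_infty]
  rfl

theorem int_smul_infty_eq_iff (g h : SL(2, ℤ)) :
    g • (infty : ProjLine (ZMod N)) = h • infty ↔
      ((g 0 0 : ℤ) : ZMod N) * ((h 1 0 : ℤ) : ZMod N) -
        ((g 1 0 : ℤ) : ZMod N) * ((h 0 0 : ℤ) : ZMod N) = 0 := by
  rw [int_smul_infty, int_smul_infty, mk_eq_mk_iff]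
  rfl

theorem int_smul_infty_eq_infty_iff (g : SL(2, ℤ)) :
    g • (infty : ProjLine (ZMod N)) = infty ↔ g ∈ CongruenceSubgroup.Gamma0 N := by
  rw [int_smul_infty, infty, mk_eq_mk_iff, CongruenceSubgroup.Gamma0_mem]
  simp [cross]

theorem stabilizer_infty :
    MulAction.stabilizer SL(2, ℤ) (infty : ProjLine (ZMod N)) = CongruenceSubgroup.Gamma0 N := by
  ext g
  rw [MulAction.mem_stabilizer_iff, int_smul_infty_eq_infty_iff]

theorem exists_int_smul_infty_eq (x : ProjLine (ZMod N)) :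
    ∃ g : SL(2, ℤ), g • (infty : ProjLine (ZMod N)) = x := by
  obtain ⟨v, hv, rfl⟩ := mk_surjective x
  obtain ⟨g, h1, h2⟩ := exists_SL_col N v.1 v.2 hv
  refine ⟨g, ?_⟩
  rw [int_smul_infty, mk_eq_mk_iff, h1, h2]
  exact cross_self v

instance instIsPretransitive : MulAction.IsPretransitive SL(2, ℤ) (ProjLine (ZMod N)) where
  exists_smul_eq x y := by
    obtain ⟨g, rfl⟩ := exists_int_smul_infty_eq x
    obtain ⟨h, rfl⟩ := exists_int_smul_infty_eq y
    exact ⟨h * g⁻¹, by rw [mul_smul, inv_smul_smul]⟩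

variable (N) in
/-- The map `SL(2, ℤ) ⧸ Γ₀(N) → ℙ¹(ℤ/N)`, `g Γ₀(N) ↦ g • ∞ = (a : c)`. -/
def cosetToProjLine : SL(2, ℤ) ⧸ CongruenceSubgroup.Gamma0 N → ProjLine (ZMod N) :=
  fun q => Quotient.liftOn' q (fun g => g • (infty : ProjLine (ZMod N))) (fun g h hgh => by
    rw [QuotientGroup.leftRel_apply, ← int_smul_infty_eq_infty_iff, mul_smul] at hgh
    exact (inv_smul_eq_iff.mp hgh).symm)

theorem cosetToProjLine_mk (g : SL(2, ℤ)) :
    cosetToProjLine N (QuotientGroup.mk g) = g • (infty : ProjLine (ZMod N)) := rfl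

theorem cosetToProjLine_smul (g : SL(2, ℤ)) (q : SL(2, ℤ) ⧸ CongruenceSubgroup.Gamma0 N) :
    cosetToProjLine N (g • q) = g • cosetToProjLine N q := by
  induction q using QuotientGroup.induction_on with
  | _ h =>
    rw [MulAction.Quotient.smul_mk, cosetToProjLine_mk, cosetToProjLine_mk, smul_eq_mul, mul_smul]

theorem cosetToProjLine_bijective : Function.Bijective (cosetToProjLine N) := by
  constructor
  · intro q q' h
    induction q using QuotientGroup.induction_on with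
    | _ g =>
    induction q' using QuotientGroup.induction_on with
    | _ g' =>
    rw [cosetToProjLine_mk, cosetToProjLine_mk] at h
    rw [QuotientGroup.eq, ← int_smul_infty_eq_infty_iff, mul_smul, ← h, inv_smul_smul]
  · intro x
    obtain ⟨g, rfl⟩ := exists_int_smul_infty_eq x
    exact ⟨QuotientGroup.mk g, rfl⟩

variable (N) in
/-- The `SL(2, ℤ)`-equivariant bijection `SL(2, ℤ) ⧸ Γ₀(N) ≃ ℙ¹(ℤ/N)`. -/
noncomputable def cosetEquiv : SL(2, ℤ) ⧸ CongruenceSubgroup.Gamma0 N ≃ ProjLine (ZMod N) :=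
  Equiv.ofBijective _ cosetToProjLine_bijective

theorem cosetEquiv_mk (g : SL(2, ℤ)) :
    cosetEquiv N (QuotientGroup.mk g) = g • (infty : ProjLine (ZMod N)) := rfl

theorem cosetEquiv_smul (g : SL(2, ℤ)) (q : SL(2, ℤ) ⧸ CongruenceSubgroup.Gamma0 N) :
    cosetEquiv N (g • q) = g • cosetEquiv N q := cosetToProjLine_smul g q

theorem cosetEquiv_symm_smul (g : SL(2, ℤ)) (x : ProjLine (ZMod N)) :
    (cosetEquiv N).symm (g • x) = g • (cosetEquiv N).symm x := by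
  apply (cosetEquiv N).injective
  rw [cosetEquiv_smul, Equiv.apply_symm_apply, Equiv.apply_symm_apply]

theorem index_Gamma0_eq_card :
    (CongruenceSubgroup.Gamma0 N).index = Nat.card (ProjLine (ZMod N)) := by
  rw [Subgroup.index, Nat.card_congr (cosetEquiv N)]

/-! ### The generators `S`, `T` and `S * T` -/

theorem isPrim_S {R : Type*} [CommRing R] {v : R × R} (hv : IsPrim v) : IsPrim (-v.2, v.1) := by
  obtain ⟨p, q, hpq⟩ := hv
  exact ⟨-q, p, by linear_combination hpq⟩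

theorem isPrim_T {R : Type*} [CommRing R] {v : R × R} (hv : IsPrim v) : IsPrim (v.1 + v.2, v.2) := by
  obtain ⟨p, q, hpq⟩ := hv
  exact ⟨p, q - p, by linear_combination hpq⟩

theorem isPrim_ST {R : Type*} [CommRing R] {v : R × R} (hv : IsPrim v) :
    IsPrim (-v.2, v.1 + v.2) := by
  obtain ⟨p, q, hpq⟩ := hv
  exact ⟨p - q, p, by linear_combination hpq⟩

theorem S_smul_mk (v : ZMod N × ZMod N) (hv : IsPrim v) :
    ModularGroup.S • mk v hv = mk (-v.2, v.1) (isPrim_S hv) := by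
  rw [int_smul_mk, mk_eq_mk_iff]
  simp [ModularGroup.S, cross]
  ring

theorem T_smul_mk (v : ZMod N × ZMod N) (hv : IsPrim v) :
    ModularGroup.T • mk v hv = mk (v.1 + v.2, v.2) (isPrim_T hv) := by
  rw [int_smul_mk, mk_eq_mk_iff]
  simp [ModularGroup.T, cross]
  ring

theorem ST_smul_mk (v : ZMod N × ZMod N) (hv : IsPrim v) :
    (ModularGroup.S * ModularGroup.T) • mk v hv = mk (-v.2, v.1 + v.2) (isPrim_ST hv) := by
  rw [mul_smul, T_smul_mk, S_smul_mk]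

end ZModN

end Fermat.Agent.M2.P1
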