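import Fermat.Agent.M2.P1Count
import Fermat.Agent.M2.P1Action
import Fermat.Prelude.Def_ModularCurve_GenusNumerics

set_option autoImplicit false

/-!
# `#ℙ¹(ℤ/N) = ψ(N)` and the index of `Γ₀(N)`

Main results: `card_projLine_zmod : Nat.card (ProjLine (ZMod N)) = ModularCurve.dedekindPsi N`,
`index_Gamma0 : (Gamma0 N).index = ModularCurve.dedekindPsi N`.
-/

namespace Fermat.Agent.M2.P1

open ArithmeticFunction ModularCurve

/-! ### Counting points over `ZMod (p ^ (k+1))` and CRT -/

theorem isLocalRing_zmod_prime_pow (p k : ℕ) (hp : p.Prime) : IsLocalRing (ZMod (p ^ (k + 1))) := by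
  have : Fact (1 < p ^ (k + 1)) := ⟨Nat.one_lt_pow (Nat.succ_ne_zero k) hp.one_lt⟩
  apply IsLocalRing.of_nonunits_add
  intro a b ha hb
  obtain ⟨m, rfl⟩ := ZMod.natCast_zmod_surjective a
  obtain ⟨n, rfl⟩ := ZMod.natCast_zmod_surjective b
  rw [mem_nonunits_iff, ZMod.isUnit_natCast_iff_not_dvd_pow hp (Nat.succ_pos k), not_not] at ha hb
  rw [← Nat.cast_add, mem_nonunits_iff, ZMod.isUnit_natCast_iff_not_dvd_pow hp (Nat.succ_pos k),
    not_not]
  exact dvd_add ha hb

theorem card_isUnit_eq_card_units (R : Type*) [Monoid R] :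
    Nat.card {y : R // IsUnit y} = Nat.card Rˣ := by
  refine (Nat.card_congr (Equiv.ofBijective (fun u : Rˣ => (⟨u.1, u.isUnit⟩ : {y : R // IsUnit y}))
    ⟨?_, ?_⟩)).symm
  · intro u v h
    exact Units.ext (congrArg Subtype.val h)
  · rintro ⟨y, u, rfl⟩
    exact ⟨u, rfl⟩

theorem card_nonunits_zmod_prime_pow (p k : ℕ) (hp : p.Prime) :
    Nat.card {y : ZMod (p ^ (k + 1)) // ¬ IsUnit y} = p ^ k := by
  have : NeZero (p ^ (k + 1)) := ⟨pow_ne_zero _ hp.ne_zero⟩
  have h1 : Nat.card {y : ZMod (p ^ (k + 1)) // IsUnit y} = p ^ k * (p - 1) := by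
    rw [card_isUnit_eq_card_units, ← Nat.totient_prime_pow_succ hp, ← ZMod.card_units_eq_totient,
      Nat.card_eq_fintype_card]
  have h2 : Nat.card (ZMod (p ^ (k + 1))) = p ^ (k + 1) := by
    rw [Nat.card_eq_fintype_card, ZMod.card]
  have h3 := Nat.card_congr (Equiv.sumCompl (fun y : ZMod (p ^ (k + 1)) => IsUnit y))
  rw [Nat.card_sum, h1, h2] at h3
  obtain ⟨q, hq⟩ : ∃ q, p = q + 1 := ⟨p - 1, (Nat.succ_pred_eq_of_pos hp.pos).symm⟩
  subst hq
  simp only [Nat.add_sub_cancel] at h3
  have : (q + 1) ^ (k + 1) = (q + 1) ^ k * q + (q + 1) ^ k := by ring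
  omega

theorem card_projLine_zmod_prime_pow (p k : ℕ) (hp : p.Prime) :
    Nat.card (ProjLine (ZMod (p ^ (k + 1)))) = p ^ (k + 1) + p ^ k := by
  have := isLocalRing_zmod_prime_pow p k hp
  have : NeZero (p ^ (k + 1)) := ⟨pow_ne_zero _ hp.ne_zero⟩
  rw [card_projLine_local, card_nonunits_zmod_prime_pow p k hp, Nat.card_eq_fintype_card, ZMod.card]

theorem card_projLine_of_subsingleton (R : Type*) [CommRing R] [Subsingleton R] :
    Nat.card (ProjLine R) = 1 := by
  have : Subsingleton (ProjLine R) := by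
    constructor
    intro x y
    obtain ⟨v, hv, rfl⟩ := mk_surjective x
    obtain ⟨w, hw, rfl⟩ := mk_surjective y
    rw [mk_eq_mk_iff]
    exact Subsingleton.elim _ _
  have : Nonempty (ProjLine R) := ⟨mk (1, 0) (isPrim_one_left 0)⟩
  exact Nat.card_unique

theorem card_projLine_zmod_mul {m n : ℕ} (h : m.Coprime n) :
    Nat.card (ProjLine (ZMod (m * n))) =
      Nat.card (ProjLine (ZMod m)) * Nat.card (ProjLine (ZMod n)) := by
  rw [Nat.card_congr ((mapEquiv (ZMod.chineseRemainder h)).trans prodEquiv), Nat.card_prod]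


/-! ### Multiplicativity of the Dedekind `ψ` function -/

/-- The indicator function of squarefree numbers. -/
def sfInd : ArithmeticFunction ℕ := ⟨fun n => if Squarefree n then 1 else 0, by simp⟩

theorem sfInd_apply (n : ℕ) : sfInd n = if Squarefree n then 1 else 0 := rfl

theorem sfInd_isMultiplicative : sfInd.IsMultiplicative := by
  refine ⟨by simp [sfInd_apply], ?_⟩
  intro m n hmn
  simp only [sfInd_apply, Nat.squarefree_mul hmn]
  split_ifs <;> simp_all

theorem dedekindPsi_eq (N : ℕ) : dedekindPsi N = (sfInd * ArithmeticFunction.id) N := by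
  rw [ArithmeticFunction.mul_apply, Nat.sum_divisorsAntidiagonal (fun d e => sfInd d * ArithmeticFunction.id e),
    dedekindPsi, Finset.sum_filter]
  refine Finset.sum_congr rfl fun d _ => ?_
  simp only [sfInd_apply, ArithmeticFunction.id_apply]
  split_ifs <;> simp

theorem dedekindPsi_mul {m n : ℕ} (h : m.Coprime n) :
    dedekindPsi (m * n) = dedekindPsi m * dedekindPsi n := by
  simp only [dedekindPsi_eq]
  exact (sfInd_isMultiplicative.mul isMultiplicative_id).map_mul_of_coprime h

theorem dedekindPsi_prime_pow (p k : ℕ) (hp : p.Prime) :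
    dedekindPsi (p ^ (k + 1)) = p ^ (k + 1) + p ^ k := by
  rw [dedekindPsi, Nat.divisors_prime_pow hp, Finset.sum_filter, Finset.sum_map]
  simp only [Function.Embedding.coeFn_mk]
  rw [Finset.sum_range_succ', Finset.sum_range_succ']
  have : ∀ i ∈ Finset.range k, (if Squarefree (p ^ (i + 1 + 1)) then p ^ (k + 1) / p ^ (i + 1 + 1) else 0) = 0 := by
    intro i _
    rw [if_neg]
    intro h
    have := (Nat.squarefree_pow_iff hp.ne_one (by omega)).mp h
    omega
  rw [Finset.sum_eq_zero this]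
  simp only [zero_add, pow_zero, squarefree_one, if_true, Nat.div_one, pow_one, hp.squarefree]
  rw [Nat.pow_succ, Nat.mul_div_cancel _ hp.pos]
  ring


/-! ### Main results -/

theorem card_projLine_zmod (N : ℕ) (hN : N ≠ 0) :
    Nat.card (ProjLine (ZMod N)) = dedekindPsi N := by
  induction N using Nat.recOnPosPrimePosCoprime with
  | prime_pow p n hp hn =>
    obtain ⟨k, rfl⟩ : ∃ k, n = k + 1 := ⟨n - 1, by omega⟩
    rw [card_projLine_zmod_prime_pow p k hp, dedekindPsi_prime_pow p k hp]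
  | zero => exact absurd rfl hN
  | one =>
    rw [dedekindPsi_one]
    exact card_projLine_of_subsingleton (ZMod 1)
  | coprime a b ha hb hab iha ihb =>
    rw [card_projLine_zmod_mul hab, dedekindPsi_mul hab, iha (by omega), ihb (by omega)]

theorem card_coset_Gamma0 (N : ℕ) (hN : N ≠ 0) :
    Nat.card (Matrix.SpecialLinearGroup (Fin 2) ℤ ⧸ CongruenceSubgroup.Gamma0 N) =
      dedekindPsi N := by
  rw [Nat.card_congr (cosetEquiv N), card_projLine_zmod N hN]

theorem index_Gamma0 (N : ℕ) (hN : N ≠ 0) :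
    (CongruenceSubgroup.Gamma0 N).index = dedekindPsi N := by
  rw [index_Gamma0_eq_card, card_projLine_zmod N hN]

theorem dedekindPsi_pos (N : ℕ) (hN : N ≠ 0) : 0 < dedekindPsi N := by
  have : NeZero N := ⟨hN⟩
  rw [← index_Gamma0 N hN]
  exact Nat.pos_of_ne_zero Subgroup.FiniteIndex.index_ne_zero

instance instFiniteProjLineZMod (N : ℕ) [NeZero N] : Finite (ProjLine (ZMod N)) :=
  haveI : Finite (Prim (ZMod N)) := Subtype.finite
  Finite.of_surjective (fun v : Prim (ZMod N) => Quotient.mk (primSetoid (ZMod N)) v)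
    Quotient.mk_surjective

end Fermat.Agent.M2.P1
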