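/-
M2 / Part IV.4a ("L-det"): for a full-rank submodule `N` of a finite free module `M` over a PID `R`
which is an algebra over a field `k`, `finrank k (M ⧸ N) = finrank k (R ⧸ (det T))` where `T` is the
matrix of a basis of `N` in a basis of `M`.  Pure Mathlib (Smith normal form + additivity of
length).
-/
import Mathlib

set_option autoImplicit false

noncomputable section

namespace Fermat.Agent.M2.LDet

open Module Submodule

section Length

/-- Over a division ring, `finrank` is the `toNat` of the length. -/
theorem finrank_eq_toNat_length (k V : Type*) [DivisionRing k] [AddCommGroup V] [Module k V] :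
    Module.finrank k V = (Module.length k V).toNat := by
  rw [Module.length_eq_rank, Module.finrank, Cardinal.toNat_toENat]

variable {k R : Type*} [Field k] [CommRing R] [IsDomain R] [Algebra k R]

/-- The short exact sequence `0 → R/(b) → R/(ab) → R/(a) → 0` (`a ≠ 0`) and additivity of
length. -/
theorem length_quotient_span_mul (a b : R) (ha : a ≠ 0) :
    Module.length k (R ⧸ Ideal.span {a * b}) =
      Module.length k (R ⧸ Ideal.span {b}) + Module.length k (R ⧸ Ideal.span {a}) := by
  have h1 : Ideal.span {b} ≤ Submodule.comap (LinearMap.mulLeft R a) (Ideal.span {a * b}) := by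
    intro x hx
    rw [Ideal.mem_span_singleton'] at hx
    obtain ⟨c, rfl⟩ := hx
    rw [Submodule.mem_comap, LinearMap.mulLeft_apply, Ideal.mem_span_singleton']
    exact ⟨c, by ring⟩
  have h2 : Ideal.span {a * b} ≤ Submodule.comap (LinearMap.id : R →ₗ[R] R) (Ideal.span {a}) := by
    intro x hx
    rw [Ideal.mem_span_singleton'] at hx
    obtain ⟨c, rfl⟩ := hx
    rw [Submodule.mem_comap, LinearMap.id_apply, Ideal.mem_span_singleton']
    exact ⟨c * b, by ring⟩
  let f : (R ⧸ Ideal.span {b}) →ₗ[R] (R ⧸ Ideal.span {a * b}) :=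
    Submodule.mapQ _ _ (LinearMap.mulLeft R a) h1
  let g : (R ⧸ Ideal.span {a * b}) →ₗ[R] (R ⧸ Ideal.span {a}) :=
    Submodule.mapQ _ _ LinearMap.id h2
  have hf : Function.Injective f := by
    rw [← LinearMap.ker_eq_bot, LinearMap.ker_eq_bot']
    intro x hx
    obtain ⟨x, rfl⟩ := Submodule.Quotient.mk_surjective _ x
    rw [Submodule.mapQ_apply, Submodule.Quotient.mk_eq_zero, LinearMap.mulLeft_apply,
      Ideal.mem_span_singleton'] at hx
    obtain ⟨c, hc⟩ := hx
    rw [Submodule.Quotient.mk_eq_zero, Ideal.mem_span_singleton']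
    refine ⟨c, mul_left_cancel₀ ha ?_⟩
    rw [← hc]; ring
  have hg : Function.Surjective g := by
    intro y
    obtain ⟨y, rfl⟩ := Submodule.Quotient.mk_surjective _ y
    exact ⟨Submodule.Quotient.mk y, by rw [Submodule.mapQ_apply, LinearMap.id_apply]⟩
  have H : Function.Exact f g := by
    intro y
    constructor
    · intro hy
      obtain ⟨y, rfl⟩ := Submodule.Quotient.mk_surjective _ y
      rw [Submodule.mapQ_apply, LinearMap.id_apply, Submodule.Quotient.mk_eq_zero,
        Ideal.mem_span_singleton'] at hy
      obtain ⟨c, rfl⟩ := hy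
      refine ⟨Submodule.Quotient.mk c, ?_⟩
      rw [Submodule.mapQ_apply, LinearMap.mulLeft_apply, mul_comm a c]
    · rintro ⟨x, rfl⟩
      obtain ⟨x, rfl⟩ := Submodule.Quotient.mk_surjective _ x
      rw [Submodule.mapQ_apply, Submodule.mapQ_apply, LinearMap.id_apply,
        Submodule.Quotient.mk_eq_zero, LinearMap.mulLeft_apply, Ideal.mem_span_singleton']
      exact ⟨x, by ring⟩
  exact Module.length_eq_add_of_exact (f.restrictScalars k) (g.restrictScalars k) hf hg H

theorem length_quotient_span_prod {ι : Type*} (a : ι → R) (s : Finset ι)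
    (ha : ∀ i ∈ s, a i ≠ 0) :
    Module.length k (R ⧸ Ideal.span {∏ i ∈ s, a i}) =
      ∑ i ∈ s, Module.length k (R ⧸ Ideal.span {a i}) := by
  classical
  induction s using Finset.induction_on with
  | empty =>
    rw [Finset.prod_empty, Finset.sum_empty, Module.length_eq_zero_iff, Ideal.span_singleton_one]
    exact Ideal.Quotient.subsingleton_iff.mpr rfl
  | insert j s hj ih =>
    rw [Finset.prod_insert hj, Finset.sum_insert hj,
      length_quotient_span_mul (k := k) (a j) _ (ha j (Finset.mem_insert_self j s)),
      ih (fun i hi => ha i (Finset.mem_insert_of_mem hi)), add_comm]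

end Length


section Main

variable {k R : Type*} [Field k] [CommRing R] [IsDomain R] [IsPrincipalIdealRing R] [Algebra k R]

/-- Abstract form: `M` finite free over the PID `R` with basis `b`, `N` a submodule with a basis
`bN` indexed by the same type. -/
theorem finrank_quotient_eq_finrank_quotient_basisDet {M ι : Type*} [AddCommGroup M] [Module R M]
    [Module k M] [IsScalarTower k R M] [Fintype ι] [DecidableEq ι]
    (b : Basis ι R M) (N : Submodule R M) (bN : Basis ι R N) :
    Module.finrank k (M ⧸ N) = Module.finrank k (R ⧸ Ideal.span {b.det ((↑) ∘ bN)}) := by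
  have h : Module.finrank R N = Module.finrank R M := by
    rw [Module.finrank_eq_card_basis bN, Module.finrank_eq_card_basis b]
  -- Smith normal form
  let a := smithNormalFormCoeffs b h
  let b' := smithNormalFormTopBasis b h
  let ab := smithNormalFormBotBasis b h
  have ab_eq := smithNormalFormBotBasis_def b h
  have ha : ∀ i, a i ≠ 0 := smithNormalFormCoeffs_ne_zero b h
  -- the determinant is associated to the product of the Smith coefficients
  have hdet : Associated (b.det ((↑) ∘ bN)) (∏ i, a i) := by
    let e := b.equiv bN (Equiv.refl _)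
    let e' : M ≃ₗ[R] N := b'.equiv ab (Equiv.refl _)
    have h1 : b.det ((↑) ∘ bN) = LinearMap.det (N.subtype ∘ₗ (e : M →ₗ[R] N)) := by
      have : ((↑) ∘ bN : ι → M) = N.subtype ∘ bN := rfl
      rw [this, Basis.det_comp_basis]
    have h2 : LinearMap.det (N.subtype ∘ₗ (e' : M →ₗ[R] N)) = ∏ i, a i := by
      have hfa : ∀ i, (N.subtype ∘ₗ (e' : M →ₗ[R] N)) (b' i) = a i • b' i := by
        intro i
        rw [LinearMap.comp_apply, LinearEquiv.coe_coe, b'.equiv_apply, Equiv.refl_apply]
        exact ab_eq i
      rw [← LinearMap.det_toMatrix b', ← Matrix.det_diagonal]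
      congr 1
      ext i j
      rw [LinearMap.toMatrix_apply, hfa, map_smul, Basis.repr_self, Finsupp.smul_single,
        smul_eq_mul, mul_one]
      by_cases hij : i = j
      · rw [hij, Matrix.diagonal_apply_eq, Finsupp.single_eq_same]
      · rw [Matrix.diagonal_apply_ne _ hij, Finsupp.single_eq_of_ne hij]
    rw [h1, ← h2]
    exact LinearMap.associated_det_comp_equiv _ _ _
  have hspan : Ideal.span {b.det ((↑) ∘ bN)} = Ideal.span {∏ i, a i} :=
    Ideal.span_singleton_eq_span_singleton.mpr hdet
  -- lengths
  have hL1 : Module.length k (M ⧸ N) = ∑ i, Module.length k (R ⧸ Ideal.span {a i}) := by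
    rw [((N.quotientEquivPiSpan b h).restrictScalars k).length_eq]
    exact Module.length_pi_of_fintype k (fun i => R ⧸ Ideal.span {a i})
  have hL2 : Module.length k (R ⧸ Ideal.span {∏ i, a i}) =
      ∑ i, Module.length k (R ⧸ Ideal.span {a i}) :=
    length_quotient_span_prod (k := k) a Finset.univ (fun i _ => ha i)
  rw [finrank_eq_toNat_length, finrank_eq_toNat_length, hspan, hL1, hL2]

/-- **L-det** (blueprint IV.4a). -/
theorem finrank_quotient_eq_finrank_quotient_det {V ι : Type*} [AddCommGroup V] [Module R V]
    [Module k V] [IsScalarTower k R V] [Fintype ι] [DecidableEq ι] (M N : Submodule R V)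
    (hNM : N ≤ M) (bM : Module.Basis ι R M) (bN : Module.Basis ι R N) (T : Matrix ι ι R)
    (hT : ∀ j, (bN j : V) = ∑ i, T i j • (bM i : V)) :
    Module.finrank k (M ⧸ N.comap M.subtype) = Module.finrank k (R ⧸ Ideal.span {T.det}) := by
  let bN' : Basis ι R (N.comap M.subtype) := bN.map (comapSubtypeEquivOfLe hNM).symm
  have hT' : T = bM.toMatrix ((↑) ∘ bN') := by
    ext i j
    rw [Basis.toMatrix_apply, Function.comp_apply]
    have h1 : ((bN' j : N.comap M.subtype) : M) = ∑ i, T i j • bM i := by
      apply Subtype.ext
      rw [Submodule.coe_sum]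
      simp only [Submodule.coe_smul]
      rw [← hT j]
      rfl
    rw [h1, Basis.repr_sum_self]
  rw [finrank_quotient_eq_finrank_quotient_basisDet (k := k) bM (N.comap M.subtype) bN',
    Basis.det_apply, ← hT']

/-- Corollary for `R = k[X]` (no hypothesis `T.det ≠ 0` needed: it is automatic, and both sides
would be `0` anyway). -/
theorem finrank_quotient_eq_natDegree_det {V ι : Type*} [AddCommGroup V]
    [Module (Polynomial k) V] [Module k V] [IsScalarTower k (Polynomial k) V] [Fintype ι]
    [DecidableEq ι] (M N : Submodule (Polynomial k) V) (hNM : N ≤ M)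
    (bM : Module.Basis ι (Polynomial k) M) (bN : Module.Basis ι (Polynomial k) N)
    (T : Matrix ι ι (Polynomial k)) (hT : ∀ j, (bN j : V) = ∑ i, T i j • (bM i : V)) :
    Module.finrank k (M ⧸ N.comap M.subtype) = T.det.natDegree := by
  rw [finrank_quotient_eq_finrank_quotient_det (k := k) M N hNM bM bN T hT,
    finrank_quotient_span_eq_natDegree]

end Main

end Fermat.Agent.M2.LDet

end
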