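import Fermat.Agent.M2.ReducedBasis

/-
M2 (S20 moonshot), Part IV / A5-A6: the abstract Riemann–Roch space of a reduced pair of lattices.

For a `k(X)`-basis `w` of `V` and exponents `e : ι → ℤ`,
`rrSpace w e = span k[X] w ∩ span O_∞ (X ^ e i • w i)` (`mem_rrSpace_iff`) is a `k`-subspace of
dimension `∑ i, (e i + 1).toNat` (`finrank_rrSpace`).
Also: `mem_span_Oinf_iff` (coordinates of the `O_∞`-lattice), and the arithmetic lemmas
`exists_unique_zero_of_sum_toNat_eq_one`, `sum_toNat_sub_one_of_sum_toNat_eq_one`.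
-/

open Polynomial WithZero

namespace Fermat.Agent.M2.DW

variable {k : Type*} [Field k]

/-- A polynomial has degree `≤ e` at infinity iff it lies in `degreeLT k (e+1).toNat`. -/
theorem vInf_algebraMap_le_exp_iff (a : k[X]) (e : ℤ) :
    vInf k (algebraMap k[X] (RatFunc k) a) ≤ exp e ↔ a ∈ Polynomial.degreeLT k (e + 1).toNat := by
  rw [Polynomial.mem_degreeLT]
  by_cases ha : a = 0
  · subst ha
    simp only [map_zero, degree_zero, zero_le, true_iff]
    exact WithBot.bot_lt_coe _
  rw [vInf_algebraMap ha, exp_le_exp, Polynomial.degree_eq_natDegree ha]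
  rw [Nat.cast_lt]
  omega

variable {V : Type*} [AddCommGroup V] [Module (RatFunc k) V] {ι : Type*}

/-- Membership in the `O_∞`-lattice spanned by `X ^ e i • w i`, in coordinates. -/
theorem mem_span_Oinf_iff [Module (Oinf k) V] [IsScalarTower (Oinf k) (RatFunc k) V]
    (w : Module.Basis ι (RatFunc k) V) (e : ι → ℤ) (x : V) :
    x ∈ Submodule.span (Oinf k) (Set.range fun i => (RatFunc.X : RatFunc k) ^ e i • w i) ↔
      ∀ i, vInf k (w.repr x i) ≤ exp (e i) := by
  have hX : (RatFunc.X : RatFunc k) ≠ 0 := RatFunc.X_ne_zero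
  have hu : ∀ i, IsUnit ((RatFunc.X : RatFunc k) ^ e i) := fun i =>
    (zpow_ne_zero _ hX).isUnit
  have hrange : (Set.range fun i => (RatFunc.X : RatFunc k) ^ e i • w i) =
      Set.range (w.isUnitSMul hu) := by
    congr 1; funext i; rw [Module.Basis.isUnitSMul_apply]
  rw [hrange, Module.Basis.mem_span_iff_repr_mem]
  refine forall_congr' fun i => ?_
  rw [Module.Basis.repr_isUnitSMul]
  have h1 : ((hu i).unit⁻¹ : (RatFunc k)ˣ) • (w.repr x) i =
      (RatFunc.X : RatFunc k) ^ (-e i) * w.repr x i := by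
    rw [Units.smul_def, smul_eq_mul, zpow_neg]
    congr 1
    rw [Units.val_inv_eq_inv_val, IsUnit.unit_spec]
  rw [h1]
  have h2 : (RatFunc.X : RatFunc k) ^ (-e i) * w.repr x i ∈ Set.range (algebraMap (Oinf k) (RatFunc k)) ↔
      (RatFunc.X : RatFunc k) ^ (-e i) * w.repr x i ∈ Oinf k := by
    constructor
    · rintro ⟨y, hy⟩; rw [← hy]; exact y.2
    · intro h; exact ⟨⟨_, h⟩, rfl⟩
  rw [h2, mem_Oinf_iff, map_mul, vInf_X_zpow]
  constructor
  · intro h
    calc vInf k (w.repr x i) = exp (e i) * (exp (-e i) * vInf k (w.repr x i)) := by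
          rw [← mul_assoc, ← exp_add, add_neg_cancel, exp_zero, one_mul]
      _ ≤ exp (e i) * 1 := mul_le_mul_right h _
      _ = exp (e i) := mul_one _
  · intro h
    calc exp (-e i) * vInf k (w.repr x i) ≤ exp (-e i) * exp (e i) := mul_le_mul_right h _
      _ = 1 := by rw [← exp_add, neg_add_cancel, exp_zero]


variable [Module k[X] V] [IsScalarTower k[X] (RatFunc k) V] [Module k V]
  [IsScalarTower k (RatFunc k) V]

omit [Module k[X] V] [IsScalarTower k[X] (RatFunc k) V] in
theorem ratFuncC_smul (c : k) (v : V) : (RatFunc.C c : RatFunc k) • v = c • v := by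
  rw [← RatFunc.algebraMap_eq_C, algebraMap_smul]

theorem polyC_smul (c : k) (v : V) : (Polynomial.C c : k[X]) • v = c • v := by
  rw [← algebraMap_smul (RatFunc k) (Polynomial.C c) v, RatFunc.algebraMap_C, ratFuncC_smul]

variable [Fintype ι]

/-- The parametrisation of the Riemann–Roch space of a reduced pair of lattices. -/
noncomputable def rrMap (w : Module.Basis ι (RatFunc k) V) (n : ι → ℕ) :
    (∀ i, Polynomial.degreeLT k (n i)) →ₗ[k] V where
  toFun a := ∑ i, (a i : k[X]) • w i
  map_add' a b := by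
    simp only [Pi.add_apply, Submodule.coe_add, add_smul, Finset.sum_add_distrib]
  map_smul' c a := by
    simp only [Pi.smul_apply, Submodule.coe_smul, RingHom.id_apply, Finset.smul_sum]
    refine Finset.sum_congr rfl fun i _ => ?_
    rw [← Polynomial.C_mul', mul_smul, polyC_smul]

theorem repr_rrMap (w : Module.Basis ι (RatFunc k) V) (n : ι → ℕ)
    (a : ∀ i, Polynomial.degreeLT k (n i)) (i : ι) :
    w.repr (rrMap w n a) i = algebraMap k[X] (RatFunc k) (a i) := by
  classical
  simp only [rrMap, LinearMap.coe_mk, AddHom.coe_mk, map_sum]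
  rw [Finsupp.finsetSum_apply]
  rw [Finset.sum_eq_single i]
  · rw [← algebraMap_smul (RatFunc k) ((a i : k[X])) (w i), map_smul, Module.Basis.repr_self,
      Finsupp.smul_apply, Finsupp.single_eq_same, smul_eq_mul, mul_one]
  · intro j _ hj
    rw [← algebraMap_smul (RatFunc k) ((a j : k[X])) (w j), map_smul, Module.Basis.repr_self,
      Finsupp.smul_apply, Finsupp.single_eq_of_ne hj.symm, smul_zero]
  · intro h; exact absurd (Finset.mem_univ i) h

theorem rrMap_injective (w : Module.Basis ι (RatFunc k) V) (n : ι → ℕ) :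
    Function.Injective (rrMap w n) := by
  rw [← LinearMap.ker_eq_bot, LinearMap.ker_eq_bot']
  intro a ha
  funext i
  have := repr_rrMap w n a i
  rw [ha, map_zero, Finsupp.zero_apply] at this
  have h0 : (a i : k[X]) = 0 :=
    (map_eq_zero_iff _ (RatFunc.algebraMap_injective k)).mp this.symm
  exact Subtype.ext h0

/-- The Riemann–Roch space of the pair of lattices `span k[X] w`, `span O_∞ (X ^ e • w)`. -/
noncomputable def rrSpace (w : Module.Basis ι (RatFunc k) V) (e : ι → ℤ) : Submodule k V :=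
  LinearMap.range (rrMap w fun i => (e i + 1).toNat)

theorem mem_rrSpace_iff [Module (Oinf k) V] [IsScalarTower (Oinf k) (RatFunc k) V]
    (w : Module.Basis ι (RatFunc k) V) (e : ι → ℤ) (x : V) :
    x ∈ rrSpace w e ↔ x ∈ Submodule.span k[X] (Set.range w) ∧
      x ∈ Submodule.span (Oinf k) (Set.range fun i => (RatFunc.X : RatFunc k) ^ e i • w i) := by
  rw [mem_span_Oinf_iff, Module.Basis.mem_span_iff_repr_mem]
  constructor
  · rintro ⟨a, rfl⟩
    refine ⟨fun i => ⟨a i, (repr_rrMap w _ a i).symm⟩, fun i => ?_⟩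
    rw [repr_rrMap, vInf_algebraMap_le_exp_iff]
    exact (a i).2
  · rintro ⟨h1, h2⟩
    choose a ha using h1
    have hmem : ∀ i, a i ∈ Polynomial.degreeLT k (e i + 1).toNat := by
      intro i
      rw [← vInf_algebraMap_le_exp_iff, ha]
      exact h2 i
    refine ⟨fun i => ⟨a i, hmem i⟩, ?_⟩
    apply w.repr.injective
    ext i
    rw [repr_rrMap, ha]

theorem finrank_rrSpace (w : Module.Basis ι (RatFunc k) V) (e : ι → ℤ) :
    Module.finrank k (rrSpace w e) = ∑ i, (e i + 1).toNat := by
  classical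
  unfold rrSpace
  rw [← (LinearEquiv.ofInjective _ (rrMap_injective w _)).finrank_eq, Module.finrank_pi_fintype]
  refine Finset.sum_congr rfl fun i _ => ?_
  rw [(Polynomial.degreeLTEquiv k _).finrank_eq, Module.finrank_fin_fun]

instance (w : Module.Basis ι (RatFunc k) V) (e : ι → ℤ) : FiniteDimensional k (rrSpace w e) := by
  classical
  unfold rrSpace
  have : ∀ i, FiniteDimensional k (Polynomial.degreeLT k (e i + 1).toNat) := fun i =>
    (Polynomial.degreeLTEquiv k _).symm.finiteDimensional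
  exact LinearMap.finiteDimensional_range _

/-- Arithmetic used for A6: if `∑ max(0, 1 - d i) = 1` then exactly one `d i` is `0`, the others are
`≥ 1`, hence `∑ max(0, d i - 1) = ∑ d i - n + 1`. -/
theorem exists_unique_zero_of_sum_toNat_eq_one {ι : Type*} [Fintype ι] [DecidableEq ι]
    (d : ι → ℤ) (h : ∑ i, (1 - d i).toNat = 1) :
    ∃ i₀, d i₀ = 0 ∧ ∀ j, j ≠ i₀ → 1 ≤ d j := by
  have hex : ∃ i₀, (1 - d i₀).toNat ≠ 0 := by
    by_contra hne
    simp only [not_exists, not_not] at hne
    rw [Finset.sum_eq_zero fun i _ => hne i] at h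
    exact zero_ne_one h
  obtain ⟨i₀, hi₀⟩ := hex
  have hsplit := Finset.add_sum_erase Finset.univ (fun i => (1 - d i).toNat) (Finset.mem_univ i₀)
  rw [h] at hsplit
  have h1 : (1 - d i₀).toNat = 1 := by omega
  have h2 : ∑ i ∈ Finset.univ.erase i₀, (1 - d i).toNat = 0 := by omega
  refine ⟨i₀, by omega, fun j hj => ?_⟩
  have := (Finset.sum_eq_zero_iff.mp h2) j (Finset.mem_erase.mpr ⟨hj, Finset.mem_univ j⟩)
  omega

theorem sum_toNat_sub_one_of_sum_toNat_eq_one {ι : Type*} [Fintype ι] [DecidableEq ι]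
    (d : ι → ℤ) (h : ∑ i, (1 - d i).toNat = 1) :
    ((∑ i, (d i - 1).toNat : ℕ) : ℤ) = ∑ i, d i - Fintype.card ι + 1 := by
  obtain ⟨i₀, h0, hpos⟩ := exists_unique_zero_of_sum_toNat_eq_one d h
  push_cast
  rw [← Finset.add_sum_erase Finset.univ (fun i => ((d i - 1).toNat : ℤ)) (Finset.mem_univ i₀),
    ← Finset.add_sum_erase Finset.univ d (Finset.mem_univ i₀)]
  have h3 : ∑ i ∈ Finset.univ.erase i₀, ((d i - 1).toNat : ℤ) =
      ∑ i ∈ Finset.univ.erase i₀, (d i - 1) := by
    refine Finset.sum_congr rfl fun j hj => ?_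
    have := hpos j (Finset.ne_of_mem_erase hj)
    omega
  rw [h3, Finset.sum_sub_distrib, h0]
  simp only [Finset.sum_const, Finset.card_erase_of_mem (Finset.mem_univ i₀), Finset.card_univ,
    nsmul_eq_mul, mul_one]
  have hc : 1 ≤ Fintype.card ι := Fintype.card_pos_iff.mpr ⟨i₀⟩
  push_cast [Nat.cast_sub hc]
  ring

end Fermat.Agent.M2.DW
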