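/-
M2 / Part IV: instances and basic API for `DW.Oinf k` (the canonical valuation ring at infinity,
defined in `ReducedBasis.lean` as a `def`, so that instance search stays fast).
Everything is transferred from `Oinf.lean` (where `Fermat.Agent.M2.Oinf` is the same subring as an
`abbrev`) by definitional unfolding.
-/
import Fermat.Agent.M2.Oinf
import Fermat.Agent.M2.RRSpace

set_option autoImplicit false

open Polynomial

namespace Fermat.Agent.M2.DW

noncomputable section

variable (k : Type*) [Field k]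

instance instDVROinf : IsDiscreteValuationRing (Oinf k) :=
  inferInstanceAs (IsDiscreteValuationRing (Fermat.Agent.M2.Oinf k))

instance instAlgebraOinfDW : Algebra k (Oinf k) := Fermat.Agent.M2.instAlgebraOinf

instance instIsScalarTowerOinfDW : IsScalarTower k (Oinf k) (RatFunc k) :=
  Fermat.Agent.M2.instIsScalarTowerOinf

variable {k}

@[simp]
theorem coe_algebraMap_Oinf (c : k) :
    ((algebraMap k (Oinf k) c : Oinf k) : RatFunc k) = RatFunc.C c := rfl

/-- The uniformizer `1/x` of `Oinf k`. -/
def piInf (k : Type*) [Field k] : Oinf k := Fermat.Agent.M2.piInf k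

@[simp]
theorem coe_piInf : ((piInf k : Oinf k) : RatFunc k) = (RatFunc.X : RatFunc k)⁻¹ :=
  Fermat.Agent.M2.coe_piInf

theorem piInf_ne_zero : piInf k ≠ 0 := Fermat.Agent.M2.piInf_ne_zero

theorem maximalIdeal_Oinf_eq : IsLocalRing.maximalIdeal (Oinf k) = Ideal.span {piInf k} :=
  Fermat.Agent.M2.maximalIdeal_Oinf_eq

theorem isUnit_Oinf_iff {a : Oinf k} :
    IsUnit a ↔ (a : RatFunc k) ≠ 0 ∧ (a : RatFunc k).intDegree = 0 :=
  Fermat.Agent.M2.isUnit_Oinf_iff

theorem exists_unit_eq_X_zpow_mul {f : RatFunc k} (hf : f ≠ 0) :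
    ∃ u : (Oinf k)ˣ, f = (RatFunc.X : RatFunc k) ^ f.intDegree * ((u : Oinf k) : RatFunc k) :=
  Fermat.Agent.M2.exists_unit_eq_X_zpow_mul hf

theorem algebraMap_residue_Oinf_surjective :
    Function.Surjective (algebraMap k (Oinf k ⧸ IsLocalRing.maximalIdeal (Oinf k))) :=
  Fermat.Agent.M2.algebraMap_residue_Oinf_surjective

end

end Fermat.Agent.M2.DW
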