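/-
M2 / Part IV: the Dedekind–Weber dimension formula (assembly).
-/
import Fermat.Agent.M2.OinfInst
import Fermat.Agent.M2.RRSpace
import Fermat.Agent.M2.TameDifferent
import Fermat.Agent.M2.LDet
import Fermat.Agent.M2.IdealDegree

set_option autoImplicit false

open Polynomial Module

namespace Fermat.Agent.M2.DW

noncomputable section

/-! ### A1: bases of integral closures over a PID -/

section A1

variable (A F K C : Type*) [CommRing A] [IsDomain A] [IsPrincipalIdealRing A] [Field F]
  [Algebra A F] [IsFractionRing A F] [Field K] [Algebra F K] [Algebra A K] [IsScalarTower A F K]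
  [FiniteDimensional F K] [Algebra.IsSeparable F K] [CommRing C] [Algebra C K] [Algebra A C]
  [IsScalarTower A C K] [IsIntegralClosure C A K]

theorem exists_basis_span_eq :
    ∃ b : Basis (Fin (finrank F K)) F K,
      (1 : Submodule C K).restrictScalars A = Submodule.span A (Set.range b) := by
  have htf : Module.IsTorsionFree A K := by
    have : FaithfulSMul A K := by
      rw [faithfulSMul_iff_algebraMap_injective, IsScalarTower.algebraMap_eq A F K]
      exact (algebraMap F K).injective.comp (IsFractionRing.injective A F)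
    infer_instance
  have hfree : Module.Free A C := IsIntegralClosure.module_free A F K C
  have hnoeth : IsNoetherian A C := IsIntegralClosure.isNoetherian A F K C
  have hloc : IsLocalization (Algebra.algebraMapSubmonoid C (nonZeroDivisors A)) K :=
    IsIntegralClosure.isLocalization A F K C
  have hrank : finrank A C = finrank F K := IsIntegralClosure.rank A F K C
  let b₀ : Basis (Fin (finrank F K)) A C := (Module.finBasis A C).reindex (finCongr hrank)
  let b := Basis.localizationLocalization F (nonZeroDivisors A) K b₀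
  refine ⟨b, ?_⟩
  rw [Basis.localizationLocalization_span F (nonZeroDivisors A) K b₀]
  ext x
  simp only [Submodule.restrictScalars_mem, Submodule.mem_one, LinearMap.mem_range]
  rfl

end A1

/-! ### Scaled bases and their trace duals -/

section Scaled

variable {F K : Type*} [Field F] [Field K] [Algebra F K] [FiniteDimensional F K]
  [Algebra.IsSeparable F K] {ι : Type*} [Fintype ι] [DecidableEq ι]

/-- The basis `c i • w i` for nonzero scalars `c i`. -/
def scaledBasis (w : Basis ι F K) (c : ι → F) (hc : ∀ i, c i ≠ 0) : Basis ι F K :=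
  w.isUnitSMul (fun i => (hc i).isUnit)

@[simp]
theorem scaledBasis_apply (w : Basis ι F K) (c : ι → F) (hc : ∀ i, c i ≠ 0) (i : ι) :
    scaledBasis w c hc i = c i • w i :=
  Basis.isUnitSMul_apply _ i

theorem traceDual_scaledBasis (w : Basis ι F K) (c : ι → F) (hc : ∀ i, c i ≠ 0) :
    (scaledBasis w c hc).traceDual =
      scaledBasis w.traceDual (fun i => (c i)⁻¹) (fun i => inv_ne_zero (hc i)) := by
  apply DFunLike.coe_injective
  rw [Basis.traceDual_eq_iff]
  intro i j
  rw [scaledBasis_apply, scaledBasis_apply, Algebra.traceForm_apply, smul_mul_smul_comm,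
    map_smul, Basis.trace_traceDual_mul]
  split_ifs with h
  · subst h
    rw [smul_eq_mul, mul_one, inv_mul_cancel₀ (hc _)]
  · simp

theorem det_toMatrix_traceDual (b : Basis ι F K) :
    (b.traceDual.toMatrix b).det = Algebra.discr F b := by
  rw [Algebra.discr_def]
  congr 1
  ext i j
  rw [Basis.toMatrix_apply, Basis.traceDual_repr_apply, Algebra.traceMatrix_apply,
    Algebra.traceForm_apply, Algebra.traceForm_apply, mul_comm]

theorem discr_scaledBasis (w : Basis ι F K) (c : ι → F) (hc : ∀ i, c i ≠ 0) :
    Algebra.discr F (scaledBasis w c hc) = (∏ i, c i) ^ 2 * Algebra.discr F w := by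
  have h := Algebra.discr_of_matrix_vecMul (A := F) (⇑w) (Matrix.diagonal c)
  rw [Matrix.det_diagonal] at h
  rw [← h]
  congr 1
  funext j
  rw [scaledBasis_apply, Matrix.vecMul, dotProduct]
  rw [Finset.sum_eq_single j]
  · simp [Algebra.smul_def, mul_comm]
  · intro i _ hij
    simp [Matrix.diagonal_apply_ne _ hij]
  · intro h; exact absurd (Finset.mem_univ j) h

theorem discr_basis_ne_zero (b : Basis ι F K) : Algebra.discr F b ≠ 0 :=
  Algebra.discr_not_zero_of_basis F b

end Scaled

set_option linter.unusedSectionVars false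

/-! ### Lattice index via determinants (application of L-det) -/

section LD

variable {k R F K : Type*} [Field k] [CommRing R] [IsDomain R] [IsPrincipalIdealRing R]
  [Algebra k R] [Field F] [Algebra R F] [IsFractionRing R F] [Field K] [Algebra F K] [Module R K]
  [IsScalarTower R F K] [Module k K] [IsScalarTower k R K] {ι : Type*} [Fintype ι] [DecidableEq ι]

/-- If `span_R v ≤ span_R u` for two `F`-bases `u`, `v` of `K`, the `k`-dimension of the quotient
is `dim_k R/(t)`, where `t = det (u.toMatrix v)`. -/
theorem finrank_span_quotient_span (u v : Basis ι F K)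
    (hle : Submodule.span R (Set.range v) ≤ Submodule.span R (Set.range u)) (t : R)
    (ht : algebraMap R F t = (u.toMatrix v).det) :
    finrank k (Submodule.span R (Set.range u) ⧸
      (Submodule.span R (Set.range v)).comap (Submodule.span R (Set.range u)).subtype) =
      finrank k (R ⧸ Ideal.span {t}) := by
  have htf : Module.IsTorsionFree R F := by
    have : FaithfulSMul R F := (faithfulSMul_iff_algebraMap_injective R F).mpr
      (IsFractionRing.injective R F)
    infer_instance
  have hmem : ∀ j i, u.repr (v j) i ∈ Set.range (algebraMap R F) := fun j =>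
    (u.mem_span_iff_repr_mem R (v j)).mp (hle (Submodule.subset_span ⟨j, rfl⟩))
  choose T hT using hmem
  let T' : Matrix ι ι R := fun i j => T j i
  have hdet : T'.det = t := by
    apply IsFractionRing.injective R F
    rw [ht, RingHom.map_det]
    congr 1
    ext i j
    rw [Basis.toMatrix_apply, ← hT j i]
    rfl
  rw [← hdet]
  refine LDet.finrank_quotient_eq_finrank_quotient_det (k := k) _ _ hle
    (u.restrictScalars R) (v.restrictScalars R) T' fun j => ?_
  rw [Basis.restrictScalars_apply]
  conv_lhs => rw [← u.sum_repr (v j)]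
  refine Finset.sum_congr rfl fun i _ => ?_
  rw [Basis.restrictScalars_apply, ← hT j i, algebraMap_smul]

/-- Existential version: the determinant lies in `R`. -/
theorem exists_finrank_span_quotient_span (u v : Basis ι F K)
    (hle : Submodule.span R (Set.range v) ≤ Submodule.span R (Set.range u)) :
    ∃ t : R, algebraMap R F t = (u.toMatrix v).det ∧
    finrank k (Submodule.span R (Set.range u) ⧸
      (Submodule.span R (Set.range v)).comap (Submodule.span R (Set.range u)).subtype) =
      finrank k (R ⧸ Ideal.span {t}) := by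
  have hmem : ∀ j i, u.repr (v j) i ∈ Set.range (algebraMap R F) := fun j =>
    (u.mem_span_iff_repr_mem R (v j)).mp (hle (Submodule.subset_span ⟨j, rfl⟩))
  choose T hT using hmem
  let T' : Matrix ι ι R := fun i j => T j i
  have hdet : algebraMap R F T'.det = (u.toMatrix v).det := by
    rw [RingHom.map_det]
    congr 1
    ext i j
    rw [Basis.toMatrix_apply, ← hT j i]
    rfl
  exact ⟨T'.det, hdet, finrank_span_quotient_span u v hle _ hdet⟩

end LD

/-! ### Quotients of lattices do not depend on the ring of scalars -/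

section Bridge

variable {k V R₁ R₂ : Type*} [Field k] [AddCommGroup V] [Module k V] [Ring R₁] [Ring R₂]
  [Module R₁ V] [Module R₂ V] [SMul k R₁] [SMul k R₂] [IsScalarTower k R₁ V] [IsScalarTower k R₂ V]

/-- The `k`-linear identification `M₁ ≃ M₂` of two submodules (over different rings) with the same
carrier. -/
def carrierEquiv (M₁ : Submodule R₁ V) (M₂ : Submodule R₂ V) (hM : ∀ x, x ∈ M₁ ↔ x ∈ M₂) :
    M₁ ≃ₗ[k] M₂ where
  toFun a := ⟨a.1, (hM _).1 a.2⟩
  invFun a := ⟨a.1, (hM _).2 a.2⟩
  map_add' _ _ := rfl
  map_smul' _ _ := rfl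
  left_inv _ := rfl
  right_inv _ := rfl

theorem finrank_quotient_eq_of_carrier_eq (M₁ N₁ : Submodule R₁ V) (M₂ N₂ : Submodule R₂ V)
    (hM : ∀ x, x ∈ M₁ ↔ x ∈ M₂) (hN : ∀ x, x ∈ N₁ ↔ x ∈ N₂) :
    finrank k (M₁ ⧸ N₁.comap M₁.subtype) = finrank k (M₂ ⧸ N₂.comap M₂.subtype) := by
  let e := carrierEquiv (k := k) M₁ M₂ hM
  have hmap : ((N₁.comap M₁.subtype).restrictScalars k).map (e : M₁ →ₗ[k] M₂) =
      (N₂.comap M₂.subtype).restrictScalars k := by
    ext a
    simp only [Submodule.mem_map, Submodule.restrictScalars_mem, Submodule.mem_comap,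
      Submodule.subtype_apply]
    constructor
    · rintro ⟨b, hb, rfl⟩
      exact (hN _).1 hb
    · intro ha
      exact ⟨e.symm a, (hN _).2 ha, e.apply_symm_apply a⟩
  exact ((Submodule.Quotient.restrictScalarsEquiv k (N₁.comap M₁.subtype)).symm.trans
    ((Submodule.Quotient.equiv _ _ e hmap).trans
      (Submodule.Quotient.restrictScalarsEquiv k (N₂.comap M₂.subtype)))).finrank_eq

end Bridge

/-! ### Lengths of quotients of `Oinf k` -/

section OinfLength

variable {k : Type*} [Field k]

theorem finrank_residue_Oinf : finrank k (Oinf k ⧸ Ideal.span {piInf k}) = 1 := by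
  rw [← maximalIdeal_Oinf_eq]
  have hsurj := algebraMap_residue_Oinf_surjective (k := k)
  have hinj : Function.Injective (algebraMap k (Oinf k ⧸ IsLocalRing.maximalIdeal (Oinf k))) :=
    (algebraMap k _).injective
  let e : k ≃ₗ[k] (Oinf k ⧸ IsLocalRing.maximalIdeal (Oinf k)) :=
    LinearEquiv.ofBijective (Algebra.linearMap k _) ⟨hinj, hsurj⟩
  rw [← e.finrank_eq, finrank_self]

theorem length_residue_Oinf : Module.length k (Oinf k ⧸ Ideal.span {piInf k}) = 1 := by
  have h := finrank_residue_Oinf (k := k)
  have hfin : Module.Finite k (Oinf k ⧸ Ideal.span {piInf k}) :=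
    Module.finite_of_finrank_pos (by rw [h]; exact one_pos)
  rw [Module.length_eq_finrank, h]
  rfl

theorem finrank_quotient_span_piInf_pow (m : ℕ) :
    finrank k (Oinf k ⧸ Ideal.span {piInf k ^ m}) = m := by
  have h := LDet.length_quotient_span_prod (k := k) (fun _ : ℕ => piInf k) (Finset.range m)
    (fun _ _ => piInf_ne_zero)
  rw [Finset.prod_const, Finset.card_range, Finset.sum_const, Finset.card_range,
    length_residue_Oinf] at h
  rw [LDet.finrank_eq_toNat_length, h]
  simp

theorem finrank_quotient_span_Oinf {t : Oinf k} (ht : t ≠ 0) :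
    (finrank k (Oinf k ⧸ Ideal.span {t}) : ℤ) = -((t : Oinf k) : RatFunc k).intDegree := by
  have ht' : ((t : Oinf k) : RatFunc k) ≠ 0 := fun h => ht (Subtype.ext h)
  have hdeg : ((t : Oinf k) : RatFunc k).intDegree ≤ 0 := mem_Oinf_iff_intDegree.mp t.2
  obtain ⟨u, hu⟩ := exists_unit_eq_X_zpow_mul ht'
  obtain ⟨m, hm⟩ : ∃ m : ℕ, ((t : Oinf k) : RatFunc k).intDegree = -(m : ℤ) :=
    ⟨(-((t : Oinf k) : RatFunc k).intDegree).toNat, by omega⟩
  have hteq : t = piInf k ^ m * (u : Oinf k) := by
    apply Subtype.ext
    rw [hu, hm]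
    push_cast
    rw [coe_piInf, zpow_neg, zpow_natCast, inv_pow]
  have hspan : Ideal.span {t} = Ideal.span {piInf k ^ m} := by
    rw [hteq, Ideal.span_singleton_mul_right_unit u.isUnit]
  rw [hspan, finrank_quotient_span_piInf_pow, hm, neg_neg]

end OinfLength

/-! ### Residue fields of `k[X]` -/

section ResiduePoly

variable {k : Type*} [Field k]

theorem surjective_algebraMap_quotient_polynomial [IsAlgClosed k] (m : Ideal k[X])
    [hm : m.IsMaximal] : Function.Surjective (algebraMap k (k[X] ⧸ m)) := by
  obtain ⟨f, rfl⟩ := (IsPrincipalIdealRing.principal m).principal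
  have hf0 : f ≠ 0 := by
    rintro rfl
    have hbot : (Submodule.span k[X] {(0 : k[X])} : Ideal k[X]) = ⊥ := by simp
    exact Ring.ne_bot_of_isMaximal_of_not_isField hm (Polynomial.not_isField k) hbot
  have hdeg : 0 < f.natDegree := by
    by_contra h
    have hconst : f.natDegree = 0 := by omega
    have hu : IsUnit f := by
      rw [Polynomial.isUnit_iff]
      refine ⟨f.coeff 0, ?_, (Polynomial.eq_C_of_natDegree_eq_zero hconst).symm⟩
      rw [isUnit_iff_ne_zero]
      intro h0
      apply hf0
      rw [Polynomial.eq_C_of_natDegree_eq_zero hconst, h0, map_zero]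
    exact hm.ne_top (Ideal.eq_top_of_isUnit_mem _ (Ideal.subset_span rfl) hu)
  let _ : Field (k[X] ⧸ (Submodule.span k[X] {f} : Ideal k[X])) := Ideal.Quotient.field _
  have hfin : Module.Finite k (k[X] ⧸ (Submodule.span k[X] {f} : Ideal k[X])) :=
    Module.finite_of_finrank_pos (by
      rw [show (Submodule.span k[X] {f} : Ideal k[X]) = Ideal.span {f} from rfl,
        finrank_quotient_span_eq_natDegree]
      exact hdeg)
  have hint : Algebra.IsIntegral k (k[X] ⧸ (Submodule.span k[X] {f} : Ideal k[X])) :=
    Algebra.IsIntegral.of_finite k _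
  exact (IsAlgClosed.algebraMap_bijective_of_isIntegral (k := k)).2

theorem charZero_quotient_of_algebra {A : Type*} [CommRing A] [Algebra k A] [CharZero k]
    (p : Ideal A) (hp : p ≠ ⊤) : CharZero (A ⧸ p) := by
  have : Nontrivial (A ⧸ p) := Ideal.Quotient.nontrivial_iff.mpr hp
  exact charZero_of_injective_algebraMap (algebraMap k (A ⧸ p)).injective

end ResiduePoly

/-! ### The main setting -/

section Main

variable (k : Type*) [Field k]
variable (K : Type*) [Field K] [Algebra (RatFunc k) K] [FiniteDimensional (RatFunc k) K]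
  [Algebra.IsSeparable (RatFunc k) K]
variable [Algebra k[X] K] [IsScalarTower k[X] (RatFunc k) K]
variable (B : Type*) [CommRing B] [Algebra k[X] B] [Algebra B K] [IsScalarTower k[X] B K]
  [IsIntegralClosure B k[X] K]
variable (Binf : Type*) [CommRing Binf] [Algebra (Oinf k) Binf] [Algebra Binf K]
  [IsScalarTower (Oinf k) Binf K] [IsIntegralClosure Binf (Oinf k) K]

local notation "F" => RatFunc k
local notation "n" => finrank (RatFunc k) K

/-- `x : F` as an element of `F`. -/
local notation "x" => (RatFunc.X : RatFunc k)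

theorem X_zpow_ne_zero (m : ℤ) : (RatFunc.X : RatFunc k) ^ m ≠ 0 :=
  zpow_ne_zero _ RatFunc.X_ne_zero

/-- A reduced pair of bases for `(B, Binf)`: data of the Dedekind–Weber normal form. -/
structure ReducedData where
  w : Basis (Fin n) F K
  d : Fin n → ℤ
  hB : (1 : Submodule B K).restrictScalars k[X] = Submodule.span k[X] (Set.range w)
  hBinf : (1 : Submodule Binf K).restrictScalars (Oinf k) =
    Submodule.span (Oinf k) (Set.range fun j => (RatFunc.X : RatFunc k) ^ (-d j) • w j)

theorem nonempty_reducedData : Nonempty (ReducedData k K B Binf) := by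
  obtain ⟨u, hu⟩ := exists_basis_span_eq k[X] F K B
  obtain ⟨v, hv⟩ := exists_basis_span_eq (Oinf k) F K Binf
  obtain ⟨w, d, h1, h2⟩ := exists_reduced_basis u v
  exact ⟨⟨w, d, hu.trans h1.symm, hv.trans h2.symm⟩⟩

variable {k K B Binf}

namespace ReducedData

variable (R : ReducedData k K B Binf)

/-- The `Oinf`-basis `x ^ (-d j) • w j` of `Binf`. -/
def winf : Basis (Fin n) F K :=
  scaledBasis R.w (fun j => (RatFunc.X : RatFunc k) ^ (-R.d j)) (fun _ => X_zpow_ne_zero k _)

theorem hBinf' : (1 : Submodule Binf K).restrictScalars (Oinf k) =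
    Submodule.span (Oinf k) (Set.range R.winf) := by
  rw [R.hBinf]
  congr 2
  funext j
  simp [winf]

theorem traceDual_B : (Submodule.traceDual k[X] F (1 : Submodule B K)).restrictScalars k[X] =
    Submodule.span k[X] (Set.range R.w.traceDual) :=
  Submodule.traceDual_span_of_basis k[X] (1 : Submodule B K) R.w R.hB

theorem traceDual_Binf :
    (Submodule.traceDual (Oinf k) F (1 : Submodule Binf K)).restrictScalars (Oinf k) =
    Submodule.span (Oinf k)
      (Set.range fun j => (RatFunc.X : RatFunc k) ^ (R.d j) • R.w.traceDual j) := by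
  rw [Submodule.traceDual_span_of_basis (Oinf k) (1 : Submodule Binf K) R.winf R.hBinf']
  congr 2
  funext j
  simp [winf, traceDual_scaledBasis]

end ReducedData

/-! ### The space of holomorphic differentials (in dual form) and the space of constants -/

variable [Algebra k K] [IsScalarTower k (RatFunc k) K]

variable (k K B Binf)

/-- `L = {h | h ∈ B^∨ ∧ x² h ∈ Binf^∨}`: in the application this is `{ω / dx | ω holomorphic}`. -/
def holoSpace : Submodule k K where
  carrier := {h | h ∈ Submodule.traceDual k[X] F (1 : Submodule B K) ∧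
    (RatFunc.X : RatFunc k) ^ (2 : ℤ) • h ∈ Submodule.traceDual (Oinf k) F (1 : Submodule Binf K)}
  add_mem' := by
    rintro a b ⟨ha1, ha2⟩ ⟨hb1, hb2⟩
    refine ⟨add_mem ha1 hb1, ?_⟩
    rw [smul_add]
    exact add_mem ha2 hb2
  zero_mem' := ⟨zero_mem _, by rw [smul_zero]; exact zero_mem _⟩
  smul_mem' := by
    rintro c a ⟨ha1, ha2⟩
    have h1 : c • a = (Polynomial.C c : k[X]) • a := (polyC_smul c a).symm
    have h2 : (RatFunc.X : RatFunc k) ^ (2 : ℤ) • c • a =
        (algebraMap k (Oinf k) c) • ((RatFunc.X : RatFunc k) ^ (2 : ℤ) • a) := by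
      rw [smul_comm, ← ratFuncC_smul c]
      rfl
    refine ⟨?_, ?_⟩
    · rw [h1, ← algebraMap_smul B]
      exact Submodule.smul_mem _ _ ha1
    · rw [h2, ← algebraMap_smul Binf]
      exact Submodule.smul_mem _ _ ha2

/-- `B ∩ Binf` as a `k`-subspace of `K`. -/
def constSpace : Submodule k K where
  carrier := {h | h ∈ (1 : Submodule B K) ∧ h ∈ (1 : Submodule Binf K)}
  add_mem' := by
    rintro a b ⟨ha1, ha2⟩ ⟨hb1, hb2⟩
    exact ⟨add_mem ha1 hb1, add_mem ha2 hb2⟩
  zero_mem' := ⟨zero_mem _, zero_mem _⟩
  smul_mem' := by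
    rintro c a ⟨ha1, ha2⟩
    have h1 : c • a = (Polynomial.C c : k[X]) • a := (polyC_smul c a).symm
    have h2 : c • a = (algebraMap k (Oinf k) c) • a := by
      rw [← ratFuncC_smul c]
      rfl
    refine ⟨?_, ?_⟩
    · rw [h1, ← algebraMap_smul B]
      exact Submodule.smul_mem _ _ ha1
    · rw [h2, ← algebraMap_smul Binf]
      exact Submodule.smul_mem _ _ ha2

variable {k K B Binf}

theorem mem_holoSpace_iff {h : K} : h ∈ holoSpace k K B Binf ↔
    h ∈ Submodule.traceDual k[X] F (1 : Submodule B K) ∧
    (RatFunc.X : RatFunc k) ^ (2 : ℤ) • h ∈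
      Submodule.traceDual (Oinf k) F (1 : Submodule Binf K) := Iff.rfl

theorem mem_constSpace_iff {h : K} : h ∈ constSpace k K B Binf ↔
    h ∈ (1 : Submodule B K) ∧ h ∈ (1 : Submodule Binf K) := Iff.rfl

theorem ReducedData.constSpace_eq (R : ReducedData k K B Binf) :
    constSpace k K B Binf = rrSpace R.w (fun i => -R.d i) := by
  ext h
  rw [mem_constSpace_iff, mem_rrSpace_iff, ← R.hB, ← R.hBinf]
  rfl

theorem one_mem_constSpace : (1 : K) ∈ constSpace k K B Binf :=
  ⟨Submodule.mem_one.mpr ⟨1, map_one _⟩, Submodule.mem_one.mpr ⟨1, map_one _⟩⟩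

theorem mul_mem_constSpace {a b : K} (ha : a ∈ constSpace k K B Binf)
    (hb : b ∈ constSpace k K B Binf) : a * b ∈ constSpace k K B Binf := by
  obtain ⟨ha1, ha2⟩ := ha
  obtain ⟨hb1, hb2⟩ := hb
  rw [Submodule.mem_one] at ha1 ha2 hb1 hb2
  obtain ⟨a1, rfl⟩ := ha1
  obtain ⟨b1, hb1⟩ := hb1
  obtain ⟨a2, ha2⟩ := ha2
  obtain ⟨b2, hb2⟩ := hb2
  refine ⟨?_, ?_⟩
  · rw [Submodule.mem_one]
    exact ⟨a1 * b1, by rw [map_mul, hb1]⟩
  · rw [Submodule.mem_one]
    exact ⟨a2 * b2, by rw [map_mul, hb2, ha2]⟩

/-- `B ∩ Binf` as a `k`-subalgebra of `K`. -/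
def constAlg : Subalgebra k K where
  carrier := constSpace k K B Binf
  mul_mem' := mul_mem_constSpace
  add_mem' := (constSpace k K B Binf).add_mem
  algebraMap_mem' := fun c => by
    rw [Algebra.algebraMap_eq_smul_one]
    exact (constSpace k K B Binf).smul_mem c one_mem_constSpace

theorem constAlg_toSubmodule :
    Subalgebra.toSubmodule (constAlg (k := k) (K := K) (B := B) (Binf := Binf)) =
      constSpace k K B Binf := rfl

/-- **A5**: over an algebraically closed field, `B ∩ Binf` consists of constants only. -/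
theorem finrank_constSpace [IsAlgClosed k] : finrank k (constSpace k K B Binf) = 1 := by
  obtain ⟨R⟩ := nonempty_reducedData k K B Binf
  have hfd : FiniteDimensional k (constSpace k K B Binf) := by
    rw [R.constSpace_eq]; infer_instance
  have hfg : (Subalgebra.toSubmodule (constAlg (k := k) (K := K) (B := B) (Binf := Binf))).FG := by
    rw [constAlg_toSubmodule]
    exact (Submodule.fg_iff_finiteDimensional _).mpr hfd
  have hle : constSpace k K B Binf = Submodule.span k {(1 : K)} := by
    apply le_antisymm
    · intro s hs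
      have hint : IsIntegral k s := IsIntegral.of_mem_of_fg _ hfg s hs
      have hdeg : (minpoly k s).degree = 1 :=
        IsAlgClosed.degree_eq_one_of_irreducible k (minpoly.irreducible hint)
      obtain ⟨c, rfl⟩ := minpoly.mem_range_of_degree_eq_one k s hdeg
      rw [Algebra.algebraMap_eq_smul_one]
      exact Submodule.smul_mem _ _ (Submodule.mem_span_singleton_self _)
    · rw [Submodule.span_singleton_le_iff_mem]
      exact one_mem_constSpace
  rw [hle]
  exact finrank_span_singleton one_ne_zero

theorem ReducedData.holoSpace_eq (R : ReducedData k K B Binf) :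
    holoSpace k K B Binf = rrSpace R.w.traceDual (fun i => R.d i - 2) := by
  ext h
  rw [mem_holoSpace_iff, mem_rrSpace_iff, ← R.traceDual_B]
  have h2 : (RatFunc.X : RatFunc k) ^ (2 : ℤ) • h ∈
      Submodule.traceDual (Oinf k) F (1 : Submodule Binf K) ↔
      (RatFunc.X : RatFunc k) ^ (2 : ℤ) • h ∈ Submodule.span (Oinf k)
        (Set.range fun j => (RatFunc.X : RatFunc k) ^ (R.d j) • R.w.traceDual j) := by
    rw [← R.traceDual_Binf]
    rfl
  rw [h2, mem_span_Oinf_iff, mem_span_Oinf_iff]
  refine and_congr Iff.rfl (forall_congr' fun i => ?_)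
  rw [map_smul, Finsupp.smul_apply, smul_eq_mul, map_mul, vInf_X_zpow]
  have hexp : WithZero.exp (R.d i) = WithZero.exp (2 : ℤ) * WithZero.exp (R.d i - 2) := by
    rw [← WithZero.exp_add]; congr 1; ring
  rw [hexp]
  exact mul_le_mul_iff_right₀ (WithZero.exp_pos)

omit [FiniteDimensional (RatFunc k) K] [Algebra.IsSeparable (RatFunc k) K] in
theorem isScalarTower_poly : IsScalarTower k k[X] K := by
  refine ⟨fun c p y => ?_⟩
  rw [← algebraMap_smul (RatFunc k) (c • p) y, ← algebraMap_smul (RatFunc k) p y,
    Algebra.smul_def c p, map_mul, mul_smul, Polynomial.algebraMap_apply, Algebra.algebraMap_self,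
    RingHom.id_apply, RatFunc.algebraMap_C, ratFuncC_smul]

omit [FiniteDimensional (RatFunc k) K] [Algebra.IsSeparable (RatFunc k) K] [Algebra k[X] K]
  [IsScalarTower k[X] (RatFunc k) K] in
theorem isScalarTower_Oinf : IsScalarTower k (Oinf k) K := by
  refine ⟨fun c a y => ?_⟩
  show ((c • a : Oinf k) : RatFunc k) • y = c • ((a : RatFunc k) • y)
  rw [Algebra.smul_def c a]
  push_cast
  rw [coe_algebraMap_Oinf, mul_smul, ratFuncC_smul]

attribute [local instance] isScalarTower_poly isScalarTower_Oinf

/-- Dimension of the space of holomorphic differentials in terms of the Dedekind–Weber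
exponents. -/
theorem ReducedData.finrank_holoSpace [IsAlgClosed k] (R : ReducedData k K B Binf) :
    (finrank k (holoSpace k K B Binf) : ℤ) = ∑ i, R.d i - (n : ℤ) + 1 := by
  have h1 : ∑ i, (1 - R.d i).toNat = 1 := by
    have := finrank_constSpace (k := k) (K := K) (B := B) (Binf := Binf)
    rw [R.constSpace_eq, finrank_rrSpace] at this
    rw [← this]
    refine Finset.sum_congr rfl fun i _ => ?_
    congr 1; ring
  have h2 := sum_toNat_sub_one_of_sum_toNat_eq_one R.d h1
  rw [Fintype.card_fin] at h2
  rw [← h2, R.holoSpace_eq, finrank_rrSpace]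
  congr 1
  refine Finset.sum_congr rfl fun i _ => ?_
  congr 1; ring

/-! ### Discriminants: `2 Σ d = dim (B^∨/B) + dim (Binf^∨/Binf)` -/

theorem ReducedData.span_w_le (R : ReducedData k K B Binf) :
    Submodule.span k[X] (Set.range R.w) ≤ Submodule.span k[X] (Set.range R.w.traceDual) := by
  rw [← R.hB, ← R.traceDual_B]
  intro y hy
  exact Submodule.one_le_traceDual_one (A := k[X]) (K := RatFunc k) (B := B) (L := K) hy

theorem ReducedData.span_winf_le (R : ReducedData k K B Binf) :
    Submodule.span (Oinf k) (Set.range R.winf) ≤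
      Submodule.span (Oinf k) (Set.range R.winf.traceDual) := by
  rw [← R.hBinf',
    ← Submodule.traceDual_span_of_basis (Oinf k) (1 : Submodule Binf K) R.winf R.hBinf']
  intro y hy
  exact Submodule.one_le_traceDual_one (A := Oinf k) (K := RatFunc k) (B := Binf) (L := K) hy

/-- The dimension of `B^∨/B` (in lattice form) is the degree of the discriminant. -/
theorem ReducedData.finrank_fin (R : ReducedData k K B Binf) :
    (finrank k (Submodule.span k[X] (Set.range R.w.traceDual) ⧸
      (Submodule.span k[X] (Set.range R.w)).comap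
        (Submodule.span k[X] (Set.range R.w.traceDual)).subtype) : ℤ) =
      (Algebra.discr F R.w).intDegree := by
  obtain ⟨t, ht, hfin⟩ := exists_finrank_span_quotient_span (k := k) (R := k[X]) R.w.traceDual R.w
    R.span_w_le
  rw [hfin, finrank_quotient_span_eq_natDegree, ← det_toMatrix_traceDual, ← ht,
    RatFunc.intDegree_polynomial]

/-- The dimension of `Binf^∨/Binf` (in lattice form) is minus the degree of the discriminant. -/
theorem ReducedData.finrank_inf (R : ReducedData k K B Binf) :
    (finrank k (Submodule.span (Oinf k) (Set.range R.winf.traceDual) ⧸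
      (Submodule.span (Oinf k) (Set.range R.winf)).comap
        (Submodule.span (Oinf k) (Set.range R.winf.traceDual)).subtype) : ℤ) =
      -(Algebra.discr F R.winf).intDegree := by
  obtain ⟨t, ht, hfin⟩ := exists_finrank_span_quotient_span (k := k) (R := Oinf k)
    R.winf.traceDual R.winf R.span_winf_le
  have ht0 : t ≠ 0 := by
    rintro rfl
    rw [map_zero, det_toMatrix_traceDual] at ht
    exact discr_basis_ne_zero R.winf ht.symm
  rw [hfin, finrank_quotient_span_Oinf ht0, ← det_toMatrix_traceDual, ← ht]
  rfl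

theorem ReducedData.discr_winf (R : ReducedData k K B Binf) :
    (Algebra.discr F R.winf).intDegree = (Algebra.discr F R.w).intDegree - 2 * ∑ j, R.d j := by
  have h := discr_scaledBasis R.w (fun j => (RatFunc.X : RatFunc k) ^ (-R.d j))
    (fun _ => X_zpow_ne_zero k _)
  have hprod : ∀ s : Finset (Fin n), (∏ j ∈ s, (RatFunc.X : RatFunc k) ^ (-R.d j)) =
      (RatFunc.X : RatFunc k) ^ (-∑ j ∈ s, R.d j) := by
    intro s
    classical
    induction s using Finset.induction_on with
    | empty => simp
    | insert a s ha ih =>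
      rw [Finset.prod_insert ha, Finset.sum_insert ha, ih, ← zpow_add₀ RatFunc.X_ne_zero]
      congr 1; ring
  have h' : Algebra.discr F R.winf =
      ((RatFunc.X : RatFunc k) ^ (-∑ j, R.d j)) ^ 2 * Algebra.discr F R.w := by
    rw [← hprod]; exact h
  rw [h', RatFunc.intDegree_mul (pow_ne_zero _ (X_zpow_ne_zero k _)) (discr_basis_ne_zero R.w),
    ← zpow_natCast, ← zpow_mul, Fermat.Agent.M2.intDegree_X_zpow]
  push_cast
  ring

/-- **IV.4c**: `2 Σ d` is the sum of the two discriminant degrees. -/
theorem ReducedData.two_mul_sum_d (R : ReducedData k K B Binf) :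
    2 * ∑ j, R.d j =
    (finrank k (Submodule.span k[X] (Set.range R.w.traceDual) ⧸
      (Submodule.span k[X] (Set.range R.w)).comap
        (Submodule.span k[X] (Set.range R.w.traceDual)).subtype) : ℤ) +
    (finrank k (Submodule.span (Oinf k) (Set.range R.winf.traceDual) ⧸
      (Submodule.span (Oinf k) (Set.range R.winf)).comap
        (Submodule.span (Oinf k) (Set.range R.winf.traceDual)).subtype) : ℤ) := by
  rw [R.finrank_fin, R.finrank_inf, R.discr_winf]
  ring

/-! ### Final assembly -/

section Final

variable [Algebra k B] [IsScalarTower k B K] [Algebra k Binf] [IsScalarTower k Binf K]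

variable (K) in
include K in
omit [FiniteDimensional (RatFunc k) K] [Algebra.IsSeparable (RatFunc k) K] in
theorem isScalarTower_k_poly_B : IsScalarTower k k[X] B := by
  refine ⟨fun c p b => ?_⟩
  apply IsIntegralClosure.algebraMap_injective B k[X] K
  rw [Algebra.algebraMap_eq_smul_one, Algebra.algebraMap_eq_smul_one, smul_assoc, smul_assoc,
    smul_assoc, smul_assoc]

variable (K) in
include K in
omit [FiniteDimensional (RatFunc k) K] [Algebra.IsSeparable (RatFunc k) K] [Algebra k[X] K]
  [IsScalarTower k[X] (RatFunc k) K] in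
theorem isScalarTower_k_Oinf_Binf : IsScalarTower k (Oinf k) Binf := by
  refine ⟨fun c p b => ?_⟩
  apply IsIntegralClosure.algebraMap_injective Binf (Oinf k) K
  rw [Algebra.algebraMap_eq_smul_one, Algebra.algebraMap_eq_smul_one, smul_assoc, smul_assoc,
    smul_assoc, smul_assoc]

/-- `dim_k (B^∨/B)` in `B`-module form equals the lattice form. -/
theorem ReducedData.finrank_traceDual_fin (R : ReducedData k K B Binf) :
    finrank k (Submodule.traceDual k[X] F (1 : Submodule B K) ⧸
      (1 : Submodule B K).comap (Submodule.traceDual k[X] F (1 : Submodule B K)).subtype) =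
    finrank k (Submodule.span k[X] (Set.range R.w.traceDual) ⧸
      (Submodule.span k[X] (Set.range R.w)).comap
        (Submodule.span k[X] (Set.range R.w.traceDual)).subtype) := by
  apply finrank_quotient_eq_of_carrier_eq
  · intro y
    rw [← R.traceDual_B]
    rfl
  · intro y
    rw [← R.hB]
    rfl

theorem ReducedData.finrank_traceDual_inf (R : ReducedData k K B Binf) :
    finrank k (Submodule.traceDual (Oinf k) F (1 : Submodule Binf K) ⧸
      (1 : Submodule Binf K).comap
        (Submodule.traceDual (Oinf k) F (1 : Submodule Binf K)).subtype) =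
    finrank k (Submodule.span (Oinf k) (Set.range R.winf.traceDual) ⧸
      (Submodule.span (Oinf k) (Set.range R.winf)).comap
        (Submodule.span (Oinf k) (Set.range R.winf.traceDual)).subtype) := by
  apply finrank_quotient_eq_of_carrier_eq
  · intro y
    rw [← Submodule.traceDual_span_of_basis (Oinf k) (1 : Submodule Binf K) R.winf R.hBinf']
    rfl
  · intro y
    rw [← R.hBinf']
    rfl

/-- **Dedekind–Weber dimension formula**, trace-dual form. -/
theorem two_mul_finrank_holoSpace [IsAlgClosed k] :
    2 * (finrank k (holoSpace k K B Binf) : ℤ) + 2 * (n : ℤ) = 2 +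
      (finrank k (Submodule.traceDual k[X] F (1 : Submodule B K) ⧸
        (1 : Submodule B K).comap
          (Submodule.traceDual k[X] F (1 : Submodule B K)).subtype) : ℤ) +
      (finrank k (Submodule.traceDual (Oinf k) F (1 : Submodule Binf K) ⧸
        (1 : Submodule Binf K).comap
          (Submodule.traceDual (Oinf k) F (1 : Submodule Binf K)).subtype) : ℤ) := by
  obtain ⟨R⟩ := nonempty_reducedData k K B Binf
  rw [R.finrank_traceDual_fin, R.finrank_traceDual_inf, R.finrank_holoSpace, add_assoc (2 : ℤ),
    ← R.two_mul_sum_d]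
  ring

open IsDedekindDomain in
/-- **Dedekind–Weber dimension formula**, ramification form: for `k` algebraically closed of
characteristic zero,
`2 dim L + 2 n = 2 + Σ_{P ∈ MaxSpec B} (e_P - 1) + Σ_{Q ∈ MaxSpec Binf} (e_Q - 1)`. -/
theorem two_mul_finrank_holoSpace_eq_finsum [IsAlgClosed k] [CharZero k] [IsDomain B]
    [IsDomain Binf] :
    2 * (finrank k (holoSpace k K B Binf) : ℤ) + 2 * (n : ℤ) = 2 +
      ((∑ᶠ v : HeightOneSpectrum B, (v.asIdeal.ramificationIdx k[X] - 1) : ℕ) : ℤ) +
      ((∑ᶠ v : HeightOneSpectrum Binf, (v.asIdeal.ramificationIdx (Oinf k) - 1) : ℕ) : ℤ) := by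
  rw [two_mul_finrank_holoSpace]
  -- finite part
  have htfK : Module.IsTorsionFree k[X] K := by
    have : FaithfulSMul k[X] K := by
      rw [faithfulSMul_iff_algebraMap_injective, IsScalarTower.algebraMap_eq k[X] F K]
      exact (algebraMap F K).injective.comp (IsFractionRing.injective k[X] F)
    infer_instance
  have : IsDedekindDomain B := IsIntegralClosure.isDedekindDomain k[X] F K B
  have : Module.IsTorsionFree k[X] B := IsIntegralClosure.isTorsionFree k[X] K
  have : IsFractionRing B K := IsIntegralClosure.isFractionRing_of_finite_extension k[X] F K B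
  have : Module.Finite k[X] B := IsIntegralClosure.finite k[X] F K B
  have : IsScalarTower k k[X] B := isScalarTower_k_poly_B K
  have h1 : ∀ Q : Ideal B, Q.IsMaximal → Q ≠ ⊥ → finrank k (B ⧸ Q) = 1 := by
    intro Q hQ _
    have : (Q.under k[X]).IsMaximal := Ideal.IsMaximal.under k[X] Q
    exact IdealDegree.finrank_quotient_eq_one_of_isAlgClosed k Q
      (surjective_algebraMap_quotient_polynomial _)
  have hchar : ∀ p : Ideal k[X], p.IsMaximal → CharZero (k[X] ⧸ p) := fun p hp =>
    charZero_quotient_of_algebra (k := k) p hp.ne_top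
  rw [IdealDegree.finrank_traceDual_quotient_eq_finsum k[X] F K B k h1 hchar]
  -- infinite part
  have htfK' : Module.IsTorsionFree (Oinf k) K := by
    have : FaithfulSMul (Oinf k) K := by
      rw [faithfulSMul_iff_algebraMap_injective, IsScalarTower.algebraMap_eq (Oinf k) F K]
      exact (algebraMap F K).injective.comp (IsFractionRing.injective (Oinf k) F)
    infer_instance
  have : IsDedekindDomain Binf := IsIntegralClosure.isDedekindDomain (Oinf k) F K Binf
  have : Module.IsTorsionFree (Oinf k) Binf := IsIntegralClosure.isTorsionFree (Oinf k) K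
  have : IsFractionRing Binf K :=
    IsIntegralClosure.isFractionRing_of_finite_extension (Oinf k) F K Binf
  have : Module.Finite (Oinf k) Binf := IsIntegralClosure.finite (Oinf k) F K Binf
  have : IsScalarTower k (Oinf k) Binf := isScalarTower_k_Oinf_Binf K
  have h1' : ∀ Q : Ideal Binf, Q.IsMaximal → Q ≠ ⊥ → finrank k (Binf ⧸ Q) = 1 := by
    intro Q hQ _
    have : (Q.under (Oinf k)).IsMaximal := Ideal.IsMaximal.under (Oinf k) Q
    refine IdealDegree.finrank_quotient_eq_one_of_isAlgClosed (A := Oinf k) k Q ?_
    rw [IsLocalRing.eq_maximalIdeal (inferInstance : (Q.under (Oinf k)).IsMaximal)]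
    exact algebraMap_residue_Oinf_surjective
  have hchar' : ∀ p : Ideal (Oinf k), p.IsMaximal → CharZero (Oinf k ⧸ p) := fun p hp =>
    charZero_quotient_of_algebra (k := k) p hp.ne_top
  rw [IdealDegree.finrank_traceDual_quotient_eq_finsum (Oinf k) F K Binf k h1' hchar']

open IsDedekindDomain in
/-- Valuation description of `holoSpace` (`k` of characteristic zero):
`h ∈ L ↔ (∀ P, v_P(h) ≥ -(e_P - 1)) ∧ (∀ Q, v_Q(h) ≥ e_Q + 1)`, in multiplicative notation. -/
theorem mem_holoSpace_iff_valuation [CharZero k] [IsDedekindDomain B] [IsDedekindDomain Binf]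
    [IsFractionRing B K] [IsFractionRing Binf K] (h : K) :
    h ∈ holoSpace k K B Binf ↔
      (∀ v : HeightOneSpectrum B,
        v.valuation K h ≤ WithZero.exp ((v.asIdeal.ramificationIdx k[X] : ℤ) - 1)) ∧
      (∀ v : HeightOneSpectrum Binf,
        v.valuation K h ≤ WithZero.exp (-((v.asIdeal.ramificationIdx (Oinf k) : ℤ) + 1))) := by
  have htfK : Module.IsTorsionFree k[X] K := by
    have : FaithfulSMul k[X] K := by
      rw [faithfulSMul_iff_algebraMap_injective, IsScalarTower.algebraMap_eq k[X] F K]
      exact (algebraMap F K).injective.comp (IsFractionRing.injective k[X] F)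
    infer_instance
  have : Module.IsTorsionFree k[X] B := IsIntegralClosure.isTorsionFree k[X] K
  have : Module.Finite k[X] B := IsIntegralClosure.finite k[X] F K B
  have hchar : ∀ p : Ideal k[X], p.IsMaximal → CharZero (k[X] ⧸ p) := fun p hp =>
    charZero_quotient_of_algebra (k := k) p hp.ne_top
  have htfK' : Module.IsTorsionFree (Oinf k) K := by
    have : FaithfulSMul (Oinf k) K := by
      rw [faithfulSMul_iff_algebraMap_injective, IsScalarTower.algebraMap_eq (Oinf k) F K]
      exact (algebraMap F K).injective.comp (IsFractionRing.injective (Oinf k) F)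
    infer_instance
  have : Module.IsTorsionFree (Oinf k) Binf := IsIntegralClosure.isTorsionFree (Oinf k) K
  have : Module.Finite (Oinf k) Binf := IsIntegralClosure.finite (Oinf k) F K Binf
  have hchar' : ∀ p : Ideal (Oinf k), p.IsMaximal → CharZero (Oinf k ⧸ p) := fun p hp =>
    charZero_quotient_of_algebra (k := k) p hp.ne_top
  rw [mem_holoSpace_iff, TameDifferent.mem_traceDual_one_iff_forall_valuation k[X] F K B hchar,
    TameDifferent.mem_traceDual_one_iff_forall_valuation (Oinf k) F K Binf hchar']
  refine and_congr Iff.rfl (forall_congr' fun v => ?_)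
  -- `v(x) = exp e_v`
  have hmax : (v.asIdeal.under (Oinf k)).IsMaximal := by
    have : v.asIdeal.IsMaximal := v.isMaximal
    exact Ideal.IsMaximal.under (Oinf k) v.asIdeal
  have hunder : v.asIdeal.under (Oinf k) = Ideal.span {piInf k} := by
    rw [IsLocalRing.eq_maximalIdeal hmax, maximalIdeal_Oinf_eq]
  have hπ := TameDifferent.valuation_algebraMap_eq_exp_neg_ramificationIdx (Oinf k) F K Binf v
    hunder
  have hx : v.valuation K (algebraMap F K (RatFunc.X : RatFunc k)) =
      WithZero.exp (v.asIdeal.ramificationIdx (Oinf k) : ℤ) := by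
    have h1 : algebraMap (Oinf k) K (piInf k) = (algebraMap F K (RatFunc.X : RatFunc k))⁻¹ := by
      rw [IsScalarTower.algebraMap_apply (Oinf k) F K, ← map_inv₀]
      congr 1
      exact coe_piInf
    rw [h1, map_inv₀] at hπ
    rw [← inv_inj, hπ, ← WithZero.exp_neg]
  rw [Algebra.smul_def, map_mul, map_zpow₀ (algebraMap F K), map_zpow₀, hx, ← WithZero.exp_zsmul]
  have hexp : WithZero.exp ((v.asIdeal.ramificationIdx (Oinf k) : ℤ) - 1) =
      WithZero.exp ((2 : ℤ) • (v.asIdeal.ramificationIdx (Oinf k) : ℤ)) *
        WithZero.exp (-((v.asIdeal.ramificationIdx (Oinf k) : ℤ) + 1)) := by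
    rw [← WithZero.exp_add]; congr 1; simp only [smul_eq_mul]; ring
  rw [hexp]
  exact mul_le_mul_iff_right₀ (WithZero.exp_pos)

end Final

end Main

end

end Fermat.Agent.M2.DW
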