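/-
M2 / Part VI: lower bound for `dim holoSpace` from the Dedekind–Weber formula, in terms of the
number of primes in finitely many fibres (helper10).
-/
import Fermat.Agent.M2.DWMain
import Fermat.Agent.M2.FibreCount

set_option autoImplicit false

open Polynomial Module IsDedekindDomain

namespace Fermat.Agent.M2.DWLower

/-- A finite partial sum is bounded by the `finsum`, for finitely supported `ℕ`-valued functions. -/
theorem sum_le_finsum_nat {α : Type*} (f : α → ℕ) (hf : (Function.support f).Finite)
    (U : Finset α) : ∑ v ∈ U, f v ≤ ∑ᶠ v, f v := by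
  classical
  rw [finsum_eq_sum_of_support_subset f (s := hf.toFinset ∪ U)
    (by
      intro v hv
      rw [Finset.coe_union, Set.mem_union]
      exact Or.inl (by simpa using hv))]
  exact Finset.sum_le_sum_of_subset Finset.subset_union_right

section Generic

variable {A B : Type*} [CommRing A] [CommRing B] [Algebra A B] [IsDedekindDomain A]
  [IsDedekindDomain B] [Module.IsTorsionFree A B] [Module.Finite A B]

/-- A prime over a nonzero prime, as a height-one prime. -/
noncomputable def toHOS (p : Ideal A) [p.IsPrime] (hp : p ≠ ⊥) (P : p.primesOver B) :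
    HeightOneSpectrum B :=
  ⟨P.1, P.2.1, by
    have : P.1.LiesOver p := P.2.2
    exact TameDifferent.ne_bot_of_liesOver_of_ne_bot hp P.1⟩

theorem toHOS_injective (p : Ideal A) [p.IsPrime] (hp : p ≠ ⊥) :
    Function.Injective (toHOS (B := B) p hp) := by
  intro P Q h
  exact Subtype.ext (congrArg HeightOneSpectrum.asIdeal h)

theorem under_toHOS (p : Ideal A) [p.IsPrime] (hp : p ≠ ⊥) (P : p.primesOver B) :
    (toHOS p hp P).asIdeal.under A = p := by
  have : P.1.LiesOver p := P.2.2
  exact (Ideal.LiesOver.over (p := p) (P := P.1)).symm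

/-- The fibrewise sums of `e - 1` over finitely many distinct nonzero primes are bounded by the total
sum. -/
theorem sum_fibres_le_finsum {ι : Type*} (S : Finset ι) (p : ι → Ideal A)
    [∀ i, (p i).IsMaximal] (hp : ∀ i, p i ≠ ⊥) (hinj : Function.Injective p)
    (hfin : {v : HeightOneSpectrum B | 1 < v.asIdeal.ramificationIdx A}.Finite) :
    ∑ i ∈ S, ∑ P : (p i).primesOver B, (P.1.ramificationIdx A - 1) ≤
      ∑ᶠ v : HeightOneSpectrum B, (v.asIdeal.ramificationIdx A - 1) := by
  classical
  have hsupp : (Function.support fun v : HeightOneSpectrum B =>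
      v.asIdeal.ramificationIdx A - 1).Finite := by
    refine hfin.subset fun v hv => ?_
    simp only [Function.mem_support, ne_eq] at hv
    simp only [Set.mem_ofPred_eq]
    omega
  refine le_trans (le_of_eq ?_) (sum_le_finsum_nat _ hsupp
    (S.biUnion fun i => Finset.univ.map ⟨toHOS (p i) (hp i), toHOS_injective (p i) (hp i)⟩))
  rw [Finset.sum_biUnion]
  · refine Finset.sum_congr rfl fun i _ => ?_
    rw [Finset.sum_map]
    rfl
  · intro i _ j _ hij
    rw [Function.onFun, Finset.disjoint_left]
    intro v hvi hvj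
    obtain ⟨P, -, rfl⟩ := Finset.mem_map.mp hvi
    obtain ⟨Q, -, hQ⟩ := Finset.mem_map.mp hvj
    apply hij
    apply hinj
    have h1 := under_toHOS (p i) (hp i) P
    have h2 := under_toHOS (p j) (hp j) Q
    simp only [Function.Embedding.coeFn_mk] at hQ h1 h2 ⊢
    rw [← h1, ← hQ, h2]

end Generic

section Main

variable {k : Type*} [Field k]
variable {K : Type*} [Field K] [Algebra (RatFunc k) K] [FiniteDimensional (RatFunc k) K]
  [Algebra.IsSeparable (RatFunc k) K]
variable [Algebra k[X] K] [IsScalarTower k[X] (RatFunc k) K]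
variable {B : Type*} [CommRing B] [Algebra k[X] B] [Algebra B K] [IsScalarTower k[X] B K]
  [IsIntegralClosure B k[X] K]
variable {Binf : Type*} [CommRing Binf] [Algebra (DW.Oinf k) Binf] [Algebra Binf K]
  [IsScalarTower (DW.Oinf k) Binf K] [IsIntegralClosure Binf (DW.Oinf k) K]
variable [Algebra k K] [IsScalarTower k (RatFunc k) K]
variable [Algebra k B] [IsScalarTower k B K] [Algebra k Binf] [IsScalarTower k Binf K]

/-- **Lower bound from the Dedekind–Weber formula**: for any finite set `S` of values,
`2 + Σ_{c ∈ S} (n - r_c) + (n - r_∞) ≤ 2 dim L + 2 n`, where `r_c` (resp. `r_∞`) is the number of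
primes of `B` over `X - c` (resp. of `Binf` over the maximal ideal of `Oinf`). -/
theorem lower_bound [IsAlgClosed k] [CharZero k] [IsDomain B] [IsDomain Binf] (S : Finset k) :
    2 + ((∑ c ∈ S, (finrank (RatFunc k) K - ((FibreCount.pt c).primesOver B).ncard) : ℕ) : ℤ)
      + ((finrank (RatFunc k) K -
          ((IsLocalRing.maximalIdeal (DW.Oinf k)).primesOver Binf).ncard : ℕ) : ℤ)
      ≤ 2 * (finrank k (DW.holoSpace k K B Binf) : ℤ) + 2 * (finrank (RatFunc k) K : ℤ) := by
  rw [DW.two_mul_finrank_holoSpace_eq_finsum]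
  -- finite part: instances
  have htfK : Module.IsTorsionFree k[X] K := by
    have : FaithfulSMul k[X] K := by
      rw [faithfulSMul_iff_algebraMap_injective, IsScalarTower.algebraMap_eq k[X] (RatFunc k) K]
      exact (algebraMap (RatFunc k) K).injective.comp (IsFractionRing.injective k[X] (RatFunc k))
    infer_instance
  have : IsDedekindDomain B := IsIntegralClosure.isDedekindDomain k[X] (RatFunc k) K B
  have : Module.IsTorsionFree k[X] B := IsIntegralClosure.isTorsionFree k[X] K
  have : IsFractionRing B K :=
    IsIntegralClosure.isFractionRing_of_finite_extension k[X] (RatFunc k) K B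
  have : Module.Finite k[X] B := IsIntegralClosure.finite k[X] (RatFunc k) K B
  have : IsScalarTower k k[X] B := DW.isScalarTower_k_poly_B K
  have hchar : ∀ p : Ideal k[X], p.IsMaximal → CharZero (k[X] ⧸ p) := fun p hp =>
    DW.charZero_quotient_of_algebra (k := k) p hp.ne_top
  have hrank : finrank k[X] B = finrank (RatFunc k) K := IsIntegralClosure.rank k[X] (RatFunc k) K B
  have hfin := IdealDegree.finite_setOf_one_lt_ramificationIdx k[X] (RatFunc k) K B hchar
  have h1 := sum_fibres_le_finsum (A := k[X]) (B := B) S FibreCount.pt FibreCount.pt_ne_bot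
    FibreCount.pt_injective hfin
  simp_rw [FibreCount.sum_ramificationIdx_sub_one_pt, hrank] at h1
  -- infinite part: instances
  have htfK' : Module.IsTorsionFree (DW.Oinf k) K := by
    have : FaithfulSMul (DW.Oinf k) K := by
      rw [faithfulSMul_iff_algebraMap_injective,
        IsScalarTower.algebraMap_eq (DW.Oinf k) (RatFunc k) K]
      exact (algebraMap (RatFunc k) K).injective.comp
        (IsFractionRing.injective (DW.Oinf k) (RatFunc k))
    infer_instance
  have : IsDedekindDomain Binf := IsIntegralClosure.isDedekindDomain (DW.Oinf k) (RatFunc k) K Binf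
  have : Module.IsTorsionFree (DW.Oinf k) Binf := IsIntegralClosure.isTorsionFree (DW.Oinf k) K
  have : IsFractionRing Binf K :=
    IsIntegralClosure.isFractionRing_of_finite_extension (DW.Oinf k) (RatFunc k) K Binf
  have : Module.Finite (DW.Oinf k) Binf := IsIntegralClosure.finite (DW.Oinf k) (RatFunc k) K Binf
  have : IsScalarTower k (DW.Oinf k) Binf := DW.isScalarTower_k_Oinf_Binf K
  have hchar' : ∀ p : Ideal (DW.Oinf k), p.IsMaximal → CharZero (DW.Oinf k ⧸ p) := fun p hp =>
    DW.charZero_quotient_of_algebra (k := k) p hp.ne_top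
  have hrank' : finrank (DW.Oinf k) Binf = finrank (RatFunc k) K :=
    IsIntegralClosure.rank (DW.Oinf k) (RatFunc k) K Binf
  have hfin' := IdealDegree.finite_setOf_one_lt_ramificationIdx (DW.Oinf k) (RatFunc k) K Binf hchar'
  have hm0 : IsLocalRing.maximalIdeal (DW.Oinf k) ≠ ⊥ := by
    rw [DW.maximalIdeal_Oinf_eq, Ne, Ideal.span_singleton_eq_bot]
    exact DW.piInf_ne_zero
  have h2 := sum_fibres_le_finsum (A := DW.Oinf k) (B := Binf) ({()} : Finset Unit)
    (fun _ => IsLocalRing.maximalIdeal (DW.Oinf k)) (fun _ => hm0)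
    (fun _ _ _ => rfl) hfin'
  rw [Finset.sum_singleton, FibreCount.sum_ramificationIdx_sub_one
    (IsLocalRing.maximalIdeal (DW.Oinf k)) (fun P => by
      have : P.1.LiesOver (IsLocalRing.maximalIdeal (DW.Oinf k)) := P.2.2
      have hP0 : P.1 ≠ ⊥ := TameDifferent.ne_bot_of_liesOver_of_ne_bot hm0 P.1
      have : P.1.IsMaximal := P.2.1.isMaximal hP0
      exact FibreCount.inertiaDeg_eq_one k (IsLocalRing.maximalIdeal (DW.Oinf k))
        DW.algebraMap_residue_Oinf_surjective P.1), hrank'] at h2
  have h1' := (Nat.cast_le (α := ℤ)).mpr h1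
  have h2' := (Nat.cast_le (α := ℤ)).mpr h2
  linarith

end Main

end Fermat.Agent.M2.DWLower
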