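import Fermat.Agent.M2.DiffIso
import Fermat.Agent.M2.OrdVal
import Fermat.Agent.M2.HolDiv

/-!
# M2 / V.3 (part 2) : the image of `S₂(Γ₀(N)) → Frac (WH Γ₀(N))`, `f ↦ f / Dj`

* `IsDiffOf a b u` : `u` is holomorphic on `ℍ`, `u · b = a · Dj`, and `u ∣[2] δ` vanishes at
  `i∞` for every `δ : SL(2,ℤ)`;
* `mem_range_toK_iff_exists` : `a / b ∈ range toK ↔ ∃ u, IsDiffOf a b u`;
* `exists_mdiff_eqn_iff_ordAt` : the finite part of the condition in terms of orders of
  vanishing: `(∃ u holomorphic, u · b = a · Dj) ↔ ∀ z, ord_z b ≤ ord_z a + ord_z Dj`;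
* `ordAt_Dj_add_one` : `ord_z Dj + 1 = ord_z (j - j z)`.
-/

set_option autoImplicit false

namespace Fermat.Agent.M2.DiffIso

open UpperHalfPlane ModularForm MatrixGroups CongruenceSubgroup Derivative
open scoped Manifold Topology

local notation "Δ" => ModularForm.discriminant

section Backward

variable {N : ℕ}

/-- A holomorphic solution `u` of `u · b = a · Dj` (`a, b` invariant under `γ`, `b ≠ 0`)
transforms with weight `2` under `γ`. -/
lemma smul_of_eqn {a b u : ℍ → ℂ} (hb : MDiff b) (hb0 : b ≠ 0) (hu : MDiff u)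
    (heq : ∀ z, u z * b z = a z * Dj z) {γ : SL(2, ℤ)}
    (haγ : ∀ z, a (γ • z) = a z) (hbγ : ∀ z, b (γ • z) = b z) (z : ℍ) :
    u (γ • z) = denom γ z ^ (2 : ℤ) * u z := by
  have hc1 : Continuous fun z : ℍ => u (γ • z) := (mdiff_comp_smul hu γ).continuous
  have hc2 : Continuous fun z : ℍ => denom γ z ^ (2 : ℤ) * u z := by
    have hd : Continuous fun z : ℍ => denom γ z := by
      have : Continuous fun z : ℍ => ((γ 1 0 : ℤ) : ℂ) * (z : ℂ) + ((γ 1 1 : ℤ) : ℂ) :=
        (continuous_const.mul UpperHalfPlane.continuous_coe).add continuous_const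
      refine this.congr fun z => ?_
      simp [denom]
    have : Continuous fun z : ℍ => denom γ z ^ 2 * u z := (hd.pow 2).mul hu.continuous
    refine this.congr fun z => ?_
    rw [zpow_ofNat]
  have := Removable.eq_of_mul_eq_uhp (g := b) hb hb0 hc1 hc2 (fun z => by
    show u (γ • z) * b z = denom γ z ^ (2 : ℤ) * u z * b z
    calc u (γ • z) * b z = u (γ • z) * b (γ • z) := by rw [hbγ z]
      _ = a z * (denom γ z ^ (2 : ℤ) * Dj z) := by rw [heq (γ • z), haγ z, Dj_smul]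
      _ = denom γ z ^ (2 : ℤ) * (a z * Dj z) := by ring
      _ = denom γ z ^ (2 : ℤ) * u z * b z := by rw [← heq z]; ring)
  exact congrFun this z

/-- `u` represents the differential `(a / b) dj`: it is holomorphic, `u · b = a · Dj`, and
`u ∣[2] δ` vanishes at `i∞` for all `δ`. -/
def IsDiffOf (a b : WH (Gamma0 N)) (u : ℍ → ℂ) : Prop :=
  MDiff u ∧ (∀ z, u z * (b : ℍ → ℂ) z = (a : ℍ → ℂ) z * Dj z) ∧
    ∀ δ : SL(2, ℤ), IsZeroAtImInfty (u ∣[(2 : ℤ)] δ)

lemma WH.coe_ne_zero {Γ : Subgroup SL(2, ℤ)} {b : WH Γ} (hb : b ≠ 0) : (b : ℍ → ℂ) ≠ 0 :=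
  fun h => hb (Subtype.ext h)

lemma IsDiffOf.slash_eq {a b : WH (Gamma0 N)} (hb : b ≠ 0) {u : ℍ → ℂ} (h : IsDiffOf a b u)
    {γ : SL(2, ℤ)} (hγ : γ ∈ Gamma0 N) : u ∣[(2 : ℤ)] γ = u := by
  ext z
  rw [SL_slash_apply, smul_of_eqn b.2.1 (WH.coe_ne_zero hb) h.1 h.2.1 (a.2.2.1 γ hγ)
    (b.2.2.1 γ hγ) z]
  have hd : denom γ z ≠ 0 := denom_ne_zero γ z
  rw [zpow_neg]
  field_simp

variable [NeZero N]

/-- The cusp form attached to a solution `u`. -/
noncomputable def cuspFormOf {a b : WH (Gamma0 N)} (hb : b ≠ 0) {u : ℍ → ℂ}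
    (h : IsDiffOf a b u) : CuspForm (Gamma0 N) 2 where
  toFun := u
  slash_action_eq' := by
    rintro _ ⟨γ, hγ, rfl⟩
    exact h.slash_eq hb hγ
  holo' := h.1
  zero_at_cusps' {c} hc := by
    rw [Subgroup.IsArithmetic.isCusp_iff_isCusp_SL2Z] at hc
    rw [OnePoint.isZeroAt_iff_forall_SL2Z hc]
    intro γ _
    exact h.2.2 γ

@[simp] lemma cuspFormOf_apply {a b : WH (Gamma0 N)} (hb : b ≠ 0) {u : ℍ → ℂ}
    (h : IsDiffOf a b u) (z : ℍ) : cuspFormOf hb h z = u z := rfl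

lemma mdiff_den (Γ : Subgroup SL(2, ℤ)) : MDiff ((den Γ : WH Γ) : ℍ → ℂ) := (den Γ).2.1

/-- Every cusp form `f` is a solution for the pair `(num f, den)`. -/
lemma isDiffOf_num_den (f : CuspForm (Gamma0 N) 2) : IsDiffOf (num f) (den (Gamma0 N)) f :=
  ⟨CuspFormClass.holo f, fun z => (numFun_mul_Dj f z).symm ▸ rfl,
    fun δ => CuspFormClass.zero_at_infty_slash f δ⟩

/-- If `a / b = num f / den` then `f` is a solution for `(a, b)`. -/
lemma isDiffOf_of_toK_eq {a b : WH (Gamma0 N)} (hb : b ≠ 0) (f : CuspForm (Gamma0 N) 2)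
    (h : toK f = algebraMap (WH (Gamma0 N)) (FractionRing (WH (Gamma0 N))) a /
      algebraMap (WH (Gamma0 N)) (FractionRing (WH (Gamma0 N))) b) : IsDiffOf a b f := by
  have hinj := IsFractionRing.injective (WH (Gamma0 N)) (FractionRing (WH (Gamma0 N)))
  have hb' : algebraMap (WH (Gamma0 N)) (FractionRing (WH (Gamma0 N))) b ≠ 0 := fun h0 =>
    hb (hinj (by rw [h0, map_zero]))
  have hd' : algebraMap (WH (Gamma0 N)) (FractionRing (WH (Gamma0 N))) (den (Gamma0 N)) ≠ 0 :=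
    fun h0 => den_ne_zero _ (hinj (by rw [h0, map_zero]))
  rw [toK_apply, div_eq_div_iff hd' hb', ← map_mul, ← map_mul] at h
  have hW : num f * b = a * den (Gamma0 N) := hinj h
  have hpt : ∀ z, numFun f z * (b : ℍ → ℂ) z = (a : ℍ → ℂ) z * (jInv z ^ 4 * (jInv z - 1728) ^ 3) := by
    intro z
    have := congrArg (fun w : WH (Gamma0 N) => (w : ℍ → ℂ) z) hW
    exact this
  refine ⟨CuspFormClass.holo f, ?_, fun δ => CuspFormClass.zero_at_infty_slash f δ⟩
  have hfc : Continuous (f : ℍ → ℂ) := (CuspFormClass.holo f).continuous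
  have key := Removable.eq_of_mul_eq_uhp (g := ((den (Gamma0 N) : WH (Gamma0 N)) : ℍ → ℂ))
    (h₁ := fun z => f z * (b : ℍ → ℂ) z) (h₂ := fun z => (a : ℍ → ℂ) z * Dj z)
    (mdiff_den _) (WH.coe_ne_zero (den_ne_zero _))
    (hfc.mul b.2.1.continuous) (a.2.1.continuous.mul mdiff_Dj.continuous) (fun z => by
      show f z * (b : ℍ → ℂ) z * (jInv z ^ 4 * (jInv z - 1728) ^ 3) =
        (a : ℍ → ℂ) z * Dj z * (jInv z ^ 4 * (jInv z - 1728) ^ 3)
      have h1 := numFun_mul_Dj f z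
      have h2 := hpt z
      calc f z * (b : ℍ → ℂ) z * (jInv z ^ 4 * (jInv z - 1728) ^ 3)
          = (f z * (jInv z ^ 4 * (jInv z - 1728) ^ 3)) * (b : ℍ → ℂ) z := by ring
        _ = numFun f z * Dj z * (b : ℍ → ℂ) z := by rw [h1]
        _ = (numFun f z * (b : ℍ → ℂ) z) * Dj z := by ring
        _ = (a : ℍ → ℂ) z * (jInv z ^ 4 * (jInv z - 1728) ^ 3) * Dj z := by rw [h2]
        _ = (a : ℍ → ℂ) z * Dj z * (jInv z ^ 4 * (jInv z - 1728) ^ 3) := by ring)
  exact fun z => congrFun key z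

/-- The cusp form attached to a solution for `(a, b)` is mapped to `a / b`. -/
lemma toK_cuspFormOf {a b : WH (Gamma0 N)} (hb : b ≠ 0) {u : ℍ → ℂ} (h : IsDiffOf a b u) :
    toK (cuspFormOf hb h) = algebraMap (WH (Gamma0 N)) (FractionRing (WH (Gamma0 N))) a /
      algebraMap (WH (Gamma0 N)) (FractionRing (WH (Gamma0 N))) b := by
  have hinj := IsFractionRing.injective (WH (Gamma0 N)) (FractionRing (WH (Gamma0 N)))
  have hb' : algebraMap (WH (Gamma0 N)) (FractionRing (WH (Gamma0 N))) b ≠ 0 := fun h0 =>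
    hb (hinj (by rw [h0, map_zero]))
  have hd' : algebraMap (WH (Gamma0 N)) (FractionRing (WH (Gamma0 N))) (den (Gamma0 N)) ≠ 0 :=
    fun h0 => den_ne_zero _ (hinj (by rw [h0, map_zero]))
  rw [toK_apply, div_eq_div_iff hd' hb', ← map_mul, ← map_mul]
  congr 1
  set f := cuspFormOf hb h with hf
  -- `num f * b = a * den` pointwise after multiplying with `Dj`
  have key := Removable.eq_of_mul_eq_uhp (g := Dj)
    (h₁ := fun z => numFun f z * (b : ℍ → ℂ) z)
    (h₂ := fun z => (a : ℍ → ℂ) z * (jInv z ^ 4 * (jInv z - 1728) ^ 3))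
    mdiff_Dj Dj_ne_zero ((mdiff_numFun f).continuous.mul b.2.1.continuous)
    (a.2.1.continuous.mul (mdiff_den (Gamma0 N)).continuous) (fun z => by
      show numFun f z * (b : ℍ → ℂ) z * Dj z =
        (a : ℍ → ℂ) z * (jInv z ^ 4 * (jInv z - 1728) ^ 3) * Dj z
      have h1 := numFun_mul_Dj f z
      have h2 : f z * (b : ℍ → ℂ) z = (a : ℍ → ℂ) z * Dj z := h.2.1 z
      calc numFun f z * (b : ℍ → ℂ) z * Dj z
          = (numFun f z * Dj z) * (b : ℍ → ℂ) z := by ring
        _ = f z * (jInv z ^ 4 * (jInv z - 1728) ^ 3) * (b : ℍ → ℂ) z := by rw [h1]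
        _ = (f z * (b : ℍ → ℂ) z) * (jInv z ^ 4 * (jInv z - 1728) ^ 3) := by ring
        _ = (a : ℍ → ℂ) z * Dj z * (jInv z ^ 4 * (jInv z - 1728) ^ 3) := by rw [h2]
        _ = (a : ℍ → ℂ) z * (jInv z ^ 4 * (jInv z - 1728) ^ 3) * Dj z := by ring)
  apply WH.ext
  intro z
  exact congrFun key z

/-- **V.3, valuation-free form.** `a / b` lies in the image of `S₂(Γ₀(N))` iff `a · Dj / b`
is a holomorphic function on `ℍ` all of whose weight-two slashes vanish at `i∞`. -/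
theorem mem_range_toK_iff_exists (a b : WH (Gamma0 N)) (hb : b ≠ 0) :
    algebraMap (WH (Gamma0 N)) (FractionRing (WH (Gamma0 N))) a /
      algebraMap (WH (Gamma0 N)) (FractionRing (WH (Gamma0 N))) b ∈ LinearMap.range (toK (N := N))
      ↔ ∃ u : ℍ → ℂ, IsDiffOf a b u := by
  constructor
  · rintro ⟨f, hf⟩
    exact ⟨f, isDiffOf_of_toK_eq hb f hf⟩
  · rintro ⟨u, hu⟩
    exact ⟨cuspFormOf hb hu, toK_cuspFormOf hb hu⟩

/-- `S₂(Γ₀(N))` is linearly isomorphic to the image of `toK`. -/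
noncomputable def equivRange : CuspForm (Gamma0 N) 2 ≃ₗ[ℂ] LinearMap.range (toK (N := N)) :=
  LinearEquiv.ofInjective toK toK_injective

lemma finrank_range_toK :
    Module.finrank ℂ (LinearMap.range (toK (N := N))) = Module.finrank ℂ (CuspForm (Gamma0 N) 2) :=
  (LinearEquiv.finrank_eq equivRange).symm

end Backward

/-! ### The finite part of the condition in terms of orders of vanishing -/

section Orders

open OrdVal

/-- `ord_z Dj + 1 = ord_z (j - j z)` (the ramification index of `j` at `z`). -/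
lemma ordAt_Dj_add_one (z : ℍ) : ordAt z Dj + 1 = ordAt z (fun w => jInv w - jInv z) :=
  JDeriv.analyticOrderAt_D_jF_add_one z

/-- **Finite part of V.3.** A holomorphic `u` with `u · b = a · Dj` exists iff
`ord_z b ≤ ord_z a + ord_z Dj` at every point `z` of the upper half plane. -/
theorem exists_mdiff_eqn_iff_ordAt {a b : ℍ → ℂ} (ha : MDiff a) (hb : MDiff b) :
    (∃ u : ℍ → ℂ, MDiff u ∧ ∀ z, u z * b z = a z * Dj z) ↔
      ∀ z : ℍ, ordAt z b ≤ ordAt z a + ordAt z Dj := by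
  constructor
  · rintro ⟨u, hu, heq⟩ z
    have h1 : u * b = a * Dj := funext heq
    have h2 := ordAt_mul hu hb z
    rw [h1, ordAt_mul ha mdiff_Dj z] at h2
    rw [h2]
    exact le_add_self
  · intro h
    obtain ⟨u, hu, heq⟩ := HolDiv.exists_mdiff_of_order_le (a * Dj) b (ha.mul mdiff_Dj) hb
      (fun z => by
        have := h z
        rw [← ordAt_mul ha mdiff_Dj z] at this
        exact this)
    exact ⟨u, hu, fun z => (heq z).symm⟩

end Orders

end Fermat.Agent.M2.DiffIso
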