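import Fermat.Agent.M2.P1Hurwitz

/-!
# M2 / VI : final arithmetic for the lower bound of S20
-/

set_option autoImplicit false

namespace Fermat.Agent.M2.FinalArith

open ModularCurve Fermat.Agent.M2.P1

/-- If `2 h + 2 n = 2 + (n - r_S) + (n - r_{ST}) + (n - r_T)` (natural subtraction) with
`n = ψ(N)` and `r_g ≤ o_g` (orbit counts on `SL(2,ℤ) ⧸ Γ₀(N)`), then `genusFormula N ≤ h`. -/
theorem genusFormula_le_of_counts (N : ℕ) [NeZero N] (hs n rS rST rT : ℕ)
    (hn : n = dedekindPsi N)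
    (h : 2 * hs + 2 * n = 2 + (n - rS) + (n - rST) + (n - rT))
    (hS : rS ≤ orbitCount N ModularGroup.S)
    (hST : rST ≤ orbitCount N (ModularGroup.S * ModularGroup.T))
    (hT : rT ≤ orbitCount N ModularGroup.T) :
    genusFormula N ≤ (hs : ℚ) := by
  rw [genusFormula_eq_orbits, ← hn]
  have h1 : ((n - rS : ℕ) : ℚ) ≥ (n : ℚ) - orbitCount N ModularGroup.S := by
    have : ((n - rS : ℕ) : ℚ) ≥ (n : ℚ) - rS := by
      rw [ge_iff_le, sub_le_iff_le_add]
      exact_mod_cast (by omega : n ≤ n - rS + rS)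
    have h' : (rS : ℚ) ≤ orbitCount N ModularGroup.S := by exact_mod_cast hS
    linarith
  have h2 : ((n - rST : ℕ) : ℚ) ≥ (n : ℚ) - orbitCount N (ModularGroup.S * ModularGroup.T) := by
    have : ((n - rST : ℕ) : ℚ) ≥ (n : ℚ) - rST := by
      rw [ge_iff_le, sub_le_iff_le_add]
      exact_mod_cast (by omega : n ≤ n - rST + rST)
    have h' : (rST : ℚ) ≤ orbitCount N (ModularGroup.S * ModularGroup.T) := by exact_mod_cast hST
    linarith
  have h3 : ((n - rT : ℕ) : ℚ) ≥ (n : ℚ) - orbitCount N ModularGroup.T := by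
    have : ((n - rT : ℕ) : ℚ) ≥ (n : ℚ) - rT := by
      rw [ge_iff_le, sub_le_iff_le_add]
      exact_mod_cast (by omega : n ≤ n - rT + rT)
    have h' : (rT : ℚ) ≤ orbitCount N ModularGroup.T := by exact_mod_cast hT
    linarith
  have hq : (2 : ℚ) * hs + 2 * n = 2 + ((n - rS : ℕ) : ℚ) + ((n - rST : ℕ) : ℚ) + ((n - rT : ℕ) : ℚ) := by
    exact_mod_cast h
  linarith

end Fermat.Agent.M2.FinalArith
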