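/-
M2 / Part VI: final assembly for S20 (helper10).

`genusFormula N ≤ dim S₂(Γ₀(N))` from:
* the Dedekind–Weber lower bound (`DWLower.lower_bound`) for `K = WHField (Gamma0 N)`,
* (A) `[K : ℂ(j)] = ψ(N)`,
* (B) upper bounds for the number of primes in the fibres over `1728`, `0`,
* (C) upper bound for the number of primes at infinity,
* (E) `holoSpace ⊆ range toK`.
-/
import Fermat.Agent.M2.DWLower
import Fermat.Agent.M2.DictFinite
import Fermat.Agent.M2.DiffIso2
import Fermat.Agent.M2.FibreOrbits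
import Fermat.Agent.M2.FinalArith
import Fermat.Agent.M2.ES.S21Cond

set_option autoImplicit false

open CongruenceSubgroup Polynomial UpperHalfPlane Module

namespace Fermat.Agent.M2.Assembly

open Fermat.Agent.M2 Fermat.Agent.M2.DW IsDedekindDomain ModularCurve

variable (N : ℕ) [NeZero N]

/-- The function field of `X₀(N)`. -/
local notation "KN" => WHField (Gamma0 N)

instance instIsScalarTowerOinfK : IsScalarTower ℂ (DW.Oinf ℂ) (WHField (Gamma0 N)) :=
  DW.isScalarTower_Oinf

/-- Inequality form of the final arithmetic. -/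
theorem genusFormula_le_of_counts' (hs n rS rST rT : ℕ)
    (hn : n = dedekindPsi N)
    (h : 2 + (n - rS) + (n - rST) + (n - rT) ≤ 2 * hs + 2 * n)
    (hS : rS ≤ P1.orbitCount N ModularGroup.S)
    (hST : rST ≤ P1.orbitCount N (ModularGroup.S * ModularGroup.T))
    (hT : rT ≤ P1.orbitCount N ModularGroup.T) :
    genusFormula N ≤ (hs : ℚ) := by
  rw [P1.genusFormula_eq_orbits, ← hn]
  have key : ∀ r o : ℕ, r ≤ o → ((n - r : ℕ) : ℚ) ≥ (n : ℚ) - o := by
    intro r o hro
    have : ((n - r : ℕ) : ℚ) ≥ (n : ℚ) - r := by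
      rw [ge_iff_le, sub_le_iff_le_add]
      exact_mod_cast (by omega : n ≤ n - r + r)
    have h' : (r : ℚ) ≤ o := by exact_mod_cast hro
    linarith
  have h1 := key rS _ hS
  have h2 := key rST _ hST
  have h3 := key rT _ hT
  have hq : (2 : ℚ) + ((n - rS : ℕ) : ℚ) + ((n - rST : ℕ) : ℚ) + ((n - rT : ℕ) : ℚ)
      ≤ 2 * hs + 2 * n := by
    exact_mod_cast h
  linarith

/-- The comparison of dimensions: `holoSpace ⊆ range toK` (as sets) gives
`dim holoSpace ≤ dim S₂`. -/
theorem finrank_holoSpace_le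
    (hE : ∀ h : WHField (Gamma0 N),
      h ∈ holoSpace ℂ (WHField (Gamma0 N)) (integralClosure ℂ[X] (WHField (Gamma0 N)))
        (integralClosure (DW.Oinf ℂ) (WHField (Gamma0 N))) →
      (show FractionRing (WH (Gamma0 N)) from h) ∈ LinearMap.range (DiffIso.toK (N := N))) :
    finrank ℂ (holoSpace ℂ (WHField (Gamma0 N)) (integralClosure ℂ[X] (WHField (Gamma0 N)))
        (integralClosure (DW.Oinf ℂ) (WHField (Gamma0 N)))) ≤
      finrank ℂ (CuspForm (Gamma0 N) 2) := by
  have hfin : Module.Finite ℂ (CuspForm (Gamma0 N) 2) := ES.S21Cond.finite_cuspForm_two N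
  rw [← DiffIso.finrank_range_toK]
  let φ : ↥(holoSpace ℂ (WHField (Gamma0 N)) (integralClosure ℂ[X] (WHField (Gamma0 N)))
        (integralClosure (DW.Oinf ℂ) (WHField (Gamma0 N)))) →ₗ[ℂ]
      ↥(LinearMap.range (DiffIso.toK (N := N))) :=
    { toFun := fun h => ⟨h.1, hE h.1 h.2⟩
      map_add' := fun a b => rfl
      map_smul' := fun c a => by
        apply Subtype.ext
        show (c • a.1 : WHField (Gamma0 N)) = c • (show FractionRing (WH (Gamma0 N)) from a.1)
        rw [Algebra.smul_def, Algebra.smul_def]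
        rfl }
  have hφ : Function.Injective φ := by
    intro a b hab
    apply Subtype.ext
    exact congrArg (fun x : ↥(LinearMap.range (DiffIso.toK (N := N))) => x.1) hab
  exact LinearMap.finrank_le_finrank_of_injective hφ

/-- **S20, lower bound**, from the remaining inputs (A), (B), (C), (E). -/
theorem genusFormula_le
    (hA : finrank (RatFunc ℂ) (WHField (Gamma0 N)) = dedekindPsi N)
    (hB : ∀ z : ℍ, ((FibreCount.pt (jInv z)).primesOver
      (integralClosure ℂ[X] (WHField (Gamma0 N)))).ncard ≤ FibreOrbits.fibreCount N z)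
    (hC : ((IsLocalRing.maximalIdeal (DW.Oinf ℂ)).primesOver
      (integralClosure (DW.Oinf ℂ) (WHField (Gamma0 N)))).ncard ≤ P1.orbitCount N ModularGroup.T)
    (hE : ∀ h : WHField (Gamma0 N),
      h ∈ holoSpace ℂ (WHField (Gamma0 N)) (integralClosure ℂ[X] (WHField (Gamma0 N)))
        (integralClosure (DW.Oinf ℂ) (WHField (Gamma0 N))) →
      (show FractionRing (WH (Gamma0 N)) from h) ∈ LinearMap.range (DiffIso.toK (N := N))) :
    genusFormula N ≤ (finrank ℂ (CuspForm (Gamma0 N) 2) : ℚ) := by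
  have hlb := DWLower.lower_bound (k := ℂ) (K := WHField (Gamma0 N))
    (B := integralClosure ℂ[X] (WHField (Gamma0 N)))
    (Binf := integralClosure (DW.Oinf ℂ) (WHField (Gamma0 N))) ({1728, 0} : Finset ℂ)
  rw [Finset.sum_pair (by norm_num : (1728 : ℂ) ≠ 0)] at hlb
  have hle := finrank_holoSpace_le N hE
  have hB1 : ((FibreCount.pt (1728 : ℂ)).primesOver
      (integralClosure ℂ[X] (WHField (Gamma0 N)))).ncard ≤ P1.orbitCount N ModularGroup.S := by
    have h := hB UpperHalfPlane.I
    rwa [FibreOrbits.jInv_I, FibreOrbits.fibreCount_I] at h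
  have hB0 : ((FibreCount.pt (0 : ℂ)).primesOver
      (integralClosure ℂ[X] (WHField (Gamma0 N)))).ncard ≤
        P1.orbitCount N (ModularGroup.S * ModularGroup.T) := by
    have h := hB UpperHalfPlane.ρ
    rwa [FibreOrbits.jInv_rho, FibreOrbits.fibreCount_rho] at h
  have hfin : genusFormula N ≤
      ((finrank ℂ (holoSpace ℂ (WHField (Gamma0 N)) (integralClosure ℂ[X] (WHField (Gamma0 N)))
        (integralClosure (DW.Oinf ℂ) (WHField (Gamma0 N)))) : ℕ) : ℚ) := by
    refine genusFormula_le_of_counts' N _ (finrank (RatFunc ℂ) (WHField (Gamma0 N))) _ _ _ hA ?_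
      hB1 hB0 hC
    have hlb' : 2 + ((finrank (RatFunc ℂ) (WHField (Gamma0 N)) -
        ((FibreCount.pt (1728 : ℂ)).primesOver
          (integralClosure ℂ[X] (WHField (Gamma0 N)))).ncard) +
        (finrank (RatFunc ℂ) (WHField (Gamma0 N)) -
          ((FibreCount.pt (0 : ℂ)).primesOver
            (integralClosure ℂ[X] (WHField (Gamma0 N)))).ncard)) +
        (finrank (RatFunc ℂ) (WHField (Gamma0 N)) -
          ((IsLocalRing.maximalIdeal (DW.Oinf ℂ)).primesOver
            (integralClosure (DW.Oinf ℂ) (WHField (Gamma0 N)))).ncard) ≤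
      2 * finrank ℂ (holoSpace ℂ (WHField (Gamma0 N))
        (integralClosure ℂ[X] (WHField (Gamma0 N)))
        (integralClosure (DW.Oinf ℂ) (WHField (Gamma0 N)))) +
        2 * finrank (RatFunc ℂ) (WHField (Gamma0 N)) := by
      exact_mod_cast hlb
    omega
  refine hfin.trans ?_
  exact_mod_cast hle

end Fermat.Agent.M2.Assembly
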