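import Mathlib
import Fermat.Prelude.Def_ModularCurve_GenusNumerics
import Fermat.Agent.M2.CombFix

/-!
# M2 / Part II: counting the orbits of an element of prime period

If `g ^ p` acts trivially on a finite set `X` (`p` prime), then the cyclic group generated by `g`
has orbits of size `1` or `p` and `p * #orbits = |X| + (p - 1) * #fixed points`.
-/

namespace Fermat.Agent.M2.Comb

open MulAction Subgroup

section Orbit

variable {X G : Type*} [Group G] [MulAction G X]

theorem orbit_zpowers_eq_singleton {g : G} {x : X} (hx : g • x = x) :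
    orbit (zpowers g) x = {x} := by
  ext y
  simp only [Set.mem_singleton_iff]
  constructor
  · rintro ⟨⟨h, hh⟩, rfl⟩
    obtain ⟨n, rfl⟩ := Subgroup.mem_zpowers_iff.1 hh
    exact mem_fixedBy_zpow (show x ∈ fixedBy X g from hx) n
  · rintro rfl
    exact mem_orbit_self _

theorem not_fixed_of_mem_orbit_zpowers {g : G} {x y : X} (hx : g • x ≠ x)
    (hy : y ∈ orbit (zpowers g) x) : g • y ≠ y := by
  obtain ⟨⟨h, hh⟩, rfl⟩ := hy
  obtain ⟨n, rfl⟩ := Subgroup.mem_zpowers_iff.1 hh
  intro h
  apply hx
  have h2 : g • (g ^ n • x) = g ^ n • x := h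
  rw [← mul_smul, ← zpow_one_add, add_comm, zpow_add_one, mul_smul] at h2
  exact smul_left_cancel _ h2

theorem card_orbit_zpowers_of_prime {g : G} {p : ℕ} (hp : p.Prime) (hg : ∀ x : X, g ^ p • x = x)
    {x : X} (hx : g • x ≠ x) : Nat.card (orbit (zpowers g) x) = p := by
  rw [Nat.card_congr (orbitZPowersEquiv g x), Nat.card_zmod]
  have hper : Function.IsPeriodicPt (g • · : X → X) p x := by
    unfold Function.IsPeriodicPt Function.IsFixedPt
    rw [smul_iterate]
    exact hg x
  rcases (Nat.dvd_prime hp).1 hper.minimalPeriod_dvd with h | h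
  · exact absurd (Function.minimalPeriod_eq_one_iff_isFixedPt.1 h) hx
  · exact h

/-- **Orbit count for an element of prime period.** -/
theorem card_orbits_prime_period [Finite X] (g : G) {p : ℕ} (hp : p.Prime)
    (hg : ∀ x : X, g ^ p • x = x) :
    p * Nat.card (orbitRel.Quotient (zpowers g) X) =
      Nat.card X + (p - 1) * Nat.card (fixedBy X g) := by
  classical
  have := Fintype.ofFinite X
  have := Fintype.ofFinite (orbitRel.Quotient (zpowers g) X)
  set w : X → ℕ := fun x => if g • x = x then p else 1 with hw
  -- Step A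
  have hA : ∑ x : X, w x = Nat.card X + (p - 1) * Nat.card (fixedBy X g) := by
    have h1 : ∀ x : X, w x = 1 + if g • x = x then (p - 1) else 0 := by
      intro x
      simp only [hw]
      split_ifs
      · have := hp.one_lt; omega
      · rfl
    rw [Finset.sum_congr rfl (fun x _ => h1 x), Finset.sum_add_distrib, Finset.sum_const,
      Finset.card_univ, smul_eq_mul, mul_one, ← Finset.sum_filter, Finset.sum_const, smul_eq_mul,
      Nat.card_eq_fintype_card, Nat.card_eq_fintype_card, mul_comm (p - 1)]
    congr 2
    rw [Fintype.card_subtype]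
    rfl
  -- Step B
  have hB : ∀ ω : orbitRel.Quotient (zpowers g) X,
      ∑ x ∈ Finset.univ.filter (fun x : X => (Quotient.mk'' x : orbitRel.Quotient _ X) = ω), w x
        = p := by
    intro ω
    induction ω using Quotient.inductionOn' with
    | h x₀ =>
      have hfib : ∀ x : X, (Quotient.mk'' x : orbitRel.Quotient (zpowers g) X) = Quotient.mk'' x₀ ↔
          x ∈ orbit (zpowers g) x₀ := by
        intro x
        rw [Quotient.eq'']
        exact orbitRel_apply
      simp only [hfib]
      by_cases hx : g • x₀ = x₀
      · rw [orbit_zpowers_eq_singleton hx]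
        simp only [Set.mem_singleton_iff]
        rw [Finset.filter_eq' Finset.univ x₀]
        simp [hw, hx]
      · have h1 : ∀ x ∈ Finset.univ.filter (fun x : X => x ∈ orbit (zpowers g) x₀), w x = 1 := by
          intro x hxm
          rw [Finset.mem_filter] at hxm
          simp only [hw]
          rw [if_neg (not_fixed_of_mem_orbit_zpowers hx hxm.2)]
        rw [Finset.sum_congr rfl h1, Finset.sum_const, smul_eq_mul, mul_one,
          ← card_orbit_zpowers_of_prime hp hg hx, Nat.card_eq_fintype_card, Fintype.card_subtype]
  -- Step C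
  rw [← hA, ← Finset.sum_fiberwise Finset.univ
    (fun x : X => (Quotient.mk'' x : orbitRel.Quotient (zpowers g) X)) w,
    Finset.sum_congr rfl (fun ω _ => hB ω), Finset.sum_const, Finset.card_univ, smul_eq_mul,
    Nat.card_eq_fintype_card, mul_comm]

end Orbit

section Elliptic

variable {N : ℕ} [NeZero N] {X G : Type*} [Group G] [MulAction G X] (pr : Prim N → X)

/-- Orbits of an element acting like `S` on `P¹(ℤ/N)`: `2 * #orbits = |X| + ν₂`. -/
theorem two_mul_card_orbits_s (hsurj : Function.Surjective pr) (hpr : IsProj pr) (g : G)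
    (hg : ∀ v : Prim N, g • pr v = pr (sVec N v)) :
    2 * Nat.card (orbitRel.Quotient (zpowers g) X) = Nat.card X + ModularCurve.nuTwo N := by
  have : Finite X := Finite.of_surjective pr hsurj
  have h := card_orbits_prime_period (X := X) g Nat.prime_two (fun x => by
    rw [sq, mul_smul]
    exact s_involutive pr hsurj hpr (fun x => g • x) hg x)
  rw [h, card_fixedBy_s pr hsurj hpr g hg]
  norm_num

/-- Orbits of an element acting like `S ∘ T` on `P¹(ℤ/N)`: `3 * #orbits = |X| + 2 ν₃`. -/
theorem three_mul_card_orbits_st (hsurj : Function.Surjective pr) (hpr : IsProj pr) (g : G)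
    (hg : ∀ v : Prim N, g • pr v = pr (sVec N (tVec N v))) :
    3 * Nat.card (orbitRel.Quotient (zpowers g) X) =
      Nat.card X + 2 * ModularCurve.nuThree N := by
  have : Finite X := Finite.of_surjective pr hsurj
  have h := card_orbits_prime_period (X := X) g Nat.prime_three (fun x => by
    rw [pow_succ, pow_succ, pow_one, mul_smul, mul_smul]
    exact st_cube pr hsurj hpr (fun x => g • x) hg x)
  rw [h, card_fixedBy_st pr hsurj hpr g hg]

/-- Orbits of an element acting like `T ∘ S` on `P¹(ℤ/N)`: `3 * #orbits = |X| + 2 ν₃`. -/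
theorem three_mul_card_orbits_ts (hsurj : Function.Surjective pr) (hpr : IsProj pr) (g : G)
    (hg : ∀ v : Prim N, g • pr v = pr (tVec N (sVec N v))) :
    3 * Nat.card (orbitRel.Quotient (zpowers g) X) =
      Nat.card X + 2 * ModularCurve.nuThree N := by
  have : Finite X := Finite.of_surjective pr hsurj
  have h := card_orbits_prime_period (X := X) g Nat.prime_three (fun x => by
    rw [pow_succ, pow_succ, pow_one, mul_smul, mul_smul]
    exact ts_cube pr hsurj hpr (fun x => g • x) hg x)
  rw [h, card_fixedBy_ts pr hsurj hpr g hg]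

end Elliptic

end Fermat.Agent.M2.Comb
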