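import Mathlib

/-!
# Orders in the `q`-parameter: division lemma (M2, used by V.3)

For `h`-periodic holomorphic functions on the upper half plane we study the meromorphic order at
`0` of `UpperHalfPlane.cuspFunction h f` (the order of `f` in `q_h = exp (2πi z / h)`).

* `cuspFunction_mul_eq` : `u · g = f` pointwise gives the same identity for cusp functions on the
  punctured unit disc;
* `meromorphicOrderAt_cuspFunction_ne_top` : the order of a nonzero `g` is finite;
* `meromorphicAt_cuspFunction_of_mul_eq`, `meromorphicOrderAt_cuspFunction_add` : **division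
  lemma** : if `u · g = f`, `g ≠ 0` and the cusp functions of `f`, `g` are meromorphic at `0`, then
  so is the one of `u`, and `ord u + ord g = ord f`;
* `isZeroAtImInfty_iff_order_pos`, `isBoundedAtImInfty_iff_order_nonneg`;
* `meromorphicAt_cuspFunction_of_bounded_mul` : if `f · g` and `g ≠ 0` are bounded at `i∞` then
  the cusp function of `f` is meromorphic at `0`.
-/

set_option autoImplicit false

namespace Fermat.Agent.M2.CuspQuot

open UpperHalfPlane Filter Topology Function
open scoped Manifold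

variable {h : ℝ}

/-- Every `q` in the punctured unit disc is `q_h(τ)` for some `τ : ℍ`. -/
lemma exists_qParam_eq (hh : 0 < h) {q : ℂ} (hq0 : q ≠ 0) (hq1 : ‖q‖ < 1) :
    ∃ τ : ℍ, Periodic.qParam h (τ : ℂ) = q :=
  ⟨⟨Periodic.invQParam h q, Periodic.im_invQParam_pos_of_norm_lt_one hh hq1 hq0⟩,
    Periodic.qParam_right_inv hh.ne' hq0⟩

/-- The punctured unit disc is a punctured neighbourhood of `0`. -/
lemma eventually_punctured_disc : ∀ᶠ q : ℂ in 𝓝[≠] 0, q ≠ 0 ∧ ‖q‖ < 1 := by
  filter_upwards [self_mem_nhdsWithin, nhdsWithin_le_nhds (Metric.ball_mem_nhds (0 : ℂ) one_pos)]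
    with q hq0 hq1
  exact ⟨hq0, by simpa using hq1⟩

lemma tendsto_qParam_atImInfty (hh : 0 < h) :
    Tendsto (fun τ : ℍ => Periodic.qParam h (τ : ℂ)) atImInfty (𝓝[≠] 0) :=
  (Periodic.qParam_tendsto hh).comp tendsto_coe_atImInfty

lemma cuspFunction_mul_eq (hh : 0 < h) {f g u : ℍ → ℂ} (hf : Periodic (f ∘ ofComplex) h)
    (hg : Periodic (g ∘ ofComplex) h) (hu : Periodic (u ∘ ofComplex) h)
    (heq : ∀ z, u z * g z = f z) {q : ℂ} (hq0 : q ≠ 0) (hq1 : ‖q‖ < 1) :
    cuspFunction h u q * cuspFunction h g q = cuspFunction h f q := by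
  obtain ⟨τ, rfl⟩ := exists_qParam_eq hh hq0 hq1
  rw [eq_cuspFunction τ hh.ne' hf, eq_cuspFunction τ hh.ne' hg, eq_cuspFunction τ hh.ne' hu, heq]

/-- A holomorphic function vanishing for large imaginary part vanishes identically. -/
lemma eq_zero_of_eventually_atImInfty {g : ℍ → ℂ} (hg : MDiff g)
    (h0 : ∀ᶠ τ in atImInfty, g τ = 0) : g = 0 := by
  obtain ⟨A, hA⟩ := (atImInfty_mem _).mp h0
  set τ₀ : ℍ := ⟨⟨0, max A 0 + 1⟩, by simp; positivity⟩ with hτ₀
  have him : A < τ₀.im := by
    have : τ₀.im = max A 0 + 1 := rfl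
    rw [this]
    have := le_max_left A 0
    linarith
  have hopen : IsOpen {z : ℍ | A < z.im} := isOpen_lt continuous_const UpperHalfPlane.continuous_im
  have hev : ∀ᶠ z in 𝓝 τ₀, g z = 0 := by
    filter_upwards [hopen.mem_nhds him] with z hz
    exact hA z (le_of_lt hz)
  have : (𝓝[≠] τ₀).NeBot := inferInstance
  exact UpperHalfPlane.eq_zero_of_frequently hg (τ := τ₀)
    (hev.filter_mono nhdsWithin_le_nhds).frequently

/-- The `q`-order of a nonzero periodic holomorphic function is finite. -/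
lemma meromorphicOrderAt_cuspFunction_ne_top (hh : 0 < h) {g : ℍ → ℂ} (hg : MDiff g)
    (hgper : Periodic (g ∘ ofComplex) h) (hg0 : g ≠ 0) :
    meromorphicOrderAt (cuspFunction h g) 0 ≠ ⊤ := by
  intro htop
  rw [meromorphicOrderAt_eq_top_iff] at htop
  apply hg0
  apply eq_zero_of_eventually_atImInfty hg
  filter_upwards [(tendsto_qParam_atImInfty hh).eventually htop] with τ hτ
  rwa [eq_cuspFunction τ hh.ne' hgper] at hτ

lemma eventually_cuspFunction_ne_zero (hh : 0 < h) {g : ℍ → ℂ} (hg : MDiff g)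
    (hgper : Periodic (g ∘ ofComplex) h) (hg0 : g ≠ 0)
    (hG : MeromorphicAt (cuspFunction h g) 0) : ∀ᶠ q in 𝓝[≠] 0, cuspFunction h g q ≠ 0 :=
  (meromorphicOrderAt_ne_top_iff_eventually_ne_zero hG).mp
    (meromorphicOrderAt_cuspFunction_ne_top hh hg hgper hg0)

/-- **Division lemma, part 1.** -/
theorem meromorphicAt_cuspFunction_of_mul_eq (hh : 0 < h) {f g u : ℍ → ℂ} (hg : MDiff g)
    (hg0 : g ≠ 0) (hfper : Periodic (f ∘ ofComplex) h) (hgper : Periodic (g ∘ ofComplex) h)
    (huper : Periodic (u ∘ ofComplex) h) (heq : ∀ z, u z * g z = f z)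
    (hF : MeromorphicAt (cuspFunction h f) 0) (hG : MeromorphicAt (cuspFunction h g) 0) :
    MeromorphicAt (cuspFunction h u) 0 := by
  have hne := eventually_cuspFunction_ne_zero hh hg hgper hg0 hG
  have hev : (cuspFunction h f / cuspFunction h g) =ᶠ[𝓝[≠] 0] cuspFunction h u := by
    filter_upwards [hne, eventually_punctured_disc] with q hq hq01
    rw [Pi.div_apply, ← cuspFunction_mul_eq hh hfper hgper huper heq hq01.1 hq01.2]
    field_simp
  exact (hF.div hG).congr hev

/-- **Division lemma, part 2.** `ord u + ord g = ord f`. -/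
theorem meromorphicOrderAt_cuspFunction_add (hh : 0 < h) {f g u : ℍ → ℂ} (hg : MDiff g)
    (hg0 : g ≠ 0) (hfper : Periodic (f ∘ ofComplex) h) (hgper : Periodic (g ∘ ofComplex) h)
    (huper : Periodic (u ∘ ofComplex) h) (heq : ∀ z, u z * g z = f z)
    (hF : MeromorphicAt (cuspFunction h f) 0) (hG : MeromorphicAt (cuspFunction h g) 0) :
    meromorphicOrderAt (cuspFunction h u) 0 + meromorphicOrderAt (cuspFunction h g) 0 =
      meromorphicOrderAt (cuspFunction h f) 0 := by
  have hU := meromorphicAt_cuspFunction_of_mul_eq hh hg hg0 hfper hgper huper heq hF hG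
  rw [← meromorphicOrderAt_mul hU hG]
  apply meromorphicOrderAt_congr
  filter_upwards [eventually_punctured_disc] with q hq01
  rw [Pi.mul_apply, cuspFunction_mul_eq hh hfper hgper huper heq hq01.1 hq01.2]

/-- Multiplicativity of the `q`-order (both factors meromorphic at the cusp). -/
theorem meromorphicOrderAt_cuspFunction_mul (hh : 0 < h) {f g : ℍ → ℂ}
    (hfper : Periodic (f ∘ ofComplex) h) (hgper : Periodic (g ∘ ofComplex) h)
    (hF : MeromorphicAt (cuspFunction h f) 0) (hG : MeromorphicAt (cuspFunction h g) 0) :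
    meromorphicOrderAt (cuspFunction h (f * g)) 0 =
      meromorphicOrderAt (cuspFunction h f) 0 + meromorphicOrderAt (cuspFunction h g) 0 := by
  have hfgper : Periodic ((f * g) ∘ ofComplex) h := by
    intro w
    have h1 := hfper w
    have h2 := hgper w
    simp only [comp_apply, Pi.mul_apply] at h1 h2 ⊢
    rw [h1, h2]
  rw [← meromorphicOrderAt_mul hF hG]
  apply meromorphicOrderAt_congr
  filter_upwards [eventually_punctured_disc] with q hq01
  rw [Pi.mul_apply, cuspFunction_mul_eq hh hfgper hgper hfper (fun z => rfl) hq01.1 hq01.2]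

lemma meromorphicAt_cuspFunction_mul (hh : 0 < h) {f g : ℍ → ℂ}
    (hfper : Periodic (f ∘ ofComplex) h) (hgper : Periodic (g ∘ ofComplex) h)
    (hF : MeromorphicAt (cuspFunction h f) 0) (hG : MeromorphicAt (cuspFunction h g) 0) :
    MeromorphicAt (cuspFunction h (f * g)) 0 := by
  have hfgper : Periodic ((f * g) ∘ ofComplex) h := by
    intro w
    have h1 := hfper w
    have h2 := hgper w
    simp only [comp_apply, Pi.mul_apply] at h1 h2 ⊢
    rw [h1, h2]
  refine (hF.mul hG).congr ?_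
  filter_upwards [eventually_punctured_disc] with q hq01
  rw [Pi.mul_apply, cuspFunction_mul_eq hh hfgper hgper hfper (fun z => rfl) hq01.1 hq01.2]

/-! ### Behaviour at `i∞` in terms of the order -/

lemma cuspFunction_eventuallyEq (u : ℍ → ℂ) :
    cuspFunction h u =ᶠ[𝓝[≠] 0] (u ∘ ofComplex) ∘ Periodic.invQParam h := by
  filter_upwards [self_mem_nhdsWithin] with q hq
  exact Periodic.cuspFunction_eq_of_nonzero h (u ∘ ofComplex) hq

/-- If `u → c` at `i∞` then its cusp function tends to `c` at `0`. -/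
lemma tendsto_cuspFunction_of_tendsto (hh : 0 < h) {u : ℍ → ℂ} {c : ℂ}
    (hu : Tendsto u atImInfty (𝓝 c)) : Tendsto (cuspFunction h u) (𝓝[≠] 0) (𝓝 c) := by
  have h1 : Tendsto ((u ∘ ofComplex) ∘ Periodic.invQParam h) (𝓝[≠] 0) (𝓝 c) :=
    (hu.comp tendsto_comap_im_ofComplex).comp (Periodic.invQParam_tendsto hh)
  exact h1.congr' (cuspFunction_eventuallyEq u).symm

/-- If the cusp function of a periodic `u` tends to `c` at `0` then `u → c` at `i∞`. -/
lemma tendsto_of_tendsto_cuspFunction (hh : 0 < h) {u : ℍ → ℂ}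
    (huper : Periodic (u ∘ ofComplex) h) {c : ℂ}
    (hU : Tendsto (cuspFunction h u) (𝓝[≠] 0) (𝓝 c)) : Tendsto u atImInfty (𝓝 c) := by
  have := hU.comp (tendsto_qParam_atImInfty hh)
  refine this.congr fun τ => ?_
  simp only [comp_apply]
  exact eq_cuspFunction τ hh.ne' huper

theorem isZeroAtImInfty_iff_tendsto (hh : 0 < h) {u : ℍ → ℂ}
    (huper : Periodic (u ∘ ofComplex) h) :
    IsZeroAtImInfty u ↔ Tendsto (cuspFunction h u) (𝓝[≠] 0) (𝓝 0) :=
  ⟨fun hu => tendsto_cuspFunction_of_tendsto hh hu,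
    fun hU => tendsto_of_tendsto_cuspFunction hh huper hU⟩

/-- `u` vanishes at `i∞` iff its `q`-order is positive. -/
theorem isZeroAtImInfty_iff_order_pos (hh : 0 < h) {u : ℍ → ℂ}
    (huper : Periodic (u ∘ ofComplex) h) (hU : MeromorphicAt (cuspFunction h u) 0) :
    IsZeroAtImInfty u ↔ 0 < meromorphicOrderAt (cuspFunction h u) 0 := by
  rw [isZeroAtImInfty_iff_tendsto hh huper, tendsto_zero_iff_meromorphicOrderAt_pos hU]

/-- `u` has a limit at `i∞` iff its `q`-order is nonnegative. -/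
theorem exists_tendsto_iff_order_nonneg (hh : 0 < h) {u : ℍ → ℂ}
    (huper : Periodic (u ∘ ofComplex) h) (hU : MeromorphicAt (cuspFunction h u) 0) :
    (∃ c, Tendsto u atImInfty (𝓝 c)) ↔ 0 ≤ meromorphicOrderAt (cuspFunction h u) 0 := by
  rw [← tendsto_nhds_iff_meromorphicOrderAt_nonneg hU]
  exact ⟨fun ⟨c, hc⟩ => ⟨c, tendsto_cuspFunction_of_tendsto hh hc⟩,
    fun ⟨c, hc⟩ => ⟨c, tendsto_of_tendsto_cuspFunction hh huper hc⟩⟩

/-- `u` tends to a nonzero limit at `i∞` iff its `q`-order is zero. -/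
theorem exists_tendsto_ne_zero_iff_order_eq_zero (hh : 0 < h) {u : ℍ → ℂ}
    (huper : Periodic (u ∘ ofComplex) h) (hU : MeromorphicAt (cuspFunction h u) 0) :
    (∃ c ≠ 0, Tendsto u atImInfty (𝓝 c)) ↔ meromorphicOrderAt (cuspFunction h u) 0 = 0 := by
  rw [← tendsto_ne_zero_iff_meromorphicOrderAt_eq_zero hU]
  exact ⟨fun ⟨c, hc0, hc⟩ => ⟨c, hc0, tendsto_cuspFunction_of_tendsto hh hc⟩,
    fun ⟨c, hc0, hc⟩ => ⟨c, hc0, tendsto_of_tendsto_cuspFunction hh huper hc⟩⟩

/-- `u` is bounded at `i∞` iff its `q`-order is nonnegative. -/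
theorem isBoundedAtImInfty_iff_order_nonneg (hh : 0 < h) {u : ℍ → ℂ}
    (huper : Periodic (u ∘ ofComplex) h) (hU : MeromorphicAt (cuspFunction h u) 0) :
    IsBoundedAtImInfty u ↔ 0 ≤ meromorphicOrderAt (cuspFunction h u) 0 := by
  constructor
  · intro hbd
    by_contra hneg
    rw [not_le] at hneg
    have hcob := tendsto_cobounded_of_meromorphicOrderAt_neg hneg
    rw [← tendsto_norm_atTop_iff_cobounded] at hcob
    have h2 : Tendsto (fun τ : ℍ => ‖u τ‖) atImInfty atTop := by
      have := hcob.comp (tendsto_qParam_atImInfty hh)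
      refine this.congr fun τ => ?_
      simp only [comp_apply]
      rw [eq_cuspFunction τ hh.ne' huper]
    obtain ⟨C, hC⟩ := (Asymptotics.isBigO_iff.mp hbd)
    have h3 : ∀ᶠ τ in atImInfty, ‖u τ‖ ≤ C := by
      filter_upwards [hC] with τ hτ
      simpa using hτ
    have h4 : ∀ᶠ τ in atImInfty, C + 1 ≤ ‖u τ‖ := h2.eventually_ge_atTop (C + 1)
    obtain ⟨τ, h5, h6⟩ := (h3.and h4).exists
    linarith
  · intro hnn
    obtain ⟨c, hc⟩ := (exists_tendsto_iff_order_nonneg hh huper hU).mpr hnn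
    exact hc.isBigO_one ℝ

/-! ### Meromorphy at the cusp from boundedness after multiplication -/

/-- If `g ≠ 0` and `f · g` are bounded at `i∞` (all holomorphic and `h`-periodic), then the cusp
function of `f` is meromorphic at `0`. -/
theorem meromorphicAt_cuspFunction_of_bounded_mul (hh : 0 < h) {f g : ℍ → ℂ} (hf : MDiff f)
    (hfper : Periodic (f ∘ ofComplex) h) (hg : MDiff g) (hgper : Periodic (g ∘ ofComplex) h)
    (hg0 : g ≠ 0) (hgbd : IsBoundedAtImInfty g) (hfg : IsBoundedAtImInfty (f * g)) :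
    MeromorphicAt (cuspFunction h f) 0 := by
  have hfgper : Periodic ((f * g) ∘ ofComplex) h := by
    intro w
    have h1 := hfper w
    have h2 := hgper w
    simp only [comp_apply, Pi.mul_apply] at h1 h2 ⊢
    rw [h1, h2]
  have hFG : AnalyticAt ℂ (cuspFunction h (f * g)) 0 :=
    analyticAt_cuspFunction_zero hh hfgper (hf.mul hg) hfg
  have hG : AnalyticAt ℂ (cuspFunction h g) 0 := analyticAt_cuspFunction_zero hh hgper hg hgbd
  exact meromorphicAt_cuspFunction_of_mul_eq hh hg hg0 hfgper hgper hfper (fun z => rfl)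
    hFG.meromorphicAt hG.meromorphicAt

/-- A bounded periodic holomorphic function has a cusp function meromorphic (even analytic) at `0`. -/
lemma meromorphicAt_cuspFunction_of_bounded (hh : 0 < h) {f : ℍ → ℂ} (hf : MDiff f)
    (hfper : Periodic (f ∘ ofComplex) h) (hbd : IsBoundedAtImInfty f) :
    MeromorphicAt (cuspFunction h f) 0 :=
  (analyticAt_cuspFunction_zero hh hfper hf hbd).meromorphicAt

end Fermat.Agent.M2.CuspQuot
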