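import Fermat.Agent.M2.DiffIso2
import Fermat.Agent.M2.CuspVal
import Fermat.Agent.M2.CuspQuot

/-!
# M2 / V.3 (part 3) : the cusp conditions, and the final characterisation of `range toK`

`mem_range_toK_iff` : for `a b : WH Γ₀(N)`, `b ≠ 0`,
`a / b ∈ range toK ↔ (∀ z, ord_z b ≤ ord_z a + ord_z Dj) ∧
  (∀ δ, cuspOrd N (b ∘ δ) + (N + 1) ≤ cuspOrd N (a ∘ δ))`.
-/

set_option autoImplicit false

namespace Fermat.Agent.M2.DiffIso

open UpperHalfPlane ModularForm MatrixGroups CongruenceSubgroup Derivative Filter Function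
open scoped Manifold Topology

local notation "Δ" => ModularForm.discriminant

open CuspVal OrdVal

/-! ### `Dj` at the cusp -/

lemma Gamma_le_Gamma0' (N : ℕ) : Gamma N ≤ Gamma0 N := by
  intro γ hγ
  rw [Gamma_mem] at hγ
  rw [Gamma0_mem]
  exact hγ.2.2.1

lemma T_pow_mem_Gamma' (N : ℕ) : ModularGroup.T ^ N ∈ Gamma N := by
  have := ModularGroup_T_pow_mem_Gamma (N : ℤ) (N : ℤ) dvd_rfl
  simpa using this

/-- `Dj · Δ = -E₄² E₆`, as a product of functions. -/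
lemma Dj_mul_discriminant :
    Dj * (Δ : ℍ → ℂ) = fun z => -(E₄ z ^ 2 * E₆ z) := by
  ext z
  rw [Pi.mul_apply, mul_comm, discriminant_mul_Dj]

lemma tendsto_Dj_mul_discriminant :
    Tendsto (Dj * (Δ : ℍ → ℂ)) atImInfty (𝓝 (-1)) := by
  refine JDeriv.tendsto_discriminant_mul_D_jF.congr fun z => ?_
  rw [Pi.mul_apply, mul_comm]
  rfl

lemma isPerMero_discriminant (N : ℕ) : IsPerMero N (Δ : ℍ → ℂ) := by
  have := IsPerMero.discriminant_pow N 1
  simpa using this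

lemma Dj_vadd (N : ℕ) (z : ℍ) : Dj (((N : ℝ)) +ᵥ z) = Dj z := by
  have h4 := vadd_of_periodic (isPerMero_of_modularForm N E₄).periodic z
  have h6 := vadd_of_periodic (isPerMero_of_modularForm N E₆).periodic z
  have hΔ := vadd_of_periodic (isPerMero_discriminant N).periodic z
  rw [Dj_eq, Dj_eq, h4, h6, hΔ]

lemma isPerMero_Dj (N : ℕ) : IsPerMero N Dj := by
  refine ⟨mdiff_Dj, periodic_of_vadd (Dj_vadd N), ⟨1, ?_⟩⟩
  have h : (fun z : ℍ => Dj z * Δ z ^ 1) = Dj * (Δ : ℍ → ℂ) := by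
    ext z; simp
  rw [h]
  exact tendsto_Dj_mul_discriminant.isBigO_one ℝ

/-- `Dj` has a pole of order `N` in the parameter `q_N`. -/
theorem cuspOrd_Dj {N : ℕ} (hN : 0 < N) : cuspOrd N Dj = ((-(N : ℤ) : ℤ) : WithTop ℤ) := by
  have h0 : cuspOrd N (Dj * (Δ : ℍ → ℂ)) = 0 :=
    (cuspOrd_eq_zero_iff hN ((isPerMero_Dj N).mul (isPerMero_discriminant N))).mpr
      ⟨-1, by norm_num, tendsto_Dj_mul_discriminant⟩
  rw [cuspOrd_mul hN (isPerMero_Dj N) (isPerMero_discriminant N), cuspOrd_discriminant hN] at h0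
  cases hj : cuspOrd N Dj with
  | top => rw [hj] at h0; simp at h0
  | coe a =>
    rw [hj] at h0
    have h3 : ((a + (N : ℤ) : ℤ) : WithTop ℤ) = ((0 : ℤ) : WithTop ℤ) := by
      rw [WithTop.coe_add]; simpa using h0
    have h4 : a + (N : ℤ) = 0 := by exact_mod_cast h3
    have : a = -(N : ℤ) := by omega
    rw [this]

/-! ### Translates of elements of `WH Γ₀(N)` -/

section Cusp

variable {N : ℕ}

lemma isPerMero_comp_smul (a : WH (Gamma0 N)) (δ : SL(2, ℤ)) :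
    IsPerMero N (fun z => (a : ℍ → ℂ) (δ • z)) := by
  have : (Gamma N).Normal := Gamma_normal N
  exact IsPerMero.of_isWH_smul (Γ := Gamma N) (T_pow_mem_Gamma' N)
    (WH_le (Gamma_le_Gamma0' N) a.2) δ

lemma comp_smul_ne_zero {b : ℍ → ℂ} (hb : b ≠ 0) (δ : SL(2, ℤ)) :
    (fun z => b (δ • z)) ≠ 0 := by
  intro h
  apply hb
  ext z
  have := congrFun h (δ⁻¹ • z)
  simpa using this

/-- The equation satisfied by the weight-two slash of a solution. -/
lemma slash_mul_eq {a b u : ℍ → ℂ} (heq : ∀ z, u z * b z = a z * Dj z) (δ : SL(2, ℤ)) (z : ℍ) :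
    (u ∣[(2 : ℤ)] δ) z * b (δ • z) = a (δ • z) * Dj z := by
  have hd : denom δ z ≠ 0 := denom_ne_zero δ z
  rw [SL_slash_apply]
  have h1 := heq (δ • z)
  rw [Dj_smul] at h1
  have e2 : denom δ z ^ (2 : ℤ) = denom δ z ^ 2 := zpow_ofNat _ 2
  have em2 : denom δ z ^ (-(2 : ℤ)) = (denom δ z ^ 2)⁻¹ := by rw [zpow_neg, e2]
  rw [e2] at h1
  rw [em2]
  calc u (δ • z) * (denom δ z ^ 2)⁻¹ * b (δ • z)
      = (u (δ • z) * b (δ • z)) * (denom δ z ^ 2)⁻¹ := by ring
    _ = a (δ • z) * (denom δ z ^ 2 * Dj z) * (denom δ z ^ 2)⁻¹ := by rw [h1]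
    _ = a (δ • z) * Dj z := by field_simp

lemma continuous_vadd_real (t : ℝ) : Continuous fun z : ℍ => t +ᵥ z := by
  refine UpperHalfPlane.isEmbedding_coe.continuous_iff.mpr ?_
  have : (fun z : ℍ => ((t +ᵥ z : ℍ) : ℂ)) = fun z : ℍ => (t : ℂ) + (z : ℂ) := by
    ext z; simp
  show Continuous fun z : ℍ => ((t +ᵥ z : ℍ) : ℂ)
  rw [this]
  exact continuous_const.add UpperHalfPlane.continuous_coe

/-- A continuous solution `v` of `v · B = A · Dj` with `A`, `B ≠ 0` holomorphic and `N`-periodic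
is `N`-periodic. -/
lemma periodic_of_eqn {A B v : ℍ → ℂ} (hA : IsPerMero N A) (hB : IsPerMero N B) (hB0 : B ≠ 0)
    (hv : Continuous v) (heq : ∀ z, v z * B z = A z * Dj z) :
    Periodic (v ∘ ofComplex) (N : ℝ) := by
  apply periodic_of_vadd
  have key := Removable.eq_of_mul_eq_uhp (g := B) (h₁ := fun z => v (((N : ℝ)) +ᵥ z)) (h₂ := v)
    hB.mdiff hB0 (hv.comp (continuous_vadd_real _)) hv (fun z => by
      show v (((N : ℝ)) +ᵥ z) * B z = v z * B z
      rw [heq z, ← vadd_of_periodic hB.periodic z, heq, vadd_of_periodic hA.periodic z, Dj_vadd])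
  exact fun z => congrFun key z

/-- **Cusp part of V.3.** Let `u` be holomorphic with `u · b = a · Dj`. Then `u ∣[2] δ` vanishes
at `i∞` iff `cuspOrd N (b ∘ δ) + (N + 1) ≤ cuspOrd N (a ∘ δ)`. -/
theorem isZeroAtImInfty_slash_iff (hN : 0 < N) (a b : WH (Gamma0 N)) (hb : b ≠ 0) {u : ℍ → ℂ}
    (hu : MDiff u) (heq : ∀ z, u z * (b : ℍ → ℂ) z = (a : ℍ → ℂ) z * Dj z) (δ : SL(2, ℤ)) :
    IsZeroAtImInfty (u ∣[(2 : ℤ)] δ) ↔
      cuspOrd N (fun z => (b : ℍ → ℂ) (δ • z)) + (((N : ℤ) + 1 : ℤ) : WithTop ℤ) ≤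
        cuspOrd N (fun z => (a : ℍ → ℂ) (δ • z)) := by
  have hNr : (0 : ℝ) < (N : ℝ) := by exact_mod_cast hN
  set A : ℍ → ℂ := fun z => (a : ℍ → ℂ) (δ • z) with hAdef
  set B : ℍ → ℂ := fun z => (b : ℍ → ℂ) (δ • z) with hBdef
  set v : ℍ → ℂ := u ∣[(2 : ℤ)] δ with hvdef
  have hA : IsPerMero N A := isPerMero_comp_smul a δ
  have hB : IsPerMero N B := isPerMero_comp_smul b δ
  have hB0 : B ≠ 0 := comp_smul_ne_zero (WH.coe_ne_zero hb) δ
  have hv : MDiff v := hu.slash 2 _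
  have hveq : ∀ z, v z * B z = (A * Dj) z := fun z => slash_mul_eq heq δ z
  have hvper : Periodic (v ∘ ofComplex) (N : ℝ) :=
    periodic_of_eqn hA hB hB0 hv.continuous hveq
  have hADj : IsPerMero N (A * Dj) := hA.mul (isPerMero_Dj N)
  have hF := meromorphicAt_cuspFunction hN hADj
  have hG := meromorphicAt_cuspFunction hN hB
  have hV : MeromorphicAt (cuspFunction (N : ℝ) v) 0 :=
    CuspQuot.meromorphicAt_cuspFunction_of_mul_eq hNr hB.mdiff hB0 hADj.periodic hB.periodic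
      hvper hveq hF hG
  have hadd : cuspOrd N v + cuspOrd N B = cuspOrd N A + ((-(N : ℤ) : ℤ) : WithTop ℤ) := by
    have := CuspQuot.meromorphicOrderAt_cuspFunction_add hNr hB.mdiff hB0 hADj.periodic
      hB.periodic hvper hveq hF hG
    rw [← cuspOrd_Dj hN, ← cuspOrd_mul hN hA (isPerMero_Dj N)]
    exact this
  have hBtop : cuspOrd N B ≠ ⊤ := fun h => hB0 ((cuspOrd_eq_top_iff hN hB).mp h)
  rw [CuspQuot.isZeroAtImInfty_iff_order_pos hNr hvper hV]
  change 0 < cuspOrd N v ↔ _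
  -- integer arithmetic in `WithTop ℤ`
  obtain ⟨β, hβ⟩ := WithTop.ne_top_iff_exists.mp hBtop
  rw [← hβ] at hadd ⊢
  cases hα : cuspOrd N A with
  | top =>
    rw [hα] at hadd
    have hvtop : cuspOrd N v = ⊤ := by
      cases hν : cuspOrd N v with
      | top => rfl
      | coe ν =>
        rw [hν] at hadd
        simp only [WithTop.top_add] at hadd
        exact absurd hadd (by rw [← WithTop.coe_add]; exact WithTop.coe_ne_top)
    rw [hvtop]
    simp
  | coe α =>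
    rw [hα] at hadd
    cases hν : cuspOrd N v with
    | top =>
      rw [hν] at hadd
      simp only [WithTop.top_add] at hadd
      exact absurd hadd.symm (by rw [← WithTop.coe_add]; exact WithTop.coe_ne_top)
    | coe ν =>
      rw [hν] at hadd
      have h1 : ν + β = α + -(N : ℤ) := by
        have : ((ν + β : ℤ) : WithTop ℤ) = ((α + -(N : ℤ) : ℤ) : WithTop ℤ) := by
          rw [WithTop.coe_add, WithTop.coe_add]; exact hadd
        exact_mod_cast this
      have e0 : (0 : WithTop ℤ) = ((0 : ℤ) : WithTop ℤ) := rfl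
      rw [e0, WithTop.coe_lt_coe, ← WithTop.coe_add, WithTop.coe_le_coe]
      omega

end Cusp

/-! ### The final characterisation -/

section Final

variable {N : ℕ} [NeZero N]

/-- **V.3** `a / b` lies in the image of `S₂(Γ₀(N))` under `f ↦ f / Dj` iff
`ord_z b ≤ ord_z a + ord_z Dj` at every `z : ℍ`, and at every cusp `δ • i∞` the `q_N`-orders
satisfy `ord (b ∘ δ) + N + 1 ≤ ord (a ∘ δ)`. -/
theorem mem_range_toK_iff (a b : WH (Gamma0 N)) (hb : b ≠ 0) :
    algebraMap (WH (Gamma0 N)) (FractionRing (WH (Gamma0 N))) a /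
      algebraMap (WH (Gamma0 N)) (FractionRing (WH (Gamma0 N))) b ∈ LinearMap.range (toK (N := N))
      ↔ (∀ z : ℍ, ordAt z (b : ℍ → ℂ) ≤ ordAt z (a : ℍ → ℂ) + ordAt z Dj) ∧
        ∀ δ : SL(2, ℤ),
          cuspOrd N (fun z => (b : ℍ → ℂ) (δ • z)) + (((N : ℤ) + 1 : ℤ) : WithTop ℤ) ≤
            cuspOrd N (fun z => (a : ℍ → ℂ) (δ • z)) := by
  have hN : 0 < N := Nat.pos_of_ne_zero (NeZero.ne N)
  rw [mem_range_toK_iff_exists a b hb]
  constructor
  · rintro ⟨u, hu, heq, hz⟩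
    refine ⟨(exists_mdiff_eqn_iff_ordAt a.2.1 b.2.1).mp ⟨u, hu, heq⟩, fun δ => ?_⟩
    exact (isZeroAtImInfty_slash_iff hN a b hb hu heq δ).mp (hz δ)
  · rintro ⟨hfin, hcusp⟩
    obtain ⟨u, hu, heq⟩ := (exists_mdiff_eqn_iff_ordAt a.2.1 b.2.1).mpr hfin
    exact ⟨u, hu, heq, fun δ => (isZeroAtImInfty_slash_iff hN a b hb hu heq δ).mpr (hcusp δ)⟩

end Final

end Fermat.Agent.M2.DiffIso
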