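import Fermat.Agent.M2.HoloRange
import Fermat.Agent.M2.DiffIso3

/-!
# M2 / V.3 → V.4 : the cusp clause

`cuspClause N : HoloRange.CuspClause N`, the analytic input of `HoloRange.range_toK_eq`.
-/

set_option autoImplicit false

namespace Fermat.Agent.M2.DiffIso

open UpperHalfPlane ModularForm MatrixGroups CongruenceSubgroup
open scoped Manifold Topology

open CuspVal

/-- **The cusp clause of V.3**, in the shape consumed by `HoloRange.range_toK_eq`. -/
theorem cuspClause (N : ℕ) [NeZero N] : HoloRange.CuspClause N := by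
  have hN : 0 < N := Nat.pos_of_ne_zero (NeZero.ne N)
  intro a b hb u hu heq
  refine forall_congr' fun δ => ?_
  rw [isZeroAtImInfty_slash_iff hN a b hb hu heq δ]
  have e : (((N : ℤ) + 1 : ℤ) : WithTop ℤ) = ((N : ℤ) : WithTop ℤ) + 1 := by
    rw [WithTop.coe_add, WithTop.coe_one]
  rw [e, add_assoc]

end Fermat.Agent.M2.DiffIso
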