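import Mathlib

/-!
# Valuation comparison on a Dedekind domain (M2, task IV.5)

`B` Dedekind with fraction field `L`, `P` a height one prime, `v : Valuation L ℤᵐ⁰` with
`v ≤ 1` on `B` and `v < 1` on `P`.  Then `{b | v b < 1} = P` and `v = (P.valuation L) ^ κ` for
some integer `κ ≥ 1`.
-/

set_option autoImplicit false

open IsDedekindDomain WithZero

namespace Fermat.Agent.M2.ValCompare

theorem eq_one_of_mul_eq_one {a b : ℤᵐ⁰} (ha : a ≤ 1) (hb : b ≤ 1) (h : a * b = 1) : a = 1 := by
  have : a * b ≤ a * 1 := mul_le_mul' le_rfl hb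
  rw [mul_one, h] at this
  exact le_antisymm ha this

variable {B : Type*} [CommRing B] [IsDedekindDomain B] {L : Type*} [Field L] [Algebra B L]
  [IsFractionRing B L]

omit [IsFractionRing B L] in
/-- Elements of `B` outside `P` have `v`-value one. -/
theorem eq_one_of_notMem (P : HeightOneSpectrum B) (v : Valuation L ℤᵐ⁰)
    (hle : ∀ b : B, v (algebraMap B L b) ≤ 1)
    (hlt : ∀ b ∈ P.asIdeal, v (algebraMap B L b) < 1) {b : B} (hb : b ∉ P.asIdeal) :
    v (algebraMap B L b) = 1 := by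
  have hmax : P.asIdeal.IsMaximal := P.isMaximal
  obtain ⟨c, hc⟩ := Ideal.Quotient.exists_inv (I := P.asIdeal)
    (a := Ideal.Quotient.mk P.asIdeal b) (by
      rwa [Ne, Ideal.Quotient.eq_zero_iff_mem])
  obtain ⟨c, rfl⟩ := Ideal.Quotient.mk_surjective c
  have hmem : b * c - 1 ∈ P.asIdeal := by
    rw [← Ideal.Quotient.eq_zero_iff_mem, map_sub, map_mul, hc, map_one, sub_self]
  have h1 : v (algebraMap B L (b * c - 1)) < 1 := hlt _ hmem
  have h2 : v (algebraMap B L (b * c)) = 1 := by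
    have : algebraMap B L (b * c) = 1 + algebraMap B L (b * c - 1) := by
      rw [map_sub, map_one]; ring
    rw [this]
    exact v.map_one_add_of_lt h1
  rw [map_mul, map_mul] at h2
  exact eq_one_of_mul_eq_one (hle b) (hle c) h2

omit [IsFractionRing B L] in
/-- The centre of `v` on `B` is exactly `P`. -/
theorem lt_one_iff_mem (P : HeightOneSpectrum B) (v : Valuation L ℤᵐ⁰)
    (hle : ∀ b : B, v (algebraMap B L b) ≤ 1)
    (hlt : ∀ b ∈ P.asIdeal, v (algebraMap B L b) < 1) (b : B) :
    v (algebraMap B L b) < 1 ↔ b ∈ P.asIdeal := by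
  refine ⟨fun h => ?_, hlt b⟩
  by_contra hb
  exact h.ne (eq_one_of_notMem P v hle hlt hb)

/-- Elements of `L` of `P`-adic valuation one have `v`-value one. -/
theorem eq_one_of_valuation_eq_one (P : HeightOneSpectrum B) (v : Valuation L ℤᵐ⁰)
    (hle : ∀ b : B, v (algebraMap B L b) ≤ 1)
    (hlt : ∀ b ∈ P.asIdeal, v (algebraMap B L b) < 1) {y : L} (hy : P.valuation L y = 1) :
    v y = 1 := by
  obtain ⟨n, d, hnd⟩ := P.exists_primeCompl_mul_eq_of_integer y hy.le
  have hd : (d : B) ∉ P.asIdeal := d.2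
  have hwd : P.valuation L (algebraMap B L d) = 1 :=
    P.valuation_eq_one_iff_notMem.mpr hd
  have hwn : P.valuation L (algebraMap B L n) = 1 := by
    rw [← hnd, map_mul, hy, hwd, one_mul]
  have hn : n ∉ P.asIdeal := P.valuation_eq_one_iff_notMem.mp hwn
  have h1 := eq_one_of_notMem P v hle hlt hd
  have h2 := eq_one_of_notMem P v hle hlt hn
  have := congrArg v hnd
  rw [map_mul, h1, h2, mul_one] at this
  exact this

/-- **Valuation comparison**: `v` is a positive integral power of the `P`-adic valuation. -/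
theorem exists_pow_eq (P : HeightOneSpectrum B) (v : Valuation L ℤᵐ⁰)
    (hle : ∀ b : B, v (algebraMap B L b) ≤ 1)
    (hlt : ∀ b ∈ P.asIdeal, v (algebraMap B L b) < 1) :
    ∃ κ : ℕ, 1 ≤ κ ∧ ∀ h : L, v h = (P.valuation L h) ^ κ := by
  obtain ⟨π, hπ'⟩ := P.valuation_exists_uniformizer' L
  have hπ : P.valuation L (algebraMap B L π) = exp (-1 : ℤ) := hπ'
  have hπmem : π ∈ P.asIdeal := by
    rw [← HeightOneSpectrum.valuation_lt_one_iff_mem (K := L), hπ]
    exact (WithZero.exp_lt_exp.mpr (by norm_num : (-1 : ℤ) < 0))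
  have hπ0 : algebraMap B L π ≠ 0 := by
    intro h0
    rw [h0, map_zero] at hπ
    exact WithZero.exp_ne_zero hπ.symm
  have hvπ_lt : v (algebraMap B L π) < 1 := hlt π hπmem
  have hvπ_ne : v (algebraMap B L π) ≠ 0 := (Valuation.ne_zero_iff v).mpr hπ0
  -- `v π = exp (-k)` with `k > 0`
  set k : ℤ := - log (v (algebraMap B L π)) with hk
  have hvπ : v (algebraMap B L π) = exp (-k) := by
    rw [hk, neg_neg, exp_log hvπ_ne]
  have hkpos : 0 < k := by
    have : exp (-k) < exp (0 : ℤ) := by rw [← hvπ, exp_zero]; exact hvπ_lt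
    have := WithZero.exp_lt_exp.mp this
    omega
  refine ⟨k.toNat, by omega, fun h => ?_⟩
  by_cases h0 : h = 0
  · subst h0
    rw [map_zero, map_zero, zero_pow (by omega)]
  set w := P.valuation L with hw
  have hwh : w h ≠ 0 := (Valuation.ne_zero_iff w).mpr h0
  set n : ℤ := log (w h) with hn
  have hwh' : w h = exp n := by rw [hn, exp_log hwh]
  -- `y = h * π ^ n` has `w y = 1`
  have hy : w (h * (algebraMap B L π) ^ n) = 1 := by
    rw [map_mul, map_zpow₀, hπ, hwh', ← exp_zsmul, ← exp_add]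
    simp
  have hvy := eq_one_of_valuation_eq_one P v hle hlt hy
  rw [map_mul, map_zpow₀, hvπ, ← exp_zsmul] at hvy
  have hvh : v h = exp (n * k) := by
    have h2 : exp (n • -k) ≠ 0 := exp_ne_zero
    have h3 : v h = (exp (n • -k))⁻¹ := eq_inv_of_mul_eq_one_left hvy
    rw [h3, ← exp_neg]
    congr 1
    simp
  rw [hvh, hwh', ← exp_nsmul]
  congr 1
  have : (k.toNat : ℤ) = k := Int.toNat_of_nonneg hkpos.le
  rw [nsmul_eq_mul, this, mul_comm]

end Fermat.Agent.M2.ValCompare
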