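import Mathlib
import Fermat.Agent.M2.ValCompare
import Fermat.Agent.M2.TameDifferent

/-
M2 (S20 moonshot), task III.d, parts (1)-(3): abstract Galois descent of places (pure algebra).

Setting: `A` Dedekind, `F = Frac A`, `L/F` with `[IsGaloisGroup G F L]`, `G` finite,
`C = integralClosure A L`, `v : Valuation L ℤᵐ⁰` with `v ≤ 1` on `A`.

* `le_one_of_isIntegral`, `center A v hv : Ideal C` (`= {c | v c < 1}`), `center_isPrime`,
  `center_isMaximal`, `mem_under_center_iff`.
* `conj v g = v ∘ g⁻¹`, `smul_center : g • center v = center (conj v g)`.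
* `exists_smul_center_eq`, `exists_center_conj_eq` : transitivity of `G` on primes over `p`.
* `centerHOS`, `exists_pow_eq` : `v = (Q_v-adic valuation) ^ κ`, `κ ≥ 1`.
* `card_stabilizer_center` : `|Stab_G Q_v| = e(Q_v | p)` when `A/p` is an algebraically closed
  field of characteristic zero (given as: `k → A`, every `a : A` is congruent to a constant).
* `stabilizer_center_eq` : the squeeze `Stab_G Q_v = S`.
-/

open WithZero IsDedekindDomain
open scoped Pointwise

namespace Fermat.Agent.M2.GaloisPlaces

section Center

variable {A : Type*} [CommRing A] {L : Type*} [Field L] [Algebra A L]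

/-- Elements integral over a ring on which `v ≤ 1` have `v ≤ 1`. -/
theorem le_one_of_isIntegral (v : Valuation L ℤᵐ⁰) (hv : ∀ a : A, v (algebraMap A L a) ≤ 1)
    {x : L} (hx : IsIntegral A x) : v x ≤ 1 := by
  obtain ⟨f, hm, hf⟩ := hx
  by_cases hn : f.natDegree = 0
  · rw [Polynomial.natDegree_eq_zero] at hn
    obtain ⟨c, rfl⟩ := hn
    have hc : c = 1 := by simpa using hm.leadingCoeff
    subst hc
    simp at hf
  simp only [Polynomial.eval₂_eq_sum_range, Finset.sum_range_succ, hm.coeff_natDegree, map_one,
    one_mul, add_eq_zero_iff_eq_neg] at hf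
  apply_fun v at hf
  simp only [Valuation.map_neg, map_pow] at hf
  contrapose! hf
  refine ne_of_lt (v.map_sum_lt ?_ ?_)
  · simp [hn, (hf.trans' (zero_lt_one)).ne']
  · simp only [Finset.mem_range, map_mul, map_pow]
    intro _ hi
    exact mul_lt_of_le_one_of_lt (hv _) <| pow_lt_pow_right₀ hf hi

variable (A) in
/-- The centre of a valuation `v` (with `v ≤ 1` on `A`) on the integral closure of `A` in `L`. -/
def center (v : Valuation L ℤᵐ⁰) (hv : ∀ a : A, v (algebraMap A L a) ≤ 1) :
    Ideal (integralClosure A L) where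
  carrier := {c | v (c : L) < 1}
  add_mem' := fun {a b} ha hb => lt_of_le_of_lt (v.map_add _ _) (max_lt ha hb)
  zero_mem' := by simp
  smul_mem' := fun c x hx => by
    show v ((c * x : integralClosure A L) : L) < 1
    rw [MulMemClass.coe_mul, map_mul]
    exact mul_lt_one_of_nonneg_of_lt_one_right (le_one_of_isIntegral v hv c.2) zero_le hx

variable (v : Valuation L ℤᵐ⁰) (hv : ∀ a : A, v (algebraMap A L a) ≤ 1)

@[simp] theorem mem_center_iff {c : integralClosure A L} :
    c ∈ center A v hv ↔ v (c : L) < 1 := Iff.rfl

theorem center_ne_top : center A v hv ≠ ⊤ := by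
  intro h
  have : (1 : integralClosure A L) ∈ center A v hv := h ▸ Submodule.mem_top
  rw [mem_center_iff] at this
  simp at this

instance center_isPrime : (center A v hv).IsPrime := by
  refine ⟨center_ne_top v hv, fun {x y} hxy => ?_⟩
  rw [mem_center_iff, MulMemClass.coe_mul, map_mul] at hxy
  by_contra hcon
  rw [not_or] at hcon
  have hx : v (x : L) = 1 :=
    le_antisymm (le_one_of_isIntegral v hv x.2) (not_lt.mp hcon.1)
  have hy : v (y : L) = 1 :=
    le_antisymm (le_one_of_isIntegral v hv y.2) (not_lt.mp hcon.2)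
  rw [hx, hy, one_mul] at hxy
  exact lt_irrefl _ hxy

theorem mem_under_center_iff {a : A} :
    a ∈ (center A v hv).under A ↔ v (algebraMap A L a) < 1 := Iff.rfl


/-- If `A` is Dedekind and `v < 1` somewhere on `A ∖ {0}`, the centre is a maximal ideal. -/
theorem center_isMaximal [IsDedekindDomain A]
    (hp : ∃ a : A, a ≠ 0 ∧ v (algebraMap A L a) < 1) : (center A v hv).IsMaximal := by
  have hprime : ((center A v hv).under A).IsPrime := Ideal.IsPrime.under A _
  have hne : (center A v hv).under A ≠ ⊥ := by
    obtain ⟨a, ha0, ha⟩ := hp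
    intro h
    have : a ∈ (center A v hv).under A := (mem_under_center_iff v hv).mpr ha
    rw [h, Ideal.mem_bot] at this
    exact ha0 this
  have hmax : ((center A v hv).under A).IsMaximal := hprime.isMaximal hne
  exact Ideal.isMaximal_of_isIntegral_of_isMaximal_comap _ hmax

end Center

section Action

variable {A : Type*} [CommRing A] {L : Type*} [Field L] [Algebra A L]
  {G : Type*} [Group G] [MulSemiringAction G L] [SMulCommClass G A L]

/-- The valuation `x ↦ v (g⁻¹ • x)`. -/
noncomputable def conj (v : Valuation L ℤᵐ⁰) (g : G) : Valuation L ℤᵐ⁰ :=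
  v.comap (MulSemiringAction.toRingHom G L g⁻¹)

@[simp] theorem conj_apply (v : Valuation L ℤᵐ⁰) (g : G) (x : L) : conj v g x = v (g⁻¹ • x) := rfl

theorem conj_le_one (v : Valuation L ℤᵐ⁰) (hv : ∀ a : A, v (algebraMap A L a) ≤ 1) (g : G)
    (a : A) : conj v g (algebraMap A L a) ≤ 1 := by
  rw [conj_apply, smul_algebraMap]; exact hv a

/-- `g • Q_v = Q_{v ∘ g⁻¹}`. -/
theorem smul_center (v : Valuation L ℤᵐ⁰) (hv : ∀ a : A, v (algebraMap A L a) ≤ 1) (g : G) :
    g • center A v hv = center A (conj v g) (conj_le_one v hv g) := by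
  ext x
  rw [Ideal.mem_pointwise_smul_iff_inv_smul_mem, mem_center_iff, mem_center_iff, conj_apply]
  rfl

end Action


section Galois

variable {A : Type*} [CommRing A] [IsDedekindDomain A]
  (F : Type*) [Field F] [Algebra A F] [IsFractionRing A F]
  {L : Type*} [Field L] [Algebra F L] [Algebra A L] [IsScalarTower A F L]
  {G : Type*} [Group G] [Finite G] [MulSemiringAction G L] [IsGaloisGroup G F L]
  [SMulCommClass G A L]
  (v : Valuation L ℤᵐ⁰) (hv : ∀ a : A, v (algebraMap A L a) ≤ 1)

include F in
/-- **Transitivity**: every prime of the integral closure lying over the same prime of `A` as the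
centre `Q_v` of `v` is a Galois conjugate of `Q_v`. -/
theorem exists_smul_center_eq (Q : Ideal (integralClosure A L)) [Q.IsPrime]
    (hQ : Q.under A = (center A v hv).under A) : ∃ g : G, Q = g • center A v hv := by
  have := IsGaloisGroup.finiteDimensional G F L
  have : IsFractionRing (integralClosure A L) L :=
    integralClosure.isFractionRing_of_finite_extension F L
  have : IsGaloisGroup G A (integralClosure A L) :=
    IsGaloisGroup.of_isFractionRing G A _ F L
  exact Algebra.IsInvariant.exists_smul_of_under_eq A (integralClosure A L) G _ Q hQ.symm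

include F in
/-- Every prime over `p` is the centre of a conjugate valuation. -/
theorem exists_center_conj_eq (Q : Ideal (integralClosure A L)) [Q.IsPrime]
    (hQ : Q.under A = (center A v hv).under A) :
    ∃ g : G, Q = center A (conj v g) (conj_le_one v hv g) := by
  obtain ⟨g, hg⟩ := exists_smul_center_eq (G := G) F v hv Q hQ
  exact ⟨g, by rw [hg, smul_center]⟩


include F in
omit [IsDedekindDomain A] in
theorem algebraMap_injective_of_tower : Function.Injective (algebraMap A L) := by
  rw [IsScalarTower.algebraMap_eq A F L]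
  exact (algebraMap F L).injective.comp (IsFractionRing.injective A F)

include F in
omit [IsDedekindDomain A] in
theorem center_ne_bot (hp : ∃ a : A, a ≠ 0 ∧ v (algebraMap A L a) < 1) :
    center A v hv ≠ ⊥ := by
  obtain ⟨a, ha0, ha⟩ := hp
  intro h
  have hmem : (⟨algebraMap A L a, isIntegral_algebraMap⟩ : integralClosure A L) ∈
      center A v hv := ha
  rw [h, Ideal.mem_bot] at hmem
  have : algebraMap A L a = 0 := congrArg Subtype.val hmem
  exact ha0 ((map_eq_zero_iff _ (algebraMap_injective_of_tower F)).mp this)

/-- The centre of `v` as a height-one prime of the integral closure. -/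
def centerHOS (hp : ∃ a : A, a ≠ 0 ∧ v (algebraMap A L a) < 1) :
    HeightOneSpectrum (integralClosure A L) where
  asIdeal := center A v hv
  isPrime := inferInstance
  ne_bot := center_ne_bot F v hv hp

omit [IsDedekindDomain A] in
@[simp] theorem centerHOS_asIdeal (hp : ∃ a : A, a ≠ 0 ∧ v (algebraMap A L a) < 1) :
    (centerHOS F v hv hp).asIdeal = center A v hv := rfl

section Kappa

variable [IsDedekindDomain (integralClosure A L)] [IsFractionRing (integralClosure A L) L]

omit [IsDedekindDomain A] in
/-- `v` is a positive power of the adic valuation of its centre. -/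
theorem exists_pow_eq (hp : ∃ a : A, a ≠ 0 ∧ v (algebraMap A L a) < 1) :
    ∃ κ : ℕ, 1 ≤ κ ∧ ∀ h : L, v h = ((centerHOS F v hv hp).valuation L h) ^ κ :=
  ValCompare.exists_pow_eq (centerHOS F v hv hp) v
    (fun b => le_one_of_isIntegral v hv b.2) (fun _ hb => hb)

end Kappa

section Stabilizer

include F in
/-- If the residue field of `p = Q_v ∩ A` is (the image of) an algebraically closed field `k` of
characteristic zero, the decomposition group of `Q_v` has order `e(Q_v | p)`. -/
theorem card_stabilizer_center (hp : ∃ a : A, a ≠ 0 ∧ v (algebraMap A L a) < 1)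
    (k : Type*) [Field k] [IsAlgClosed k] [CharZero k] [Algebra k A]
    (hk : ∀ a : A, ∃ c : k, v (algebraMap A L (a - algebraMap k A c)) < 1) :
    Nat.card (MulAction.stabilizer G (center A v hv)) = (center A v hv).ramificationIdx A := by
  have := IsGaloisGroup.finiteDimensional G F L
  have := IsGaloisGroup.isGalois G F L
  have : IsFractionRing (integralClosure A L) L :=
    integralClosure.isFractionRing_of_finite_extension F L
  have : IsGaloisGroup G A (integralClosure A L) :=
    IsGaloisGroup.of_isFractionRing G A _ F L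
  have : Module.Finite A (integralClosure A L) := IsIntegralClosure.finite A F L _
  have h1 : FaithfulSMul A L :=
    (faithfulSMul_iff_algebraMap_injective A L).mpr (algebraMap_injective_of_tower F)
  have h2 : Module.IsTorsionFree A L := inferInstance
  have h3 : Module.IsTorsionFree A (integralClosure A L) := inferInstance
  have h4 : Module.Flat A (integralClosure A L) := inferInstance
  set Q := center A v hv with hQ
  set p := Q.under A with hpdef
  have hQmax : Q.IsMaximal := center_isMaximal v hv hp
  have hpmax : p.IsMaximal := Ideal.IsMaximal.under A Q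
  have hlies : Q.LiesOver p := ⟨rfl⟩
  let _ : Field (A ⧸ p) := Ideal.Quotient.field p
  let _ : Field (integralClosure A L ⧸ Q) := Ideal.Quotient.field Q
  -- `k → A ⧸ p` is surjective
  have hsurj : Function.Surjective (algebraMap k (A ⧸ p)) := by
    intro x
    obtain ⟨a, rfl⟩ := Ideal.Quotient.mk_surjective x
    obtain ⟨c, hc⟩ := hk a
    refine ⟨c, ?_⟩
    rw [IsScalarTower.algebraMap_apply k A (A ⧸ p), Ideal.Quotient.algebraMap_eq, eq_comm,
      Ideal.Quotient.eq]
    exact hc
  have hchar : CharZero (A ⧸ p) := charZero_of_injective_algebraMap (algebraMap k (A ⧸ p)).injective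
  have hchar' : CharZero p.ResidueField :=
    charZero_of_injective_algebraMap (algebraMap (A ⧸ p) p.ResidueField).injective
  have hperf : PerfectField p.ResidueField := inferInstance
  rw [Ideal.card_stabilizer_eq p Q, Ideal.ramificationIdxIn_eq_ramificationIdx p Q G,
    Ideal.inertiaDegIn_eq_inertiaDeg p Q G, Ideal.inertiaDeg_eq_of_isMaximal p Q]
  -- inertia degree one
  let ψ : k →+* (integralClosure A L ⧸ Q) :=
    (algebraMap (A ⧸ p) (integralClosure A L ⧸ Q)).comp (algebraMap k (A ⧸ p))
  let _ : Algebra k (integralClosure A L ⧸ Q) := ψ.toAlgebra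
  have : IsScalarTower k (A ⧸ p) (integralClosure A L ⧸ Q) := .of_algebraMap_eq' rfl
  have hint1 : Algebra.IsIntegral k (A ⧸ p) := Algebra.isIntegral_of_surjective hsurj
  have hint2 : Algebra.IsIntegral (A ⧸ p) (integralClosure A L ⧸ Q) := inferInstance
  have hint : Algebra.IsIntegral k (integralClosure A L ⧸ Q) :=
    Algebra.IsIntegral.trans (A ⧸ p)
  have hbij := IsAlgClosed.algebraMap_bijective_of_isIntegral (k := k)
    (K := integralClosure A L ⧸ Q)
  have hbij' : Function.Bijective (algebraMap (A ⧸ p) (integralClosure A L ⧸ Q)) := by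
    refine ⟨(algebraMap (A ⧸ p) (integralClosure A L ⧸ Q)).injective, fun y => ?_⟩
    obtain ⟨c, rfl⟩ := hbij.2 y
    exact ⟨algebraMap k (A ⧸ p) c, rfl⟩
  have : Module.finrank (A ⧸ p) (integralClosure A L ⧸ Q) = 1 := by
    rw [← Module.finrank_self (A ⧸ p)]
    exact (LinearEquiv.ofBijective (Algebra.linearMap (A ⧸ p) (integralClosure A L ⧸ Q))
      hbij').finrank_eq.symm
  rw [this, mul_one]

include F in
/-- **Squeeze**: a subgroup `S` preserving `v` with `o ≤ ν * |S|`, where `v(π₀) = exp (-o)` for a
generator `π₀` of `p` and all values of `v` are `ν`-th powers, is the full decomposition group. -/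
theorem stabilizer_center_eq (hp : ∃ a : A, a ≠ 0 ∧ v (algebraMap A L a) < 1)
    (k : Type*) [Field k] [IsAlgClosed k] [CharZero k] [Algebra k A]
    (hk : ∀ a : A, ∃ c : k, v (algebraMap A L (a - algebraMap k A c)) < 1)
    (S : Subgroup G) (hS : ∀ s ∈ S, ∀ h : L, v (s • h) = v h) (o ν : ℕ) (π₀ : A)
    (hπ : (center A v hv).under A = Ideal.span {π₀})
    (ho : v (algebraMap A L π₀) = exp (-(o : ℤ)))
    (hν : ∀ h : L, h ≠ 0 → ∃ m : ℤ, v h = exp ((ν : ℤ) * m))
    (hle : o ≤ ν * Nat.card S) :
    MulAction.stabilizer G (center A v hv) = S := by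
  have := IsGaloisGroup.finiteDimensional G F L
  have := IsGaloisGroup.isGalois G F L
  have : IsFractionRing (integralClosure A L) L :=
    integralClosure.isFractionRing_of_finite_extension F L
  have : IsDedekindDomain (integralClosure A L) := integralClosure.isDedekindDomain A F L
  have : Module.Finite A (integralClosure A L) := IsIntegralClosure.finite A F L _
  have h1 : FaithfulSMul A L :=
    (faithfulSMul_iff_algebraMap_injective A L).mpr (algebraMap_injective_of_tower F)
  have h2 : Module.IsTorsionFree A L := inferInstance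
  have h3 : Module.IsTorsionFree A (integralClosure A L) := inferInstance
  -- `S` is contained in the stabiliser
  have hSle : S ≤ MulAction.stabilizer G (center A v hv) := by
    intro s hs
    rw [MulAction.mem_stabilizer_iff, smul_center]
    ext x
    rw [mem_center_iff, mem_center_iff, conj_apply, hS s⁻¹ (inv_mem hs)]
  -- the stabiliser has order `e`
  have hcard := card_stabilizer_center (G := G) F v hv hp k hk
  set P := centerHOS F v hv hp with hP
  set e := (center A v hv).ramificationIdx A with he
  obtain ⟨κ, hκ1, hκ⟩ := exists_pow_eq F v hv hp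
  -- `o = κ * e`
  have hPπ : P.valuation L (algebraMap A L π₀) = exp (-(e : ℤ)) :=
    TameDifferent.valuation_algebraMap_eq_exp_neg_ramificationIdx A F L (integralClosure A L) P hπ
  have hoκ : (o : ℤ) = κ * e := by
    have h := hκ (algebraMap A L π₀)
    rw [ho, hPπ, ← exp_nsmul, exp_inj] at h
    simp only [nsmul_eq_mul, mul_neg, neg_inj] at h
    exact h
  -- `ν ∣ κ`
  obtain ⟨ϖ, hϖ⟩ := P.valuation_exists_uniformizer L
  have hϖ0 : ϖ ≠ 0 := by
    rintro rfl
    rw [map_zero] at hϖ
    exact exp_ne_zero hϖ.symm
  obtain ⟨m, hm⟩ := hν ϖ hϖ0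
  have hνκ : (ν : ℤ) ∣ (κ : ℤ) := by
    have h := hκ ϖ
    rw [hm, hϖ, ← exp_nsmul, exp_inj] at h
    simp only [nsmul_eq_mul, mul_neg, mul_one] at h
    exact ⟨-m, by rw [mul_neg, h, neg_neg]⟩
  have hνκ' : ν ≤ κ := Nat.le_of_dvd (by omega) (Int.natCast_dvd_natCast.mp hνκ)
  -- `e ≤ |S|`
  have hoκ' : o = κ * e := by exact_mod_cast hoκ
  have hele : e ≤ Nat.card S := by
    have h3 : κ * e ≤ κ * Nat.card S := by
      calc κ * e = o := hoκ'.symm
        _ ≤ ν * Nat.card S := hle
        _ ≤ κ * Nat.card S := Nat.mul_le_mul_right _ hνκ'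
    exact Nat.le_of_mul_le_mul_left h3 (by omega)
  exact (Subgroup.eq_of_le_of_card_ge hSle (by rw [hcard]; exact hele)).symm

end Stabilizer

end Galois

end Fermat.Agent.M2.GaloisPlaces
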