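import Fermat.Agent.M2.WH
import Fermat.Agent.M2.LevelOnePoly

/-!
# M2 / III.h : Galois set-up for the rings `WH Γ`

* `ℂ[X]`-algebra structure on `WH Γ` via `X ↦ j`;
* for `Γ` normal of finite index: the finite group `Geff Γ` (image of `SL(2,ℤ)` in the ring
  automorphisms of `WH Γ`) and `IsGaloisGroup (Geff Γ) ℂ[X] (WH Γ)`.
-/

set_option autoImplicit false

namespace Fermat.Agent.M2

open UpperHalfPlane ModularForm MatrixGroups Filter Polynomial CongruenceSubgroup
open scoped Manifold Topology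

local notation "Δ" => ModularForm.discriminant

variable (Γ : Subgroup SL(2, ℤ))

/-- `WH Γ` is a `ℂ[X]`-algebra via `X ↦ j`. -/
noncomputable instance algPolyWH : Algebra ℂ[X] (WH Γ) :=
  (Polynomial.aeval (jWH Γ)).toRingHom.toAlgebra

lemma algebraMap_polyWH (P : ℂ[X]) : algebraMap ℂ[X] (WH Γ) P = Polynomial.aeval (jWH Γ) P := rfl

lemma coe_aeval_jWH (P : ℂ[X]) (z : ℍ) :
    ((Polynomial.aeval (jWH Γ) P : WH Γ) : ℍ → ℂ) z = P.eval (jInv z) := by
  induction P using Polynomial.induction_on' with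
  | add p q hp hq =>
    rw [map_add, eval_add, ← hp, ← hq]; rfl
  | monomial n a =>
    rw [aeval_monomial, eval_monomial]
    rfl

lemma algebraMap_polyWH_apply (P : ℂ[X]) (z : ℍ) :
    ((algebraMap ℂ[X] (WH Γ) P : WH Γ) : ℍ → ℂ) z = P.eval (jInv z) :=
  coe_aeval_jWH Γ P z

instance : IsScalarTower ℂ ℂ[X] (WH Γ) := by
  refine IsScalarTower.of_algebraMap_eq fun c => ?_
  rw [algebraMap_polyWH, ← Polynomial.C_eq_algebraMap, aeval_C]

lemma algebraMap_polyWH_injective : Function.Injective (algebraMap ℂ[X] (WH Γ)) := by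
  rw [injective_iff_map_eq_zero]
  intro P hP
  apply LevelOnePoly.poly_eq_zero_of_eval_j_eq_zero
  intro z
  have := congrArg (fun f : WH Γ => (f : ℍ → ℂ) z) hP
  simpa [algebraMap_polyWH_apply, jInv] using this

instance : FaithfulSMul ℂ[X] (WH Γ) :=
  (faithfulSMul_iff_algebraMap_injective _ _).mpr (algebraMap_polyWH_injective Γ)

section Normal

variable (Γ : Subgroup SL(2, ℤ)) [hΓ : Γ.Normal]

lemma smul_algebraMap_polyWH (σ : SL(2, ℤ)) (P : ℂ[X]) :
    σ • (algebraMap ℂ[X] (WH Γ) P) = algebraMap ℂ[X] (WH Γ) P := by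
  apply WH.ext; intro z
  rw [WH.smul_apply, algebraMap_polyWH_apply, algebraMap_polyWH_apply, jInv_smul]

instance : SMulCommClass SL(2, ℤ) ℂ[X] (WH Γ) where
  smul_comm σ P f := by
    rw [Algebra.smul_def, Algebra.smul_def, smul_mul', smul_algebraMap_polyWH]

/-- `SL(2,ℤ)`-invariant elements of `WH Γ` are polynomials in `j`. -/
lemma exists_poly_of_smul_eq (f : WH Γ) (hf : ∀ σ : SL(2, ℤ), σ • f = f) :
    ∃ P : ℂ[X], algebraMap ℂ[X] (WH Γ) P = f := by
  have hinv : ∀ (γ : SL(2, ℤ)) (z : ℍ), (f : ℍ → ℂ) (γ • z) = (f : ℍ → ℂ) z := by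
    intro γ z
    have := congrArg (fun g : WH Γ => (g : ℍ → ℂ) z) (hf γ⁻¹)
    simpa [WH.smul_apply] using this
  obtain ⟨m, hm⟩ := f.2.2.2 1
  have hm' : IsBoundedAtImInfty (fun z => (f : ℍ → ℂ) z * Δ z ^ m) := by
    simpa using hm
  obtain ⟨P, -, hP⟩ := LevelOnePoly.exists_poly_of_weaklyHolomorphic (f : ℍ → ℂ) f.2.1
    (fun γ => by
      ext z
      rw [SL_slash_apply, neg_zero, zpow_zero, mul_one]
      exact hinv γ z) m hm'
  refine ⟨P, ?_⟩
  apply WH.ext; intro z
  rw [algebraMap_polyWH_apply, hP z, jInv]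

/-- The image of `SL(2,ℤ)` in the ring automorphisms of `WH Γ`. -/
noncomputable def Geff : Subgroup (RingAut (WH Γ)) := (MulSemiringAction.toRingAut SL(2, ℤ) (WH Γ)).range

/-- The projection `SL(2,ℤ) → Geff Γ`. -/
noncomputable def piG : SL(2, ℤ) →* Geff Γ := (MulSemiringAction.toRingAut SL(2, ℤ) (WH Γ)).rangeRestrict

lemma piG_surjective : Function.Surjective (piG Γ) :=
  (MulSemiringAction.toRingAut SL(2, ℤ) (WH Γ)).rangeRestrict_surjective

noncomputable instance : MulSemiringAction (Geff Γ) (WH Γ) := inferInstance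

lemma piG_smul (σ : SL(2, ℤ)) (f : WH Γ) : piG Γ σ • f = σ • f := rfl


lemma smul_eq_self_of_mem (γ : SL(2, ℤ)) (hγ : γ ∈ Γ) (f : WH Γ) : γ • f = f := by
  apply WH.ext; intro z
  rw [WH.smul_apply]
  exact f.2.2.1 γ⁻¹ (Γ.inv_mem hγ) z

lemma le_ker_piG : Γ ≤ (piG Γ).ker := by
  intro γ hγ
  rw [MonoidHom.mem_ker]
  apply Subtype.ext
  apply RingEquiv.ext
  intro f
  exact smul_eq_self_of_mem Γ γ hγ f

instance [Γ.FiniteIndex] : Finite (Geff Γ) := by
  have : Finite (SL(2, ℤ) ⧸ Γ) := Subgroup.finite_quotient_of_finiteIndex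
  exact Finite.of_surjective (QuotientGroup.lift Γ (piG Γ) (le_ker_piG Γ))
    (QuotientGroup.lift_surjective_of_surjective _ _ (piG_surjective Γ) _)

instance : IsGaloisGroup (Geff Γ) ℂ[X] (WH Γ) where
  faithful := inferInstance
  commutes := ⟨fun g P f => by
    obtain ⟨σ, rfl⟩ := piG_surjective Γ g
    rw [piG_smul, piG_smul, smul_comm]⟩
  isInvariant := ⟨fun f hf => exists_poly_of_smul_eq Γ f fun σ => by
    rw [← piG_smul]; exact hf _⟩


end Normal

section Field

variable (Γ : Subgroup SL(2, ℤ))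

/-- The field of modular functions of level `Γ`: fraction field of `WH Γ`
(a `def`, to keep instance search under control). -/
def WHField : Type := FractionRing (WH Γ)

noncomputable instance : Field (WHField Γ) := inferInstanceAs (Field (FractionRing (WH Γ)))

noncomputable instance : Algebra (WH Γ) (WHField Γ) :=
  inferInstanceAs (Algebra (WH Γ) (FractionRing (WH Γ)))

instance : IsFractionRing (WH Γ) (WHField Γ) :=
  inferInstanceAs (IsFractionRing (WH Γ) (FractionRing (WH Γ)))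

noncomputable instance : Algebra ℂ[X] (WHField Γ) :=
  ((algebraMap (WH Γ) (WHField Γ)).comp (algebraMap ℂ[X] (WH Γ))).toAlgebra

instance : IsScalarTower ℂ[X] (WH Γ) (WHField Γ) := IsScalarTower.of_algebraMap_eq fun _ => rfl

noncomputable instance : Algebra ℂ (WHField Γ) :=
  ((algebraMap (WH Γ) (WHField Γ)).comp (algebraMap ℂ (WH Γ))).toAlgebra

instance : IsScalarTower ℂ (WH Γ) (WHField Γ) := IsScalarTower.of_algebraMap_eq fun _ => rfl

instance : IsScalarTower ℂ ℂ[X] (WHField Γ) := IsScalarTower.of_algebraMap_eq fun c => by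
  rw [IsScalarTower.algebraMap_apply ℂ (WH Γ) (WHField Γ),
    IsScalarTower.algebraMap_apply ℂ[X] (WH Γ) (WHField Γ),
    ← IsScalarTower.algebraMap_apply ℂ ℂ[X] (WH Γ)]

lemma algebraMap_poly_WHField_injective : Function.Injective (algebraMap ℂ[X] (WHField Γ)) := by
  rw [IsScalarTower.algebraMap_eq ℂ[X] (WH Γ) (WHField Γ)]
  exact (IsFractionRing.injective (WH Γ) (WHField Γ)).comp (algebraMap_polyWH_injective Γ)

noncomputable instance algRatFuncWHField : Algebra (RatFunc ℂ) (WHField Γ) :=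
  (IsFractionRing.lift (A := ℂ[X]) (K := RatFunc ℂ)
    (g := algebraMap ℂ[X] (WHField Γ)) (algebraMap_poly_WHField_injective Γ)).toAlgebra

instance : IsScalarTower ℂ[X] (RatFunc ℂ) (WHField Γ) :=
  IsScalarTower.of_algebraMap_eq fun P => by
    show _ = (IsFractionRing.lift (algebraMap_poly_WHField_injective Γ))
      (algebraMap ℂ[X] (RatFunc ℂ) P)
    rw [IsFractionRing.lift_algebraMap]

instance : IsScalarTower ℂ (RatFunc ℂ) (WHField Γ) := IsScalarTower.of_algebraMap_eq fun c => by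
  rw [IsScalarTower.algebraMap_apply ℂ ℂ[X] (RatFunc ℂ),
    ← IsScalarTower.algebraMap_apply ℂ[X] (RatFunc ℂ) (WHField Γ),
    ← IsScalarTower.algebraMap_apply ℂ ℂ[X] (WHField Γ)]

section Normal

variable [hΓ : Γ.Normal]

noncomputable instance : MulSemiringAction (Geff Γ) (WHField Γ) :=
  IsFractionRing.mulSemiringAction (Geff Γ) (WH Γ) (WHField Γ)

instance : SMulDistribClass (Geff Γ) (WH Γ) (WHField Γ) :=
  IsFractionRing.smulDistribClass (Geff Γ) (WH Γ) (WHField Γ)

instance [Γ.FiniteIndex] : IsGaloisGroup (Geff Γ) (RatFunc ℂ) (WHField Γ) :=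
  IsGaloisGroup.to_isFractionRing (Geff Γ) ℂ[X] (WH Γ) (RatFunc ℂ) (WHField Γ)

instance [Γ.FiniteIndex] : FiniteDimensional (RatFunc ℂ) (WHField Γ) :=
  IsGaloisGroup.finiteDimensional (Geff Γ) (RatFunc ℂ) (WHField Γ)

end Normal

end Field

section Tower

variable (Γ Γ' : Subgroup SL(2, ℤ)) [hle : Fact (Γ' ≤ Γ)]

/-- `WH Γ ⊆ WH Γ'` for `Γ' ≤ Γ`, as an algebra structure. -/
noncomputable instance algWHWH : Algebra (WH Γ) (WH Γ') :=
  (Subalgebra.inclusion (WH_le hle.out)).toRingHom.toAlgebra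

lemma algebraMap_WHWH_coe (f : WH Γ) : ((algebraMap (WH Γ) (WH Γ') f : WH Γ') : ℍ → ℂ) = f := rfl

lemma algebraMap_WHWH_injective : Function.Injective (algebraMap (WH Γ) (WH Γ')) :=
  Subalgebra.inclusion_injective _

instance : IsScalarTower ℂ[X] (WH Γ) (WH Γ') :=
  IsScalarTower.of_algebraMap_eq fun P => by
    apply WH.ext; intro z
    rw [algebraMap_polyWH_apply, algebraMap_WHWH_coe, algebraMap_polyWH_apply]

noncomputable instance algWHWHField : Algebra (WH Γ) (WHField Γ') :=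
  ((algebraMap (WH Γ') (WHField Γ')).comp (algebraMap (WH Γ) (WH Γ'))).toAlgebra

instance : IsScalarTower (WH Γ) (WH Γ') (WHField Γ') := IsScalarTower.of_algebraMap_eq fun _ => rfl

lemma algebraMap_WH_WHField_injective : Function.Injective (algebraMap (WH Γ) (WHField Γ')) :=
  (IsFractionRing.injective (WH Γ') (WHField Γ')).comp (algebraMap_WHWH_injective Γ Γ')

noncomputable instance algWHFieldWHField : Algebra (WHField Γ) (WHField Γ') :=
  (IsFractionRing.lift (A := WH Γ) (K := WHField Γ)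
    (g := algebraMap (WH Γ) (WHField Γ')) (algebraMap_WH_WHField_injective Γ Γ')).toAlgebra

instance : IsScalarTower (WH Γ) (WHField Γ) (WHField Γ') :=
  IsScalarTower.of_algebraMap_eq fun f => by
    show _ = (IsFractionRing.lift (algebraMap_WH_WHField_injective Γ Γ'))
      (algebraMap (WH Γ) (WHField Γ) f)
    rw [IsFractionRing.lift_algebraMap]

end Tower


section TowerGalois

variable (Γ Γ' : Subgroup SL(2, ℤ)) [hle : Fact (Γ' ≤ Γ)] [hΓ' : Γ'.Normal]

/-- The image of `Γ` in `Geff Γ'`. -/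
noncomputable def Heff : Subgroup (Geff Γ') := Γ.map (piG Γ')

instance : IsGaloisGroup (Heff Γ Γ') (WH Γ) (WH Γ') where
  faithful := inferInstance
  commutes := ⟨fun g a f => by
    obtain ⟨g, γ, hγ, rfl⟩ := g
    show piG Γ' γ • (a • f) = a • (piG Γ' γ • f)
    rw [piG_smul, piG_smul, Algebra.smul_def, Algebra.smul_def, smul_mul']
    congr 1
    apply WH.ext; intro z
    rw [WH.smul_apply, algebraMap_WHWH_coe]
    exact a.2.2.1 γ⁻¹ (Γ.inv_mem hγ) z⟩
  isInvariant := ⟨fun f hf => by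
    refine ⟨⟨(f : ℍ → ℂ), mem_WH_of_invariant f.2 fun γ hγ z => ?_⟩, WH.ext _ fun z => rfl⟩
    have h1 := hf ⟨piG Γ' γ⁻¹, γ⁻¹, Γ.inv_mem hγ, rfl⟩
    have h2 : piG Γ' γ⁻¹ • f = f := h1
    rw [piG_smul] at h2
    have := congrArg (fun g : WH Γ' => (g : ℍ → ℂ) z) h2
    simpa [WH.smul_apply] using this⟩

end TowerGalois


section TowerGaloisField

variable (Γ Γ' : Subgroup SL(2, ℤ)) [hle : Fact (Γ' ≤ Γ)] [hΓ' : Γ'.Normal]

instance : SMulDistribClass (Heff Γ Γ') (WH Γ') (WHField Γ') :=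
  ⟨fun g b x => smul_distrib_smul (g : Geff Γ') b x⟩

instance [Γ'.FiniteIndex] : IsGaloisGroup (Heff Γ Γ') (WHField Γ) (WHField Γ') :=
  IsGaloisGroup.to_isFractionRing (Heff Γ Γ') (WH Γ) (WH Γ') (WHField Γ) (WHField Γ')

instance : IsScalarTower ℂ[X] (WHField Γ) (WHField Γ') := IsScalarTower.of_algebraMap_eq fun P => by
  rw [IsScalarTower.algebraMap_apply ℂ[X] (WH Γ) (WHField Γ),
    ← IsScalarTower.algebraMap_apply (WH Γ) (WHField Γ) (WHField Γ'),
    IsScalarTower.algebraMap_apply (WH Γ) (WH Γ') (WHField Γ'),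
    ← IsScalarTower.algebraMap_apply ℂ[X] (WH Γ) (WH Γ'),
    ← IsScalarTower.algebraMap_apply ℂ[X] (WH Γ') (WHField Γ')]

instance : IsScalarTower (RatFunc ℂ) (WHField Γ) (WHField Γ') :=
  IsScalarTower.of_algebraMap_eq fun x => by
    obtain ⟨a, b, hb, rfl⟩ := IsFractionRing.div_surjective (A := ℂ[X]) x
    simp only [map_div₀, ← IsScalarTower.algebraMap_apply ℂ[X] (RatFunc ℂ) (WHField Γ'),
      ← IsScalarTower.algebraMap_apply ℂ[X] (RatFunc ℂ) (WHField Γ),
      ← IsScalarTower.algebraMap_apply ℂ[X] (WHField Γ) (WHField Γ')]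

theorem finiteDimensional_WHField [Γ'.FiniteIndex] : FiniteDimensional (RatFunc ℂ) (WHField Γ) :=
  FiniteDimensional.left (RatFunc ℂ) (WHField Γ) (WHField Γ')

end TowerGaloisField


section Concrete

variable (N : ℕ)

lemma Gamma_le_Gamma0 : Gamma N ≤ Gamma0 N := by
  intro x hx
  rw [Gamma_mem] at hx
  rw [Gamma0_mem]
  exact hx.2.2.1

instance : Fact (Gamma N ≤ Gamma0 N) := ⟨Gamma_le_Gamma0 N⟩

instance : (Gamma N).Normal := Gamma_normal N

/-- The kernel of the action of `SL(2,ℤ)` on `WH (Gamma N)`. -/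
noncomputable def Nfull : Subgroup SL(2, ℤ) := (piG (Gamma N)).ker

lemma mem_Nfull_iff (σ : SL(2, ℤ)) : σ ∈ Nfull N ↔ ∀ f : WH (Gamma N), σ • f = f := by
  rw [Nfull, MonoidHom.mem_ker]
  constructor
  · intro h f
    rw [← piG_smul, h, one_smul]
  · intro h
    apply Subtype.ext
    apply RingEquiv.ext
    intro f
    exact h f

lemma Gamma_le_Nfull : Gamma N ≤ Nfull N := le_ker_piG (Gamma N)

instance : (Nfull N).Normal := MonoidHom.normal_ker _

example [NeZero N] : IsGaloisGroup (Geff (Gamma N)) (RatFunc ℂ) (WHField (Gamma N)) := inferInstance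
example [NeZero N] : IsGaloisGroup (Heff (Gamma0 N) (Gamma N)) (WHField (Gamma0 N)) (WHField (Gamma N)) :=
  inferInstance

end Concrete


end Fermat.Agent.M2
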