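import Fermat.Agent.M2.CuspVal
import Fermat.Agent.M2.GaloisSetup
import Fermat.Agent.M2.GaloisPlaces
import Fermat.Agent.M2.OinfInst

/-!
# M2 / III.c supplement: the squeeze at infinity

Setting: `L = WHField (Gamma N)` (`= Frac (WH (Gamma N))`), `G = Geff (Gamma N)`,
`A = DW.Oinf ℂ ⊆ RatFunc ℂ = ℂ(j)`.

* `vInfL N : Valuation L ℤᵐ⁰` : the cusp valuation at `i∞` (normalised by `q_N`);
  `vAtL N δ = GaloisPlaces.conj (vInfL N) (piG _ δ)` the valuation at the cusp `δ • i∞`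
  (`vAtL_algebraMap` : it restricts to `CuspVal.cuspValAt δ` on `WH (Gamma N)`).
* (a) `vInfL_smul_of_mem_zpowers` : `vInfL` is invariant under `⟨π T⟩`.
* (b) `vInfL_mem_range` : all values are `exp ((N / wT N) * m)`, `wT N = orderOf (π T)`.
* (c) `vInfL_algebraMap_ratFunc'` : `vInfL (r(j)) = (vInf r) ^ N`; `vInfL_piInf`, `vInfL_le_one`,
  `vInfL_lt_one_iff`, `exists_vInfL_lt_one`, `exists_vInfL_sub_lt_one`, `under_center_vInfL`.
* `stabilizer_center_vInfL` : the decomposition group of the centre of `vInfL` in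
  `integralClosure (DW.Oinf ℂ) L` is `zpowers (π T)`.
-/

set_option autoImplicit false

namespace Fermat.Agent.M2.CuspSqueeze

open UpperHalfPlane ModularForm MatrixGroups Filter Polynomial CongruenceSubgroup WithZero
open Fermat.Agent.M2.CuspVal
open scoped Pointwise

/-! ### A valuation computation: `v (P(x)) = v x ^ deg P` when `1 < v x` -/

section Abstract

variable {R : Type*} [CommRing R] {k : Type*} [Field k] [Algebra k R]
  (v : Valuation R ℤᵐ⁰) (hk : ∀ c : k, c ≠ 0 → v (algebraMap k R c) = 1)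

include hk in
lemma valuation_aeval_lt {x : R} (hx : 1 < v x) {d : ℕ} (P : k[X]) (hP : P.natDegree < d) :
    v (Polynomial.aeval x P) < v x ^ d := by
  rw [Polynomial.aeval_eq_sum_range' hP]
  apply v.map_sum_lt
  · exact (pow_pos (lt_trans zero_lt_one hx) d).ne'
  · intro i hi
    rw [Finset.mem_range] at hi
    rw [Algebra.smul_def, map_mul, map_pow]
    by_cases hc : P.coeff i = 0
    · rw [hc, map_zero, map_zero, zero_mul]
      exact pow_pos (lt_trans zero_lt_one hx) d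
    · rw [hk _ hc, one_mul]
      exact pow_lt_pow_right₀ hx hi

include hk in
/-- If `v` is trivial on the constants and `1 < v x`, then `v (P(x)) = v x ^ deg P`. -/
theorem valuation_aeval_eq {x : R} (hx : 1 < v x) (P : k[X]) (hP : P ≠ 0) :
    v (Polynomial.aeval x P) = v x ^ P.natDegree := by
  have h1 : P = P.eraseLead + Polynomial.monomial P.natDegree P.leadingCoeff :=
    (Polynomial.eraseLead_add_monomial_natDegree_leadingCoeff P).symm
  have h2 : v (Polynomial.aeval x (Polynomial.monomial P.natDegree P.leadingCoeff)) =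
      v x ^ P.natDegree := by
    rw [Polynomial.aeval_monomial, map_mul, map_pow,
      hk _ (Polynomial.leadingCoeff_ne_zero.mpr hP), one_mul]
  have h3 : v (Polynomial.aeval x P.eraseLead) < v x ^ P.natDegree := by
    rcases Polynomial.eraseLead_natDegree_lt_or_eraseLead_eq_zero P with h | h
    · exact valuation_aeval_lt v hk hx _ h
    · rw [h, map_zero, map_zero]
      exact pow_pos (lt_trans zero_lt_one hx) _
  have h4 : v (Polynomial.aeval x P.eraseLead +
      Polynomial.aeval x (Polynomial.monomial P.natDegree P.leadingCoeff)) = v x ^ P.natDegree := by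
    rw [add_comm, ← h2]
    apply Valuation.map_add_eq_of_lt_left
    rw [h2]
    exact h3
  rw [← map_add, ← h1] at h4
  exact h4

end Abstract

/-! ### The cusp valuation on `L` -/

variable (N : ℕ)

lemma T_pow_mem_Gamma : ModularGroup.T ^ N ∈ Gamma N := by
  rw [Gamma_mem, ← zpow_natCast, ModularGroup.coe_T_zpow]
  simp

omit N in
lemma piG_smul_algebraMap (Γ : Subgroup SL(2, ℤ)) [Γ.Normal] (σ : SL(2, ℤ)) (f : WH Γ) :
    piG Γ σ • algebraMap (WH Γ) (WHField Γ) f = algebraMap (WH Γ) (WHField Γ) (σ • f) := by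
  rw [← piG_smul, algebraMap.smul']

variable [NeZero N]

local notation "L" => WHField (Gamma N)

/-- The cusp valuation at `i∞` on `L = Frac (WH (Gamma N))`, normalised by `q_N`. -/
noncomputable def vInfL : Valuation (WHField (Gamma N)) ℤᵐ⁰ :=
  cuspValFrac (NeZero.pos N) (Gamma N) (T_pow_mem_Gamma N) (WHField (Gamma N))

lemma vInfL_algebraMap (f : WH (Gamma N)) :
    vInfL N (algebraMap (WH (Gamma N)) (WHField (Gamma N)) f) =
      cuspVal (NeZero.pos N) (Gamma N) (T_pow_mem_Gamma N) f :=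
  cuspValFrac_algebraMap _ _ _ _ f

/-- The valuation of `L` at the cusp `δ • i∞`. -/
noncomputable def vAtL (δ : SL(2, ℤ)) : Valuation (WHField (Gamma N)) ℤᵐ⁰ :=
  GaloisPlaces.conj (vInfL N) (piG (Gamma N) δ)

lemma vAtL_apply (δ : SL(2, ℤ)) (h : WHField (Gamma N)) :
    vAtL N δ h = vInfL N ((piG (Gamma N) δ)⁻¹ • h) := rfl

lemma vAtL_algebraMap (δ : SL(2, ℤ)) (f : WH (Gamma N)) :
    vAtL N δ (algebraMap (WH (Gamma N)) (WHField (Gamma N)) f) =
      cuspValAt (NeZero.pos N) (Gamma N) (T_pow_mem_Gamma N) δ f := by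
  rw [vAtL_apply, ← map_inv, piG_smul_algebraMap, vInfL_algebraMap]
  rfl

lemma vAtL_one : vAtL N 1 = vInfL N := by
  ext h
  rw [vAtL_apply, map_one, inv_one, one_smul]

omit [NeZero N] in
/-- Two valuations on `L` that agree on `WH (Gamma N)` are equal. -/
lemma valuation_ext_of_algebraMap {v₁ v₂ : Valuation (WHField (Gamma N)) ℤᵐ⁰}
    (h : ∀ f : WH (Gamma N), v₁ (algebraMap (WH (Gamma N)) (WHField (Gamma N)) f) =
      v₂ (algebraMap (WH (Gamma N)) (WHField (Gamma N)) f)) : v₁ = v₂ := by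
  ext x
  obtain ⟨a, b, hb, rfl⟩ := IsFractionRing.div_surjective (A := WH (Gamma N)) x
  rw [map_div₀, map_div₀, h a, h b]

lemma vAtL_mul_T_zpow (δ : SL(2, ℤ)) (k : ℤ) : vAtL N (δ * ModularGroup.T ^ k) = vAtL N δ := by
  apply valuation_ext_of_algebraMap
  intro f
  rw [vAtL_algebraMap, vAtL_algebraMap, cuspValAt_mul_T_zpow]

lemma vAtL_mul_of_mem {γ : SL(2, ℤ)} (hγ : γ ∈ Gamma N) (δ : SL(2, ℤ)) :
    vAtL N (γ * δ) = vAtL N δ := by
  apply valuation_ext_of_algebraMap
  intro f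
  rw [vAtL_algebraMap, vAtL_algebraMap, cuspValAt_mul_of_mem _ _ _ hγ]

/-- (a) **`T`-invariance** of the cusp valuation on `L`. -/
theorem vInfL_smul_of_mem_zpowers :
    ∀ s ∈ Subgroup.zpowers (piG (Gamma N) ModularGroup.T), ∀ h : WHField (Gamma N),
      vInfL N (s • h) = vInfL N h := by
  rintro s ⟨k, rfl⟩ h
  have h1 := vAtL_mul_T_zpow N 1 (-k)
  rw [one_mul, vAtL_one] at h1
  have h2 := congrArg (fun v : Valuation (WHField (Gamma N)) ℤᵐ⁰ => v h) h1
  simp only [vAtL_apply] at h2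
  rw [← h2, map_zpow, zpow_neg, inv_inv]

/-- The order of the image of `T` in `Geff (Gamma N)`: the "true" width of `i∞` for the full
kernel `Nfull N`. -/
noncomputable def wT : ℕ := orderOf (piG (Gamma N) ModularGroup.T)

omit [NeZero N] in
lemma wT_dvd : wT N ∣ N := by
  apply orderOf_dvd_of_pow_eq_one
  rw [← map_pow]
  exact (le_ker_piG (Gamma N)) (T_pow_mem_Gamma N)

lemma wT_pos : 0 < wT N := Nat.pos_of_dvd_of_pos (wT_dvd N) (NeZero.pos N)

omit [NeZero N] in
lemma wT_mul_div : wT N * (N / wT N) = N := Nat.mul_div_cancel' (wT_dvd N)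

omit [NeZero N] in
lemma T_pow_wT_smul (f : WH (Gamma N)) : ModularGroup.T ^ (wT N) • f = f := by
  have h : piG (Gamma N) (ModularGroup.T ^ wT N) = 1 := by
    rw [map_pow, wT, pow_orderOf_eq_one]
  rw [← piG_smul, h, one_smul]

omit [NeZero N] in
/-- Every element of `WH (Gamma N)` is `wT N`-periodic and meromorphic at `i∞`. -/
lemma isPerMero_wT (f : WH (Gamma N)) : IsPerMero (wT N) (f : ℍ → ℂ) := by
  refine ⟨f.2.1, ?_, (WH.isPerMero (Gamma N) (T_pow_mem_Gamma N) f).mero⟩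
  apply periodic_of_vadd
  intro z
  have h1 := congrArg (fun g : WH (Gamma N) => (g : ℍ → ℂ) ((wT N : ℝ) +ᵥ z)) (T_pow_wT_smul N f)
  simp only [WH.smul_apply] at h1
  have h3 : (ModularGroup.T ^ wT N)⁻¹ • ((wT N : ℝ) +ᵥ z) = z := by
    have h2 := T_zpow_smul (-(wT N : ℤ)) ((wT N : ℝ) +ᵥ z)
    rw [← zpow_natCast, ← zpow_neg, h2]
    ext
    simp
  rw [h3] at h1
  exact h1.symm

/-- The order at `i∞` in `q_N` of an element of `WH (Gamma N)` is divisible by `N / wT N`. -/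
theorem cuspOrd_eq_mul (f : WH (Gamma N)) :
    cuspOrd N (f : ℍ → ℂ) = cuspOrd (wT N) (f : ℍ → ℂ) * ((N / wT N : ℕ) : ℤ) := by
  have h := cuspOrd_level (wT_pos N) (Nat.div_pos (Nat.le_of_dvd (NeZero.pos N) (wT_dvd N))
    (wT_pos N)) (isPerMero_wT N f)
  rwa [wT_mul_div] at h

lemma vInfL_algebraMap_mem_range (f : WH (Gamma N)) (hf : f ≠ 0) :
    ∃ m : ℤ, vInfL N (algebraMap (WH (Gamma N)) (WHField (Gamma N)) f) =
      exp (((N / wT N : ℕ) : ℤ) * m) := by
  rw [vInfL_algebraMap, cuspVal_apply, cuspOrd_eq_mul]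
  cases hc : cuspOrd (wT N) (f : ℍ → ℂ) with
  | top =>
    exfalso
    rw [cuspOrd_eq_top_iff (wT_pos N) (isPerMero_wT N f)] at hc
    exact hf (Subtype.ext hc)
  | coe a =>
    refine ⟨-a, ?_⟩
    have : ((a : WithTop ℤ)) * (((N / wT N : ℕ) : ℤ) : WithTop ℤ) =
        ((a * ((N / wT N : ℕ) : ℤ) : ℤ) : WithTop ℤ) := by
      rw [WithTop.coe_mul]
    rw [this, toVal_coe]
    congr 1
    ring

/-- (b) the value group of the cusp valuation on `L` is contained in `exp ((N / wT N) ℤ)`. -/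
theorem vInfL_mem_range (h : WHField (Gamma N)) (hh : h ≠ 0) :
    ∃ m : ℤ, vInfL N h = exp (((N / wT N : ℕ) : ℤ) * m) := by
  obtain ⟨a, b, hb, rfl⟩ := IsFractionRing.div_surjective (A := WH (Gamma N)) h
  have ha0 : a ≠ 0 := by
    rintro rfl
    simp at hh
  have hb0 : b ≠ 0 := nonZeroDivisors.ne_zero hb
  obtain ⟨m₁, h₁⟩ := vInfL_algebraMap_mem_range N a ha0
  obtain ⟨m₂, h₂⟩ := vInfL_algebraMap_mem_range N b hb0
  refine ⟨m₁ - m₂, ?_⟩
  rw [map_div₀, h₁, h₂, mul_sub, WithZero.exp_sub]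

theorem vInfL_algebraMap_C {c : ℂ} (hc : c ≠ 0) : vInfL N (algebraMap ℂ L c) = 1 := by
  rw [IsScalarTower.algebraMap_apply ℂ (WH (Gamma N)) L, vInfL_algebraMap, cuspVal_algebraMap _ _ _ hc]

theorem vInfL_algebraMap_X : vInfL N (algebraMap ℂ[X] L X) = exp (N : ℤ) := by
  rw [IsScalarTower.algebraMap_apply ℂ[X] (WH (Gamma N)) L, vInfL_algebraMap, algebraMap_polyWH,
    Polynomial.aeval_X, cuspVal_jWH]

theorem vInfL_algebraMap_poly {P : ℂ[X]} (hP : P ≠ 0) :
    vInfL N (algebraMap ℂ[X] L P) = exp ((N : ℤ) * P.natDegree) := by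
  rw [IsScalarTower.algebraMap_apply ℂ[X] (WH (Gamma N)) L, vInfL_algebraMap, algebraMap_polyWH,
    valuation_aeval_eq (cuspVal (NeZero.pos N) (Gamma N) (T_pow_mem_Gamma N))
      (fun c hc => cuspVal_algebraMap _ _ _ hc) ?_ P hP, cuspVal_jWH, ← WithZero.exp_nsmul]
  · congr 1
    simp [mul_comm]
  · rw [cuspVal_jWH, ← WithZero.exp_zero, WithZero.exp_lt_exp]
    exact_mod_cast NeZero.pos N

/-- (c) On `ℂ(j)`, the cusp valuation is the `N`-th power of the valuation at infinity. -/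
theorem vInfL_algebraMap_ratFunc {r : RatFunc ℂ} (hr : r ≠ 0) :
    vInfL N (algebraMap (RatFunc ℂ) L r) = exp ((N : ℤ) * r.intDegree) := by
  have hnum : r.num ≠ 0 := RatFunc.num_ne_zero hr
  have hden : r.denom ≠ 0 := RatFunc.denom_ne_zero r
  conv_lhs => rw [← RatFunc.num_div_denom r]
  rw [map_div₀, map_div₀, ← IsScalarTower.algebraMap_apply ℂ[X] (RatFunc ℂ) L,
    ← IsScalarTower.algebraMap_apply ℂ[X] (RatFunc ℂ) L, vInfL_algebraMap_poly N hnum,
    vInfL_algebraMap_poly N hden, ← WithZero.exp_sub, RatFunc.intDegree, mul_sub]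

theorem vInfL_algebraMap_ratFunc_X_inv :
    vInfL N (algebraMap (RatFunc ℂ) L (RatFunc.X)⁻¹) = exp (-(N : ℤ)) := by
  rw [vInfL_algebraMap_ratFunc N (inv_ne_zero RatFunc.X_ne_zero), RatFunc.intDegree_inv,
    RatFunc.intDegree_X, mul_neg, mul_one]

/-- Shortcut instance (the generic search diverges). -/
noncomputable instance instSMulOinfRatFunc : SMul (DW.Oinf ℂ) (RatFunc ℂ) := Algebra.toSMul

lemma algebraMap_Oinf_apply (Γ : Subgroup SL(2, ℤ)) (a : DW.Oinf ℂ) :
    algebraMap (DW.Oinf ℂ) (WHField Γ) a = algebraMap (RatFunc ℂ) (WHField Γ) (a : RatFunc ℂ) := rfl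

instance instIsScalarTowerOinfWHField (Γ : Subgroup SL(2, ℤ)) :
    IsScalarTower (DW.Oinf ℂ) (RatFunc ℂ) (WHField Γ) :=
  IsScalarTower.of_algebraMap_eq fun _ => rfl

example : SMulCommClass (Geff (Gamma N)) (DW.Oinf ℂ) L := inferInstance

/-- (c') On `ℂ(j)`, the cusp valuation is the `N`-th power of the valuation at infinity. -/
theorem vInfL_algebraMap_ratFunc' (r : RatFunc ℂ) :
    vInfL N (algebraMap (RatFunc ℂ) L r) = (DW.vInf ℂ r) ^ N := by
  by_cases hr : r = 0
  · rw [hr, map_zero, map_zero, map_zero, zero_pow (NeZero.ne N)]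
  · rw [vInfL_algebraMap_ratFunc N hr, DW.vInf_apply_of_ne_zero hr, ← WithZero.exp_nsmul]
    congr 1

/-- `hv` of `GaloisPlaces`: the cusp valuation is `≤ 1` on `Oinf`. -/
theorem vInfL_le_one (a : DW.Oinf ℂ) : vInfL N (algebraMap (DW.Oinf ℂ) L a) ≤ 1 := by
  rw [algebraMap_Oinf_apply, vInfL_algebraMap_ratFunc']
  exact pow_le_one₀ zero_le (DW.mem_Oinf_iff.mp a.2)

theorem vInfL_lt_one_iff (a : DW.Oinf ℂ) :
    vInfL N (algebraMap (DW.Oinf ℂ) L a) < 1 ↔ a ∈ IsLocalRing.maximalIdeal (DW.Oinf ℂ) := by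
  rw [DW.mem_maximalIdeal_Oinf_iff, algebraMap_Oinf_apply, vInfL_algebraMap_ratFunc']
  exact pow_lt_one_iff_of_nonneg zero_le (NeZero.ne N)

theorem vInfL_piInf :
    vInfL N (algebraMap (DW.Oinf ℂ) L (DW.piInf ℂ)) = exp (-(N : ℤ)) := by
  rw [algebraMap_Oinf_apply, DW.coe_piInf, vInfL_algebraMap_ratFunc_X_inv]

/-- `hp` of `GaloisPlaces`. -/
theorem exists_vInfL_lt_one :
    ∃ a : DW.Oinf ℂ, a ≠ 0 ∧ vInfL N (algebraMap (DW.Oinf ℂ) L a) < 1 := by
  refine ⟨DW.piInf ℂ, DW.piInf_ne_zero, ?_⟩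
  rw [vInfL_piInf, ← WithZero.exp_zero, WithZero.exp_lt_exp]
  have : (0 : ℤ) < (N : ℤ) := by exact_mod_cast NeZero.pos N
  omega

/-- `hk` of `GaloisPlaces`: the residue field at infinity is `ℂ`. -/
theorem exists_vInfL_sub_lt_one (a : DW.Oinf ℂ) :
    ∃ c : ℂ, vInfL N (algebraMap (DW.Oinf ℂ) L (a - algebraMap ℂ (DW.Oinf ℂ) c)) < 1 := by
  obtain ⟨c, hc⟩ := Fermat.Agent.M2.exists_sub_C_mem_maximalIdeal (k := ℂ) a
  exact ⟨c, (vInfL_lt_one_iff N _).mpr hc⟩

/-- `hπ` of `GaloisPlaces`. -/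
theorem under_center_vInfL :
    (GaloisPlaces.center (DW.Oinf ℂ) (vInfL N) (vInfL_le_one N)).under (DW.Oinf ℂ) =
      Ideal.span {DW.piInf ℂ} := by
  rw [← DW.maximalIdeal_Oinf_eq]
  ext a
  rw [GaloisPlaces.mem_under_center_iff, vInfL_lt_one_iff]

omit [NeZero N] in
lemma card_zpowers_piG_T :
    Nat.card (Subgroup.zpowers (piG (Gamma N) ModularGroup.T)) = wT N := Nat.card_zpowers _

/-- Shortcut instance. -/
noncomputable instance instMulSemiringActionGeffIntegralClosureOinf :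
    MulSemiringAction (Geff (Gamma N)) (integralClosure (DW.Oinf ℂ) L) :=
  instMulSemiringActionSubtypeMemSubalgebraIntegralClosure

/-- Shortcut instance. -/
noncomputable instance instMulActionGeffIdealIntegralClosureOinf :
    MulAction (Geff (Gamma N)) (Ideal (integralClosure (DW.Oinf ℂ) L)) :=
  Ideal.pointwiseDistribMulAction.toMulAction

/-- **The squeeze at infinity**: the decomposition group of the centre of the cusp valuation is
generated by the image of `T`. -/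
theorem stabilizer_center_vInfL :
    MulAction.stabilizer (Geff (Gamma N))
      (GaloisPlaces.center (DW.Oinf ℂ) (vInfL N) (vInfL_le_one N)) =
        Subgroup.zpowers (piG (Gamma N) ModularGroup.T) :=
  GaloisPlaces.stabilizer_center_eq (RatFunc ℂ) (vInfL N) (vInfL_le_one N) (exists_vInfL_lt_one N)
    ℂ (exists_vInfL_sub_lt_one N) (Subgroup.zpowers (piG (Gamma N) ModularGroup.T))
    (vInfL_smul_of_mem_zpowers N) N (N / wT N) (DW.piInf ℂ) (under_center_vInfL N)
    (vInfL_piInf N) (vInfL_mem_range N)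
    (by rw [card_zpowers_piG_T, mul_comm, wT_mul_div])

end Fermat.Agent.M2.CuspSqueeze
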