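import Fermat.Agent.M2.GaloisSetup
import Fermat.Agent.M2.NfullLe
import Fermat.Agent.M2.P1Psi

/-!
# M2 / III.e (D4): the degree `[ℂ(X₀(N)) : ℂ(j)] = ψ(N)`

`finrank_WHField_Gamma0 : finrank (RatFunc ℂ) (WHField (Gamma0 N)) = dedekindPsi N`.
-/

set_option autoImplicit false

namespace Fermat.Agent.M2.DegreePsi

open MatrixGroups CongruenceSubgroup ModularCurve

variable (N : ℕ) [NeZero N]

/-- The index of the image of `Γ₀(N)` in `Geff (Gamma N)` is the index of `Γ₀(N)`. -/
theorem index_Heff : (Heff (Gamma0 N) (Gamma N)).index = (Gamma0 N).index := by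
  have hsurj : Function.Surjective (piG (Gamma N)) := piG_surjective (Gamma N)
  rw [← Subgroup.index_comap_of_surjective (Heff (Gamma0 N) (Gamma N)) hsurj]
  congr 1
  show ((Gamma0 N).map (piG (Gamma N))).comap (piG (Gamma N)) = Gamma0 N
  rw [Subgroup.comap_map_eq]
  exact sup_eq_left.mpr (Nfull_le_Gamma0 N)

theorem card_Geff_eq :
    Nat.card (Geff (Gamma N)) =
      Nat.card (Heff (Gamma0 N) (Gamma N)) * (Gamma0 N).index := by
  rw [← index_Heff N, Subgroup.card_mul_index]

/-- **`[ℂ(X₀(N)) : ℂ(j)] = ψ(N)`.** -/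
theorem finrank_WHField_Gamma0 :
    Module.finrank (RatFunc ℂ) (WHField (Gamma0 N)) = dedekindPsi N := by
  have h1 : Nat.card (Geff (Gamma N)) = Module.finrank (RatFunc ℂ) (WHField (Gamma N)) :=
    IsGaloisGroup.card_eq_finrank (Geff (Gamma N)) (RatFunc ℂ) (WHField (Gamma N))
  have h2 : Nat.card (Heff (Gamma0 N) (Gamma N)) =
      Module.finrank (WHField (Gamma0 N)) (WHField (Gamma N)) :=
    IsGaloisGroup.card_eq_finrank (Heff (Gamma0 N) (Gamma N)) (WHField (Gamma0 N))
      (WHField (Gamma N))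
  have h3 : Module.finrank (RatFunc ℂ) (WHField (Gamma0 N)) *
      Module.finrank (WHField (Gamma0 N)) (WHField (Gamma N)) =
      Module.finrank (RatFunc ℂ) (WHField (Gamma N)) :=
    Module.finrank_mul_finrank (RatFunc ℂ) (WHField (Gamma0 N)) (WHField (Gamma N))
  have h4 := card_Geff_eq N
  rw [h1, h2, ← h3, P1.index_Gamma0 N (NeZero.ne N)] at h4
  have hpos : 0 < Module.finrank (WHField (Gamma0 N)) (WHField (Gamma N)) := by
    rw [← h2]
    exact Nat.card_pos
  rw [mul_comm] at h4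
  exact Nat.eq_of_mul_eq_mul_left hpos h4

end Fermat.Agent.M2.DegreePsi
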