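import Fermat.Agent.M2.JSurj

/-!
# M2 / V.1 : the derivative of `j = E₄³/Δ`

With `D = (2πi)⁻¹ d/dz` (Mathlib's `Derivative.normalizedDerivOfComplex`):
`Δ · D j = - E₄² E₆`, `D j` is weight-2 invariant, and
`ord_z (D j) + 1 = ord_z (j - j z)`.
-/

namespace Fermat.Agent.M2.JDeriv

open UpperHalfPlane ModularForm ModularFormClass EisensteinSeries MatrixGroups Derivative
open scoped Manifold Topology Real

local notation "Δ" => ModularForm.discriminant
local notation "𝕢" => Function.Periodic.qParam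

open LevelOnePoly JSurj

/-! ### `D` in terms of the cusp function -/

/-- For a `1`-periodic holomorphic function bounded at `i∞`,
`D F (z) = q · φ'(q)` with `φ` the cusp function and `q = e^{2πiz}`. -/
lemma D_eq_q_mul_deriv_cuspFunction {F : ℍ → ℂ} (hF : MDiff F)
    (hper : Function.Periodic (F ∘ ofComplex) 1) (z : ℍ) :
    D F z = 𝕢 1 z * deriv (cuspFunction 1 F) (𝕢 1 z) := by
  have hq : HasDerivAt (𝕢 1) (𝕢 1 (z : ℂ) * (2 * π * Complex.I)) (z : ℂ) := by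
    have := ((hasDerivAt_id (z : ℂ)).const_mul (2 * π * Complex.I)).cexp
    simp only [id_eq, mul_one] at this
    have h2 : (𝕢 1 : ℂ → ℂ) = fun w => Complex.exp (2 * π * Complex.I * w) := by
      ext w; simp [Function.Periodic.qParam]
    rw [h2]; exact this
  have hφ : DifferentiableAt ℂ (cuspFunction 1 F) (𝕢 1 (z : ℂ)) :=
    Function.Periodic.differentiableAt_cuspFunction one_ne_zero hper
      (UpperHalfPlane.mdifferentiableAt_iff.mp (hF z))
  have hcomp : (F ∘ ofComplex) = (cuspFunction 1 F) ∘ (𝕢 1) := by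
    ext w
    exact (Function.Periodic.eq_cuspFunction one_ne_zero hper w).symm
  have hd : deriv (F ∘ ofComplex) z = deriv (cuspFunction 1 F) (𝕢 1 z) * (𝕢 1 (z : ℂ) * (2 * π * Complex.I)) := by
    rw [hcomp]
    exact (hφ.hasDerivAt.comp (z : ℂ) hq).deriv
  rw [normalizedDerivOfComplex, hd]
  have : (2 * (π : ℂ) * Complex.I) ≠ 0 := Complex.two_pi_I_ne_zero
  field_simp

/-- `D F → 0` at `i∞` for a `1`-periodic holomorphic function bounded at `i∞`. -/
lemma tendsto_D_atImInfty {F : ℍ → ℂ} (hF : MDiff F)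
    (hper : Function.Periodic (F ∘ ofComplex) 1) (hbd : IsBoundedAtImInfty F) :
    Filter.Tendsto (D F) atImInfty (𝓝 0) := by
  have hana : AnalyticAt ℂ (cuspFunction 1 F) 0 :=
    analyticAt_cuspFunction_zero one_pos hper hF hbd
  have hcont : ContinuousAt (fun q : ℂ => q * deriv (cuspFunction 1 F) q) 0 :=
    continuousAt_id.mul hana.deriv.continuousAt
  have h0 : Filter.Tendsto (fun q : ℂ => q * deriv (cuspFunction 1 F) q) (𝓝 0) (𝓝 0) := by
    simpa using hcont.tendsto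
  have := h0.comp (qParam_tendsto_atImInfty one_pos)
  refine this.congr fun z => ?_
  simp only [Function.comp_apply]
  exact (D_eq_q_mul_deriv_cuspFunction hF hper z).symm

lemma periodic_discriminant : Function.Periodic ((Δ : ℍ → ℂ) ∘ ofComplex) 1 :=
  SlashInvariantFormClass.periodic_comp_ofComplex CuspForm.discriminant one_mem_strictPeriods_SL

lemma mdiff_discriminant : MDiff (Δ : ℍ → ℂ) := CuspForm.discriminant.holo'

/-- `DΔ/Δ → 1` at `i∞`. -/
lemma tendsto_D_discriminant_div :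
    Filter.Tendsto (fun z : ℍ => D Δ z / Δ z) atImInfty (𝓝 1) := by
  set φ := cuspFunction 1 Δ with hφ
  have hbd : IsBoundedAtImInfty (Δ : ℍ → ℂ) := discriminant_isZeroAtImInfty.isBoundedAtImInfty
  have hana : AnalyticAt ℂ φ 0 :=
    analyticAt_cuspFunction_zero one_pos periodic_discriminant mdiff_discriminant hbd
  have hφ0 : φ 0 = 0 :=
    CuspFormClass.cuspFunction_apply_zero CuspForm.discriminant one_pos one_mem_strictPeriods_SL
  have hφ1 : deriv φ 0 = 1 := by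
    have := discriminant_qExpansion_coeff_one
    rw [qExpansion_coeff] at this
    simpa using this
  -- slope
  have hslope : Filter.Tendsto (fun q : ℂ => q⁻¹ * φ q) (𝓝[≠] 0) (𝓝 1) := by
    have h := hana.differentiableAt.hasDerivAt
    rw [hφ1, hasDerivAt_iff_tendsto_slope] at h
    refine h.congr fun q => ?_
    simp [slope, hφ0]
  have hderiv : Filter.Tendsto (fun q : ℂ => deriv φ q) (𝓝[≠] 0) (𝓝 1) := by
    have := hana.deriv.continuousAt.tendsto
    rw [hφ1] at this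
    exact this.mono_left nhdsWithin_le_nhds
  have hratio : Filter.Tendsto (fun q : ℂ => deriv φ q / (q⁻¹ * φ q)) (𝓝[≠] 0) (𝓝 (1 / 1)) :=
    hderiv.div hslope one_ne_zero
  have hq : Filter.Tendsto (fun τ : ℍ => 𝕢 1 τ) atImInfty (𝓝[≠] 0) :=
    (Function.Periodic.qParam_tendsto one_pos).comp tendsto_coe_atImInfty
  have := hratio.comp hq
  rw [div_one] at this
  refine this.congr fun z => ?_
  simp only [Function.comp_apply]
  rw [D_eq_q_mul_deriv_cuspFunction mdiff_discriminant periodic_discriminant z]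
  have hΔ : Δ z = φ (𝕢 1 z) := (eq_cuspFunction z one_ne_zero periodic_discriminant).symm
  rw [hΔ]
  have hqne : 𝕢 1 (z : ℂ) ≠ 0 := Function.Periodic.qParam_ne_zero _
  rw [← hφ]
  field_simp

/-! ### The function `j` and its derivative -/

/-- `j = E₄³/Δ` as a function on `ℍ`. -/
noncomputable def jF : ℍ → ℂ := fun z => E₄ z ^ 3 / Δ z

lemma jF_apply (z : ℍ) : jF z = E₄ z ^ 3 / Δ z := rfl

lemma mdiff_E₄ : MDiff (E₄ : ℍ → ℂ) := ModularFormClass.holo E₄
lemma mdiff_E₆ : MDiff (E₆ : ℍ → ℂ) := ModularFormClass.holo E₆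

lemma mdiff_E₄_cube : MDiff (fun z : ℍ => E₄ z ^ 3) := by
  have : (fun z => E₄ z ^ 3) = (E₄ : ℍ → ℂ) * ((E₄ : ℍ → ℂ) * (E₄ : ℍ → ℂ)) := by
    ext z; simp only [Pi.mul_apply]; ring
  rw [this]; exact mdiff_E₄.mul (mdiff_E₄.mul mdiff_E₄)

lemma mdiff_jF : MDiff jF := mdiff_E₄_cube.div mdiff_discriminant discriminant_ne_zero

lemma jF_slash (γ : SL(2, ℤ)) : jF ∣[(0 : ℤ)] γ = jF := by
  have : jF = (fun z : ℍ => E₄ z ^ 3) / (Δ : ℍ → ℂ) := rfl
  rw [this, show (0 : ℤ) = 12 - 12 by norm_num, div_slash_SL2, E₄_cube_slash, discriminant_slash]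

lemma jF_mul_discriminant (z : ℍ) : jF z * Δ z = E₄ z ^ 3 :=
  div_mul_cancel₀ _ (discriminant_ne_zero z)

/-- `D j` is slash-invariant of weight `2`. -/
lemma D_jF_slash (γ : SL(2, ℤ)) : D jF ∣[(2 : ℤ)] γ = D jF := by
  have h := normalizedDerivOfComplex_SL_slash (k := 0) mdiff_jF (γ := γ)
  rw [jF_slash] at h
  have h3 : (fun z : ℍ => (((0 : ℤ) : ℂ)) * (2 * π * Complex.I)⁻¹ * (γ 1 0 / denom γ z) *
      (jF) z) = 0 := by
    ext z; simp
  rw [h3, sub_zero] at h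
  simpa using h.symm

lemma mdiff_D_jF : MDiff (D jF) := normalizedDerivOfComplex_mdifferentiable mdiff_jF

/-- `Δ · D j = D(E₄³) - E₄³ · DΔ/Δ`. -/
lemma discriminant_mul_D_jF (z : ℍ) :
    Δ z * D jF z = D (fun w : ℍ => E₄ w ^ 3) z - E₄ z ^ 3 * (D Δ z / Δ z) := by
  have h1 : (fun w : ℍ => E₄ w ^ 3) = jF * (Δ : ℍ → ℂ) := by
    ext w; exact (jF_mul_discriminant w).symm
  have h2 := congrFun (normalizedDerivOfComplex_mul jF Δ mdiff_jF mdiff_discriminant) z
  rw [h1, h2]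
  simp only [Pi.add_apply, Pi.mul_apply]
  have hΔ := discriminant_ne_zero z
  rw [jF_apply]
  field_simp
  ring

lemma periodic_E₄ : Function.Periodic ((E₄ : ℍ → ℂ) ∘ ofComplex) 1 :=
  SlashInvariantFormClass.periodic_comp_ofComplex E₄ one_mem_strictPeriods_SL

lemma tendsto_E₆_atImInfty : Filter.Tendsto (E₆ : ℍ → ℂ) atImInfty (𝓝 1) := by
  have := tendsto_atImInfty_coeff_zero E₆
  rwa [E_qExpansion_coeff_zero (k := 6) (by norm_num) ⟨3, rfl⟩] at this

/-- `Δ · D j → -1` at `i∞`. -/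
lemma tendsto_discriminant_mul_D_jF :
    Filter.Tendsto (fun z : ℍ => Δ z * D jF z) atImInfty (𝓝 (-1)) := by
  have hE₄bd : IsBoundedAtImInfty (E₄ : ℍ → ℂ) := ModularFormClass.bdd_at_infty E₄
  have hDE₄ : Filter.Tendsto (D (E₄ : ℍ → ℂ)) atImInfty (𝓝 0) :=
    tendsto_D_atImInfty mdiff_E₄ periodic_E₄ hE₄bd
  have hpow : D (fun w : ℍ => E₄ w ^ 3) = fun z => 3 * E₄ z ^ 2 * D (E₄ : ℍ → ℂ) z := by
    ext z
    have h3 := congrFun (normalizedDerivOfComplex_pow (E₄ : ℍ → ℂ) 3 mdiff_E₄) z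
    have h' : (fun w : ℍ => E₄ w ^ 3) = (E₄ : ℍ → ℂ) ^ 3 := rfl
    rw [h', h3]
    simp [Pi.mul_apply, Pi.pow_apply]
  have h1 : Filter.Tendsto (D (fun w : ℍ => E₄ w ^ 3)) atImInfty (𝓝 0) := by
    rw [hpow]
    have := ((tendsto_E₄_atImInfty.pow 2).const_mul 3).mul hDE₄
    simpa using this
  have h2 : Filter.Tendsto (fun z : ℍ => E₄ z ^ 3 * (D Δ z / Δ z)) atImInfty (𝓝 1) := by
    have := (tendsto_E₄_atImInfty.pow 3).mul tendsto_D_discriminant_div
    simpa using this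
  have := h1.sub h2
  rw [zero_sub] at this
  refine this.congr fun z => ?_
  exact (discriminant_mul_D_jF z).symm

/-! ### Identification `Δ · D j = -E₄² E₆` -/

lemma rank_weight_fourteen : Module.rank ℂ (ModularForm 𝒮ℒ 14) = 1 := by
  have := dimension_level_one 14 ⟨7, rfl⟩
  simpa [Nat.ModEq] using this

/-- `E₄² E₆` as a modular form of weight 14. -/
noncomputable def E₄sqE₆ : ModularForm 𝒮ℒ 14 :=
  ModularForm.mcast (by norm_num) ((E₄.mul E₄).mul E₆)

lemma E₄sqE₆_apply (z : ℍ) : E₄sqE₆ z = E₄ z ^ 2 * E₆ z := by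
  rw [E₄sqE₆, ModularForm.mcast_apply, pow_two]
  rfl

lemma tendsto_E₄sqE₆ : Filter.Tendsto (E₄sqE₆ : ℍ → ℂ) atImInfty (𝓝 1) := by
  have := (tendsto_E₄_atImInfty.pow 2).mul tendsto_E₆_atImInfty
  simp only [one_pow, mul_one] at this
  refine this.congr fun z => ?_
  exact (E₄sqE₆_apply z).symm

/-- `Δ · D j` as a modular form of weight 14. -/
noncomputable def discMulDj : ModularForm 𝒮ℒ 14 :=
  mkLevelOne 14 (fun z => Δ z * D jF z) (mdiff_discriminant.mul mdiff_D_jF)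
    (fun γ => by
      have : (fun z : ℍ => Δ z * D jF z) = (Δ : ℍ → ℂ) * D jF := rfl
      rw [this, show (14 : ℤ) = 12 + 2 by norm_num, mul_slash_SL2, discriminant_slash,
        D_jF_slash])
    (tendsto_discriminant_mul_D_jF.isBigO_one ℝ)

lemma discMulDj_apply (z : ℍ) : discMulDj z = Δ z * D jF z := rfl

/-- **V.1** `Δ · D j = - E₄² E₆`, where `D = (2πi)⁻¹ d/dz`. -/
theorem discriminant_mul_D_jF_eq (z : ℍ) : Δ z * D jF z = -(E₄ z ^ 2 * E₆ z) := by
  have hE0 : E₄sqE₆ ≠ 0 := by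
    intro h
    have h1 := tendsto_E₄sqE₆
    rw [h] at h1
    have h2 : Filter.Tendsto ((0 : ModularForm 𝒮ℒ 14) : ℍ → ℂ) atImInfty (𝓝 0) := by
      have h3 : ((0 : ModularForm 𝒮ℒ 14) : ℍ → ℂ) = fun _ => (0 : ℂ) := rfl
      rw [h3]; exact tendsto_const_nhds
    exact one_ne_zero (tendsto_nhds_unique h1 h2)
  obtain ⟨c, hc⟩ := (finrank_eq_one_iff_of_nonzero' E₄sqE₆ hE0).mp
    (Module.rank_eq_one_iff_finrank_eq_one.mp rank_weight_fourteen) discMulDj
  have hcz : ∀ w : ℍ, c * E₄sqE₆ w = discMulDj w := fun w => by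
    rw [← hc]; rfl
  have hc1 : c = -1 := by
    have h1 : Filter.Tendsto (fun w : ℍ => c * E₄sqE₆ w) atImInfty (𝓝 (c * 1)) :=
      tendsto_E₄sqE₆.const_mul c
    have h2 : Filter.Tendsto (fun w : ℍ => c * E₄sqE₆ w) atImInfty (𝓝 (-1)) := by
      refine tendsto_discriminant_mul_D_jF.congr fun w => ?_
      rw [hcz w, discMulDj_apply]
    have := tendsto_nhds_unique h1 h2
    simpa using this
  rw [← discMulDj_apply, ← hcz z, hc1, E₄sqE₆_apply]
  ring

/-- **V.1** `D j = - E₄² E₆ / Δ`. -/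
theorem D_jF_eq (z : ℍ) : D jF z = -(E₄ z ^ 2 * E₆ z) / Δ z := by
  rw [← discriminant_mul_D_jF_eq z, mul_div_cancel_left₀ _ (discriminant_ne_zero z)]

/-! ### Orders of vanishing -/

/-- For any holomorphic `F` on `ℍ`: `ord_z (D F) + 1 = ord_z (F - F z)`. -/
theorem analyticOrderAt_D_add_one {F : ℍ → ℂ} (hF : MDiff F) (z₀ : ℍ) :
    analyticOrderAt ((D F) ∘ ofComplex) (z₀ : ℂ) + 1 =
      analyticOrderAt (fun w : ℂ => F (ofComplex w) - F z₀) (z₀ : ℂ) := by
  set f : ℂ → ℂ := F ∘ ofComplex with hf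
  have hopen : upperHalfPlaneSet ∈ 𝓝 (z₀ : ℂ) := isOpen_upperHalfPlaneSet.mem_nhds z₀.im_pos
  have hdiff : DifferentiableOn ℂ f upperHalfPlaneSet := UpperHalfPlane.mdifferentiable_iff.mp hF
  have hana : AnalyticAt ℂ f (z₀ : ℂ) := hdiff.analyticAt hopen
  have h1 := hana.analyticOrderAt_deriv_add_one
  have hfz : f (z₀ : ℂ) = F z₀ := by simp [hf]
  have h2 : (fun w : ℂ => f w - f (z₀ : ℂ)) = fun w : ℂ => F (ofComplex w) - F z₀ := by
    ext w; rw [hfz]; rfl
  rw [h2] at h1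
  rw [← h1]
  congr 1
  have hc : (2 * (π : ℂ) * Complex.I)⁻¹ ≠ 0 := inv_ne_zero Complex.two_pi_I_ne_zero
  have heq : ((D F) ∘ ofComplex) =ᶠ[𝓝 (z₀ : ℂ)]
      ((fun _ : ℂ => (2 * (π : ℂ) * Complex.I)⁻¹) * deriv f) := by
    filter_upwards [hopen] with w hw
    simp only [Function.comp_apply, normalizedDerivOfComplex, Pi.mul_apply]
    rw [ofComplex_apply_of_im_pos hw]
  rw [analyticOrderAt_congr heq, analyticOrderAt_mul analyticAt_const hana.deriv]
  have : analyticOrderAt (fun _ : ℂ => (2 * (π : ℂ) * Complex.I)⁻¹) (z₀ : ℂ) = 0 :=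
    analyticOrderAt_eq_zero.mpr (Or.inr hc)
  rw [this, zero_add]

/-- **V.1** `ord_z (D j) + 1 = ord_z (j - j z)`. -/
theorem analyticOrderAt_D_jF_add_one (z₀ : ℍ) :
    analyticOrderAt ((D jF) ∘ ofComplex) (z₀ : ℂ) + 1 =
      analyticOrderAt (fun w : ℂ => jF (ofComplex w) - jF z₀) (z₀ : ℂ) :=
  analyticOrderAt_D_add_one mdiff_jF z₀

/-! ### Companion identities -/

/-- `j - 1728 = E₆²/Δ`. -/
theorem jF_sub_1728 (z : ℍ) : jF z - 1728 = E₆ z ^ 2 / Δ z := by
  have h := discriminant_eq_E₄_cube_sub_E₆_sq z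
  have hΔ := discriminant_ne_zero z
  rw [jF_apply]
  field_simp
  rw [h]
  ring

/-- `(D j)² = E₄⁴ E₆² / Δ²`. -/
theorem D_jF_sq (z : ℍ) : D jF z ^ 2 = E₄ z ^ 4 * E₆ z ^ 2 / Δ z ^ 2 := by
  rw [D_jF_eq]
  have hΔ := discriminant_ne_zero z
  field_simp

/-- `(D j)⁶ = j⁴ (j - 1728)³ Δ`. -/
theorem D_jF_pow_six (z : ℍ) : D jF z ^ 6 = jF z ^ 4 * (jF z - 1728) ^ 3 * Δ z := by
  rw [jF_sub_1728, D_jF_eq, jF_apply]
  have hΔ := discriminant_ne_zero z
  field_simp

/-- Zeros of `D j` are exactly the zeros of `E₄` and `E₆`. -/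
theorem D_jF_eq_zero_iff (z : ℍ) : D jF z = 0 ↔ E₄ z = 0 ∨ E₆ z = 0 := by
  rw [D_jF_eq, div_eq_zero_iff, neg_eq_zero, mul_eq_zero, pow_eq_zero_iff (by norm_num)]
  have hΔ := discriminant_ne_zero z
  tauto

end Fermat.Agent.M2.JDeriv
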