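import Fermat.Agent.M2.WH
import Fermat.Agent.M2.JDeriv

/-!
# M2 / V.3 (part 1) : the map `f ↦ f / j'` from `S₂(Γ₀(N))` to `Frac (WH Γ₀(N))`

With `D = (2πi)⁻¹ d/dz`, `Dj := D j`, we write
`f / Dj = (f · Dj⁵ / Δ) / (j⁴ (j - 1728)³)`; both numerator and denominator lie in `WH Γ₀(N)`.
-/

set_option autoImplicit false

namespace Fermat.Agent.M2.DiffIso

open UpperHalfPlane ModularForm MatrixGroups CongruenceSubgroup Derivative
open scoped Manifold Topology

local notation "Δ" => ModularForm.discriminant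

lemma jF_eq_jInv : JDeriv.jF = jInv := rfl

/-- `Dj = D j`, the normalised derivative of `j`. -/
noncomputable def Dj : ℍ → ℂ := D jInv

lemma Dj_eq (z : ℍ) : Dj z = -(E₄ z ^ 2 * E₆ z) / Δ z := JDeriv.D_jF_eq z

lemma mdiff_Dj : MDiff Dj := JDeriv.mdiff_D_jF

lemma Dj_smul (γ : SL(2, ℤ)) (z : ℍ) : Dj (γ • z) = denom γ z ^ (2 : ℤ) * Dj z := by
  have h := congrFun (JDeriv.D_jF_slash γ) z
  rw [SL_slash_apply] at h
  have hd : denom γ z ≠ 0 := denom_ne_zero γ z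
  have h2 : Dj (γ • z) * denom γ z ^ (-(2 : ℤ)) = Dj z := h
  rw [← h2, zpow_neg]
  field_simp

lemma Dj_pow_six (z : ℍ) : Dj z ^ 6 = jInv z ^ 4 * (jInv z - 1728) ^ 3 * Δ z :=
  JDeriv.D_jF_pow_six z

lemma discriminant_mul_Dj (z : ℍ) : Δ z * Dj z = -(E₄ z ^ 2 * E₆ z) :=
  JDeriv.discriminant_mul_D_jF_eq z

section Forward

variable {N : ℕ}

/-- Transformation law of a weight-2 cusp form on `Γ₀(N)`. -/
lemma cuspForm_smul (f : CuspForm (Gamma0 N) 2) {γ : SL(2, ℤ)} (hγ : γ ∈ Gamma0 N) (z : ℍ) :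
    f (γ • z) = denom γ z ^ (2 : ℤ) * f z :=
  SlashInvariantForm.slash_action_eqn_SL'' f hγ z

/-- The numerator `f · Dj⁵ / Δ`. -/
noncomputable def numFun (f : CuspForm (Gamma0 N) 2) : ℍ → ℂ :=
  fun z => f z * Dj z ^ 5 / Δ z

lemma numFun_apply (f : CuspForm (Gamma0 N) 2) (z : ℍ) : numFun f z = f z * Dj z ^ 5 / Δ z := rfl

lemma mdiff_numFun (f : CuspForm (Gamma0 N) 2) : MDiff (numFun f) := by
  have hf : MDiff (f : ℍ → ℂ) := CuspFormClass.holo f
  have h5 : MDiff (fun z => Dj z ^ 5) := by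
    have : (fun z => Dj z ^ 5) = Dj * (Dj * (Dj * (Dj * Dj))) := by
      ext z; simp only [Pi.mul_apply]; ring
    rw [this]
    exact mdiff_Dj.mul (mdiff_Dj.mul (mdiff_Dj.mul (mdiff_Dj.mul mdiff_Dj)))
  exact (hf.mul h5).div mdiff_discriminant discriminant_ne_zero

lemma numFun_smul (f : CuspForm (Gamma0 N) 2) {γ : SL(2, ℤ)} (hγ : γ ∈ Gamma0 N) (z : ℍ) :
    numFun f (γ • z) = numFun f z := by
  have hd : denom γ z ≠ 0 := denom_ne_zero γ z
  have hΔ := discriminant_ne_zero z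
  rw [numFun_apply, numFun_apply, cuspForm_smul f hγ, Dj_smul, discriminant_smul]
  have e2 : denom γ z ^ (2 : ℤ) = denom γ z ^ 2 := zpow_ofNat _ 2
  have e12 : denom γ z ^ (12 : ℤ) = denom γ z ^ 12 := zpow_ofNat _ 12
  rw [e2, e12]
  field_simp

/-- `numFun f (δ z) · Δ(z)⁶ = (f ∣[2] δ)(z) · (Δ Dj)⁵(z)`. -/
lemma numFun_smul_mul (f : CuspForm (Gamma0 N) 2) (δ : SL(2, ℤ)) (z : ℍ) :
    numFun f (δ • z) * Δ z ^ 6 = ((f : ℍ → ℂ) ∣[(2 : ℤ)] δ) z * (-(E₄ z ^ 2 * E₆ z)) ^ 5 := by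
  have hd : denom δ z ≠ 0 := denom_ne_zero δ z
  have hΔ := discriminant_ne_zero z
  rw [numFun_apply, Dj_smul, discriminant_smul, SL_slash_apply, ← discriminant_mul_Dj]
  have e2 : denom δ z ^ (2 : ℤ) = denom δ z ^ 2 := zpow_ofNat _ 2
  have e12 : denom δ z ^ (12 : ℤ) = denom δ z ^ 12 := zpow_ofNat _ 12
  have em2 : denom δ z ^ (-(2 : ℤ)) = (denom δ z ^ 2)⁻¹ := by rw [zpow_neg, e2]
  rw [e2, e12, em2]
  field_simp

lemma isWH_numFun [NeZero N] (f : CuspForm (Gamma0 N) 2) : IsWH (Gamma0 N) (numFun f) := by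
  refine ⟨mdiff_numFun f, fun γ hγ z => numFun_smul f hγ z, fun δ => ⟨6, ?_⟩⟩
  have h : (fun z : ℍ => numFun f (δ • z) * Δ z ^ 6) =
      ((f : ℍ → ℂ) ∣[(2 : ℤ)] δ) * fun z => (-(E₄ z ^ 2 * E₆ z)) ^ 5 := by
    ext z; exact numFun_smul_mul f δ z
  rw [h]
  have hf : IsBoundedAtImInfty ((f : ℍ → ℂ) ∣[(2 : ℤ)] δ) :=
    (CuspFormClass.zero_at_infty_slash f δ).isBoundedAtImInfty
  have h4 : IsBoundedAtImInfty (E₄ : ℍ → ℂ) := ModularFormClass.bdd_at_infty E₄
  have h6 : IsBoundedAtImInfty (E₆ : ℍ → ℂ) := ModularFormClass.bdd_at_infty E₆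
  have hE : IsBoundedAtImInfty (fun z : ℍ => -(E₄ z ^ 2 * E₆ z)) := by
    have : (fun z : ℍ => -(E₄ z ^ 2 * E₆ z)) = -((E₄ : ℍ → ℂ) * (E₄ : ℍ → ℂ) * (E₆ : ℍ → ℂ)) := by
      ext z; simp [pow_two]
    rw [this]
    exact ((h4.mul h4).mul h6).neg
  have hE5 : IsBoundedAtImInfty (fun z : ℍ => (-(E₄ z ^ 2 * E₆ z)) ^ 5) := by
    have : (fun z : ℍ => (-(E₄ z ^ 2 * E₆ z)) ^ 5) =
        (fun z : ℍ => -(E₄ z ^ 2 * E₆ z)) * ((fun z : ℍ => -(E₄ z ^ 2 * E₆ z)) *
          ((fun z : ℍ => -(E₄ z ^ 2 * E₆ z)) * ((fun z : ℍ => -(E₄ z ^ 2 * E₆ z)) *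
            (fun z : ℍ => -(E₄ z ^ 2 * E₆ z))))) := by
      ext z; simp only [Pi.mul_apply]; ring
    rw [this]
    exact hE.mul (hE.mul (hE.mul (hE.mul hE)))
  exact hf.mul hE5

/-- The numerator as an element of `WH Γ₀(N)`. -/
noncomputable def num [NeZero N] (f : CuspForm (Gamma0 N) 2) : WH (Gamma0 N) := ⟨numFun f, isWH_numFun f⟩

/-- The denominator `j⁴ (j - 1728)³ = Dj⁶ / Δ` as an element of `WH Γ`. -/
noncomputable def den (Γ : Subgroup SL(2, ℤ)) : WH Γ :=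
  jWH Γ ^ 4 * (jWH Γ - algebraMap ℂ (WH Γ) 1728) ^ 3

lemma den_apply (Γ : Subgroup SL(2, ℤ)) (z : ℍ) :
    (den Γ : ℍ → ℂ) z = jInv z ^ 4 * (jInv z - 1728) ^ 3 := rfl

lemma den_ne_zero (Γ : Subgroup SL(2, ℤ)) : den Γ ≠ 0 := by
  intro h
  obtain ⟨z, hz⟩ := JSurj.exists_j_eq 1
  have h1 : (den Γ : ℍ → ℂ) z = 0 := by rw [h]; rfl
  rw [den_apply] at h1
  have hj : jInv z = 1 := hz
  rw [hj] at h1
  norm_num at h1

lemma numFun_mul_Dj (f : CuspForm (Gamma0 N) 2) (z : ℍ) :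
    numFun f z * Dj z = f z * (jInv z ^ 4 * (jInv z - 1728) ^ 3) := by
  have hΔ := discriminant_ne_zero z
  rw [numFun_apply, div_mul_eq_mul_div, mul_assoc, ← pow_succ, Dj_pow_six]
  field_simp

lemma Dj_ne_zero : Dj ≠ 0 := by
  intro h
  obtain ⟨z, hz⟩ := JSurj.exists_j_eq 1
  have h6 := Dj_pow_six z
  have hj : jInv z = 1 := hz
  rw [h, hj] at h6
  have hΔ := discriminant_ne_zero z
  simp only [Pi.zero_apply] at h6
  norm_num at h6
  exact hΔ h6

variable [NeZero N]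

lemma num_add (f g : CuspForm (Gamma0 N) 2) : num (f + g) = num f + num g := by
  apply WH.ext; intro z
  show numFun (f + g) z = numFun f z + numFun g z
  simp only [numFun_apply, FunLike.coe_add, Pi.add_apply]
  ring

lemma num_smul (c : ℂ) (f : CuspForm (Gamma0 N) 2) : num (c • f) = c • num f := by
  apply WH.ext; intro z
  show numFun (c • f) z = c * numFun f z
  simp only [numFun_apply, FunLike.coe_smul, Pi.smul_apply, smul_eq_mul]
  ring

lemma num_eq_zero_iff (f : CuspForm (Gamma0 N) 2) : num f = 0 ↔ f = 0 := by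
  constructor
  · intro h
    have h1 : ∀ z, f z * Dj z ^ 5 = 0 := by
      intro z
      have h2 : numFun f z = 0 := by
        have := congrArg (fun u : WH (Gamma0 N) => (u : ℍ → ℂ) z) h
        simpa [num] using this
      rw [numFun_apply, div_eq_zero_iff] at h2
      exact h2.resolve_right (discriminant_ne_zero z)
    have hf : MDiff (f : ℍ → ℂ) := CuspFormClass.holo f
    have h5 : MDiff (fun z => Dj z ^ 5) := by
      have : (fun z => Dj z ^ 5) = Dj * (Dj * (Dj * (Dj * Dj))) := by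
        ext z; simp only [Pi.mul_apply]; ring
      rw [this]
      exact mdiff_Dj.mul (mdiff_Dj.mul (mdiff_Dj.mul (mdiff_Dj.mul mdiff_Dj)))
    have h50 : (fun z => Dj z ^ 5) ≠ 0 := by
      intro h0
      apply Dj_ne_zero
      ext z
      have := congrFun h0 z
      simpa using this
    have := Removable.eq_of_mul_eq_uhp (g := fun z => Dj z ^ 5) (h₁ := (f : ℍ → ℂ)) (h₂ := 0) h5 h50
      hf.continuous continuous_zero (fun z => by simpa using h1 z)
    exact DFunLike.coe_injective (by simpa using this)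
  · rintro rfl
    apply WH.ext; intro z
    show numFun (0 : CuspForm (Gamma0 N) 2) z = 0
    simp [numFun_apply]

/-- **V.3 (forward map)** `f ↦ f / Dj` as a linear map `S₂(Γ₀(N)) → Frac (WH Γ₀(N))`. -/
noncomputable def toK : CuspForm (Gamma0 N) 2 →ₗ[ℂ] FractionRing (WH (Gamma0 N)) where
  toFun f := algebraMap (WH (Gamma0 N)) (FractionRing (WH (Gamma0 N))) (num f) /
    algebraMap (WH (Gamma0 N)) (FractionRing (WH (Gamma0 N))) (den (Gamma0 N))
  map_add' f g := by rw [num_add, map_add, add_div]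
  map_smul' c f := by
    rw [num_smul, RingHom.id_apply, Algebra.smul_def, Algebra.smul_def, map_mul, mul_div_assoc]
    rfl

lemma toK_apply (f : CuspForm (Gamma0 N) 2) :
    toK f = algebraMap (WH (Gamma0 N)) (FractionRing (WH (Gamma0 N))) (num f) /
      algebraMap (WH (Gamma0 N)) (FractionRing (WH (Gamma0 N))) (den (Gamma0 N)) := rfl

lemma toK_injective : Function.Injective (toK (N := N)) := by
  rw [← LinearMap.ker_eq_bot, LinearMap.ker_eq_bot']
  intro f hf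
  rw [toK_apply, div_eq_zero_iff] at hf
  have hinj := IsFractionRing.injective (WH (Gamma0 N)) (FractionRing (WH (Gamma0 N)))
  rcases hf with h | h
  · exact (num_eq_zero_iff f).mp (hinj (by rw [h, map_zero]))
  · exact absurd (hinj (by rw [h, map_zero])) (den_ne_zero _)

end Forward

end Fermat.Agent.M2.DiffIso
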