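import Fermat.Agent.M2.DiffIso3

/-!
# M2 / V.3 (part 4) : the characterisation of `range toK` in "`< 1`" form

`a / b ∈ range toK ↔ (∀ z, ord_z b < ord_z (a · (j - j z))) ∧ (∀ δ, ord_δ b < ord_δ (a · j))`,
and the same with the valuation `ordValFrac` at the finite places.
-/

set_option autoImplicit false
set_option linter.deprecated false

namespace Fermat.Agent.M2.DiffIso

open UpperHalfPlane ModularForm MatrixGroups CongruenceSubgroup Derivative Filter Function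
open scoped Manifold Topology

local notation "Δ" => ModularForm.discriminant

open CuspVal OrdVal

lemma mdiff_jInv_sub_const (c : ℂ) : MDiff (fun w : ℍ => jInv w - c) :=
  mdiff_jInv.sub mdifferentiable_const

/-- `ord_z (a · (j - j z)) = ord_z a + ord_z Dj + 1`. -/
lemma ordAt_mul_jInv_sub {a : ℍ → ℂ} (ha : MDiff a) (z : ℍ) :
    ordAt z (fun w => a w * (jInv w - jInv z)) = ordAt z a + ordAt z Dj + 1 := by
  have h : (fun w => a w * (jInv w - jInv z)) = a * fun w => jInv w - jInv z := rfl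
  rw [h, ordAt_mul ha (mdiff_jInv_sub_const _) z, ← ordAt_Dj_add_one z, add_assoc]

/-- Finite places, `<` form. -/
lemma ordAt_lt_iff {a b : ℍ → ℂ} (ha : MDiff a) (hb : MDiff b) (hb0 : b ≠ 0) (z : ℍ) :
    ordAt z b < ordAt z (fun w => a w * (jInv w - jInv z)) ↔
      ordAt z b ≤ ordAt z a + ordAt z Dj := by
  rw [ordAt_mul_jInv_sub ha z]
  have hbt : ordAt z b ≠ ⊤ := ordAt_ne_top hb hb0 z
  obtain ⟨β, hβ⟩ := ENat.ne_top_iff_exists.mp hbt
  rw [← hβ]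
  cases hα : ordAt z a + ordAt z Dj with
  | top => simp
  | coe α =>
    have e1 : ((α : ℕ∞) + 1) = ((α + 1 : ℕ) : ℕ∞) := by push_cast; rfl
    rw [e1, Nat.cast_lt, Nat.cast_le]
    omega

section Cusp

variable {N : ℕ}

lemma cuspOrd_comp_smul_mul_jInv (hN : 0 < N) (a : WH (Gamma0 N)) (δ : SL(2, ℤ)) :
    cuspOrd N (fun z => (a : ℍ → ℂ) (δ • z) * jInv z) =
      cuspOrd N (fun z => (a : ℍ → ℂ) (δ • z)) + ((-(N : ℤ) : ℤ) : WithTop ℤ) := by
  have h : (fun z => (a : ℍ → ℂ) (δ • z) * jInv z) = (fun z => (a : ℍ → ℂ) (δ • z)) * jInv := rfl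
  rw [h, cuspOrd_mul hN (isPerMero_comp_smul a δ) (isPerMero_jInv N), cuspOrd_jInv hN]

/-- Cusps, `<` form. -/
lemma cuspOrd_lt_iff (hN : 0 < N) (a b : WH (Gamma0 N)) (hb : b ≠ 0) (δ : SL(2, ℤ)) :
    cuspOrd N (fun z => (b : ℍ → ℂ) (δ • z)) <
        cuspOrd N (fun z => (a : ℍ → ℂ) (δ • z) * jInv z) ↔
      cuspOrd N (fun z => (b : ℍ → ℂ) (δ • z)) + (((N : ℤ) + 1 : ℤ) : WithTop ℤ) ≤
        cuspOrd N (fun z => (a : ℍ → ℂ) (δ • z)) := by
  rw [cuspOrd_comp_smul_mul_jInv hN a δ]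
  have hB0 : (fun z => (b : ℍ → ℂ) (δ • z)) ≠ 0 := comp_smul_ne_zero (WH.coe_ne_zero hb) δ
  have hBtop : cuspOrd N (fun z => (b : ℍ → ℂ) (δ • z)) ≠ ⊤ := fun h =>
    hB0 ((cuspOrd_eq_top_iff hN (isPerMero_comp_smul b δ)).mp h)
  obtain ⟨β, hβ⟩ := WithTop.ne_top_iff_exists.mp hBtop
  rw [← hβ]
  cases hα : cuspOrd N (fun z => (a : ℍ → ℂ) (δ • z)) with
  | top => simp
  | coe α =>
    rw [← WithTop.coe_add, ← WithTop.coe_add, WithTop.coe_lt_coe, WithTop.coe_le_coe]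
    omega

end Cusp

section Final

variable {N : ℕ} [NeZero N]

/-- **V.3, `<` form.** -/
theorem mem_range_toK_iff_lt (a b : WH (Gamma0 N)) (hb : b ≠ 0) :
    algebraMap (WH (Gamma0 N)) (FractionRing (WH (Gamma0 N))) a /
      algebraMap (WH (Gamma0 N)) (FractionRing (WH (Gamma0 N))) b ∈ LinearMap.range (toK (N := N))
      ↔ (∀ z : ℍ, ordAt z (b : ℍ → ℂ) <
            ordAt z (fun w => (a : ℍ → ℂ) w * (jInv w - jInv z))) ∧
        ∀ δ : SL(2, ℤ), cuspOrd N (fun z => (b : ℍ → ℂ) (δ • z)) <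
            cuspOrd N (fun z => (a : ℍ → ℂ) (δ • z) * jInv z) := by
  have hN : 0 < N := Nat.pos_of_ne_zero (NeZero.ne N)
  rw [mem_range_toK_iff a b hb]
  refine and_congr (forall_congr' fun z => ?_) (forall_congr' fun δ => ?_)
  · exact (ordAt_lt_iff a.2.1 b.2.1 (WH.coe_ne_zero hb) z).symm
  · exact (cuspOrd_lt_iff hN a b hb δ).symm

/-- The finite-place clause in terms of the valuation `ordVal`:
`ord_z b < ord_z (a (j - j z)) ↔ ordVal z (a (j - j z)) < ordVal z b`. -/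
lemma ordVal_lt_iff (Γ : Subgroup SL(2, ℤ)) (a b : WH Γ) (hb : b ≠ 0) (z : ℍ) :
    ordVal Γ z (a * (jWH Γ - algebraMap ℂ (WH Γ) (jInv z))) < ordVal Γ z b ↔
      ordAt z (b : ℍ → ℂ) < ordAt z (fun w => (a : ℍ → ℂ) w * (jInv w - jInv z)) := by
  set c : WH Γ := a * (jWH Γ - algebraMap ℂ (WH Γ) (jInv z)) with hc
  have hcfun : (c : ℍ → ℂ) = fun w => (a : ℍ → ℂ) w * (jInv w - jInv z) := rfl
  rw [← hcfun]
  by_cases hc0 : c = 0
  · rw [hc0, map_zero]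
    have : ((0 : WH Γ) : ℍ → ℂ) = 0 := rfl
    rw [this, ordAt_zero]
    have h1 : (0 : WithZero (Multiplicative ℤ)) < ordVal Γ z b :=
      lt_of_le_of_ne zero_le' (Ne.symm (ordVal_ne_zero Γ hb))
    have h2 : ordAt z (b : ℍ → ℂ) < ⊤ :=
      lt_top_iff_ne_top.mpr (ordAt_ne_top b.2.1 (WH.coe_ne_zero hb) z)
    exact ⟨fun _ => h2, fun _ => h1⟩
  · rw [ordVal_apply_of_ne_zero Γ hc0, ordVal_apply_of_ne_zero Γ hb, WithZero.exp_lt_exp,
      ← coe_ordNat Γ hb, ← coe_ordNat Γ hc0, Nat.cast_lt]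
    omega

end Final

end Fermat.Agent.M2.DiffIso
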