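import Mathlib
import Fermat.Agent.M2.TameDifferent
import Fermat.Agent.M2.DiffIso2
import Fermat.Agent.M2.CuspVal

/-!
# M2 / V.4: `range toK` is cut out by the algebraic valuations

* `dictionary_iff`: pure valuation theory.  Two families of `ℤᵐ⁰`-valued valuations on a field
  `K` ("analytic" ones `w` and "algebraic" ones `v`) which agree up to positive powers define the
  same conditions of the form `val (h * u) < 1`.
* `mem_traceDual_one_iff_forall_valuation_mul_lt_one`: the trace dual in this form.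
* `ordValFrac_div_mul_jSub_lt_one_iff`: the finite part of V.3 in this form.
* `mem_range_toK_iff_valuations`, `range_toK_eq`: the glue, given the cusp clause of V.3 and the
  dictionary (E1)-(E4).
-/

namespace Fermat.Agent.M2.HoloRange

open WithZero

section Abstract

variable {K : Type*} [Field K]

theorem pow_lt_one_iff_zm0 {a : ℤᵐ⁰} {n : ℕ} (hn : 1 ≤ n) : a ^ n < 1 ↔ a < 1 := by
  constructor
  · intro h
    by_contra hle
    rw [not_lt] at hle
    exact absurd h (not_lt.2 (one_le_pow₀ hle))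
  · intro h
    exact pow_lt_one₀ zero_le h (by omega)

theorem lt_one_iff_of_pow {v w : Valuation K ℤᵐ⁰} {n : ℕ} (hn : 1 ≤ n)
    (h : ∀ x, w x = v x ^ n) (x : K) : w x < 1 ↔ v x < 1 := by
  rw [h x, pow_lt_one_iff_zm0 hn]

variable [Algebra ℂ K]

/-- If `v (x - a) < 1` and `v (x - c) < 1` for constants `a, c` and `v` is trivial on nonzero
constants, then `a = c`. -/
theorem const_eq_of_lt_one {v : Valuation K ℤᵐ⁰}
    (hconst : ∀ c : ℂ, c ≠ 0 → v (algebraMap ℂ K c) = 1) {x : K} {a c : ℂ}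
    (ha : v (x - algebraMap ℂ K a) < 1) (hc : v (x - algebraMap ℂ K c) < 1) : a = c := by
  by_contra hne
  have h1 : v (algebraMap ℂ K (a - c)) = 1 := hconst _ (sub_ne_zero.2 hne)
  have h2 : algebraMap ℂ K (a - c) = (x - algebraMap ℂ K c) - (x - algebraMap ℂ K a) := by
    rw [map_sub]; ring
  rw [h2] at h1
  have h3 := Valuation.map_sub v (x - algebraMap ℂ K c) (x - algebraMap ℂ K a)
  rw [h1] at h3
  exact absurd h3 (not_le.2 (max_lt hc ha))

/-- **Abstract dictionary glue.** -/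
theorem dictionary_iff {ι₁ ι₂ κ₁ κ₂ : Type*}
    (w₁ : ι₁ → Valuation K ℤᵐ⁰) (w₂ : ι₂ → Valuation K ℤᵐ⁰)
    (v₁ : κ₁ → Valuation K ℤᵐ⁰) (v₂ : κ₂ → Valuation K ℤᵐ⁰)
    (x : K) (a₁ : ι₁ → ℂ) (c₁ : κ₁ → ℂ)
    (hw : ∀ i, w₁ i (x - algebraMap ℂ K (a₁ i)) < 1)
    (hv : ∀ k, v₁ k (x - algebraMap ℂ K (c₁ k)) < 1)
    (hconst : ∀ k (c : ℂ), c ≠ 0 → v₁ k (algebraMap ℂ K c) = 1)
    (E1 : ∀ k, ∃ i n, 1 ≤ n ∧ ∀ h, w₁ i h = v₁ k h ^ n)
    (E2 : ∀ i, ∃ k n, 1 ≤ n ∧ ∀ h, w₁ i h = v₁ k h ^ n)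
    (E3 : ∀ k, ∃ i n, 1 ≤ n ∧ ∀ h, w₂ i h = v₂ k h ^ n)
    (E4 : ∀ i, ∃ k n, 1 ≤ n ∧ ∀ h, w₂ i h = v₂ k h ^ n) (h : K) :
    ((∀ i, w₁ i (h * (x - algebraMap ℂ K (a₁ i))) < 1) ∧ (∀ i, w₂ i (h * x) < 1)) ↔
      ((∀ k, v₁ k (h * (x - algebraMap ℂ K (c₁ k))) < 1) ∧ (∀ k, v₂ k (h * x) < 1)) := by
  have key : ∀ i k n, 1 ≤ n → (∀ h, w₁ i h = v₁ k h ^ n) → a₁ i = c₁ k := by
    intro i k n hn hwv
    exact const_eq_of_lt_one (hconst k) ((lt_one_iff_of_pow hn hwv _).1 (hw i)) (hv k)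
  constructor
  · rintro ⟨h1, h2⟩
    refine ⟨fun k => ?_, fun k => ?_⟩
    · obtain ⟨i, n, hn, hwv⟩ := E1 k
      rw [← key i k n hn hwv, ← lt_one_iff_of_pow hn hwv]
      exact h1 i
    · obtain ⟨i, n, hn, hwv⟩ := E3 k
      rw [← lt_one_iff_of_pow hn hwv]
      exact h2 i
  · rintro ⟨h1, h2⟩
    refine ⟨fun i => ?_, fun i => ?_⟩
    · obtain ⟨k, n, hn, hwv⟩ := E2 i
      rw [key i k n hn hwv, lt_one_iff_of_pow hn hwv]
      exact h1 k
    · obtain ⟨k, n, hn, hwv⟩ := E4 i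
      rw [lt_one_iff_of_pow hn hwv]
      exact h2 k

end Abstract

section Algebraic

theorem le_exp_sub_one_iff (a : ℤᵐ⁰) (e : ℤ) : a ≤ exp (e - 1) ↔ a * exp (-e) < 1 := by
  induction a using WithZero.expRecOn with
  | zero => simp
  | exp m =>
    rw [← exp_add, ← exp_zero, exp_le_exp, exp_lt_exp]
    omega

open IsDedekindDomain

variable (A K : Type*) (L : Type*) (B : Type*) [CommRing A] [Field K] [CommRing B] [Field L]
variable [Algebra A K] [Algebra B L] [Algebra A B] [Algebra K L] [Algebra A L]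
variable [IsScalarTower A K L] [IsScalarTower A B L]
variable [IsDomain A] [IsFractionRing A K] [FiniteDimensional K L] [Algebra.IsSeparable K L]
  [IsIntegralClosure B A L] [IsDedekindDomain A] [IsDedekindDomain B] [Module.IsTorsionFree A B]
  [IsFractionRing B L] [Module.Finite A B]

/-- Valuative description of the trace dual without ramification indices: if `π v` generates the
prime of `A` below `v`, then `x ∈ traceDual A K 1 ↔ ∀ v, v (x * π v) < 1`. -/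
theorem mem_traceDual_one_iff_forall_valuation_mul_lt_one
    (hchar : ∀ p : Ideal A, p.IsMaximal → CharZero (A ⧸ p))
    (π : HeightOneSpectrum B → A)
    (hπ : ∀ v : HeightOneSpectrum B, v.asIdeal.under A = Ideal.span {π v}) (x : L) :
    x ∈ Submodule.traceDual A K (1 : Submodule B L) ↔
      ∀ v : HeightOneSpectrum B, v.valuation L (x * algebraMap A L (π v)) < 1 := by
  rw [TameDifferent.mem_traceDual_one_iff_forall_valuation A K L B hchar]
  refine forall_congr' fun v => ?_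
  rw [map_mul, TameDifferent.valuation_algebraMap_eq_exp_neg_ramificationIdx A K L B v (hπ v),
    le_exp_sub_one_iff]

end Algebraic

section Analytic

open UpperHalfPlane OrdVal DiffIso
open scoped MatrixGroups

variable (Γ : Subgroup SL(2, ℤ))

/-- `j - j(z)` as an element of `WH Γ`. -/
noncomputable def jSub (z : ℍ) : WH Γ := jWH Γ - algebraMap ℂ (WH Γ) (jInv z)

lemma coe_jSub (z : ℍ) : ((jSub Γ z : WH Γ) : ℍ → ℂ) = fun w => jInv w - jInv z := rfl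

lemma ordAt_jSub (z : ℍ) : ordAt z ((jSub Γ z : WH Γ) : ℍ → ℂ) = ordAt z Dj + 1 := by
  rw [coe_jSub, ordAt_Dj_add_one]

lemma ordAt_Dj_ne_top (z : ℍ) : ordAt z Dj ≠ ⊤ := ordAt_ne_top mdiff_Dj Dj_ne_zero z

lemma jSub_ne_zero (z : ℍ) : jSub Γ z ≠ 0 := by
  intro h
  have h1 := ordAt_jSub Γ z
  rw [h] at h1
  have h2 : ordAt z (((0 : WH Γ) : WH Γ) : ℍ → ℂ) = ⊤ :=
    (ordAt_eq_top_iff (WH.mdiff Γ 0) z).2 rfl
  rw [h2] at h1
  have h3 := ordAt_Dj_ne_top z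
  revert h1 h3
  generalize ordAt z Dj = d
  intro h1 h3
  induction d using ENat.recTopCoe with
  | top => exact h3 rfl
  | coe n => exact absurd h1 (by exact_mod_cast ENat.top_ne_natCast (n + 1))

/-- **Finite places, valuation form.** -/
theorem ordValFrac_div_mul_jSub_lt_one_iff {a b : WH Γ} (ha : a ≠ 0) (hb : b ≠ 0) (z : ℍ) :
    ordValFrac Γ z (algebraMap (WH Γ) (FractionRing (WH Γ)) a /
        algebraMap (WH Γ) (FractionRing (WH Γ)) b *
        algebraMap (WH Γ) (FractionRing (WH Γ)) (jSub Γ z)) < 1 ↔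
      ordAt z (b : ℍ → ℂ) ≤ ordAt z (a : ℍ → ℂ) + ordAt z Dj := by
  have hj := jSub_ne_zero Γ z
  rw [map_mul, map_div₀, ordValFrac_algebraMap, ordValFrac_algebraMap, ordValFrac_algebraMap,
    ordVal_apply_of_ne_zero Γ ha, ordVal_apply_of_ne_zero Γ hb, ordVal_apply_of_ne_zero Γ hj,
    ← coe_ordNat Γ ha, ← coe_ordNat Γ hb]
  have hJ := ordAt_jSub Γ z
  rw [← coe_ordNat Γ hj] at hJ
  have hD := ordAt_Dj_ne_top z
  revert hJ hD
  generalize ordAt z Dj = d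
  intro hJ hD
  induction d using ENat.recTopCoe with
  | top => exact absurd rfl hD
  | coe D =>
    have hJ' : ordNat Γ z (jSub Γ z) = D + 1 := by exact_mod_cast hJ
    rw [hJ', ← exp_sub, ← exp_add, ← exp_zero, exp_lt_exp]
    have : ((ordNat Γ z b : ℕ) : ℕ∞) ≤ (ordNat Γ z a : ℕ∞) + (D : ℕ∞) ↔
        ordNat Γ z b ≤ ordNat Γ z a + D := by exact_mod_cast Iff.rfl
    rw [this]
    push_cast
    omega

end Analytic

section Final

open UpperHalfPlane OrdVal DiffIso CuspVal CongruenceSubgroup ModularForm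
open scoped MatrixGroups Manifold

variable {N : ℕ}

/-- The cusp clause of V.3 (to be supplied): the weight-two slashes of the solution `u` of
`u b = a Dj` vanish at `i∞` iff `ord_{q_N} (b ∘ δ) + N + 1 ≤ ord_{q_N} (a ∘ δ)` for all `δ`. -/
def CuspClause (N : ℕ) : Prop :=
  ∀ (a b : WH (Gamma0 N)), b ≠ 0 → ∀ u : ℍ → ℂ, MDiff u →
    (∀ z, u z * (b : ℍ → ℂ) z = (a : ℍ → ℂ) z * Dj z) →
    ((∀ δ : SL(2, ℤ), IsZeroAtImInfty (u ∣[(2 : ℤ)] δ)) ↔
      ∀ δ : SL(2, ℤ), cuspOrd N (fun z => (b : ℍ → ℂ) (δ • z)) + ((N : ℤ) : WithTop ℤ) + 1 ≤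
        cuspOrd N (fun z => (a : ℍ → ℂ) (δ • z)))

lemma T_pow_mem_Gamma (N : ℕ) : ModularGroup.T ^ N ∈ Gamma N := by
  have := ModularGroup_T_pow_mem_Gamma (N : ℤ) (N : ℤ) dvd_rfl
  simpa using this

lemma gamma_le_gamma0 (N : ℕ) : Gamma N ≤ Gamma0 N := by
  intro g hg
  rw [Gamma_mem] at hg
  rw [Gamma0_mem]
  exact hg.2.2.1

lemma isPerMero_comp_smul (a : WH (Gamma0 N)) (δ : SL(2, ℤ)) :
    IsPerMero N (fun z => (a : ℍ → ℂ) (δ • z)) := by
  have : (Gamma N).Normal := Gamma_normal N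
  exact IsPerMero.of_isWH_smul (Γ := Gamma N) (T_pow_mem_Gamma N)
    (WH_le (gamma_le_gamma0 N) a.2) δ

lemma cuspOrd_comp_smul_ne_top [NeZero N] {a : WH (Gamma0 N)} (ha : a ≠ 0) (δ : SL(2, ℤ)) :
    cuspOrd N (fun z => (a : ℍ → ℂ) (δ • z)) ≠ ⊤ := by
  intro h
  rw [cuspOrd_eq_top_iff (Nat.pos_of_ne_zero (NeZero.ne N)) (isPerMero_comp_smul a δ)] at h
  apply ha
  apply WH.ext
  intro z
  have := congrFun h (δ⁻¹ • z)
  simpa using this

/-- Arithmetic of `toVal`. -/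
lemma toVal_div_mul_exp_lt_one_iff {A B : WithTop ℤ} (hA : A ≠ ⊤) (hB : B ≠ ⊤) (n : ℤ) :
    toVal A / toVal B * exp n < 1 ↔ B + (n : WithTop ℤ) + 1 ≤ A := by
  induction A using WithTop.recTopCoe with
  | top => exact absurd rfl hA
  | coe x =>
    induction B using WithTop.recTopCoe with
    | top => exact absurd rfl hB
    | coe y =>
      rw [toVal_coe, toVal_coe, ← exp_sub, ← exp_add, ← exp_zero, exp_lt_exp]
      have : ((y : WithTop ℤ) + (n : WithTop ℤ) + 1 ≤ (x : WithTop ℤ)) ↔ y + n + 1 ≤ x := by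
        exact_mod_cast Iff.rfl
      rw [this]
      omega

variable [NeZero N]

/-- **Analytic description of the range of `toK`** in terms of valuations, given the cusp clause
and any family `w₂` of valuations on `K` extending `f ↦ exp (- ord_{q_N} (f ∘ δ))`. -/
theorem mem_range_toK_iff_valuations (hcusp : CuspClause N)
    (w₂ : SL(2, ℤ) → Valuation (FractionRing (WH (Gamma0 N))) ℤᵐ⁰)
    (hw₂ : ∀ (δ : SL(2, ℤ)) (a : WH (Gamma0 N)),
      w₂ δ (algebraMap (WH (Gamma0 N)) (FractionRing (WH (Gamma0 N))) a) =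
        toVal (cuspOrd N (fun z => (a : ℍ → ℂ) (δ • z))))
    (h : FractionRing (WH (Gamma0 N))) :
    h ∈ LinearMap.range (toK (N := N)) ↔
      (∀ z : ℍ, ordValFrac (Gamma0 N) z
        (h * algebraMap (WH (Gamma0 N)) (FractionRing (WH (Gamma0 N))) (jSub (Gamma0 N) z)) < 1) ∧
      (∀ δ : SL(2, ℤ),
        w₂ δ (h * algebraMap (WH (Gamma0 N)) (FractionRing (WH (Gamma0 N))) (jWH (Gamma0 N))) < 1) := by
  have hN : 0 < N := Nat.pos_of_ne_zero (NeZero.ne N)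
  obtain ⟨a, b, hb, rfl⟩ := IsFractionRing.div_surjective (A := WH (Gamma0 N)) h
  have hb0 : b ≠ 0 := nonZeroDivisors.ne_zero hb
  by_cases ha : a = 0
  · subst ha
    simp only [map_zero, zero_div, zero_mul, zero_lt_one, implies_true, and_self, iff_true]
    exact zero_mem _
  -- the value of `w₂ δ` on `j`
  have hwj : ∀ δ : SL(2, ℤ),
      w₂ δ (algebraMap (WH (Gamma0 N)) (FractionRing (WH (Gamma0 N))) (jWH (Gamma0 N))) =
        exp (N : ℤ) := by
    intro δ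
    rw [hw₂]
    have : (fun z : ℍ => ((jWH (Gamma0 N) : WH (Gamma0 N)) : ℍ → ℂ) (δ • z)) = jInv := by
      ext z
      exact jInv_smul δ z
    rw [this, cuspOrd_jInv hN, toVal_coe, neg_neg]
  have hcuspval : ∀ δ : SL(2, ℤ),
      w₂ δ (algebraMap (WH (Gamma0 N)) (FractionRing (WH (Gamma0 N))) a /
        algebraMap (WH (Gamma0 N)) (FractionRing (WH (Gamma0 N))) b *
        algebraMap (WH (Gamma0 N)) (FractionRing (WH (Gamma0 N))) (jWH (Gamma0 N))) < 1 ↔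
      cuspOrd N (fun z => (b : ℍ → ℂ) (δ • z)) + ((N : ℤ) : WithTop ℤ) + 1 ≤
        cuspOrd N (fun z => (a : ℍ → ℂ) (δ • z)) := by
    intro δ
    rw [map_mul, map_div₀, hwj, hw₂, hw₂]
    exact toVal_div_mul_exp_lt_one_iff (cuspOrd_comp_smul_ne_top ha δ)
      (cuspOrd_comp_smul_ne_top hb0 δ) N
  rw [mem_range_toK_iff_exists a b hb0]
  constructor
  · rintro ⟨u, hu, heq, hzero⟩
    refine ⟨fun z => ?_, fun δ => ?_⟩
    · rw [ordValFrac_div_mul_jSub_lt_one_iff (Gamma0 N) ha hb0 z]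
      exact (exists_mdiff_eqn_iff_ordAt (WH.mdiff _ a) (WH.mdiff _ b)).1 ⟨u, hu, heq⟩ z
    · rw [hcuspval δ]
      exact (hcusp a b hb0 u hu heq).1 hzero δ
  · rintro ⟨h1, h2⟩
    obtain ⟨u, hu, heq⟩ := (exists_mdiff_eqn_iff_ordAt (WH.mdiff _ a) (WH.mdiff _ b)).2
      (fun z => (ordValFrac_div_mul_jSub_lt_one_iff (Gamma0 N) ha hb0 z).1 (h1 z))
    refine ⟨u, hu, heq, (hcusp a b hb0 u hu heq).2 (fun δ => (hcuspval δ).1 (h2 δ))⟩

omit [NeZero N] in
/-- `algebraMap (jSub z) = X - j(z)` in `K`. -/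
lemma algebraMap_jSub (z : ℍ) :
    algebraMap (WH (Gamma0 N)) (FractionRing (WH (Gamma0 N))) (jSub (Gamma0 N) z) =
      algebraMap (WH (Gamma0 N)) (FractionRing (WH (Gamma0 N))) (jWH (Gamma0 N)) -
        algebraMap ℂ (FractionRing (WH (Gamma0 N))) (jInv z) := by
  rw [jSub, map_sub, ← IsScalarTower.algebraMap_apply]

/-- **V.4: `range toK` is cut out by the algebraic valuations.**  Inputs: the cusp clause of V.3,
a family `w₂` of cusp valuations on `K`, the dictionary (E1)–(E4), and a set `S ⊆ K` described by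
the algebraic valuations `v₁` (finite places, with centres `c₁`) and `v₂` (places at infinity). -/
theorem range_toK_eq (hcusp : CuspClause N)
    (w₂ : SL(2, ℤ) → Valuation (FractionRing (WH (Gamma0 N))) ℤᵐ⁰)
    (hw₂ : ∀ (δ : SL(2, ℤ)) (a : WH (Gamma0 N)),
      w₂ δ (algebraMap (WH (Gamma0 N)) (FractionRing (WH (Gamma0 N))) a) =
        toVal (cuspOrd N (fun z => (a : ℍ → ℂ) (δ • z))))
    {κ₁ κ₂ : Type*}
    (v₁ : κ₁ → Valuation (FractionRing (WH (Gamma0 N))) ℤᵐ⁰)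
    (v₂ : κ₂ → Valuation (FractionRing (WH (Gamma0 N))) ℤᵐ⁰) (c₁ : κ₁ → ℂ)
    (hv : ∀ k, v₁ k (algebraMap (WH (Gamma0 N)) (FractionRing (WH (Gamma0 N))) (jWH (Gamma0 N)) -
      algebraMap ℂ (FractionRing (WH (Gamma0 N))) (c₁ k)) < 1)
    (hconst : ∀ k (c : ℂ), c ≠ 0 → v₁ k (algebraMap ℂ (FractionRing (WH (Gamma0 N))) c) = 1)
    (E1 : ∀ k, ∃ (z : ℍ) (n : ℕ), 1 ≤ n ∧ ∀ h, ordValFrac (Gamma0 N) z h = v₁ k h ^ n)
    (E2 : ∀ z : ℍ, ∃ (k : κ₁) (n : ℕ), 1 ≤ n ∧ ∀ h, ordValFrac (Gamma0 N) z h = v₁ k h ^ n)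
    (E3 : ∀ k, ∃ (δ : SL(2, ℤ)) (n : ℕ), 1 ≤ n ∧ ∀ h, w₂ δ h = v₂ k h ^ n)
    (E4 : ∀ δ : SL(2, ℤ), ∃ (k : κ₂) (n : ℕ), 1 ≤ n ∧ ∀ h, w₂ δ h = v₂ k h ^ n)
    (S : Set (FractionRing (WH (Gamma0 N))))
    (hS : ∀ h, h ∈ S ↔
      (∀ k, v₁ k (h * (algebraMap (WH (Gamma0 N)) (FractionRing (WH (Gamma0 N))) (jWH (Gamma0 N)) -
        algebraMap ℂ (FractionRing (WH (Gamma0 N))) (c₁ k))) < 1) ∧
      (∀ k, v₂ k (h *
        algebraMap (WH (Gamma0 N)) (FractionRing (WH (Gamma0 N))) (jWH (Gamma0 N))) < 1)) :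
    (LinearMap.range (toK (N := N)) : Set (FractionRing (WH (Gamma0 N)))) = S := by
  ext h
  rw [SetLike.mem_coe, mem_range_toK_iff_valuations hcusp w₂ hw₂, hS]
  simp only [algebraMap_jSub]
  refine dictionary_iff (fun z => ordValFrac (Gamma0 N) z) w₂ v₁ v₂ _ (fun z => jInv z) c₁
    (fun z => ?_) hv hconst E1 E2 E3 E4 h
  rw [← algebraMap_jSub, ordValFrac_algebraMap, ordVal_lt_one_iff, coe_jSub]
  simp

end Final

end Fermat.Agent.M2.HoloRange
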