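import Fermat.Agent.M2.HoloRange
import Fermat.Agent.M2.CuspClause
import Fermat.Agent.M2.CuspValK
import Fermat.Agent.M2.DWMain
import Fermat.Agent.M2.DictFinite

set_option autoImplicit false

/-!
# M2 / V.4 part 2: `holoSpace ⊆ range toK` (and `=`), hence `dim holoSpace ≤ dim S₂(Γ₀(N))`

`K = WHField (Gamma0 N)`, `B = integralClosure ℂ[X] K`, `Binf = integralClosure (DW.Oinf ℂ) K`.
-/

namespace Fermat.Agent.M2.HoloRangeFinal

open WithZero

section Abstract

variable {K : Type*} [Field K] [Algebra ℂ K]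

/-- **One half of the abstract dictionary glue**, using only (E2) and (E4). -/
theorem dictionary_imp {ι₁ ι₂ κ₁ κ₂ : Type*}
    (w₁ : ι₁ → Valuation K ℤᵐ⁰) (w₂ : ι₂ → Valuation K ℤᵐ⁰)
    (v₁ : κ₁ → Valuation K ℤᵐ⁰) (v₂ : κ₂ → Valuation K ℤᵐ⁰)
    (x : K) (a₁ : ι₁ → ℂ) (c₁ : κ₁ → ℂ)
    (hw : ∀ i, w₁ i (x - algebraMap ℂ K (a₁ i)) < 1)
    (hv : ∀ k, v₁ k (x - algebraMap ℂ K (c₁ k)) < 1)
    (hconst : ∀ k (c : ℂ), c ≠ 0 → v₁ k (algebraMap ℂ K c) = 1)
    (E2 : ∀ i, ∃ k n, 1 ≤ n ∧ ∀ h, w₁ i h = v₁ k h ^ n)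
    (E4 : ∀ i, ∃ k n, 1 ≤ n ∧ ∀ h, w₂ i h = v₂ k h ^ n) (h : K)
    (h1 : ∀ k, v₁ k (h * (x - algebraMap ℂ K (c₁ k))) < 1) (h2 : ∀ k, v₂ k (h * x) < 1) :
    (∀ i, w₁ i (h * (x - algebraMap ℂ K (a₁ i))) < 1) ∧ (∀ i, w₂ i (h * x) < 1) := by
  have key : ∀ i k n, 1 ≤ n → (∀ h, w₁ i h = v₁ k h ^ n) → a₁ i = c₁ k := by
    intro i k n hn hwv
    exact HoloRange.const_eq_of_lt_one (hconst k)
      ((HoloRange.lt_one_iff_of_pow hn hwv _).1 (hw i)) (hv k)
  refine ⟨fun i => ?_, fun i => ?_⟩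
  · obtain ⟨k, n, hn, hwv⟩ := E2 i
    rw [key i k n hn hwv, HoloRange.lt_one_iff_of_pow hn hwv]
    exact h1 k
  · obtain ⟨k, n, hn, hwv⟩ := E4 i
    rw [HoloRange.lt_one_iff_of_pow hn hwv]
    exact h2 k

theorem le_exp_neg_add_one_iff (a : ℤᵐ⁰) (e : ℤ) : a ≤ exp (-(e + 1)) ↔ a * exp e < 1 := by
  induction a using WithZero.expRecOn with
  | zero => simp
  | exp m =>
    rw [← exp_add, ← exp_zero, exp_le_exp, exp_lt_exp]
    omega

end Abstract

section Final

open UpperHalfPlane OrdVal DiffIso CuspVal CongruenceSubgroup ModularForm Polynomial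
  IsDedekindDomain
open scoped MatrixGroups Manifold

variable (N : ℕ)

local notation "K" => WHField (Gamma0 N)
local notation "B" => integralClosure ℂ[X] (WHField (Gamma0 N))
local notation "Binf" => integralClosure (DW.Oinf ℂ) (WHField (Gamma0 N))

/-- The function `j` as an element of `K`. -/
noncomputable def xK : WHField (Gamma0 N) :=
  algebraMap (WH (Gamma0 N)) (WHField (Gamma0 N)) (jWH (Gamma0 N))

lemma algebraMap_poly_X : algebraMap ℂ[X] K X = xK N := by
  rw [IsScalarTower.algebraMap_apply ℂ[X] (WH (Gamma0 N)) K, algebraMap_polyWH, aeval_X]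
  rfl

lemma algebraMap_ratFunc_X : algebraMap (RatFunc ℂ) K RatFunc.X = xK N := by
  rw [← RatFunc.algebraMap_X, ← IsScalarTower.algebraMap_apply ℂ[X] (RatFunc ℂ) K,
    algebraMap_poly_X]

lemma algebraMap_poly_X_sub_C (c : ℂ) :
    algebraMap ℂ[X] K (X - C c) = xK N - algebraMap ℂ K c := by
  rw [map_sub, algebraMap_poly_X, ← Polynomial.algebraMap_eq,
    ← IsScalarTower.algebraMap_apply ℂ ℂ[X] K]

lemma algebraMap_jSub (z : ℍ) :
    algebraMap (WH (Gamma0 N)) K (HoloRange.jSub (Gamma0 N) z) =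
      xK N - algebraMap ℂ K (jInv z) := by
  rw [HoloRange.jSub, map_sub, ← IsScalarTower.algebraMap_apply]
  rfl

variable [NeZero N]

/-! ### Finite primes -/

omit [NeZero N] in
lemma under_ne_bot (P : HeightOneSpectrum B) : P.asIdeal.under ℂ[X] ≠ ⊥ :=
  Ideal.under_ne_bot ℂ[X] P.ne_bot

/-- The value of `j` at the prime `P`. -/
noncomputable def cP (P : HeightOneSpectrum B) : ℂ :=
  Classical.choose (Dict.exists_eq_span_X_sub_C (P.asIdeal.under ℂ[X]) (under_ne_bot N P))

omit [NeZero N] in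
lemma under_eq (P : HeightOneSpectrum B) :
    P.asIdeal.under ℂ[X] = Ideal.span {X - C (cP N P)} :=
  Classical.choose_spec (Dict.exists_eq_span_X_sub_C (P.asIdeal.under ℂ[X]) (under_ne_bot N P))

lemma valuation_xK_sub (P : HeightOneSpectrum B) :
    P.valuation K (xK N - algebraMap ℂ K (cP N P)) =
      exp (-(P.asIdeal.ramificationIdx ℂ[X] : ℤ)) := by
  have htfK : Module.IsTorsionFree ℂ[X] K := by
    have : FaithfulSMul ℂ[X] K := by
      rw [faithfulSMul_iff_algebraMap_injective]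
      exact algebraMap_poly_WHField_injective (Gamma0 N)
    infer_instance
  have : Module.IsTorsionFree ℂ[X] B := IsIntegralClosure.isTorsionFree ℂ[X] K
  have : Module.Finite ℂ[X] B := IsIntegralClosure.finite ℂ[X] (RatFunc ℂ) K B
  rw [← algebraMap_poly_X_sub_C]
  exact TameDifferent.valuation_algebraMap_eq_exp_neg_ramificationIdx ℂ[X] (RatFunc ℂ) K B P
    (under_eq N P)

lemma valuation_xK_sub_lt_one (P : HeightOneSpectrum B) :
    P.valuation K (xK N - algebraMap ℂ K (cP N P)) < 1 := by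
  rw [← algebraMap_poly_X_sub_C, IsScalarTower.algebraMap_apply ℂ[X] B K,
    HeightOneSpectrum.valuation_lt_one_iff_mem]
  have h : X - C (cP N P) ∈ P.asIdeal.under ℂ[X] := by
    rw [under_eq]
    exact Ideal.mem_span_singleton_self _
  exact h

lemma valuation_const (P : HeightOneSpectrum B) {c : ℂ} (hc : c ≠ 0) :
    P.valuation K (algebraMap ℂ K c) = 1 := by
  have h1 : P.valuation K (algebraMap ℂ K c) ≤ 1 := by
    rw [IsScalarTower.algebraMap_apply ℂ B K]
    exact HeightOneSpectrum.valuation_le_one _ _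
  have h2 : P.valuation K (algebraMap ℂ K c⁻¹) ≤ 1 := by
    rw [IsScalarTower.algebraMap_apply ℂ B K]
    exact HeightOneSpectrum.valuation_le_one _ _
  have h3 : P.valuation K (algebraMap ℂ K c) * P.valuation K (algebraMap ℂ K c⁻¹) = 1 := by
    rw [← map_mul, ← map_mul, mul_inv_cancel₀ hc, map_one, map_one]
  refine le_antisymm h1 ?_
  by_contra hlt
  rw [not_le] at hlt
  have : P.valuation K (algebraMap ℂ K c) * P.valuation K (algebraMap ℂ K c⁻¹) < 1 :=
    mul_lt_one_of_nonneg_of_lt_one_left zero_le hlt h2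
  exact absurd h3 (ne_of_lt this)

/-! ### Primes at infinity -/

section Inf

omit [NeZero N] in
lemma under_inf_eq [IsDedekindDomain Binf] (Q : HeightOneSpectrum Binf) :
    Q.asIdeal.under (DW.Oinf ℂ) = Ideal.span {DW.piInf ℂ} := by
  have hmax : (Q.asIdeal.under (DW.Oinf ℂ)).IsMaximal := by
    have : Q.asIdeal.IsMaximal := Q.isMaximal
    exact Ideal.IsMaximal.under (DW.Oinf ℂ) Q.asIdeal
  rw [IsLocalRing.eq_maximalIdeal hmax, DW.maximalIdeal_Oinf_eq]

lemma valuation_xK_inf [IsDedekindDomain Binf] [IsFractionRing Binf K]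
    (Q : HeightOneSpectrum Binf) :
    Q.valuation K (xK N) = exp (Q.asIdeal.ramificationIdx (DW.Oinf ℂ) : ℤ) := by
  have htfK' : Module.IsTorsionFree (DW.Oinf ℂ) K := by
    have : FaithfulSMul (DW.Oinf ℂ) K := by
      rw [faithfulSMul_iff_algebraMap_injective,
        IsScalarTower.algebraMap_eq (DW.Oinf ℂ) (RatFunc ℂ) K]
      exact (algebraMap (RatFunc ℂ) K).injective.comp
        (IsFractionRing.injective (DW.Oinf ℂ) (RatFunc ℂ))
    infer_instance
  have : Module.IsTorsionFree (DW.Oinf ℂ) Binf := IsIntegralClosure.isTorsionFree (DW.Oinf ℂ) K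
  have : Module.Finite (DW.Oinf ℂ) Binf := IsIntegralClosure.finite (DW.Oinf ℂ) (RatFunc ℂ) K Binf
  have hπ := TameDifferent.valuation_algebraMap_eq_exp_neg_ramificationIdx (DW.Oinf ℂ)
    (RatFunc ℂ) K Binf Q (under_inf_eq N Q)
  have h1 : algebraMap (DW.Oinf ℂ) K (DW.piInf ℂ) = (xK N)⁻¹ := by
    rw [IsScalarTower.algebraMap_apply (DW.Oinf ℂ) (RatFunc ℂ) K, ← algebraMap_ratFunc_X,
      ← map_inv₀]
    congr 1
    exact DW.coe_piInf
  rw [h1, map_inv₀] at hπ
  rw [← inv_inj, hπ, ← exp_neg]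

omit [NeZero N] in
theorem isScalarTower_C_Oinf_K : IsScalarTower ℂ (DW.Oinf ℂ) K :=
  IsScalarTower.of_algebraMap_eq fun c => by
    rw [IsScalarTower.algebraMap_apply (DW.Oinf ℂ) (RatFunc ℂ) K,
      ← IsScalarTower.algebraMap_apply ℂ (DW.Oinf ℂ) (RatFunc ℂ),
      ← IsScalarTower.algebraMap_apply ℂ (RatFunc ℂ) K]

/-- **Valuation description of `holoSpace`** in the shape of the dictionary. -/
theorem mem_holoSpace_iff [IsDedekindDomain Binf] [IsFractionRing Binf K] (h : K) :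
    h ∈ DW.holoSpace ℂ K B Binf ↔
      (∀ P : HeightOneSpectrum B, P.valuation K (h * (xK N - algebraMap ℂ K (cP N P))) < 1) ∧
      (∀ Q : HeightOneSpectrum Binf, Q.valuation K (h * xK N) < 1) := by
  have := isScalarTower_C_Oinf_K N
  rw [DW.mem_holoSpace_iff_valuation]
  refine and_congr (forall_congr' fun P => ?_) (forall_congr' fun Q => ?_)
  · rw [map_mul, valuation_xK_sub, HoloRange.le_exp_sub_one_iff]
  · rw [map_mul, valuation_xK_inf, le_exp_neg_add_one_iff]

end Inf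

/-! ### The analytic side -/

/-- The map `f ↦ f / j'` of V.3, with values in `K = WHField (Gamma0 N)`. -/
noncomputable def toKW : CuspForm (Gamma0 N) 2 →ₗ[ℂ] WHField (Gamma0 N) where
  toFun f := (toK f : FractionRing (WH (Gamma0 N)))
  map_add' f g := map_add toK f g
  map_smul' c f := by
    have h1 : toK (c • f) = c • toK f := map_smul _ _ _
    have h2 : (c • toK f : FractionRing (WH (Gamma0 N))) =
        algebraMap ℂ (FractionRing (WH (Gamma0 N))) c * toK f := Algebra.smul_def _ _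
    have h3 : ∀ x : WHField (Gamma0 N), c • x = algebraMap ℂ (WHField (Gamma0 N)) c * x :=
      fun x => Algebra.smul_def _ _
    exact (h1.trans h2).trans (h3 _).symm

lemma toKW_apply (f : CuspForm (Gamma0 N) 2) :
    toKW N f = (toK f : FractionRing (WH (Gamma0 N))) := rfl

lemma toKW_injective : Function.Injective (toKW N) := fun _ _ h => toK_injective h

/-- **Valuation description of `range toK`** (V.3 + cusp clause), on `K = WHField (Gamma0 N)`. -/
theorem mem_range_toKW_iff (h : K) :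
    h ∈ LinearMap.range (toKW N) ↔
      (∀ z : ℍ, Dict.vF (Gamma0 N) z (h * (xK N - algebraMap ℂ K (jInv z))) < 1) ∧
      (∀ δ : SL(2, ℤ), CuspValK.cuspValK N δ (h * xK N) < 1) := by
  have key := HoloRange.mem_range_toK_iff_valuations (DiffIso.cuspClause N)
    (fun δ => CuspValK.cuspValK N δ) (CuspValK.cuspValK_algebraMap N) h
  constructor
  · rintro ⟨f, hf⟩
    obtain ⟨h1, h2⟩ := key.1 ⟨f, hf⟩
    refine ⟨fun z => ?_, fun δ => h2 δ⟩
    rw [← algebraMap_jSub]
    exact h1 z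
  · rintro ⟨h1, h2⟩
    have h1' : ∀ z : ℍ, Dict.vF (Gamma0 N) z
        (h * algebraMap (WH (Gamma0 N)) K (HoloRange.jSub (Gamma0 N) z)) < 1 := by
      intro z
      rw [algebraMap_jSub]
      exact h1 z
    obtain ⟨f, hf⟩ := key.2 ⟨h1', fun δ => h2 δ⟩
    exact ⟨f, hf⟩

omit [NeZero N] in
lemma vF_xK_sub_lt_one (z : ℍ) :
    Dict.vF (Gamma0 N) z (xK N - algebraMap ℂ K (jInv z)) < 1 := by
  rw [← algebraMap_jSub, Dict.vF_algebraMap, ordVal_lt_one_iff, HoloRange.coe_jSub]
  simp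

/-! ### The comparison -/

section Compare

/-- **V.4, the inclusion needed for the lower bound**: `holoSpace ⊆ range (f ↦ f / j')`, from the
dictionary at the cusps (E4) only (the finite part (E2) is `Dict.exists_prime_of_point`). -/
theorem holoSpace_le_range [IsDedekindDomain Binf] [IsFractionRing Binf K]
    (E4 : ∀ δ : SL(2, ℤ), ∃ (Q : HeightOneSpectrum Binf) (n : ℕ), 1 ≤ n ∧
      ∀ h : K, CuspValK.cuspValK N δ h = Q.valuation K h ^ n) :
    DW.holoSpace ℂ K B Binf ≤ LinearMap.range (toKW N) := by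
  intro h hh
  rw [mem_holoSpace_iff] at hh
  rw [mem_range_toKW_iff]
  exact dictionary_imp (fun z => Dict.vF (Gamma0 N) z) (fun δ => CuspValK.cuspValK N δ)
    (fun P : HeightOneSpectrum B => P.valuation K)
    (fun Q : HeightOneSpectrum Binf => Q.valuation K)
    (xK N) (fun z => jInv z) (cP N) (vF_xK_sub_lt_one N) (valuation_xK_sub_lt_one N)
    (fun P c hc => valuation_const N P hc) (Dict.exists_prime_of_point N) E4 h hh.1 hh.2

/-- **V.4, the full equality**: `holoSpace = range (f ↦ f / j')`, from the dictionary at the cusps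
(E3), (E4) (the finite parts (E1), (E2) are in `DictFinite`). -/
theorem holoSpace_eq_range [IsDedekindDomain Binf] [IsFractionRing Binf K]
    (E3 : ∀ Q : HeightOneSpectrum Binf, ∃ (δ : SL(2, ℤ)) (n : ℕ), 1 ≤ n ∧
      ∀ h : K, CuspValK.cuspValK N δ h = Q.valuation K h ^ n)
    (E4 : ∀ δ : SL(2, ℤ), ∃ (Q : HeightOneSpectrum Binf) (n : ℕ), 1 ≤ n ∧
      ∀ h : K, CuspValK.cuspValK N δ h = Q.valuation K h ^ n) :
    DW.holoSpace ℂ K B Binf = LinearMap.range (toKW N) := by
  refine le_antisymm (holoSpace_le_range N E4) ?_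
  intro h hh
  rw [mem_range_toKW_iff] at hh
  rw [mem_holoSpace_iff]
  exact (HoloRange.dictionary_iff (fun z => Dict.vF (Gamma0 N) z)
    (fun δ => CuspValK.cuspValK N δ)
    (fun P : HeightOneSpectrum B => P.valuation K)
    (fun Q : HeightOneSpectrum Binf => Q.valuation K)
    (xK N) (fun z => jInv z) (cP N) (vF_xK_sub_lt_one N) (valuation_xK_sub_lt_one N)
    (fun P c hc => valuation_const N P hc) (Dict.exists_point_of_prime N)
    (Dict.exists_prime_of_point N) E3 E4 h).1 hh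

theorem finrank_range_toKW :
    Module.finrank ℂ (LinearMap.range (toKW N)) = Module.finrank ℂ (CuspForm (Gamma0 N) 2) :=
  LinearMap.finrank_range_of_inj (toKW_injective N)

/-- **Lower bound input for S20**: `dim holoSpace ≤ dim S₂(Γ₀(N))`. -/
theorem finrank_holoSpace_le [IsDedekindDomain Binf] [IsFractionRing Binf K]
    [Module.Finite ℂ (CuspForm (Gamma0 N) 2)]
    (E4 : ∀ δ : SL(2, ℤ), ∃ (Q : HeightOneSpectrum Binf) (n : ℕ), 1 ≤ n ∧
      ∀ h : K, CuspValK.cuspValK N δ h = Q.valuation K h ^ n) :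
    Module.finrank ℂ (DW.holoSpace ℂ K B Binf) ≤ Module.finrank ℂ (CuspForm (Gamma0 N) 2) := by
  rw [← finrank_range_toKW]
  exact Submodule.finrank_mono (holoSpace_le_range N E4)

theorem finrank_holoSpace_eq [IsDedekindDomain Binf] [IsFractionRing Binf K]
    (E3 : ∀ Q : HeightOneSpectrum Binf, ∃ (δ : SL(2, ℤ)) (n : ℕ), 1 ≤ n ∧
      ∀ h : K, CuspValK.cuspValK N δ h = Q.valuation K h ^ n)
    (E4 : ∀ δ : SL(2, ℤ), ∃ (Q : HeightOneSpectrum Binf) (n : ℕ), 1 ≤ n ∧
      ∀ h : K, CuspValK.cuspValK N δ h = Q.valuation K h ^ n) :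
    Module.finrank ℂ (DW.holoSpace ℂ K B Binf) = Module.finrank ℂ (CuspForm (Gamma0 N) 2) := by
  rw [holoSpace_eq_range N E3 E4, finrank_range_toKW]

end Compare

end Final

end Fermat.Agent.M2.HoloRangeFinal
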