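import Mathlib

/-!
# M2: lattice rigidity

A lattice in `ℂ` (given by a `PeriodPair`) is determined by its invariants `g₂`, `g₃`.
The proof compares the two Weierstrass `℘`-functions near `0` using the differential equation
`℘'² = 4℘³ - g₂℘ - g₃`: the difference satisfies a linear ODE with a regular singular point whose
indicial exponent is negative, so it vanishes identically; then the identity theorem and the
location of the poles give equality of the lattices.
-/

set_option autoImplicit false

open Filter Topology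
open scoped PeriodPair

namespace Fermat.Agent.M2

/-- An analytic solution of `A y' = z C y` with `A 0 ≠ 0` and `y 0 = 0` vanishes near `0`. -/
theorem eventually_eq_zero_of_singular_ode {y A C : ℂ → ℂ} (hy : AnalyticAt ℂ y 0)
    (hA : AnalyticAt ℂ A 0) (hC : AnalyticAt ℂ C 0) (hA0 : A 0 ≠ 0) (hy0 : y 0 = 0)
    (hode : ∀ᶠ z in 𝓝 (0 : ℂ), A z * deriv y z = z * C z * y z) :
    ∀ᶠ z in 𝓝 (0 : ℂ), y z = 0 := by
  rw [← analyticOrderAt_eq_top]
  by_contra htop
  -- the order of `y` is a positive natural number
  obtain ⟨M, hM⟩ := ENat.ne_top_iff_exists.mp htop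
  have hMpos : M ≠ 0 := by
    rintro rfl
    have : analyticOrderAt y 0 ≠ 0 := hy.analyticOrderAt_ne_zero.mpr hy0
    exact this hM.symm
  obtain ⟨n, rfl⟩ := Nat.exists_eq_succ_of_ne_zero hMpos
  have hderiv : analyticOrderAt (deriv y) 0 = n :=
    analyticOrderAt_deriv_of_pos hy (by rw [← hM]; push_cast; rfl)
  have hAord : analyticOrderAt A 0 = 0 := hA.analyticOrderAt_eq_zero.mpr hA0
  have hL : analyticOrderAt (A * deriv y) 0 = n := by
    rw [analyticOrderAt_mul hA hy.deriv, hAord, hderiv, zero_add]
  have hid : AnalyticAt ℂ (fun z : ℂ => z) 0 := analyticAt_id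
  have hR : analyticOrderAt ((fun z : ℂ => z) * C * y) 0
      = 1 + analyticOrderAt C 0 + ((n + 1 : ℕ) : ℕ∞) := by
    rw [analyticOrderAt_mul (hid.mul hC) hy, analyticOrderAt_mul hid hC, ← hM]
    congr 2
    exact analyticOrderAt_id
  have hEq : analyticOrderAt (A * deriv y) 0 = analyticOrderAt ((fun z : ℂ => z) * C * y) 0 :=
    analyticOrderAt_congr (by filter_upwards [hode] with z hz; simpa using hz)
  rw [hL, hR] at hEq
  -- `n = 1 + c + (n+1)` is impossible in `ℕ∞`
  by_cases h : analyticOrderAt C 0 = ⊤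
  · rw [h] at hEq
    simp at hEq
  · obtain ⟨c, hc⟩ := ENat.ne_top_iff_exists.mp h
    rw [← hc] at hEq
    have : ((n : ℕ) : ℕ∞) = ((1 + c + (n + 1) : ℕ) : ℕ∞) := by
      rw [hEq]; push_cast; rfl
    have := ENat.natCast_inj.mp this
    omega

end Fermat.Agent.M2
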