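import Mathlib

/-!
# M2, task I.4b: proper discontinuity of `SL(2, ℤ)` on `ℍ` at a point

Every point `z₀ : ℍ` has a neighbourhood `U` such that the only `g : SL(2, ℤ)` with
`g • U ∩ U ≠ ∅` are the elements of the stabiliser of `z₀`.
-/

set_option autoImplicit false

noncomputable section

namespace Fermat.Agent.M2.PropDisc

open scoped MatrixGroups UpperHalfPlane Topology
open Matrix Set

/-- Proper discontinuity at a point, for the action of `SL(2, ℤ)` on the upper half plane. -/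
theorem exists_nhds_smul_inter_nonempty_imp (z₀ : ℍ) :
    ∃ U ∈ 𝓝 z₀, ∀ g : SL(2, ℤ), ((fun z : ℍ => g • z) '' U ∩ U).Nonempty → g • z₀ = z₀ := by
  obtain ⟨U, hU, h⟩ := ProperlyDiscontinuousSMul.exists_nhds_image_smul_eq_self 𝒮ℒ z₀
  refine ⟨U, hU, fun g hg => ?_⟩
  exact h ⟨SpecialLinearGroup.mapGL ℝ g, g, rfl⟩ hg

/-- Pointwise form: if `z ∈ U` and `g • z ∈ U` then `g` fixes `z₀`. -/
theorem exists_nhds_forall_mem_smul_mem_imp (z₀ : ℍ) :
    ∃ U ∈ 𝓝 z₀, ∀ (g : SL(2, ℤ)) (z : ℍ), z ∈ U → g • z ∈ U → g • z₀ = z₀ := by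
  obtain ⟨U, hU, h⟩ := exists_nhds_smul_inter_nonempty_imp z₀
  exact ⟨U, hU, fun g z hz hgz => h g ⟨g • z, ⟨z, hz, rfl⟩, hgz⟩⟩

/-- Open version: the neighbourhood can be taken open (and inside any given neighbourhood). -/
theorem exists_isOpen_forall_mem_smul_mem_imp (z₀ : ℍ) {V : Set ℍ} (hV : V ∈ 𝓝 z₀) :
    ∃ U : Set ℍ, IsOpen U ∧ z₀ ∈ U ∧ U ⊆ V ∧
      ∀ (g : SL(2, ℤ)) (z : ℍ), z ∈ U → g • z ∈ U → g • z₀ = z₀ := by
  obtain ⟨U, hU, h⟩ := exists_nhds_forall_mem_smul_mem_imp z₀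
  obtain ⟨W, hWsub, hWopen, hzW⟩ := mem_nhds_iff.mp (Filter.inter_mem hU hV)
  exact ⟨W, hWopen, hzW, fun z hz => (hWsub hz).2,
    fun g z hz hgz => h g z (hWsub hz).1 (hWsub hgz).1⟩

/-- The stabiliser of a point of `ℍ` in `SL(2, ℤ)` is finite. -/
theorem finite_stabilizer (z₀ : ℍ) : (MulAction.stabilizer SL(2, ℤ) z₀ : Set SL(2, ℤ)).Finite := by
  have h := ProperlyDiscontinuousSMul.finite_stabilizer (Γ := 𝒮ℒ) z₀
  have hinj : Function.Injective (SpecialLinearGroup.mapGL ℝ : SL(2, ℤ) → GL (Fin 2) ℝ) :=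
    SpecialLinearGroup.mapGL_injective
  refine Set.Finite.of_finite_image (f := fun g : SL(2, ℤ) =>
    (⟨SpecialLinearGroup.mapGL ℝ g, g, rfl⟩ : 𝒮ℒ)) (h.subset ?_) ?_
  · rintro _ ⟨g, hg, rfl⟩
    exact hg
  · intro g _ g' _ hgg'
    exact hinj (congrArg Subtype.val hgg')

end Fermat.Agent.M2.PropDisc

end
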