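import Fermat.Agent.M2.WH
import Fermat.Agent.M2.WPModular
import Fermat.Agent.M2.PropDisc
import Fermat.Agent.M2.LocalNormalForm
import Fermat.Agent.M2.JSurj

/-!
# M2 / I.4c : the order of `j - j z₀` at `z₀` is the order of the stabiliser of `z₀` in `PSL(2,ℤ)`

With `jC := jInv ∘ ofComplex`, for `z₀ : ℍ` the analytic order `m` of `jC - jC z₀` at `z₀` is finite
and `2 * m = Nat.card (MulAction.stabilizer SL(2,ℤ) z₀)`.
-/

set_option autoImplicit false

namespace Fermat.Agent.M2.JOrderAlt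

open UpperHalfPlane ModularForm MatrixGroups Filter Set
open scoped Manifold Topology

/-- the `j`-invariant as a function on `ℂ` -/
noncomputable def jC (z : ℂ) : ℂ := jInv (ofComplex z)

@[simp] lemma jC_coe (z : ℍ) : jC (z : ℂ) = jInv z := by rw [jC, ofComplex_apply]

lemma analyticAt_jC (z₀ : ℍ) : AnalyticAt ℂ jC (z₀ : ℂ) := by
  have h := UpperHalfPlane.mdifferentiable_iff.mp mdiff_jInv
  exact h.analyticAt (isOpen_upperHalfPlaneSet.mem_nhds z₀.2)

lemma coe_smul_eq (γ : SL(2, ℤ)) (z : ℍ) :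
    ((γ • z : ℍ) : ℂ) = ((γ.1 0 0 : ℂ) * z + (γ.1 0 1 : ℂ)) / ((γ.1 1 0 : ℂ) * z + (γ.1 1 1 : ℂ)) := by
  rw [UpperHalfPlane.coe_specialLinearGroup_apply]
  simp

lemma denom_ne (γ : SL(2, ℤ)) (z : ℍ) : (γ.1 1 0 : ℂ) * z + (γ.1 1 1 : ℂ) ≠ 0 := by
  have h := UpperHalfPlane.denom_ne_zero (γ : GL (Fin 2) ℝ) z
  simpa [UpperHalfPlane.denom] using h

/-- fixed point equation -/
lemma fix_eq {γ : SL(2, ℤ)} {z : ℍ} (h : γ • z = z) :
    (γ.1 1 0 : ℂ) * (z : ℂ) ^ 2 + ((γ.1 1 1 : ℂ) - (γ.1 0 0 : ℂ)) * z - (γ.1 0 1 : ℂ) = 0 := by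
  have h1 := congrArg (fun w : ℍ => (w : ℂ)) h
  simp only [coe_smul_eq] at h1
  rw [div_eq_iff (denom_ne γ z)] at h1
  linear_combination -h1

/-- An element of `SL(2,ℤ)` fixing two distinct points of `ℍ` is `±1`. -/
theorem eq_one_or_neg_one_of_fix_two (γ : SL(2, ℤ)) {z p : ℍ} (hzp : z ≠ p) (hz : γ • z = z)
    (hp : γ • p = p) : γ = 1 ∨ γ = -1 := by
  have e1 := fix_eq hz
  have e2 := fix_eq hp
  have hne : (z : ℂ) - p ≠ 0 := sub_ne_zero.mpr (fun h => hzp (UpperHalfPlane.ext h))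
  have e3 : (γ.1 1 0 : ℂ) * ((z : ℂ) + p) + ((γ.1 1 1 : ℂ) - (γ.1 0 0 : ℂ)) = 0 := by
    apply mul_left_cancel₀ hne
    linear_combination e1 - e2
  -- imaginary part: `c = 0`
  have hc : γ.1 1 0 = 0 := by
    have him := congrArg Complex.im e3
    simp only [Complex.add_im, Complex.mul_im, Complex.intCast_re, Complex.intCast_im,
      Complex.sub_im, Complex.zero_im, zero_mul, add_zero, sub_self, UpperHalfPlane.coe_im] at him
    have hpos : 0 < z.im + p.im := add_pos z.im_pos p.im_pos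
    have : (γ.1 1 0 : ℝ) = 0 := by
      rcases mul_eq_zero.mp him with h | h
      · exact h
      · exact absurd h hpos.ne'
    exact_mod_cast this
  have hda : γ.1 1 1 = γ.1 0 0 := by
    have : ((γ.1 1 1 : ℂ) - (γ.1 0 0 : ℂ)) = 0 := by
      rw [hc] at e3; simpa using e3
    have h2 : (γ.1 1 1 : ℂ) = (γ.1 0 0 : ℂ) := sub_eq_zero.mp this
    exact_mod_cast h2
  have hb : γ.1 0 1 = 0 := by
    have : (γ.1 0 1 : ℂ) = 0 := by
      rw [hc, hda] at e1
      simpa using e1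
    exact_mod_cast this
  have hdet : γ.1 0 0 * γ.1 1 1 - γ.1 0 1 * γ.1 1 0 = 1 := by
    have := γ.det_coe
    rwa [Matrix.det_fin_two] at this
  rw [hda, hb] at hdet
  have ha : γ.1 0 0 = 1 ∨ γ.1 0 0 = -1 := by
    have : γ.1 0 0 * γ.1 0 0 = 1 := by linarith
    exact mul_self_eq_one_iff.mp this
  rcases ha with ha | ha
  · left
    ext i j
    fin_cases i <;> fin_cases j <;> simp [hc, hb, hda, ha]
  · right
    ext i j
    fin_cases i <;> fin_cases j <;> simp [hc, hb, hda, ha]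

lemma neg_one_ne_one : (-1 : SL(2, ℤ)) ≠ 1 := by
  intro h
  have := congrArg (fun g : SL(2, ℤ) => g.1 0 0) h
  simp at this

/-- `jC` is not locally constant. -/
lemma not_eventually_const (z₀ : ℍ) : ¬ ∀ᶠ z in 𝓝 (z₀ : ℂ), jC z - jC z₀ = 0 := by
  intro h
  have hdiff := UpperHalfPlane.mdifferentiable_iff.mp mdiff_jInv
  have han : AnalyticOnNhd ℂ (fun z => jC z - jC z₀) {z : ℂ | 0 < z.im} := by
    intro z hz
    exact (hdiff.analyticAt (isOpen_upperHalfPlaneSet.mem_nhds hz)).sub analyticAt_const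
  have hconn : IsPreconnected {z : ℂ | 0 < z.im} :=
    (convex_halfSpace_im_gt 0).isPreconnected
  have heq := han.eqOn_zero_of_preconnected_of_eventuallyEq_zero hconn z₀.2 h
  obtain ⟨w, hw⟩ := JSurj.exists_j_eq (jC z₀ + 1)
  have := heq w.2
  simp only [Pi.zero_apply] at this
  rw [jC_coe, jInv_def, hw] at this
  simp at this

/-- the order of `jC - jC z₀` at `z₀` is a positive natural number -/
lemma exists_order (z₀ : ℍ) : ∃ m : ℕ, m ≠ 0 ∧
    analyticOrderAt (fun z => jC z - jC z₀) (z₀ : ℂ) = m := by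
  have hne : analyticOrderAt (fun z => jC z - jC z₀) (z₀ : ℂ) ≠ ⊤ := by
    rw [Ne, analyticOrderAt_eq_top]
    exact not_eventually_const z₀
  obtain ⟨m, hm⟩ := ENat.ne_top_iff_exists.mp hne
  refine ⟨m, ?_, hm.symm⟩
  intro h0
  have : analyticOrderAt (fun z => jC z - jC z₀) (z₀ : ℂ) ≠ 0 := by
    rw [analyticOrderAt_ne_zero]
    exact ⟨(analyticAt_jC z₀).sub analyticAt_const, by simp⟩
  apply this
  rw [← hm, h0]
  rfl

lemma neg_mem_stabilizer {z₀ : ℍ} {γ : SL(2, ℤ)} (h : γ ∈ MulAction.stabilizer SL(2, ℤ) z₀) :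
    -γ ∈ MulAction.stabilizer SL(2, ℤ) z₀ := by
  rw [MulAction.mem_stabilizer_iff] at h ⊢
  rw [ModularGroup.SL_neg_smul, h]

lemma continuous_smul_SL (γ : SL(2, ℤ)) : Continuous (fun z : ℍ => γ • z) := by
  have : (fun z : ℍ => γ • z) = fun z : ℍ => (γ : GL (Fin 2) ℝ) • z := rfl
  rw [this]
  exact continuous_const_smul _

lemma tendsto_ofComplex (z₀ : ℍ) : Tendsto (ofComplex : ℂ → ℍ) (𝓝 (z₀ : ℂ)) (𝓝 z₀) := by
  have : ContinuousAt (ofComplex : ℂ → ℍ) (z₀ : ℂ) := by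
    apply ofComplex.continuousAt
    simpa [ofComplex] using z₀.im_pos
  simpa using this.tendsto

/-- `2 * ord_{z₀}(j - j z₀) ≤ |Stab z₀|` : the `m` nearby points with the same `j`-value are
`SL(2,ℤ)`-equivalent, by elements of the stabiliser. -/
theorem two_mul_order_le (z₀ : ℍ) {m : ℕ} (hm0 : m ≠ 0)
    (hm : analyticOrderAt (fun z => jC z - jC z₀) (z₀ : ℂ) = m) :
    2 * m ≤ Nat.card (MulAction.stabilizer SL(2, ℤ) z₀) := by
  obtain ⟨U', hU', hprop⟩ := PropDisc.exists_nhds_forall_mem_smul_mem_imp z₀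
  have hU : ((↑) : ℍ → ℂ) '' U' ∈ 𝓝 (z₀ : ℂ) := by
    rw [← isOpenEmbedding_coe.map_nhds_eq]
    exact image_mem_map hU'
  obtain ⟨p, hpinj, hpU, -, hpeq⟩ :=
    LNF.exists_distinct_points (analyticAt_jC z₀) hm hm0 hU
  choose q hqU hq using hpU
  let k0 : Fin m := ⟨0, Nat.pos_of_ne_zero hm0⟩
  have hγ : ∀ k, ∃ γ : SL(2, ℤ), q k = γ • q k0 := fun k =>
    WPRigid.exists_smul_eq_of_j_eq (q k0) (q k) (by
      have := hpeq k0 k
      rw [← hq k0, ← hq k, jC_coe, jC_coe] at this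
      exact this)
  choose γ hγ using hγ
  have hγS : ∀ k, γ k ∈ MulAction.stabilizer SL(2, ℤ) z₀ := fun k =>
    hprop (γ k) (q k0) (hqU k0) (hγ k ▸ hqU k)
  let φ : Fin m × Fin 2 → MulAction.stabilizer SL(2, ℤ) z₀ := fun x =>
    if x.2 = 0 then ⟨γ x.1, hγS x.1⟩ else ⟨-γ x.1, neg_mem_stabilizer (hγS x.1)⟩
  have hφval : ∀ x, ((φ x : SL(2, ℤ)) = γ x.1 ∨ (φ x : SL(2, ℤ)) = -γ x.1) := by
    intro x
    by_cases h : x.2 = 0
    · left; simp [φ, h]
    · right; simp [φ, h]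
  have hφq : ∀ x, (φ x : SL(2, ℤ)) • q k0 = q x.1 := by
    intro x
    rcases hφval x with h | h
    · rw [h, ← hγ]
    · rw [h, ModularGroup.SL_neg_smul, ← hγ]
  have hnegne : ∀ g : SL(2, ℤ), -g ≠ g := by
    intro g h
    apply neg_one_ne_one
    have : (-g) * g⁻¹ = g * g⁻¹ := by rw [h]
    simpa using this
  have hφinj : Function.Injective φ := by
    rintro ⟨k, ε⟩ ⟨l, ε'⟩ h
    have hkl : k = l := by
      apply hpinj
      rw [← hq k, ← hq l]
      congr 1
      have h1 := hφq (k, ε)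
      have h2 := hφq (l, ε')
      rw [h] at h1
      exact h1.symm.trans h2
    subst hkl
    have hv := congrArg (fun g : MulAction.stabilizer SL(2, ℤ) z₀ => (g : SL(2, ℤ))) h
    simp only [φ] at hv
    by_cases h0 : ε = 0 <;> by_cases h0' : ε' = 0
    · rw [h0, h0']
    · simp only [h0, h0', if_true, if_false] at hv
      exact absurd hv.symm (hnegne _)
    · simp only [h0, h0', if_true, if_false] at hv
      exact absurd hv (hnegne _)
    · have e1 : ε = 1 := by omega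
      have e2 : ε' = 1 := by omega
      rw [e1, e2]
  have hfin : Finite (MulAction.stabilizer SL(2, ℤ) z₀) := (PropDisc.finite_stabilizer z₀).to_subtype
  have := Nat.card_le_card_of_injective φ hφinj
  rw [Nat.card_prod, Nat.card_fin, Nat.card_fin] at this
  linarith

/-- `|Stab z₀| ≤ 2 * ord_{z₀}(j - j z₀)` : the orbit of a nearby point under the stabiliser gives
`|Stab z₀| / 2` points with the same `j`-value. -/
theorem card_stabilizer_le (z₀ : ℍ) {m : ℕ} (hm0 : m ≠ 0)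
    (hm : analyticOrderAt (fun z => jC z - jC z₀) (z₀ : ℂ) = m) :
    Nat.card (MulAction.stabilizer SL(2, ℤ) z₀) ≤ 2 * m := by
  classical
  have hfin := PropDisc.finite_stabilizer z₀
  obtain ⟨V, hV, -, W, hW, hcount⟩ := LNF.exists_nhds_ncard_eq (analyticAt_jC z₀) hm hm0
    (univ_mem : (univ : Set ℂ) ∈ 𝓝 (z₀ : ℂ))
  have h1 : ∀ᶠ w in 𝓝 (z₀ : ℂ), 0 < w.im := isOpen_upperHalfPlaneSet.mem_nhds z₀.2
  have h2 : ∀ᶠ w in 𝓝 (z₀ : ℂ), jC w ∈ W :=
    (analyticAt_jC z₀).continuousAt.preimage_mem_nhds hW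
  have h3 : ∀ᶠ w in 𝓝 (z₀ : ℂ), ∀ γ ∈ (MulAction.stabilizer SL(2, ℤ) z₀ : Set SL(2, ℤ)),
      ((γ • ofComplex w : ℍ) : ℂ) ∈ V := by
    rw [Filter.eventually_all_finite hfin]
    intro γ hγ
    have hγ' : γ • z₀ = z₀ := hγ
    have hc : Tendsto (fun w : ℂ => ((γ • ofComplex w : ℍ) : ℂ)) (𝓝 (z₀ : ℂ)) (𝓝 (z₀ : ℂ)) := by
      have h1 : Tendsto (fun z : ℍ => ((γ • z : ℍ) : ℂ)) (𝓝 z₀) (𝓝 ((γ • z₀ : ℍ) : ℂ)) :=
        (UpperHalfPlane.continuous_coe.comp (continuous_smul_SL γ)).continuousAt.tendsto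
      rw [hγ'] at h1
      exact h1.comp (tendsto_ofComplex z₀)
    exact hc hV
  have h4 : ∀ᶠ w in 𝓝[≠] (z₀ : ℂ), jC w - jC z₀ ≠ 0 := by
    rcases ((analyticAt_jC z₀).sub analyticAt_const).eventually_eq_zero_or_eventually_ne_zero
      with h | h
    · exact absurd h (not_eventually_const z₀)
    · exact h
  obtain ⟨w, ⟨⟨hw1, hw2⟩, hw3⟩, hw4⟩ :=
    ((((h1.and h2).and h3).filter_mono nhdsWithin_le_nhds).and h4).exists
  set p : ℍ := ⟨w, hw1⟩ with hp
  have hpw : ofComplex w = p := ofComplex_apply_of_im_pos hw1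
  have hpz : p ≠ z₀ := by
    intro h
    apply hw4
    have : w = (z₀ : ℂ) := by rw [← h]
    rw [this, sub_self]
  -- the fibre
  have hwne : jC w ≠ jC z₀ := sub_ne_zero.mp hw4
  have hc := hcount (jC w) hw2 hwne
  have hTfin : {z | z ∈ V ∧ jC z = jC w}.Finite :=
    Set.finite_of_ncard_ne_zero (by rw [hc]; exact hm0)
  -- the stabiliser as a finset and the orbit map
  set s : Finset SL(2, ℤ) := hfin.toFinset with hs
  set f : SL(2, ℤ) → ℂ := fun γ => ((γ • p : ℍ) : ℂ) with hf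
  have himg : s.image f ⊆ hTfin.toFinset := by
    intro a ha
    obtain ⟨γ, hγ, rfl⟩ := Finset.mem_image.mp ha
    rw [Set.Finite.mem_toFinset]
    have hγS : γ ∈ (MulAction.stabilizer SL(2, ℤ) z₀ : Set SL(2, ℤ)) := hfin.mem_toFinset.mp hγ
    refine ⟨?_, ?_⟩
    · have := hw3 γ hγS
      rwa [hpw] at this
    · show jC ((γ • p : ℍ) : ℂ) = jC w
      rw [jC_coe, jInv_smul]
      have : w = (p : ℂ) := rfl
      rw [this, jC_coe]
  have hfib : ∀ a ∈ s.image f, (s.filter fun x => f x = a).card ≤ 2 := by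
    intro a ha
    obtain ⟨γ, hγ, rfl⟩ := Finset.mem_image.mp ha
    have hsub : (s.filter fun x => f x = f γ) ⊆ {γ, -γ} := by
      intro x hx
      rw [Finset.mem_filter] at hx
      have hxS : x • z₀ = z₀ := hfin.mem_toFinset.mp hx.1
      have hγS : γ • z₀ = z₀ := hfin.mem_toFinset.mp hγ
      have hxp : x • p = γ • p := UpperHalfPlane.ext hx.2
      have h1 : (γ⁻¹ * x) • z₀ = z₀ := by
        rw [mul_smul, hxS, inv_smul_eq_iff, hγS]
      have h2 : (γ⁻¹ * x) • p = p := by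
        rw [mul_smul, hxp, inv_smul_smul]
      rcases eq_one_or_neg_one_of_fix_two (γ⁻¹ * x) (Ne.symm hpz) h1 h2 with h | h
      · have : x = γ := by
          have := congrArg (fun g => γ * g) h
          simpa using this
        rw [this]; exact Finset.mem_insert_self _ _
      · have : x = -γ := by
          have := congrArg (fun g => γ * g) h
          simpa using this
        rw [this]; exact Finset.mem_insert_of_mem (Finset.mem_singleton_self _)
    exact (Finset.card_le_card hsub).trans Finset.card_le_two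
  have hcard := Finset.card_le_mul_card_image s 2 hfib
  have h5 : (s.image f).card ≤ m := by
    have := Finset.card_le_card himg
    rwa [← Set.ncard_eq_toFinset_card _ hTfin, hc] at this
  have h6 : Nat.card (MulAction.stabilizer SL(2, ℤ) z₀) = s.card := by
    rw [hs, ← Set.ncard_eq_toFinset_card _ hfin]
    rfl
  rw [h6]
  calc s.card ≤ 2 * (s.image f).card := hcard
    _ ≤ 2 * m := by omega

/-- **I.4c.** The analytic order of `j - j z₀` at `z₀` is half the order of the stabiliser of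
`z₀` in `SL(2,ℤ)`, i.e. the order of the stabiliser in `PSL(2,ℤ)`. -/
theorem analyticOrderAt_jC (z₀ : ℍ) : ∃ m : ℕ, m ≠ 0 ∧
    analyticOrderAt (fun z => jC z - jC z₀) (z₀ : ℂ) = m ∧
    2 * m = Nat.card (MulAction.stabilizer SL(2, ℤ) z₀) := by
  obtain ⟨m, hm0, hm⟩ := exists_order z₀
  exact ⟨m, hm0, hm, le_antisymm (two_mul_order_le z₀ hm0 hm) (card_stabilizer_le z₀ hm0 hm)⟩

end Fermat.Agent.M2.JOrderAlt
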