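import Mathlib

/-!
# M2, task I.4a: local `m`-to-one lemma

If `f` is analytic at `z₀` and `f - f z₀` vanishes to (finite) order `m ≥ 1` at `z₀`, then every
neighbourhood of `z₀` contains `m` pairwise distinct points (all different from `z₀`) at which `f`
takes one and the same value.
-/

set_option autoImplicit false

noncomputable section

namespace Fermat.Agent.M2.LocalMToOne

open Complex Filter Topology Metric

/-- Local `m`-th root: if `f - f z₀ = (z - z₀)^m g` near `z₀` with `g z₀ ≠ 0`, then there is an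
analytic `φ` at `z₀` with `φ z₀ = 0`, not locally constant, and `φ ^ m = f - f z₀` near `z₀`. -/
theorem exists_local_root {f : ℂ → ℂ} {z₀ : ℂ} {m : ℕ} (hm : m ≠ 0)
    (hord : analyticOrderAt (fun z => f z - f z₀) z₀ = m) (hf : AnalyticAt ℂ f z₀) :
    ∃ φ : ℂ → ℂ, AnalyticAt ℂ φ z₀ ∧ φ z₀ = 0 ∧ (∀ᶠ z in 𝓝 z₀, φ z ^ m = f z - f z₀) ∧
      ¬ (∀ᶠ z in 𝓝 z₀, φ z = φ z₀) := by
  have hfa : AnalyticAt ℂ (fun z => f z - f z₀) z₀ := hf.sub analyticAt_const
  obtain ⟨g, hg, hg0, hfg⟩ := hfa.analyticOrderAt_eq_natCast.mp hord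
  obtain ⟨c, hc⟩ := IsAlgClosed.exists_pow_nat_eq (g z₀) (Nat.pos_of_ne_zero hm)
  -- the analytic `m`-th root of `g`
  set h : ℂ → ℂ := fun z => c * exp (log (g z / g z₀) / m) with hh
  have hquot : AnalyticAt ℂ (fun z => g z / g z₀) z₀ := hg.div analyticAt_const hg0
  have hlog : AnalyticAt ℂ (fun z => log (g z / g z₀)) z₀ := by
    refine hquot.clog ?_
    simp [div_self hg0]
  have hh_an : AnalyticAt ℂ h z₀ :=
    analyticAt_const.mul ((hlog.div analyticAt_const (by exact_mod_cast hm)).cexp')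
  have hgne : ∀ᶠ z in 𝓝 z₀, g z ≠ 0 := hg.continuousAt.eventually_ne hg0
  have hpow : ∀ᶠ z in 𝓝 z₀, h z ^ m = g z := by
    filter_upwards [hgne] with z hz
    have hmC : (m : ℂ) ≠ 0 := by exact_mod_cast hm
    rw [hh]
    simp only
    rw [mul_pow, hc, ← Complex.exp_nat_mul, mul_div_cancel₀ _ hmC,
      Complex.exp_log (div_ne_zero hz hg0), mul_div_cancel₀ _ hg0]
  refine ⟨fun z => (z - z₀) * h z, ?_, by simp, ?_, ?_⟩
  · exact (analyticAt_id.sub analyticAt_const).mul hh_an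
  · filter_upwards [hpow, hfg] with z hz hz'
    rw [mul_pow, hz, hz', smul_eq_mul]
  · intro hconst
    have hzero : ∀ᶠ z in 𝓝 z₀, f z - f z₀ = 0 := by
      filter_upwards [hconst, hpow, hfg] with z hz hz' hz''
      have h0 : (z - z₀) * h z = 0 := by simpa using hz
      rw [hz'', smul_eq_mul, ← hz', ← mul_pow, h0, zero_pow hm]
    have := analyticOrderAt_eq_top.mpr hzero
    rw [hord] at this
    exact ENat.natCast_ne_top m this

/-- **Local `m`-to-one lemma.** -/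
theorem exists_distinct_points_of_analyticOrderAt {f : ℂ → ℂ} {z₀ : ℂ} {m : ℕ}
    (hf : AnalyticAt ℂ f z₀) (hord : analyticOrderAt (fun z => f z - f z₀) z₀ = m) (hm : m ≠ 0)
    {U : Set ℂ} (hU : U ∈ 𝓝 z₀) :
    ∃ p : Fin m → ℂ, Function.Injective p ∧ (∀ k, p k ∈ U) ∧ (∀ k, p k ≠ z₀) ∧
      ∀ k l, f (p k) = f (p l) := by
  obtain ⟨φ, hφ, hφ0, hφpow, hφnc⟩ := exists_local_root hm hord hf
  have hopen : 𝓝 (φ z₀) ≤ map φ (𝓝 z₀) :=
    (hφ.eventually_constant_or_nhds_le_map_nhds).resolve_left hφnc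
  set V : Set ℂ := U ∩ {z | φ z ^ m = f z - f z₀} with hV
  have hVmem : V ∈ 𝓝 z₀ := inter_mem hU hφpow
  have himg : φ '' V ∈ 𝓝 (0 : ℂ) := by
    rw [← hφ0]
    exact hopen (image_mem_map hVmem)
  obtain ⟨ε, hε, hball⟩ := Metric.mem_nhds_iff.mp himg
  -- the `m` points `(ε/2) ζ^k`
  set ζ : ℂ := exp (2 * Real.pi * I / m) with hζdef
  have hζ : IsPrimitiveRoot ζ m := Complex.isPrimitiveRoot_exp m hm
  set w : Fin m → ℂ := fun k => ((ε / 2 : ℝ) : ℂ) * ζ ^ (k : ℕ) with hw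
  have hζnorm : ∀ k : ℕ, ‖ζ ^ k‖ = 1 := by
    intro k
    rw [norm_pow, hζ.norm'_eq_one hm, one_pow]
  have hwball : ∀ k, w k ∈ ball (0 : ℂ) ε := by
    intro k
    rw [mem_ball_zero_iff, hw]
    simp only
    rw [norm_mul, hζnorm, mul_one, Complex.norm_real, Real.norm_eq_abs, abs_of_pos (half_pos hε)]
    exact half_lt_self hε
  have hε2 : ((ε / 2 : ℝ) : ℂ) ≠ 0 := by
    exact_mod_cast (half_pos hε).ne'
  have hwinj : Function.Injective w := by
    intro k l hkl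
    have h1 : ζ ^ (k : ℕ) = ζ ^ (l : ℕ) := mul_left_cancel₀ hε2 hkl
    exact Fin.ext (hζ.pow_inj k.2 l.2 h1)
  have hwne : ∀ k, w k ≠ 0 := fun k =>
    mul_ne_zero hε2 (pow_ne_zero _ (hζ.ne_zero hm))
  have hwpow : ∀ k, w k ^ m = (((ε / 2 : ℝ) : ℂ)) ^ m := by
    intro k
    rw [hw]
    simp only
    rw [mul_pow, ← pow_mul, mul_comm (k : ℕ) m, pow_mul, hζ.pow_eq_one, one_pow, mul_one]
  have hex : ∀ k, ∃ z ∈ V, φ z = w k := fun k => hball (hwball k)
  choose p hpV hpw using hex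
  refine ⟨p, ?_, fun k => (hpV k).1, ?_, ?_⟩
  · intro k l hkl
    apply hwinj
    rw [← hpw k, ← hpw l, hkl]
  · intro k hk
    apply hwne k
    rw [← hpw k, hk, hφ0]
  · intro k l
    have hk : φ (p k) ^ m = f (p k) - f z₀ := (hpV k).2
    have hl : φ (p l) ^ m = f (p l) - f z₀ := (hpV l).2
    rw [hpw k, hwpow] at hk
    rw [hpw l, hwpow] at hl
    have := hk.symm.trans hl
    exact sub_left_injective this

end Fermat.Agent.M2.LocalMToOne

end
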