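import Mathlib
import Fermat.Agent.M2.Elliptic
import Fermat.Agent.M2.CombOrbit
import Fermat.Agent.M2.P1Gamma0

/-!
# M2 (D4): counting glue

Pure group theory connecting double cosets `π(H) \ G / π(St)` with orbits of `St` on `𝔾 ⧸ H`,
conjugation invariance of orbit counts, and the orbit counts of point stabilisers of `SL(2,ℤ)`
on `SL(2,ℤ) ⧸ Γ₀(N)`.
-/

namespace Fermat.Agent.M2.OrbitCount

open MulAction Subgroup

section General

variable {𝔾 X : Type*} [Group 𝔾] [MulAction 𝔾 X]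

theorem mem_orbit_zpowers_iff (g : 𝔾) (a b : X) :
    a ∈ orbit (zpowers g) b ↔ ∃ n : ℤ, g ^ n • b = a := by
  constructor
  · rintro ⟨⟨h, hh⟩, rfl⟩
    obtain ⟨n, rfl⟩ := Subgroup.mem_zpowers_iff.1 hh
    exact ⟨n, rfl⟩
  · rintro ⟨n, rfl⟩
    exact ⟨⟨g ^ n, Subgroup.zpow_mem_zpowers g n⟩, rfl⟩

/-- (G2) Orbits of a conjugate cyclic subgroup. -/
noncomputable def orbitsConjEquiv (g γ : 𝔾) :
    orbitRel.Quotient (zpowers (γ⁻¹ * g * γ)) X ≃ orbitRel.Quotient (zpowers g) X :=
  Quotient.congr (MulAction.toPerm γ) (by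
    intro a b
    show a ∈ orbit (zpowers (γ⁻¹ * g * γ)) b ↔ γ • a ∈ orbit (zpowers g) (γ • b)
    rw [mem_orbit_zpowers_iff, mem_orbit_zpowers_iff]
    have key : ∀ n : ℤ, (γ⁻¹ * g * γ) ^ n = γ⁻¹ * g ^ n * γ := by
      intro n
      have := conj_zpow (a := γ⁻¹) (b := g) (i := n)
      rw [inv_inv] at this
      exact this
    constructor
    · rintro ⟨n, hn⟩
      refine ⟨n, ?_⟩
      rw [← hn, key, mul_smul, mul_smul, smul_inv_smul]
    · rintro ⟨n, hn⟩
      refine ⟨n, ?_⟩
      rw [key, mul_smul, mul_smul, hn, inv_smul_smul])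

theorem card_orbits_conj (g γ : 𝔾) :
    Nat.card (orbitRel.Quotient (zpowers (γ⁻¹ * g * γ)) X) =
      Nat.card (orbitRel.Quotient (zpowers g) X) :=
  Nat.card_congr (orbitsConjEquiv g γ)

/-- Orbits of a subgroup acting trivially. -/
theorem card_orbits_of_trivial (K : Subgroup 𝔾) (h : ∀ k ∈ K, ∀ x : X, k • x = x) :
    Nat.card (orbitRel.Quotient K X) = Nat.card X := by
  apply Nat.card_congr
  refine (Equiv.ofBijective (fun x : X => (Quotient.mk'' x : orbitRel.Quotient K X)) ⟨?_, ?_⟩).symm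
  · intro a b hab
    have : a ∈ orbit K b := by
      rw [Quotient.eq''] at hab
      exact hab
    obtain ⟨⟨k, hk⟩, rfl⟩ := this
    exact h k hk b
  · intro q
    induction q using Quotient.inductionOn' with
    | h x => exact ⟨x, rfl⟩

theorem card_orbits_congr {K K' : Subgroup 𝔾} (h : K = K') :
    Nat.card (orbitRel.Quotient K X) = Nat.card (orbitRel.Quotient K' X) := by
  subst h; rfl

end General

section DoubleCoset

variable {𝔾 G : Type*} [Group 𝔾] [Group G]

/-- (G1) For a surjective homomorphism `π : 𝔾 → G` whose kernel is contained in `H`, the double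
coset space `π(H) \ G / π(St)` (orbits of `π(H)` on `G ⧸ π(St)`) is in bijection with the orbits
of `St` on `𝔾 ⧸ H`. -/
theorem card_orbits_map_eq (π : 𝔾 →* G) (hπ : Function.Surjective π) (H St : Subgroup 𝔾)
    (hker : π.ker ≤ H) :
    Nat.card (orbitRel.Quotient (H.map π) (G ⧸ St.map π)) =
      Nat.card (orbitRel.Quotient St (𝔾 ⧸ H)) := by
  symm
  apply Nat.card_congr
  -- the map `g ↦ [π(g)⁻¹ π(St)]`
  let f : 𝔾 → orbitRel.Quotient (H.map π) (G ⧸ St.map π) :=
    fun g => Quotient.mk'' (QuotientGroup.mk (π g)⁻¹ : G ⧸ St.map π)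
  have hf : ∀ (g : 𝔾) (s : 𝔾) (h : 𝔾), s ∈ St → h ∈ H → f (s * g * h) = f g := by
    intro g s h hs hh
    apply Quotient.sound'
    show (QuotientGroup.mk (π (s * g * h))⁻¹ : G ⧸ St.map π) ∈
      orbit (H.map π) (QuotientGroup.mk (π g)⁻¹ : G ⧸ St.map π)
    refine ⟨⟨(π h)⁻¹, inv_mem (Subgroup.mem_map_of_mem π hh)⟩, ?_⟩
    show (π h)⁻¹ • (QuotientGroup.mk (π g)⁻¹ : G ⧸ St.map π) = _
    rw [MulAction.Quotient.smul_mk, smul_eq_mul, QuotientGroup.eq]
    refine ⟨s⁻¹, inv_mem hs, ?_⟩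
    simp only [map_mul, map_inv, mul_inv_rev, inv_inv]
    group
  have hf' : ∀ g g' : 𝔾, f g = f g' → ∃ s ∈ St, ∃ h ∈ H, g' = s * g * h := by
    intro g g' hgg
    have h1 : (QuotientGroup.mk (π g)⁻¹ : G ⧸ St.map π) ∈
        orbit (H.map π) (QuotientGroup.mk (π g')⁻¹ : G ⧸ St.map π) := Quotient.exact' hgg
    obtain ⟨⟨k, hk⟩, hk2⟩ := h1
    obtain ⟨h, hh, rfl⟩ := Subgroup.mem_map.1 hk
    have hk3 : π h • (QuotientGroup.mk (π g')⁻¹ : G ⧸ St.map π) = QuotientGroup.mk (π g)⁻¹ := hk2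
    rw [MulAction.Quotient.smul_mk, smul_eq_mul, QuotientGroup.eq] at hk3
    obtain ⟨s, hs, hs2⟩ := Subgroup.mem_map.1 hk3
    -- π (g' * h⁻¹ * g⁻¹) = π s
    have h4 : π (s⁻¹ * g' * h⁻¹ * g⁻¹) = 1 := by
      simp only [map_mul, map_inv, hs2]
      group
    have h5 : g⁻¹ * (s⁻¹ * g' * h⁻¹ * g⁻¹) * g ∈ H := by
      apply hker
      rw [MonoidHom.mem_ker, map_mul, map_mul, h4, mul_one, map_inv, inv_mul_cancel]
    refine ⟨s, hs, (g⁻¹ * (s⁻¹ * g' * h⁻¹ * g⁻¹) * g) * h, mul_mem h5 hh, ?_⟩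
    group
  -- descend to the quotients
  let F : orbitRel.Quotient St (𝔾 ⧸ H) → orbitRel.Quotient (H.map π) (G ⧸ St.map π) :=
    Quotient.lift (fun x : 𝔾 ⧸ H => Quotient.liftOn' x f (by
      intro a b hab
      rw [QuotientGroup.leftRel_apply] at hab
      have := hf a 1 (a⁻¹ * b) (one_mem _) hab
      rw [← this]
      congr 1
      group)) (by
      intro x y hxy
      induction x using QuotientGroup.induction_on with
      | H a =>
        induction y using QuotientGroup.induction_on with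
        | H b =>
          have hxy' : (QuotientGroup.mk a : 𝔾 ⧸ H) ∈ orbit St (QuotientGroup.mk b : 𝔾 ⧸ H) := hxy
          obtain ⟨⟨s, hs⟩, hs2⟩ := hxy'
          have hs3 : s • (QuotientGroup.mk b : 𝔾 ⧸ H) = QuotientGroup.mk a := hs2
          rw [MulAction.Quotient.smul_mk, smul_eq_mul, QuotientGroup.eq] at hs3
          show f a = f b
          have := hf b s ((s * b)⁻¹ * a) hs hs3
          rw [← this]
          congr 1
          group)
  refine Equiv.ofBijective F ⟨?_, ?_⟩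
  · intro x y hxy
    induction x using Quotient.inductionOn' with
    | h x =>
      induction y using Quotient.inductionOn' with
      | h y =>
        induction x using QuotientGroup.induction_on with
        | H a =>
          induction y using QuotientGroup.induction_on with
          | H b =>
            have hab : f a = f b := hxy
            obtain ⟨s, hs, h, hh, rfl⟩ := hf' a b hab
            apply Quotient.sound'
            show (QuotientGroup.mk a : 𝔾 ⧸ H) ∈ orbit St (QuotientGroup.mk (s * a * h) : 𝔾 ⧸ H)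
            refine ⟨⟨s⁻¹, inv_mem hs⟩, ?_⟩
            show s⁻¹ • (QuotientGroup.mk (s * a * h) : 𝔾 ⧸ H) = _
            rw [MulAction.Quotient.smul_mk, smul_eq_mul, QuotientGroup.eq]
            have : (s⁻¹ * (s * a * h))⁻¹ * a = h⁻¹ := by group
            rw [this]
            exact inv_mem hh
  · intro q
    induction q using Quotient.inductionOn' with
    | h y =>
      induction y using QuotientGroup.induction_on with
      | H b =>
        obtain ⟨a, ha⟩ := hπ b⁻¹
        refine ⟨Quotient.mk'' (QuotientGroup.mk a : 𝔾 ⧸ H), ?_⟩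
        show f a = _
        simp only [f, ha, inv_inv]

end DoubleCoset

section Gamma0

open ModularGroup UpperHalfPlane CongruenceSubgroup ModularCurve
open scoped MatrixGroups Modular

variable (N : ℕ)

theorem neg_one_mem_Gamma0 : (-1 : SL(2, ℤ)) ∈ Gamma0 N := by
  rw [Gamma0_mem]
  simp

/-- `-1` acts trivially on `SL(2,ℤ) ⧸ Γ₀(N)`. -/
theorem neg_one_smul_coset (x : SL(2, ℤ) ⧸ Gamma0 N) : (-1 : SL(2, ℤ)) • x = x := by
  induction x using QuotientGroup.induction_on with
  | H g =>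
    rw [MulAction.Quotient.smul_mk, smul_eq_mul, QuotientGroup.eq]
    have : (-1 * g)⁻¹ * g = -1 := by
      rw [neg_mul, one_mul]
      have h2 : (-g) * (-1 : SL(2, ℤ)) = g := by rw [mul_neg, mul_one, neg_neg]
      calc (-g)⁻¹ * g = (-g)⁻¹ * ((-g) * (-1)) := by rw [h2]
        _ = -1 := by rw [inv_mul_cancel_left]
    rw [this]
    exact neg_one_mem_Gamma0 N

variable [NeZero N]

theorem two_mul_card_orbits_S_coset :
    2 * Nat.card (orbitRel.Quotient (zpowers S) (SL(2, ℤ) ⧸ Gamma0 N)) =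
      dedekindPsi N + nuTwo N := by
  have h := Comb.two_mul_card_orbits_s (P1.prCoset N) P1.prCoset_surjective P1.isProj_prCoset S
    (fun v => by rw [P1.smul_prCoset, P1.S_smul_prZ]; rfl)
  rw [P1.card_coset_Gamma0 N (NeZero.ne N)] at h
  exact h

theorem three_mul_card_orbits_ST_coset :
    3 * Nat.card (orbitRel.Quotient (zpowers (S * T)) (SL(2, ℤ) ⧸ Gamma0 N)) =
      dedekindPsi N + 2 * nuThree N := by
  have h := Comb.three_mul_card_orbits_st (P1.prCoset N) P1.prCoset_surjective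
    P1.isProj_prCoset (S * T) (fun v => by rw [P1.smul_prCoset, P1.ST_smul_prZ]; rfl)
  rw [P1.card_coset_Gamma0 N (NeZero.ne N)] at h
  exact h

/-- (G3a) Orbits of the stabiliser of a point equivalent to `I`. -/
theorem two_mul_card_orbits_stabilizer_of_I {z : ℍ} (h : ∃ γ : SL(2, ℤ), γ • z = I) :
    2 * Nat.card (orbitRel.Quotient (stabilizer SL(2, ℤ) z) (SL(2, ℤ) ⧸ Gamma0 N)) =
      dedekindPsi N + nuTwo N := by
  obtain ⟨γ, hγ⟩ := h
  have h1 := card_orbits_congr (X := SL(2, ℤ) ⧸ Gamma0 N)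
    (Elliptic.stabilizer_eq_of_smul_eq_I hγ)
  have h2 := card_orbits_conj (X := SL(2, ℤ) ⧸ Gamma0 N) S γ
  exact (congrArg (2 * ·) (h1.trans h2)).trans (two_mul_card_orbits_S_coset N)

/-- (G3b) Orbits of the stabiliser of a point equivalent to `ρ`. -/
theorem three_mul_card_orbits_stabilizer_of_rho {z : ℍ} (h : ∃ γ : SL(2, ℤ), γ • z = ρ) :
    3 * Nat.card (orbitRel.Quotient (stabilizer SL(2, ℤ) z) (SL(2, ℤ) ⧸ Gamma0 N)) =
      dedekindPsi N + 2 * nuThree N := by
  obtain ⟨γ, hγ⟩ := h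
  have h1 := card_orbits_congr (X := SL(2, ℤ) ⧸ Gamma0 N)
    (Elliptic.stabilizer_eq_of_smul_eq_rho hγ)
  have h2 := card_orbits_conj (X := SL(2, ℤ) ⧸ Gamma0 N) (S * T) γ
  exact (congrArg (3 * ·) (h1.trans h2)).trans (three_mul_card_orbits_ST_coset N)

/-- (G3c) Orbits of the stabiliser of a non-elliptic point. -/
theorem card_orbits_stabilizer_of_forall {z : ℍ}
    (h : ∀ g : SL(2, ℤ), g • z = z → g = 1 ∨ g = -1) :
    Nat.card (orbitRel.Quotient (stabilizer SL(2, ℤ) z) (SL(2, ℤ) ⧸ Gamma0 N)) =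
      dedekindPsi N := by
  have h1 := card_orbits_of_trivial (X := SL(2, ℤ) ⧸ Gamma0 N) (stabilizer SL(2, ℤ) z) (by
    intro k hk x
    rcases h k (mem_stabilizer_iff.1 hk) with rfl | rfl
    · exact one_smul _ x
    · exact neg_one_smul_coset N x)
  exact h1.trans (P1.card_coset_Gamma0 N (NeZero.ne N))

/-- The cusps. -/
theorem card_orbits_T_coset' :
    Nat.card (orbitRel.Quotient (zpowers T) (SL(2, ℤ) ⧸ Gamma0 N)) = cuspCount N :=
  P1.card_orbits_T_coset

end Gamma0

end Fermat.Agent.M2.OrbitCount
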