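import Mathlib

set_option autoImplicit false

/-!
# The projective line over a commutative ring (naive version)

`ProjLine R` is the set of primitive vectors `(x, y) : R × R` (i.e. `x`, `y` generate the unit ideal)
modulo the relation `x * y' = y * x'`.  For `R = ZMod N` this is the coset space
`SL(2, ℤ) ⧸ Γ₀(N)`.
-/

namespace Fermat.Agent.M2.P1

variable {R : Type*} [CommRing R]

/-- A vector is primitive when its coordinates generate the unit ideal. -/
def IsPrim (v : R × R) : Prop := ∃ p q : R, p * v.1 + q * v.2 = 1

/-- The "cross product" of two vectors. -/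
def cross (v w : R × R) : R := v.1 * w.2 - v.2 * w.1

theorem cross_self (v : R × R) : cross v v = 0 := by
  unfold cross; ring

theorem cross_symm {v w : R × R} (h : cross v w = 0) : cross w v = 0 := by
  unfold cross at *; linear_combination -h

theorem cross_trans {u v w : R × R} (hv : IsPrim v) (h1 : cross u v = 0) (h2 : cross v w = 0) :
    cross u w = 0 := by
  obtain ⟨p, q, hpq⟩ := hv
  unfold cross at *
  linear_combination (p * w.1 + q * w.2) * h1 + (p * u.1 + q * u.2) * h2 -
    (u.1 * w.2 - u.2 * w.1) * hpq

variable (R) in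
/-- Primitive vectors. -/
def Prim : Type _ := {v : R × R // IsPrim v}

variable (R) in
/-- The setoid on primitive vectors defining the projective line. -/
def primSetoid : Setoid (Prim R) where
  r v w := cross v.1 w.1 = 0
  iseqv := ⟨fun v => cross_self v.1, fun h => cross_symm h, fun {_ v _} h1 h2 =>
    cross_trans v.2 h1 h2⟩

variable (R) in
/-- The naive projective line over `R`. -/
def ProjLine : Type _ := Quotient (primSetoid R)

/-- The point `(x : y)`. -/
def mk (v : R × R) (hv : IsPrim v) : ProjLine R := Quotient.mk (primSetoid R) ⟨v, hv⟩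

theorem mk_eq_mk_iff {v w : R × R} (hv : IsPrim v) (hw : IsPrim w) :
    mk v hv = mk w hw ↔ cross v w = 0 := by
  exact Quotient.eq (r := primSetoid R)

theorem mk_surjective (x : ProjLine R) : ∃ v hv, mk (R := R) v hv = x := by
  induction x using Quotient.inductionOn with
  | _ v => exact ⟨v.1, v.2, rfl⟩

/-- Two primitive vectors are equivalent iff they differ by a unit. -/
theorem cross_eq_zero_iff_exists_unit {v w : R × R} (hv : IsPrim v) (hw : IsPrim w) :
    cross v w = 0 ↔ ∃ u : Rˣ, w = ((u : R) * v.1, (u : R) * v.2) := by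
  constructor
  · intro h
    obtain ⟨p, q, hpq⟩ := hv
    obtain ⟨p', q', hpq'⟩ := hw
    unfold cross at h
    have h1 : (p * w.1 + q * w.2) * v.1 = w.1 := by
      linear_combination q * h + w.1 * hpq
    have h2 : (p * w.1 + q * w.2) * v.2 = w.2 := by
      linear_combination -p * h + w.2 * hpq
    have h3 : (p' * v.1 + q' * v.2) * w.1 = v.1 := by
      linear_combination -q' * h + v.1 * hpq'
    have h4 : (p' * v.1 + q' * v.2) * w.2 = v.2 := by
      linear_combination p' * h + v.2 * hpq'
    have hu : (p * w.1 + q * w.2) * (p' * v.1 + q' * v.2) = 1 := by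
      linear_combination p * h3 + q * h4 + hpq
    refine ⟨⟨p * w.1 + q * w.2, p' * v.1 + q' * v.2, hu, by rw [mul_comm]; exact hu⟩, ?_⟩
    ext
    · exact h1.symm
    · exact h2.symm
  · rintro ⟨u, rfl⟩
    unfold cross
    ring


section Map

variable {S : Type*} [CommRing S]

theorem IsPrim.map (f : R →+* S) {v : R × R} (hv : IsPrim v) : IsPrim (f v.1, f v.2) := by
  obtain ⟨p, q, hpq⟩ := hv
  exact ⟨f p, f q, by simp only [← map_mul, ← map_add, hpq, map_one]⟩

theorem cross_map (f : R →+* S) (v w : R × R) :
    cross (f v.1, f v.2) (f w.1, f w.2) = f (cross v w) := by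
  simp only [cross, map_sub, map_mul]

/-- Functoriality of the projective line. -/
def map (f : R →+* S) : ProjLine R → ProjLine S :=
  Quotient.map' (s₁ := primSetoid R) (s₂ := primSetoid S)
    (fun v => ⟨(f v.1.1, f v.1.2), v.2.map f⟩) (fun v w h => by
      show cross _ _ = 0
      rw [cross_map]
      have h' : cross v.1 w.1 = 0 := h
      rw [h', map_zero])

@[simp] theorem map_mk (f : R →+* S) (v : R × R) (hv : IsPrim v) :
    map f (mk v hv) = mk (f v.1, f v.2) (hv.map f) := rfl

theorem map_id (x : ProjLine R) : map (RingHom.id R) x = x := by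
  obtain ⟨v, hv, rfl⟩ := mk_surjective x
  rfl

theorem map_map {T : Type*} [CommRing T] (f : R →+* S) (g : S →+* T) (x : ProjLine R) :
    map g (map f x) = map (g.comp f) x := by
  obtain ⟨v, hv, rfl⟩ := mk_surjective x
  rfl

/-- A ring isomorphism induces a bijection of projective lines. -/
def mapEquiv (e : R ≃+* S) : ProjLine R ≃ ProjLine S where
  toFun := map e.toRingHom
  invFun := map e.symm.toRingHom
  left_inv x := by
    rw [map_map]
    have : e.symm.toRingHom.comp e.toRingHom = RingHom.id R := by ext; simp
    rw [this, map_id]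
  right_inv x := by
    rw [map_map]
    have : e.toRingHom.comp e.symm.toRingHom = RingHom.id S := by ext; simp
    rw [this, map_id]

/-- The projective line of a product ring. -/
def prodEquiv : ProjLine (R × S) ≃ ProjLine R × ProjLine S where
  toFun x := (map (RingHom.fst R S) x, map (RingHom.snd R S) x)
  invFun := fun xy => Quotient.liftOn₂' (s₁ := primSetoid R) (s₂ := primSetoid S) xy.1 xy.2
    (fun v w => mk ((v.1.1, w.1.1), (v.1.2, w.1.2)) (by
      obtain ⟨p, q, hpq⟩ := v.2
      obtain ⟨p', q', hpq'⟩ := w.2
      exact ⟨(p, p'), (q, q'), by ext <;> simpa⟩))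
    (fun v w v' w' hv hw => by
      rw [mk_eq_mk_iff]
      have hv' : cross v.1 v'.1 = 0 := hv
      have hw' : cross w.1 w'.1 = 0 := hw
      unfold cross at *
      ext <;> simpa)
  left_inv x := by
    obtain ⟨v, hv, rfl⟩ := mk_surjective x
    show mk _ _ = mk _ _
    rw [mk_eq_mk_iff]
    unfold cross
    ext <;> simp [mul_comm]
  right_inv := by
    rintro ⟨x, y⟩
    obtain ⟨v, hv, rfl⟩ := mk_surjective x
    obtain ⟨w, hw, rfl⟩ := mk_surjective y
    rfl

end Map

end Fermat.Agent.M2.P1
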