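import Fermat.Agent.M2.P1Basic

set_option autoImplicit false

/-!
# Counting points of the projective line over `ZMod N`

Main result: `Nat.card (ProjLine (ZMod N)) = ∑ d ∈ N.divisors with Squarefree d, N / d`
(the right-hand side is the prelude's `ModularCurve.dedekindPsi N`).
-/

namespace Fermat.Agent.M2.P1

section Local

variable {R : Type*} [CommRing R] [IsLocalRing R]

theorem IsPrim.isUnit_or {v : R × R} (hv : IsPrim v) : IsUnit v.1 ∨ IsUnit v.2 := by
  obtain ⟨p, q, hpq⟩ := hv
  have h1 : IsUnit (p * v.1 + q * v.2) := hpq ▸ isUnit_one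
  rcases IsLocalRing.isUnit_or_isUnit_of_isUnit_add h1 with h | h
  · exact Or.inl (isUnit_of_mul_isUnit_right h)
  · exact Or.inr (isUnit_of_mul_isUnit_right h)

omit [IsLocalRing R] in
theorem isPrim_one_right (x : R) : IsPrim (x, (1 : R)) := ⟨0, 1, by simp⟩

omit [IsLocalRing R] in
theorem isPrim_one_left (y : R) : IsPrim ((1 : R), y) := ⟨1, 0, by simp⟩

/-- Affine chart + the points at infinity of the projective line over a local ring. -/
noncomputable def localChart : R ⊕ {y : R // ¬ IsUnit y} → ProjLine R
  | Sum.inl x => mk (x, 1) (isPrim_one_right x)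
  | Sum.inr y => mk (1, y.1) (isPrim_one_left y.1)

theorem localChart_bijective : Function.Bijective (localChart (R := R)) := by
  constructor
  · rintro (x | y) (x' | y') h
    · simp only [localChart, mk_eq_mk_iff, cross] at h
      congr 1
      linear_combination h
    · simp only [localChart, mk_eq_mk_iff, cross] at h
      exfalso
      apply y'.2
      refine IsUnit.of_mul_eq_one x ?_
      linear_combination h
    · simp only [localChart, mk_eq_mk_iff, cross] at h
      exfalso
      apply y.2
      refine IsUnit.of_mul_eq_one x' ?_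
      linear_combination -h
    · simp only [localChart, mk_eq_mk_iff, cross] at h
      congr 1
      apply Subtype.ext
      linear_combination -h
  · intro x
    obtain ⟨v, hv, rfl⟩ := mk_surjective x
    by_cases h2 : IsUnit v.2
    · obtain ⟨u, hu⟩ := h2
      refine ⟨Sum.inl (v.1 * ((u⁻¹ : Rˣ) : R)), ?_⟩
      simp only [localChart, mk_eq_mk_iff, cross]
      rw [← hu]
      linear_combination ((v.1 : R)) * (Units.inv_mul u)
    · have h1 : IsUnit v.1 := hv.isUnit_or.resolve_right h2
      obtain ⟨u, hu⟩ := h1
      have hnu : ¬ IsUnit (v.2 * ((u⁻¹ : Rˣ) : R)) := by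
        intro h
        apply h2
        have := h.mul u.isUnit
        rwa [mul_assoc, Units.inv_mul, mul_one] at this
      refine ⟨Sum.inr ⟨v.2 * ((u⁻¹ : Rˣ) : R), hnu⟩, ?_⟩
      simp only [localChart, mk_eq_mk_iff, cross]
      rw [← hu]
      linear_combination (-(v.2 : R)) * (Units.inv_mul u)

theorem card_projLine_local [Finite R] :
    Nat.card (ProjLine R) = Nat.card R + Nat.card {y : R // ¬ IsUnit y} := by
  rw [← Nat.card_congr (Equiv.ofBijective _ (localChart_bijective (R := R))), Nat.card_sum]

end Local

end Fermat.Agent.M2.P1
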