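import Fermat.Agent.M2.P1Gamma0
import Fermat.Agent.M2.CombOrbit

set_option autoImplicit false

/-!
# Orbit counts on `SL(2, ℤ) ⧸ Γ₀(N)` and the Hurwitz arithmetic

With `ψ = dedekindPsi N = #(SL(2, ℤ) ⧸ Γ₀(N))` and `o_g` the number of orbits of `⟨g⟩` on
`SL(2, ℤ) ⧸ Γ₀(N)` (Mathlib's left action on left cosets):
* `two_mul_card_orbits_S_coset : 2 * o_S = ψ + nuTwo N`;
* `three_mul_card_orbits_ST_coset : 3 * o_{ST} = ψ + 2 * nuThree N`;
* `card_orbits_T_coset : o_T = cuspCount N` (in `P1Gamma0`);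
* `genusFormula_eq_orbits : genusFormula N = 1 + (ψ - o_S - o_{ST} - o_T) / 2`;
* `natCast_eq_genusFormula_of_orbits`: if `2 * g + o_S + o_{ST} + o_T = 2 + ψ` then `g = genusFormula N`.
-/

namespace Fermat.Agent.M2.P1

open Matrix MatrixGroups ModularCurve MulAction

variable {N : ℕ}

/-- Abbreviation: the number of orbits of `⟨g⟩` on `SL(2, ℤ) ⧸ Γ₀(N)`. -/
noncomputable def orbitCount (N : ℕ) (g : SL(2, ℤ)) : ℕ :=
  Nat.card (orbitRel.Quotient (Subgroup.zpowers g) (SL(2, ℤ) ⧸ CongruenceSubgroup.Gamma0 N))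

theorem orbitCount_def (g : SL(2, ℤ)) : orbitCount N g =
    Nat.card (orbitRel.Quotient (Subgroup.zpowers g) (SL(2, ℤ) ⧸ CongruenceSubgroup.Gamma0 N)) :=
  rfl

theorem two_mul_card_orbits_S_coset [NeZero N] :
    2 * Nat.card (orbitRel.Quotient (Subgroup.zpowers ModularGroup.S)
      (SL(2, ℤ) ⧸ CongruenceSubgroup.Gamma0 N)) = dedekindPsi N + nuTwo N := by
  rw [← card_coset_Gamma0 N (NeZero.ne N)]
  exact Comb.two_mul_card_orbits_s (prCoset N) prCoset_surjective isProj_prCoset ModularGroup.S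
    (fun v => by rw [smul_prCoset, S_smul_prZ]; rfl)

theorem three_mul_card_orbits_ST_coset [NeZero N] :
    3 * Nat.card (orbitRel.Quotient (Subgroup.zpowers (ModularGroup.S * ModularGroup.T))
      (SL(2, ℤ) ⧸ CongruenceSubgroup.Gamma0 N)) = dedekindPsi N + 2 * nuThree N := by
  rw [← card_coset_Gamma0 N (NeZero.ne N)]
  exact Comb.three_mul_card_orbits_st (prCoset N) prCoset_surjective isProj_prCoset _
    (fun v => by rw [smul_prCoset, ST_smul_prZ]; rfl)

theorem three_mul_card_orbits_TS_coset [NeZero N] :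
    3 * Nat.card (orbitRel.Quotient (Subgroup.zpowers (ModularGroup.T * ModularGroup.S))
      (SL(2, ℤ) ⧸ CongruenceSubgroup.Gamma0 N)) = dedekindPsi N + 2 * nuThree N := by
  rw [← card_coset_Gamma0 N (NeZero.ne N)]
  exact Comb.three_mul_card_orbits_ts (prCoset N) prCoset_surjective isProj_prCoset _
    (fun v => by rw [smul_prCoset, TS_smul_prZ]; rfl)

/-- Pure arithmetic behind the Riemann–Hurwitz computation. -/
theorem hurwitz_arith (n ν₂ ν₃ c o₂ o₃ : ℕ) (h2 : 2 * o₂ = n + ν₂) (h3 : 3 * o₃ = n + 2 * ν₃) :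
    (1 : ℚ) + ((n : ℚ) - o₂ - o₃ - c) / 2 =
      1 + (n : ℚ) / 12 - (ν₂ : ℚ) / 4 - (ν₃ : ℚ) / 3 - (c : ℚ) / 2 := by
  have h2' : (o₂ : ℚ) = ((n : ℚ) + ν₂) / 2 := by
    have : (2 : ℚ) * o₂ = n + ν₂ := by exact_mod_cast h2
    linarith
  have h3' : (o₃ : ℚ) = ((n : ℚ) + 2 * ν₃) / 3 := by
    have : (3 : ℚ) * o₃ = n + 2 * ν₃ := by exact_mod_cast h3
    linarith
  rw [h2', h3']
  ring

/-- The genus formula in terms of orbit counts: `g = 1 + (ψ - o_S - o_{ST} - o_T) / 2`, i.e.
`2g - 2 = -2ψ + (ψ - o_S) + (ψ - o_{ST}) + (ψ - o_T)`. -/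
theorem genusFormula_eq_orbits [NeZero N] :
    genusFormula N = 1 + ((dedekindPsi N : ℚ) - orbitCount N ModularGroup.S -
      orbitCount N (ModularGroup.S * ModularGroup.T) - orbitCount N ModularGroup.T) / 2 := by
  have h := hurwitz_arith (dedekindPsi N) (nuTwo N) (nuThree N) (cuspCount N)
    (orbitCount N ModularGroup.S) (orbitCount N (ModularGroup.S * ModularGroup.T))
    two_mul_card_orbits_S_coset three_mul_card_orbits_ST_coset
  rw [genusFormula, ← h, orbitCount_def ModularGroup.T, card_orbits_T_coset]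

/-- Subtraction-free form: if `2 g + o_S + o_{ST} + o_T = 2 + ψ` then `g = genusFormula N`. -/
theorem natCast_eq_genusFormula_of_orbits [NeZero N] (g : ℕ)
    (h : 2 * g + orbitCount N ModularGroup.S + orbitCount N (ModularGroup.S * ModularGroup.T) +
      orbitCount N ModularGroup.T = 2 + dedekindPsi N) :
    (g : ℚ) = genusFormula N := by
  rw [genusFormula_eq_orbits]
  have : (2 : ℚ) * g + orbitCount N ModularGroup.S +
      orbitCount N (ModularGroup.S * ModularGroup.T) + orbitCount N ModularGroup.T =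
      2 + dedekindPsi N := by exact_mod_cast h
  linarith

/-- Part IV shape: `2 g + 2 ψ = 2 + (ψ - o_S) + (ψ - o_{ST}) + (ψ - o_T)` (natural subtraction). -/
theorem natCast_eq_genusFormula_of_ramification [NeZero N] (g : ℕ)
    (h : 2 * g + 2 * dedekindPsi N = 2 + (dedekindPsi N - orbitCount N ModularGroup.S) +
      (dedekindPsi N - orbitCount N (ModularGroup.S * ModularGroup.T)) +
      (dedekindPsi N - orbitCount N ModularGroup.T)) :
    (g : ℚ) = genusFormula N := by
  have hS : orbitCount N ModularGroup.S ≤ dedekindPsi N := by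
    rw [← card_coset_Gamma0 N (NeZero.ne N)]
    exact Nat.card_le_card_of_surjective _ Quotient.mk_surjective
  have hST : orbitCount N (ModularGroup.S * ModularGroup.T) ≤ dedekindPsi N := by
    rw [← card_coset_Gamma0 N (NeZero.ne N)]
    exact Nat.card_le_card_of_surjective _ Quotient.mk_surjective
  have hT : orbitCount N ModularGroup.T ≤ dedekindPsi N := by
    rw [← card_coset_Gamma0 N (NeZero.ne N)]
    exact Nat.card_le_card_of_surjective _ Quotient.mk_surjective
  apply natCast_eq_genusFormula_of_orbits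
  omega

/-! ### Generic facts about orbit counts -/

section Generic

variable {G X : Type*} [Group G] [MulAction G X]

/-- A subgroup acting trivially has as many orbits as points. -/
theorem card_orbits_of_forall_smul_eq (H : Subgroup G) (h : ∀ g ∈ H, ∀ x : X, g • x = x) :
    Nat.card (orbitRel.Quotient H X) = Nat.card X := by
  symm
  refine Nat.card_congr (Equiv.ofBijective
    (fun x : X => (Quotient.mk'' x : orbitRel.Quotient H X)) ⟨?_, Quotient.mk''_surjective⟩)
  intro x y hxy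
  have h1 : (orbitRel H X) x y := Quotient.exact hxy
  rw [orbitRel_apply] at h1
  obtain ⟨⟨g, hg⟩, rfl⟩ := h1
  exact h g hg y

/-- Conjugate subgroups have the same number of orbits. -/
theorem card_orbits_conj (H : Subgroup G) (g : G) :
    Nat.card (orbitRel.Quotient (H.map (MulAut.conj g).toMonoidHom) X) =
      Nat.card (orbitRel.Quotient H X) := by
  symm
  refine Nat.card_congr (Quotient.congr (MulAction.toPerm g) ?_)
  intro a b
  show (orbitRel H X) a b ↔ (orbitRel _ X) (g • a) (g • b)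
  rw [orbitRel_apply, orbitRel_apply]
  constructor
  · rintro ⟨⟨h, hh⟩, rfl⟩
    refine ⟨⟨g * h * g⁻¹, Subgroup.mem_map.mpr ⟨h, hh, rfl⟩⟩, ?_⟩
    show (g * h * g⁻¹) • g • b = g • h • b
    simp only [mul_smul, inv_smul_smul]
  · rintro ⟨⟨k, hk⟩, hkb⟩
    obtain ⟨h, hh, rfl⟩ := Subgroup.mem_map.mp hk
    refine ⟨⟨h, hh⟩, ?_⟩
    have h1 : (g * h * g⁻¹) • g • b = g • a := hkb
    simp only [mul_smul, inv_smul_smul] at h1
    exact smul_left_cancel g h1

end Generic

/-- `-1` acts trivially on `SL(2, ℤ) ⧸ Γ₀(N)`. -/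
theorem neg_one_smul_coset (q : SL(2, ℤ) ⧸ CongruenceSubgroup.Gamma0 N) :
    (-1 : SL(2, ℤ)) • q = q := by
  induction q using QuotientGroup.induction_on with
  | _ g =>
    rw [MulAction.Quotient.smul_mk, smul_eq_mul, QuotientGroup.eq]
    have h2 : (-1 * g)⁻¹ * g = -1 := by
      rw [inv_mul_eq_iff_eq_mul, neg_mul, neg_mul, one_mul, mul_neg, mul_one, neg_neg]
    rw [h2, CongruenceSubgroup.Gamma0_mem]
    simp

/-- A subgroup contained in `{1, -1}` has `ψ(N)` orbits on `SL(2, ℤ) ⧸ Γ₀(N)`. -/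
theorem card_orbits_of_le_pm_one (hN : N ≠ 0) (H : Subgroup SL(2, ℤ))
    (h : ∀ g ∈ H, g = 1 ∨ g = -1) :
    Nat.card (orbitRel.Quotient H (SL(2, ℤ) ⧸ CongruenceSubgroup.Gamma0 N)) = dedekindPsi N := by
  rw [← card_coset_Gamma0 N hN]
  apply card_orbits_of_forall_smul_eq H
  intro g hg x
  rcases h g hg with rfl | rfl
  · exact one_smul _ x
  · exact neg_one_smul_coset x

end Fermat.Agent.M2.P1
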