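import Mathlib

/-
M2 (S20 moonshot), Part IV / A2: Dedekind–Weber (Birkhoff–Grothendieck) normal form.

Main results (namespace `Fermat.Agent.M2.DW`, `k` any field):
* `vInf k`  : the valuation at infinity of `RatFunc k` (classical instance fixed), `Oinf k` its
  valuation subring `{f | f.intDegree ≤ 0}` (`mem_Oinf_iff`, `mem_Oinf_iff_intDegree`,
  `mem_maximalIdeal_Oinf_iff`, `exists_const_sub_lt_one`: residue field is `k`).
* `exists_reduced` : every `M ∈ GL_n(k(X))` satisfies `M * U = W * diag (X ^ d)` with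
  `U ∈ SL_n(k[X])`, `W ∈ GL_n(O_∞)`.
* `exists_reduced_coords`, `exists_reduced_basis` : versions for two bases of a `k(X)`-vector space.
* `span_range_sum_smul_eq` : invertible matrices preserve spans.
-/

open Polynomial WithZero

namespace Fermat.Agent.M2.DW

variable {k : Type*} [Field k]

open scoped Classical in
/-- The valuation at infinity on `k(X)` (classical decidability instance fixed once and for all). -/
noncomputable def vInf (k : Type*) [Field k] : Valuation (RatFunc k) ℤᵐ⁰ :=
  RatFunc.inftyValuation k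

theorem vInf_apply_of_ne_zero {f : RatFunc k} (hf : f ≠ 0) :
    vInf k f = exp f.intDegree := by
  classical
  unfold vInf
  rw [RatFunc.inftyValuation_apply, RatFunc.inftyValuation_of_nonzero _ hf]

theorem vInf_le_one_iff {f : RatFunc k} : vInf k f ≤ 1 ↔ f.intDegree ≤ 0 := by
  by_cases hf : f = 0
  · simp [hf]
  · rw [vInf_apply_of_ne_zero hf, ← exp_zero, exp_le_exp]

theorem vInf_lt_one_iff {f : RatFunc k} : vInf k f < 1 ↔ f = 0 ∨ f.intDegree < 0 := by
  by_cases hf : f = 0
  · simp [hf]
  · rw [vInf_apply_of_ne_zero hf, ← exp_zero, exp_lt_exp]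
    simp [hf]

theorem vInf_eq_one_iff {f : RatFunc k} : vInf k f = 1 ↔ f ≠ 0 ∧ f.intDegree = 0 := by
  by_cases hf : f = 0
  · simp [hf]
  · rw [vInf_apply_of_ne_zero hf, ← exp_zero, exp_inj]
    simp [hf]

@[simp] theorem vInf_X_zpow (m : ℤ) : vInf k (RatFunc.X ^ m) = exp m := by
  classical
  exact RatFunc.inftyValuation.X_zpow k m

@[simp] theorem vInf_C {a : k} (ha : a ≠ 0) : vInf k (RatFunc.C a) = 1 := by
  classical
  exact RatFunc.inftyValuation.C k ha

theorem vInf_C_le_one (a : k) : vInf k (RatFunc.C a) ≤ 1 := by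
  by_cases ha : a = 0
  · simp [ha]
  · rw [vInf_C ha]

theorem vInf_algebraMap {p : k[X]} (hp : p ≠ 0) :
    vInf k (algebraMap k[X] (RatFunc k) p) = exp (p.natDegree : ℤ) := by
  classical
  exact RatFunc.inftyValuation.polynomial k hp

/-- Every element of `O_∞` is congruent to a constant modulo the maximal ideal. -/
theorem exists_const_sub_lt_one {f : RatFunc k} (hf : vInf k f ≤ 1) :
    ∃ a : k, vInf k (f - RatFunc.C a) < 1 := by
  by_cases h1 : vInf k f < 1
  · exact ⟨0, by simpa using h1⟩
  have h2 : vInf k f = 1 := le_antisymm hf (not_lt.mp h1)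
  obtain ⟨hf0, hdeg⟩ := vInf_eq_one_iff.mp h2
  have hden : f.denom ≠ 0 := f.denom_ne_zero
  have hmon : f.denom.Monic := f.monic_denom
  have hnum : f.num ≠ 0 := RatFunc.num_ne_zero hf0
  have hnd : f.num.natDegree = f.denom.natDegree := by
    have := hdeg
    unfold RatFunc.intDegree at this
    omega
  refine ⟨f.num.leadingCoeff, ?_⟩
  set a := f.num.leadingCoeff with ha
  set p : k[X] := f.num - Polynomial.C a * f.denom with hp
  have hfp : f - RatFunc.C a = algebraMap k[X] (RatFunc k) p / algebraMap k[X] (RatFunc k) f.denom := by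
    have hd' : algebraMap k[X] (RatFunc k) f.denom ≠ 0 := by simpa using hden
    rw [eq_div_iff hd', hp, map_sub, map_mul, sub_mul]
    congr 1
    · have h := RatFunc.num_div_denom f
      rw [div_eq_iff hd'] at h
      exact h.symm
  rw [hfp, map_div₀]
  by_cases hp0 : p = 0
  · simp [hp0]
  have hdegp : p.degree < f.denom.degree := by
    have h1 : (Polynomial.C a * f.denom).degree = f.num.degree := by
      rw [Polynomial.degree_C_mul (by simpa [ha] using hnum)]
      rw [Polynomial.degree_eq_natDegree hden, Polynomial.degree_eq_natDegree hnum, hnd]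
    have h2 : (Polynomial.C a * f.denom).leadingCoeff = f.num.leadingCoeff := by
      rw [Polynomial.leadingCoeff_mul, Polynomial.leadingCoeff_C, hmon.leadingCoeff, mul_one]
    have := Polynomial.degree_sub_lt_left h1.symm hnum h2.symm
    rw [hp]
    calc _ < f.num.degree := this
      _ = f.denom.degree := by
        rw [Polynomial.degree_eq_natDegree hden, Polynomial.degree_eq_natDegree hnum, hnd]
  have hnatp : p.natDegree < f.denom.natDegree := Polynomial.natDegree_lt_natDegree hp0 hdegp
  rw [vInf_algebraMap hp0, vInf_algebraMap hden, ← exp_sub, ← exp_zero, exp_lt_exp]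
  omega


/-- The valuation ring at infinity of `k(X)`: rational functions of degree `≤ 0`. -/
noncomputable def Oinf (k : Type*) [Field k] : ValuationSubring (RatFunc k) :=
  (vInf k).valuationSubring

theorem mem_Oinf_iff {f : RatFunc k} : f ∈ Oinf k ↔ vInf k f ≤ 1 :=
  Valuation.mem_valuationSubring_iff _ _

theorem mem_Oinf_iff_intDegree {f : RatFunc k} : f ∈ Oinf k ↔ f.intDegree ≤ 0 :=
  mem_Oinf_iff.trans vInf_le_one_iff

theorem mem_maximalIdeal_Oinf_iff (f : Oinf k) :
    f ∈ IsLocalRing.maximalIdeal (Oinf k) ↔ vInf k (f : RatFunc k) < 1 := by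
  rw [ValuationSubring.valuation_lt_one_iff]
  exact ((Valuation.isEquiv_iff_val_lt_one).mp
    (Valuation.isEquiv_valuation_valuationSubring (vInf k))).symm

/-- Key linear algebra step: a matrix over `O_∞` whose determinant is a non-unit kills a nonzero
*constant* vector modulo the maximal ideal. -/
theorem exists_const_kernel {ι : Type*} [Fintype ι] [DecidableEq ι]
    (W : Matrix ι ι (RatFunc k)) (hW : ∀ i j, vInf k (W i j) ≤ 1) (hdet : vInf k W.det < 1) :
    ∃ c : ι → k, c ≠ 0 ∧ ∀ i, vInf k (∑ j, W i j * RatFunc.C (c j)) < 1 := by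
  classical
  let O := Oinf k
  let W' : Matrix ι ι O := fun i j => ⟨W i j, mem_Oinf_iff.mpr (hW i j)⟩
  have hWW' : W = W'.map O.subtype := by
    ext i j; rfl
  have hdet' : (W'.det : RatFunc k) = W.det := by
    rw [hWW']
    exact (RingHom.map_det O.subtype W')
  have hmem : W'.det ∈ IsLocalRing.maximalIdeal O := by
    rw [mem_maximalIdeal_Oinf_iff, hdet']; exact hdet
  let π := IsLocalRing.residue O
  have hπdet : (W'.map π).det = 0 := by
    rw [← RingHom.mapMatrix_apply, ← RingHom.map_det]
    exact (IsLocalRing.residue_eq_zero_iff _).mpr hmem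
  obtain ⟨cbar, hc0, hc⟩ := Matrix.exists_mulVec_eq_zero_iff.mpr hπdet
  have hsurj : ∀ x : IsLocalRing.ResidueField O, ∃ a : k,
      π ⟨RatFunc.C a, mem_Oinf_iff.mpr (vInf_C_le_one a)⟩ = x := by
    intro x
    obtain ⟨f, rfl⟩ := IsLocalRing.residue_surjective x
    obtain ⟨a, ha⟩ := exists_const_sub_lt_one (mem_Oinf_iff.mp f.2)
    refine ⟨a, ?_⟩
    symm
    rw [← sub_eq_zero, ← map_sub, IsLocalRing.residue_eq_zero_iff, mem_maximalIdeal_Oinf_iff]
    exact ha
  choose c hcc using hsurj
  refine ⟨fun j => c (cbar j), ?_, ?_⟩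
  · intro h
    apply hc0
    funext j
    have := hcc (cbar j)
    rw [show c (cbar j) = 0 from congrFun h j] at this
    rw [← this]
    have : (⟨RatFunc.C (0:k), mem_Oinf_iff.mpr (vInf_C_le_one 0)⟩ : O) = 0 := by
      ext; simp
    rw [this, map_zero]; rfl
  · intro i
    have hi := congrFun hc i
    simp only [Matrix.mulVec, dotProduct, Matrix.map_apply, Pi.zero_apply] at hi
    have : (∑ j, W i j * RatFunc.C (c (cbar j))) =
        ((∑ j, W' i j * ⟨RatFunc.C (c (cbar j)), mem_Oinf_iff.mpr (vInf_C_le_one _)⟩ : O) : RatFunc k) := by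
      push_cast
      rfl
    rw [this, ← mem_maximalIdeal_Oinf_iff, ← IsLocalRing.residue_eq_zero_iff, map_sum]
    rw [← hi]
    refine Finset.sum_congr rfl fun j _ => ?_
    rw [map_mul, hcc]


theorem exp_sum {ι : Type*} (s : Finset ι) (d : ι → ℤ) :
    (exp (∑ i ∈ s, d i) : ℤᵐ⁰) = ∏ i ∈ s, exp (d i) := by
  classical
  induction s using Finset.induction_on with
  | empty => simp
  | insert a s ha ih => rw [Finset.sum_insert ha, Finset.prod_insert ha, exp_add, ih]

theorem lt_exp_iff_le_exp_sub_one {x : ℤᵐ⁰} {n : ℤ} : x < exp n ↔ x ≤ exp (n - 1) := by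
  have : (exp n : ℤᵐ⁰) = exp (n - 1) * exp 1 := by rw [← exp_add]; congr 1; ring
  rw [this, lt_mul_exp_iff_le exp_ne_zero]

section Matrix

variable {ι : Type*} [Fintype ι] [DecidableEq ι]

/-- Column-wise degree bound: every entry of column `j` has degree `≤ d j`. -/
def Bdd (B : Matrix ι ι (RatFunc k)) (d : ι → ℤ) : Prop :=
  ∀ i j, vInf k (B i j) ≤ exp (d j)

/-- Non-archimedean Hadamard inequality. -/
theorem Bdd.vInf_det_le {B : Matrix ι ι (RatFunc k)} {d : ι → ℤ} (hB : Bdd B d) :
    vInf k B.det ≤ exp (∑ j, d j) := by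
  rw [Matrix.det_apply]
  refine Valuation.map_sum_le _ fun σ _ => ?_
  have h1 : vInf k (Equiv.Perm.sign σ • ∏ i, B (σ i) i) = vInf k (∏ i, B (σ i) i) := by
    rcases Int.units_eq_one_or (Equiv.Perm.sign σ) with h | h <;> rw [h]
    · rw [one_smul]
    · rw [Units.neg_smul, one_smul, Valuation.map_neg]
  rw [h1, map_prod, exp_sum]
  exact Finset.prod_le_prod' fun i _ => hB (σ i) i


/-- The elementary column operation used in the reduction step. -/
noncomputable def stepMat (c : ι → k) (d : ι → ℤ) (j₀ : ι) : Matrix ι ι k[X] :=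
  (1 : Matrix ι ι k[X]).updateCol j₀
    (fun l => Polynomial.C (c l / c j₀) * Polynomial.X ^ (d j₀ - d l).toNat)

theorem det_stepMat (c : ι → k) (d : ι → ℤ) (j₀ : ι) (hc : c j₀ ≠ 0) :
    (stepMat c d j₀).det = 1 := by
  unfold stepMat
  rw [← Matrix.cramer_apply, Matrix.cramer_one]
  simp [hc]

/-- One reduction step. -/
theorem exists_step (B : Matrix ι ι (RatFunc k)) (d : ι → ℤ) (hB : Bdd B d)
    (hdet : vInf k B.det < exp (∑ j, d j)) :
    ∃ (U : Matrix ι ι k[X]) (j₀ : ι), U.det = 1 ∧
      Bdd (B * U.map (algebraMap k[X] (RatFunc k))) (Function.update d j₀ (d j₀ - 1)) := by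
  classical
  -- normalise the columns
  set W : Matrix ι ι (RatFunc k) := fun i j => B i j * RatFunc.X ^ (-d j) with hWdef
  have hW : ∀ i j, vInf k (W i j) ≤ 1 := by
    intro i j
    rw [hWdef, map_mul, vInf_X_zpow]
    calc vInf k (B i j) * exp (-d j) ≤ exp (d j) * exp (-d j) := mul_le_mul_left (hB i j) _
      _ = 1 := by rw [← exp_add, add_neg_cancel, exp_zero]
  have hWmul : W = B * Matrix.diagonal (fun j => RatFunc.X ^ (-d j)) := by
    ext i j; rw [Matrix.mul_diagonal]
  have hWdet : vInf k W.det < 1 := by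
    rw [hWmul, Matrix.det_mul, Matrix.det_diagonal, map_mul, map_prod]
    simp only [vInf_X_zpow]
    rw [← exp_sum, Finset.sum_neg_distrib]
    calc vInf k B.det * exp (-∑ j, d j) < exp (∑ j, d j) * exp (-∑ j, d j) :=
          mul_lt_mul_of_pos_right hdet exp_pos
      _ = 1 := by rw [← exp_add, add_neg_cancel, exp_zero]
  obtain ⟨c, hc0, hc⟩ := exists_const_kernel W hW hWdet
  -- choose the pivot
  have hne : (Finset.univ.filter fun j => c j ≠ 0).Nonempty := by
    by_contra h
    rw [Finset.not_nonempty_iff_eq_empty] at h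
    apply hc0
    funext j
    show c j = 0
    by_contra hj
    have : j ∈ Finset.univ.filter fun j => c j ≠ 0 := by simp [hj]
    rw [h] at this
    exact absurd this (Finset.notMem_empty j)
  obtain ⟨j₀, hj₀, hmax⟩ := Finset.exists_max_image _ d hne
  have hcj₀ : c j₀ ≠ 0 := by simpa using hj₀
  refine ⟨stepMat c d j₀, j₀, det_stepMat c d j₀ hcj₀, ?_⟩
  intro i m
  by_cases hm : m = j₀
  · subst hm
    rw [Function.update_self, ← lt_exp_iff_le_exp_sub_one]
    have key : (B * (stepMat c d m).map (algebraMap k[X] (RatFunc k))) i m =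
        (∑ l, W i l * RatFunc.C (c l)) * (RatFunc.C (c m)⁻¹ * RatFunc.X ^ (d m)) := by
      rw [Matrix.mul_apply, Finset.sum_mul]
      refine Finset.sum_congr rfl fun l _ => ?_
      simp only [stepMat, Matrix.map_apply, Matrix.updateCol_self]
      by_cases hl : c l = 0
      · simp [hl]
      have hle : d l ≤ d m := hmax l (by simp [hl])
      rw [map_mul, map_pow, RatFunc.algebraMap_C, RatFunc.algebraMap_X, hWdef]
      have hX : (RatFunc.X : RatFunc k) ≠ 0 := RatFunc.X_ne_zero
      have : (RatFunc.X : RatFunc k) ^ (d m - d l).toNat = RatFunc.X ^ (d m) * RatFunc.X ^ (-d l) := by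
        rw [← zpow_natCast, Int.toNat_of_nonneg (by omega), ← zpow_add₀ hX]
        congr 1
      rw [this, div_eq_mul_inv, map_mul, map_inv₀]
      ring
    rw [key, map_mul, map_mul, vInf_X_zpow]
    have h1 : vInf k (RatFunc.C (c m)⁻¹) = 1 := vInf_C (inv_ne_zero hcj₀)
    rw [h1, one_mul]
    calc _ < 1 * exp (d m) := mul_lt_mul_of_pos_right (hc i) exp_pos
      _ = exp (d m) := one_mul _
  · rw [Function.update_of_ne hm]
    have key : (B * (stepMat c d j₀).map (algebraMap k[X] (RatFunc k))) i m = B i m := by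
      rw [Matrix.mul_apply]
      rw [Finset.sum_eq_single m]
      · simp [stepMat, Matrix.updateCol_ne hm]
      · intro l _ hl
        simp [stepMat, Matrix.updateCol_ne hm, Matrix.one_apply_ne hl]
      · intro h; exact absurd (Finset.mem_univ m) h
    rw [key]
    exact hB i m


theorem det_mul_map_of_det_eq_one (B : Matrix ι ι (RatFunc k)) (U : Matrix ι ι k[X])
    (hU : U.det = 1) : (B * U.map (algebraMap k[X] (RatFunc k))).det = B.det := by
  rw [Matrix.det_mul, ← RingHom.mapMatrix_apply, ← RingHom.map_det, hU, map_one, mul_one]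

theorem exists_reduced_aux (m : ℕ) : ∀ (B : Matrix ι ι (RatFunc k)) (d : ι → ℤ), Bdd B d →
    exp (∑ j, d j) ≤ vInf k B.det * exp (m : ℤ) →
    ∃ (U : Matrix ι ι k[X]) (d' : ι → ℤ), U.det = 1 ∧
      Bdd (B * U.map (algebraMap k[X] (RatFunc k))) d' ∧ vInf k B.det = exp (∑ j, d' j) := by
  induction m with
  | zero =>
    intro B d hB h
    refine ⟨1, d, Matrix.det_one, ?_, ?_⟩
    · rw [Matrix.map_one _ (map_zero _) (map_one _), mul_one]; exact hB
    · refine le_antisymm hB.vInf_det_le ?_
      simpa using h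
  | succ m ih =>
    intro B d hB h
    by_cases heq : vInf k B.det = exp (∑ j, d j)
    · refine ⟨1, d, Matrix.det_one, ?_, heq⟩
      rw [Matrix.map_one _ (map_zero _) (map_one _), mul_one]; exact hB
    have hlt : vInf k B.det < exp (∑ j, d j) := lt_of_le_of_ne hB.vInf_det_le heq
    obtain ⟨U₁, j₀, hU₁, hB₁⟩ := exists_step B d hB hlt
    have hdet₁ := det_mul_map_of_det_eq_one B U₁ hU₁
    have hsum : ∑ j, Function.update d j₀ (d j₀ - 1) j = ∑ j, d j - 1 := by
      rw [Finset.sum_update_of_mem (Finset.mem_univ j₀)]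
      have := Finset.add_sum_erase Finset.univ d (Finset.mem_univ j₀)
      simp only [Finset.sdiff_singleton_eq_erase]
      omega
    have h' : exp (∑ j, Function.update d j₀ (d j₀ - 1) j) ≤
        vInf k (B * U₁.map (algebraMap k[X] (RatFunc k))).det * exp (m : ℤ) := by
      rw [hdet₁, hsum]
      have h2 : (exp (∑ j, d j - 1) : ℤᵐ⁰) = exp (∑ j, d j) * exp (-1) := by
        rw [← exp_add]; rfl
      have h3 : (exp (m : ℤ) : ℤᵐ⁰) = exp ((m + 1 : ℕ) : ℤ) * exp (-1) := by
        rw [← exp_add]; congr 1; push_cast; ring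
      rw [h2, h3, ← mul_assoc]
      exact mul_le_mul_left h _
    obtain ⟨U₂, d', hU₂, hB₂, hd'⟩ := ih _ _ hB₁ h'
    refine ⟨U₁ * U₂, d', by rw [Matrix.det_mul, hU₁, hU₂, mul_one], ?_, ?_⟩
    · rw [Matrix.map_mul, ← mul_assoc]; exact hB₂
    · rw [← hdet₁]; exact hd'

/-- **Dedekind–Weber / Birkhoff–Grothendieck normal form** (matrix version).
Every invertible matrix over `k(X)` can be written as `W · diag(X^d) · U⁻¹` with
`U ∈ SL_n(k[X])` and `W ∈ GL_n(O_∞)`. -/
theorem exists_reduced (M : Matrix ι ι (RatFunc k)) (hM : M.det ≠ 0) :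
    ∃ (U : Matrix ι ι k[X]) (d : ι → ℤ) (W : Matrix ι ι (RatFunc k)),
      U.det = 1 ∧ (∀ i j, vInf k (W i j) ≤ 1) ∧ vInf k W.det = 1 ∧
      M * U.map (algebraMap k[X] (RatFunc k)) =
        W * Matrix.diagonal (fun j => (RatFunc.X : RatFunc k) ^ d j) := by
  classical
  -- an initial column bound
  let e : ι → ι → ℤ := fun i j => (M i j).intDegree
  let d₀ : ι → ℤ := fun j => ∑ i, |e i j|
  have hB₀ : Bdd M d₀ := by
    intro i j
    by_cases h0 : M i j = 0
    · rw [h0, map_zero]; exact zero_le
    rw [vInf_apply_of_ne_zero h0, exp_le_exp]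
    calc (M i j).intDegree ≤ |e i j| := le_abs_self _
      _ ≤ ∑ i, |e i j| :=
        Finset.single_le_sum (f := fun i => |e i j|) (fun i _ => abs_nonneg _) (Finset.mem_univ i)
  have hdetv : vInf k M.det = exp M.det.intDegree := vInf_apply_of_ne_zero hM
  obtain ⟨U, d, hU, hB, hd⟩ := exists_reduced_aux (∑ j, d₀ j - M.det.intDegree).toNat M d₀ hB₀ (by
    rw [hdetv, ← exp_add, exp_le_exp]
    have := Int.self_le_toNat (∑ j, d₀ j - M.det.intDegree)
    omega)
  set B := M * U.map (algebraMap k[X] (RatFunc k)) with hBdef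
  have hX : (RatFunc.X : RatFunc k) ≠ 0 := RatFunc.X_ne_zero
  refine ⟨U, d, B * Matrix.diagonal (fun j => (RatFunc.X : RatFunc k) ^ (-d j)), hU, ?_, ?_, ?_⟩
  · intro i j
    rw [Matrix.mul_diagonal, map_mul, vInf_X_zpow]
    calc vInf k (B i j) * exp (-d j) ≤ exp (d j) * exp (-d j) := mul_le_mul_left (hB i j) _
      _ = 1 := by rw [← exp_add, add_neg_cancel, exp_zero]
  · rw [Matrix.det_mul, Matrix.det_diagonal, map_mul, map_prod, hBdef,
      det_mul_map_of_det_eq_one M U hU, hd]
    simp only [vInf_X_zpow]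
    rw [← exp_sum, Finset.sum_neg_distrib, ← exp_add, add_neg_cancel, exp_zero]
  · rw [Matrix.mul_assoc, Matrix.diagonal_mul_diagonal]
    have : (fun j => (RatFunc.X : RatFunc k) ^ (-d j) * RatFunc.X ^ d j) = fun _ => 1 := by
      funext j
      rw [← zpow_add₀ hX, neg_add_cancel, zpow_zero]
    rw [this, Matrix.diagonal_one, mul_one]

end Matrix

end Fermat.Agent.M2.DW

namespace Fermat.Agent.M2.DW

section General

variable {R : Type*} [CommRing R] {V : Type*} [AddCommGroup V] [Module R V]
  {ι : Type*} [Fintype ι] [DecidableEq ι]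

/-- Transforming a family by an invertible matrix does not change its span. -/
theorem span_range_sum_smul_eq (U : Matrix ι ι R) (hU : IsUnit U.det) (u : ι → V) :
    Submodule.span R (Set.range fun j => ∑ l, U l j • u l) = Submodule.span R (Set.range u) := by
  apply le_antisymm
  · rw [Submodule.span_le]
    rintro _ ⟨j, rfl⟩
    exact Submodule.sum_mem _ fun l _ =>
      Submodule.smul_mem _ _ (Submodule.subset_span ⟨l, rfl⟩)
  · rw [Submodule.span_le]
    rintro _ ⟨m, rfl⟩
    have hinv : U * U⁻¹ = 1 := Matrix.mul_nonsing_inv U hU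
    have : u m = ∑ j, U⁻¹ j m • ∑ l, U l j • u l := by
      simp_rw [Finset.smul_sum, smul_smul]
      rw [Finset.sum_comm]
      simp_rw [← Finset.sum_smul]
      have h2 : ∀ l, ∑ j, U⁻¹ j m * U l j = (1 : Matrix ι ι R) l m := by
        intro l
        rw [← hinv, Matrix.mul_apply]
        exact Finset.sum_congr rfl fun j _ => mul_comm _ _
      simp_rw [h2, Matrix.one_apply, ite_smul, one_smul, zero_smul]
      simp
    rw [SetLike.mem_coe, this]
    exact Submodule.sum_mem _ fun j _ =>
      Submodule.smul_mem _ _ (Submodule.subset_span ⟨j, rfl⟩)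

end General

end Fermat.Agent.M2.DW

namespace Fermat.Agent.M2.DW

section Basis

variable {k : Type*} [Field k] {V : Type*} [AddCommGroup V] [Module (RatFunc k) V]
  {ι : Type*} [Fintype ι] [DecidableEq ι]

/-- Coordinate form of the Dedekind–Weber normal form for two bases `u` (finite side) and `v`
(infinite side) of a `k(X)`-vector space: there are `U ∈ SL(k[X])`, `W ∈ GL(O_∞)` and exponents `d`
with `∑ l, U l j • u l = X ^ d j • ∑ i, W i j • v i` for all `j`. -/
theorem exists_reduced_coords (u v : Module.Basis ι (RatFunc k) V) :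
    ∃ (U : Matrix ι ι k[X]) (d : ι → ℤ) (W : Matrix ι ι (Oinf k)),
      U.det = 1 ∧ IsUnit W.det ∧
      ∀ j, ∑ l, algebraMap k[X] (RatFunc k) (U l j) • u l =
        (RatFunc.X : RatFunc k) ^ d j • ∑ i, (W i j : RatFunc k) • v i := by
  classical
  have hN : (v.toMatrix u).det ≠ 0 := by
    have h := Module.Basis.toMatrix_mul_toMatrix_flip v u
    intro h0
    have := congrArg Matrix.det h
    rw [Matrix.det_mul, h0, zero_mul, Matrix.det_one] at this
    exact zero_ne_one this
  obtain ⟨U, d, W, hU, hW, hWdet, hMU⟩ := exists_reduced (v.toMatrix u) hN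
  let W' : Matrix ι ι (Oinf k) := fun i j => ⟨W i j, mem_Oinf_iff.mpr (hW i j)⟩
  have hWW' : W = W'.map (Oinf k).subtype := by ext i j; rfl
  have hdet' : (W'.det : RatFunc k) = W.det := by
    rw [hWW']; exact RingHom.map_det (Oinf k).subtype W'
  refine ⟨U, d, W', hU, ?_, ?_⟩
  · by_contra hnu
    have hmem : W'.det ∈ IsLocalRing.maximalIdeal (Oinf k) := by
      rwa [IsLocalRing.mem_maximalIdeal, mem_nonunits_iff]
    rw [mem_maximalIdeal_Oinf_iff, hdet', hWdet] at hmem
    exact lt_irrefl _ hmem
  · intro j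
    calc ∑ l, algebraMap k[X] (RatFunc k) (U l j) • u l
        = ∑ l, algebraMap k[X] (RatFunc k) (U l j) • ∑ i, v.toMatrix u i l • v i := by
          simp_rw [Module.Basis.sum_toMatrix_smul_self]
      _ = ∑ i, (v.toMatrix u * U.map (algebraMap k[X] (RatFunc k))) i j • v i := by
          simp_rw [Finset.smul_sum, smul_smul]
          rw [Finset.sum_comm]
          refine Finset.sum_congr rfl fun i _ => ?_
          rw [← Finset.sum_smul, Matrix.mul_apply]
          congr 1
          exact Finset.sum_congr rfl fun l _ => by rw [Matrix.map_apply, mul_comm]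
      _ = ∑ i, (W i j * RatFunc.X ^ d j) • v i := by
          rw [hMU]
          simp_rw [Matrix.mul_diagonal]
      _ = _ := by
          rw [Finset.smul_sum]
          refine Finset.sum_congr rfl fun i _ => ?_
          rw [smul_smul, mul_comm]

variable [Module k[X] V] [IsScalarTower k[X] (RatFunc k) V]

/-- **Dedekind–Weber normal form**, basis version.  Given two bases `u`, `v` of a
finite-dimensional `k(X)`-vector space, there is a basis `w` generating the same `k[X]`-lattice as
`u`, and integers `d`, such that `X ^ (-d j) • w j` generates the same `O_∞`-lattice as `v`. -/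
theorem exists_reduced_basis (u v : Module.Basis ι (RatFunc k) V) :
    ∃ (w : Module.Basis ι (RatFunc k) V) (d : ι → ℤ),
      Submodule.span k[X] (Set.range w) = Submodule.span k[X] (Set.range u) ∧
      Submodule.span (Oinf k) (Set.range fun j => ((RatFunc.X : RatFunc k) ^ (-d j)) • w j) =
        Submodule.span (Oinf k) (Set.range v) := by
  classical
  obtain ⟨U, d, W, hU, hW, h⟩ := exists_reduced_coords u v
  have hU' : IsUnit (U.map (algebraMap k[X] (RatFunc k))).det := by
    rw [← RingHom.mapMatrix_apply, ← RingHom.map_det, hU, map_one]; exact isUnit_one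
  let φ := Matrix.toLinearEquiv u (U.map (algebraMap k[X] (RatFunc k))) hU'
  have hw : ∀ j, (u.map φ) j = ∑ l, U l j • u l := by
    intro j
    rw [Module.Basis.map_apply]
    show Matrix.toLin u u _ (u j) = _
    rw [Matrix.toLin_self]
    refine Finset.sum_congr rfl fun l _ => ?_
    rw [Matrix.map_apply, algebraMap_smul]
  have hX : (RatFunc.X : RatFunc k) ≠ 0 := RatFunc.X_ne_zero
  refine ⟨u.map φ, d, ?_, ?_⟩
  · have : (⇑(u.map φ) : ι → V) = fun j => ∑ l, U l j • u l := funext hw
    rw [this]
    exact span_range_sum_smul_eq U (by rw [hU]; exact isUnit_one) u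
  · have : (fun j => ((RatFunc.X : RatFunc k) ^ (-d j)) • (u.map φ) j) =
        fun j => ∑ i, W i j • v i := by
      funext j
      rw [hw]
      have := h j
      simp_rw [algebraMap_smul] at this
      rw [this, smul_smul, ← zpow_add₀ hX, neg_add_cancel, zpow_zero, one_smul]
      rfl
    rw [this]
    exact span_range_sum_smul_eq W hW v

end Basis

section Basis'

variable {k : Type*} [Field k] {V : Type*} [AddCommGroup V] [Module (RatFunc k) V]
  {ι : Type*} [Fintype ι] [DecidableEq ι]

theorem toMatrix_det_ne_zero (u v : Module.Basis ι (RatFunc k) V) : (v.toMatrix u).det ≠ 0 := by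
  have h := Module.Basis.toMatrix_mul_toMatrix_flip v u
  intro h0
  have := congrArg Matrix.det h
  rw [Matrix.det_mul, h0, zero_mul, Matrix.det_one] at this
  exact zero_ne_one this

/-- Coordinate form with the degree formula `∑ d = deg det (v.toMatrix u)`. -/
theorem exists_reduced_coords' (u v : Module.Basis ι (RatFunc k) V) :
    ∃ (U : Matrix ι ι k[X]) (d : ι → ℤ) (W : Matrix ι ι (Oinf k)),
      U.det = 1 ∧ IsUnit W.det ∧ ∑ j, d j = (v.toMatrix u).det.intDegree ∧
      ∀ j, ∑ l, algebraMap k[X] (RatFunc k) (U l j) • u l =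
        (RatFunc.X : RatFunc k) ^ d j • ∑ i, (W i j : RatFunc k) • v i := by
  classical
  have hN := toMatrix_det_ne_zero u v
  obtain ⟨U, d, W, hU, hW, hWdet, hMU⟩ := exists_reduced (v.toMatrix u) hN
  let W' : Matrix ι ι (Oinf k) := fun i j => ⟨W i j, mem_Oinf_iff.mpr (hW i j)⟩
  have hWW' : W = W'.map (Oinf k).subtype := by ext i j; rfl
  have hdet' : (W'.det : RatFunc k) = W.det := by
    rw [hWW']; exact RingHom.map_det (Oinf k).subtype W'
  have hX : (RatFunc.X : RatFunc k) ≠ 0 := RatFunc.X_ne_zero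
  refine ⟨U, d, W', hU, ?_, ?_, ?_⟩
  · by_contra hnu
    have hmem : W'.det ∈ IsLocalRing.maximalIdeal (Oinf k) := by
      rwa [IsLocalRing.mem_maximalIdeal, mem_nonunits_iff]
    rw [mem_maximalIdeal_Oinf_iff, hdet', hWdet] at hmem
    exact lt_irrefl _ hmem
  · have hdet := congrArg (fun A => vInf k (Matrix.det A)) hMU
    rw [det_mul_map_of_det_eq_one _ U hU, Matrix.det_mul, Matrix.det_diagonal, map_mul, map_prod,
      hWdet, one_mul] at hdet
    simp only [vInf_X_zpow] at hdet
    rw [← exp_sum, vInf_apply_of_ne_zero hN, exp_inj] at hdet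
    exact hdet.symm
  · intro j
    calc ∑ l, algebraMap k[X] (RatFunc k) (U l j) • u l
        = ∑ l, algebraMap k[X] (RatFunc k) (U l j) • ∑ i, v.toMatrix u i l • v i := by
          simp_rw [Module.Basis.sum_toMatrix_smul_self]
      _ = ∑ i, (v.toMatrix u * U.map (algebraMap k[X] (RatFunc k))) i j • v i := by
          simp_rw [Finset.smul_sum, smul_smul]
          rw [Finset.sum_comm]
          refine Finset.sum_congr rfl fun i _ => ?_
          rw [← Finset.sum_smul, Matrix.mul_apply]
          congr 1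
          exact Finset.sum_congr rfl fun l _ => by rw [Matrix.map_apply, mul_comm]
      _ = ∑ i, (W i j * RatFunc.X ^ d j) • v i := by
          rw [hMU]
          simp_rw [Matrix.mul_diagonal]
      _ = _ := by
          rw [Finset.smul_sum]
          refine Finset.sum_congr rfl fun i _ => ?_
          rw [smul_smul, mul_comm]

variable [Module k[X] V] [IsScalarTower k[X] (RatFunc k) V]
  [Module (Oinf k) V] [IsScalarTower (Oinf k) (RatFunc k) V]

/-- **Dedekind–Weber normal form**, basis version, for an arbitrary compatible `O_∞`-module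
structure on `V`, and with the degree formula. -/
theorem exists_reduced_basis' (u v : Module.Basis ι (RatFunc k) V) :
    ∃ (w : Module.Basis ι (RatFunc k) V) (d : ι → ℤ),
      Submodule.span k[X] (Set.range w) = Submodule.span k[X] (Set.range u) ∧
      Submodule.span (Oinf k) (Set.range fun j => ((RatFunc.X : RatFunc k) ^ (-d j)) • w j) =
        Submodule.span (Oinf k) (Set.range v) ∧
      ∑ j, d j = (v.toMatrix u).det.intDegree := by
  classical
  obtain ⟨U, d, W, hU, hW, hsum, h⟩ := exists_reduced_coords' u v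
  have hU' : IsUnit (U.map (algebraMap k[X] (RatFunc k))).det := by
    rw [← RingHom.mapMatrix_apply, ← RingHom.map_det, hU, map_one]; exact isUnit_one
  let φ := Matrix.toLinearEquiv u (U.map (algebraMap k[X] (RatFunc k))) hU'
  have hw : ∀ j, (u.map φ) j = ∑ l, U l j • u l := by
    intro j
    rw [Module.Basis.map_apply]
    show Matrix.toLin u u _ (u j) = _
    rw [Matrix.toLin_self]
    refine Finset.sum_congr rfl fun l _ => ?_
    rw [Matrix.map_apply, algebraMap_smul]
  have hX : (RatFunc.X : RatFunc k) ≠ 0 := RatFunc.X_ne_zero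
  refine ⟨u.map φ, d, ?_, ?_, hsum⟩
  · have : (⇑(u.map φ) : ι → V) = fun j => ∑ l, U l j • u l := funext hw
    rw [this]
    exact span_range_sum_smul_eq U (by rw [hU]; exact isUnit_one) u
  · have : (fun j => ((RatFunc.X : RatFunc k) ^ (-d j)) • (u.map φ) j) =
        fun j => ∑ i, W i j • v i := by
      funext j
      rw [hw]
      have := h j
      simp_rw [algebraMap_smul] at this
      rw [this, smul_smul, ← zpow_add₀ hX, neg_add_cancel, zpow_zero, one_smul]
      refine Finset.sum_congr rfl fun i _ => ?_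
      exact algebraMap_smul (RatFunc k) (W i j) (v i)
    rw [this]
    exact span_range_sum_smul_eq W hW v

end Basis'

end Fermat.Agent.M2.DW
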