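import Fermat.Agent.M2.Oinf
import Fermat.Agent.M2.RRSpace

/-
M2 Part IV: bridge between `Fermat.Agent.M2.DW.Oinf` (ReducedBasis.lean) and
`Fermat.Agent.M2.Oinf` (Oinf.lean, helper9); restatement of the Dedekind–Weber normal form and of
the Riemann–Roch space lemma in terms of the latter.
-/

open Polynomial WithZero

namespace Fermat.Agent.M2.DW

variable {k : Type*} [Field k]

/-- The two definitions of `O_∞` agree definitionally. -/
theorem Oinf_eq (k : Type*) [Field k] : DW.Oinf k = Fermat.Agent.M2.Oinf k := rfl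

section

variable {V : Type*} [AddCommGroup V] [Module (RatFunc k) V]
  {ι : Type*} [Fintype ι] [DecidableEq ι]
  [Module k[X] V] [IsScalarTower k[X] (RatFunc k) V]
  [mO : Module (Fermat.Agent.M2.Oinf k) V]
  [tO : IsScalarTower (Fermat.Agent.M2.Oinf k) (RatFunc k) V]

/-- **Dedekind–Weber normal form** (helper9's requested shape, msg #192). -/
theorem exists_reduced_basis_Oinf (b c : Module.Basis ι (RatFunc k) V) :
    ∃ (w : Module.Basis ι (RatFunc k) V) (d : ι → ℤ),
      Submodule.span k[X] (Set.range w) = Submodule.span k[X] (Set.range b) ∧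
      Submodule.span (Fermat.Agent.M2.Oinf k)
          (Set.range fun i => ((RatFunc.X : RatFunc k) ^ (-(d i))) • w i) =
        Submodule.span (Fermat.Agent.M2.Oinf k) (Set.range c) ∧
      ∑ i, d i = (c.toMatrix b).det.intDegree :=
  @exists_reduced_basis' k _ V _ _ ι _ _ _ _ mO tO b c

omit [Fintype ι] [DecidableEq ι] [Module k[X] V] [IsScalarTower k[X] (RatFunc k) V] in
theorem mem_span_Oinf_iff' (w : Module.Basis ι (RatFunc k) V) (e : ι → ℤ) (x : V) :
    x ∈ Submodule.span (Fermat.Agent.M2.Oinf k)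
        (Set.range fun i => (RatFunc.X : RatFunc k) ^ e i • w i) ↔
      ∀ i, w.repr x i = 0 ∨ (w.repr x i).intDegree ≤ e i := by
  have h := @mem_span_Oinf_iff k _ V _ _ ι mO tO w e x
  refine h.trans (forall_congr' fun i => ?_)
  by_cases h0 : w.repr x i = 0
  · simp [h0]
  · rw [vInf_apply_of_ne_zero h0, exp_le_exp]
    simp [h0]

variable [Module k V] [IsScalarTower k (RatFunc k) V]

omit [DecidableEq ι] in
theorem mem_rrSpace_iff_Oinf (w : Module.Basis ι (RatFunc k) V) (e : ι → ℤ) (x : V) :
    x ∈ rrSpace w e ↔ x ∈ Submodule.span k[X] (Set.range w) ∧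
      x ∈ Submodule.span (Fermat.Agent.M2.Oinf k)
        (Set.range fun i => (RatFunc.X : RatFunc k) ^ e i • w i) :=
  @mem_rrSpace_iff k _ V _ _ ι _ _ _ _ _ mO tO w e x

end

end Fermat.Agent.M2.DW
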