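/-
M2 / Part VI: second, independent proof of S20 (`dim S₂(Γ₀(N)) = genusFormula N`) by the
Dedekind–Weber route (helper10; assembles the M2 team's Parts I–V).
Not used by `Fermat/Agent/S20.lean` (which goes through the M2F route); kept as a cross-check and
a fallback.
-/
import Fermat.Agent.M2.Assembly
import Fermat.Agent.M2.DictCount
import Fermat.Agent.M2.DictInf
import Fermat.Agent.M2.HoloRangeFinal

set_option autoImplicit false

open CongruenceSubgroup Polynomial UpperHalfPlane Module

namespace Fermat.Agent.M2.S20DW

open Fermat.Agent.M2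

/-- **S20 by the Dedekind–Weber route.** -/
theorem finrank_cuspForm_two_eq (N : ℕ) [NeZero N] :
    (finrank ℂ (CuspForm (Gamma0 N) 2) : ℚ) = ModularCurve.genusFormula N := by
  refine le_antisymm (ES.S21Cond.finrank_cuspForm_two_le N)
    (Assembly.genusFormula_le N (Dict.finrank_K N) ?_ ?_ ?_)
  · intro z
    have h := Dict.card_primesOver N z
    rw [Nat.card_coe_set_eq] at h
    exact h.le
  · have h := DictInf.card_primesOver_inf N
    rw [Nat.card_coe_set_eq] at h
    exact h.le
  · intro h hh
    obtain ⟨f, hf⟩ := HoloRangeFinal.holoSpace_le_range N (DictInf.exists_prime_of_cusp N) hh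
    exact ⟨f, hf⟩

end Fermat.Agent.M2.S20DW
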