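import Mathlib

/-!
# Rigidity of lattices: `g₂`, `g₃` determine the lattice

If two period pairs have the same `g₂` and `g₃` then their lattices coincide.
-/

set_option autoImplicit false

open Filter Topology

namespace Fermat.Agent.M2.WPRigid

open PeriodPair

variable (L L' : PeriodPair)

lemma wpExcept_zero_eq (z : ℂ) :
    L.weierstrassPExcept 0 z = L.weierstrassP z - 1 / z ^ 2 := by
  have := L.weierstrassPExcept_def 0 z
  simpa [sub_eq_add_neg] using this

lemma derivWPExcept_zero_eq (z : ℂ) :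
    L.derivWeierstrassPExcept 0 z = L.derivWeierstrassP z + 2 / z ^ 3 := by
  have := L.derivWeierstrassPExcept_def 0 z
  simpa using this

/-- The algebraic identity obtained by subtracting the two Weierstrass ODEs. -/
lemma ode_diff {z : ℂ} (hz : z ≠ 0) (hzL : z ∉ L.lattice) (hzL' : z ∉ L'.lattice)
    (h2 : L.g₂ = L'.g₂) (h3 : L.g₃ = L'.g₃) :
    z * (L.derivWeierstrassPExcept 0 z - L'.derivWeierstrassPExcept 0 z) *
      (z ^ 3 * (L.derivWeierstrassPExcept 0 z + L'.derivWeierstrassPExcept 0 z) - 4) =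
    (L.weierstrassPExcept 0 z - L'.weierstrassPExcept 0 z) *
      (4 * z ^ 4 * ((L.weierstrassPExcept 0 z) ^ 2 +
          L.weierstrassPExcept 0 z * L'.weierstrassPExcept 0 z +
          (L'.weierstrassPExcept 0 z) ^ 2) +
        12 * z ^ 2 * (L.weierstrassPExcept 0 z + L'.weierstrassPExcept 0 z) + 12 -
        L.g₂ * z ^ 4) := by
  have hu := L.derivWeierstrassP_sq z hzL
  have hv := L'.derivWeierstrassP_sq z hzL'
  rw [wpExcept_zero_eq, wpExcept_zero_eq, derivWPExcept_zero_eq, derivWPExcept_zero_eq]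
  rw [← h2, ← h3] at hv
  field_simp
  linear_combination (z ^ 6) * hu - (z ^ 6) * hv

lemma eventually_deriv_wpExcept :
    ∀ᶠ z in 𝓝 (0 : ℂ), HasDerivAt (L.weierstrassPExcept 0) (L.derivWeierstrassPExcept 0 z) z := by
  have hmem := L.compl_lattice_sdiff_singleton_mem_nhds 0
  have hopen : IsOpen ((L.lattice : Set ℂ) \ {0})ᶜ := L.isOpen_compl_lattice_sdiff
  filter_upwards [hmem] with z hz
  have hd : DifferentiableAt ℂ (L.weierstrassPExcept 0) z :=
    (L.differentiableOn_weierstrassPExcept 0).differentiableAt (hopen.mem_nhds hz)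
  have := L.eqOn_deriv_weierstrassPExcept_derivWeierstrassPExcept 0 hz
  rw [← this]
  exact hd.hasDerivAt

theorem eventually_wpExcept_eq (h2 : L.g₂ = L'.g₂) (h3 : L.g₃ = L'.g₃) :
    ∀ᶠ z in 𝓝 (0 : ℂ), L.weierstrassPExcept 0 z = L'.weierstrassPExcept 0 z := by
  set P := L.weierstrassPExcept 0 with hP
  set Q := L'.weierstrassPExcept 0 with hQ
  set P' := L.derivWeierstrassPExcept 0 with hP'
  set Q' := L'.derivWeierstrassPExcept 0 with hQ'
  have hPan : AnalyticAt ℂ P 0 := L.analyticAt_weierstrassPExcept 0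
  have hQan : AnalyticAt ℂ Q 0 := L'.analyticAt_weierstrassPExcept 0
  have hP'an : AnalyticAt ℂ P' 0 := L.analyticAt_derivWeierstrassPExcept 0
  have hQ'an : AnalyticAt ℂ Q' 0 := L'.analyticAt_derivWeierstrassPExcept 0
  have hdan : AnalyticAt ℂ (fun z => P z - Q z) 0 := hPan.sub hQan
  by_contra hne
  have hne' : ¬ ∀ᶠ z in 𝓝 (0 : ℂ), (fun z => P z - Q z) z = 0 := by
    intro h
    apply hne
    filter_upwards [h] with z hz
    exact sub_eq_zero.mp hz
  obtain ⟨m, h, han, h0, hdh⟩ := hdan.exists_eventuallyEq_pow_smul_nonzero_iff.mpr hne'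
  -- derivative of `d` in two ways
  have hder1 : ∀ᶠ z in 𝓝 (0 : ℂ), HasDerivAt (fun z => P z - Q z) (P' z - Q' z) z := by
    filter_upwards [eventually_deriv_wpExcept L, eventually_deriv_wpExcept L'] with z h1 h2
    exact h1.sub h2
  have hder2 : ∀ᶠ z in 𝓝 (0 : ℂ), HasDerivAt (fun z => P z - Q z)
      ((m : ℂ) * z ^ (m - 1) * h z + z ^ m * deriv h z) z := by
    have hdh' : ∀ᶠ z in 𝓝 (0 : ℂ), (fun z => P z - Q z) =ᶠ[𝓝 z] fun z => z ^ m * h z := by
      have : (fun z => P z - Q z) =ᶠ[𝓝 0] fun z => z ^ m * h z := by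
        filter_upwards [hdh] with z hz
        simpa using hz
      exact this.eventually_nhds
    filter_upwards [hdh', han.eventually_analyticAt] with z hz hanz
    have h1 : HasDerivAt (fun z : ℂ => z ^ m) ((m : ℂ) * z ^ (m - 1)) z := hasDerivAt_pow m z
    have h2 : HasDerivAt h (deriv h z) z := hanz.differentiableAt.hasDerivAt
    exact (h1.mul h2).congr_of_eventuallyEq hz
  -- the key identity on a punctured neighbourhood
  have hLmem : ∀ᶠ z in 𝓝[≠] (0 : ℂ), z ∉ L.lattice := by
    have := L.compl_lattice_sdiff_singleton_mem_nhds 0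
    rw [eventually_nhdsWithin_iff]
    filter_upwards [this] with z hz hz0 hzL
    exact hz ⟨hzL, hz0⟩
  have hL'mem : ∀ᶠ z in 𝓝[≠] (0 : ℂ), z ∉ L'.lattice := by
    have := L'.compl_lattice_sdiff_singleton_mem_nhds 0
    rw [eventually_nhdsWithin_iff]
    filter_upwards [this] with z hz hz0 hzL
    exact hz ⟨hzL, hz0⟩
  set F : ℂ → ℂ := fun z =>
    ((m : ℂ) * h z + z * deriv h z) * (z ^ 3 * (P' z + Q' z) - 4) -
      h z * (4 * z ^ 4 * ((P z) ^ 2 + P z * Q z + (Q z) ^ 2) + 12 * z ^ 2 * (P z + Q z) + 12 -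
        L.g₂ * z ^ 4) with hF
  have hFev : ∀ᶠ z in 𝓝[≠] (0 : ℂ), F z = 0 := by
    filter_upwards [hLmem, hL'mem, self_mem_nhdsWithin, hder1.filter_mono nhdsWithin_le_nhds,
      hder2.filter_mono nhdsWithin_le_nhds, hdh.filter_mono nhdsWithin_le_nhds]
      with z hzL hzL' hz0 hd1 hd2 hdz
    have hz0' : z ≠ 0 := hz0
    have hode := ode_diff L L' hz0' hzL hzL' h2 h3
    have huniq := hd1.unique hd2
    have hdz' : P z - Q z = z ^ m * h z := by simpa using hdz
    have hzm : z ^ m ≠ 0 := pow_ne_zero _ hz0'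
    have hzz : z * ((m : ℂ) * z ^ (m - 1) * h z + z ^ m * deriv h z) =
        z ^ m * ((m : ℂ) * h z + z * deriv h z) := by
      rcases Nat.eq_zero_or_pos m with hm | hm
      · subst hm; simp
      · have : z ^ m = z * z ^ (m - 1) := by
          rw [← pow_succ', Nat.sub_add_cancel hm]
        rw [this]; ring
    simp only [hF]
    have key : z ^ m * (((m : ℂ) * h z + z * deriv h z) * (z ^ 3 * (P' z + Q' z) - 4) -
      h z * (4 * z ^ 4 * ((P z) ^ 2 + P z * Q z + (Q z) ^ 2) + 12 * z ^ 2 * (P z + Q z) + 12 -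
        L.g₂ * z ^ 4)) = 0 := by
      rw [mul_sub, ← mul_assoc, ← hzz, ← huniq, ← mul_assoc (z ^ m), ← hdz']
      rw [sub_eq_zero]
      exact hode
    exact (mul_eq_zero.mp key).resolve_left hzm
  have hFcont : ContinuousAt F 0 := by
    have c1 := hPan.continuousAt
    have c2 := hQan.continuousAt
    have c3 := hP'an.continuousAt
    have c4 := hQ'an.continuousAt
    have c5 := han.continuousAt
    have c6 := han.deriv.continuousAt
    simp only [hF]
    fun_prop
  have hF0 : F 0 = 0 := by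
    have t1 : Tendsto F (𝓝[≠] (0 : ℂ)) (𝓝 (F 0)) := hFcont.tendsto.mono_left nhdsWithin_le_nhds
    have t2 : Tendsto F (𝓝[≠] (0 : ℂ)) (𝓝 0) :=
      tendsto_const_nhds.congr' (hFev.mono fun z hz => hz.symm)
    exact tendsto_nhds_unique t1 t2
  simp only [hF] at hF0
  norm_num at hF0
  -- hF0 : m * h 0 * (-4) - h 0 * 12 = 0
  have : ((m : ℂ) * (-4) - 12) * h 0 = 0 := by linear_combination hF0
  rcases mul_eq_zero.mp this with h4 | h4
  · have : ((m : ℂ)) = -3 := by linear_combination (-1 / 4 : ℂ) * h4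
    have hre := congrArg Complex.re this
    simp at hre
    have : (0 : ℝ) ≤ (m : ℝ) := Nat.cast_nonneg m
    linarith
  · exact h0 h4



theorem eventually_weierstrassP_eq (h2 : L.g₂ = L'.g₂) (h3 : L.g₃ = L'.g₃) :
    ∀ᶠ z in 𝓝[≠] (0 : ℂ), L.weierstrassP z = L'.weierstrassP z := by
  filter_upwards [(eventually_wpExcept_eq L L' h2 h3).filter_mono nhdsWithin_le_nhds] with z hz
  rw [wpExcept_zero_eq, wpExcept_zero_eq] at hz
  exact sub_left_injective hz

theorem lattice_le_of_g₂_g₃ (h2 : L.g₂ = L'.g₂) (h3 : L.g₃ = L'.g₃) :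
    L.lattice ≤ L'.lattice := by
  intro l hl
  by_contra hl'
  set f : ℂ → ℂ := fun z => L.weierstrassP z - L'.weierstrassP z with hf
  have hfm : MeromorphicOn f Set.univ := fun z _ =>
    (L.meromorphic_weierstrassP z).sub (L'.meromorphic_weierstrassP z)
  have h0 : meromorphicOrderAt f 0 = ⊤ := by
    rw [meromorphicOrderAt_eq_top_iff]
    filter_upwards [eventually_weierstrassP_eq L L' h2 h3] with z hz
    simp [hf, hz]
  have hl_top : meromorphicOrderAt f l = ⊤ := by
    by_contra hne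
    exact (hfm.meromorphicOrderAt_ne_top_of_isPreconnected isPreconnected_univ
      (Set.mem_univ l) (Set.mem_univ 0) hne) h0
  rw [meromorphicOrderAt_eq_top_iff] at hl_top
  have hcongr : meromorphicOrderAt L.weierstrassP l = meromorphicOrderAt L'.weierstrassP l :=
    meromorphicOrderAt_congr (by
      filter_upwards [hl_top] with z hz
      exact sub_eq_zero.mp hz)
  rw [L.order_weierstrassP l hl] at hcongr
  have hnn : 0 ≤ meromorphicOrderAt L'.weierstrassP l :=
    (L'.analyticOnNhd_weierstrassP l hl').meromorphicOrderAt_nonneg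
  rw [← hcongr] at hnn
  exact absurd hnn (by decide)

/-- **Lattice rigidity**: the invariants `g₂`, `g₃` determine the lattice. -/
theorem lattice_eq_of_g₂_g₃ (h2 : L.g₂ = L'.g₂) (h3 : L.g₃ = L'.g₃) :
    L.lattice = L'.lattice :=
  le_antisymm (lattice_le_of_g₂_g₃ L L' h2 h3) (lattice_le_of_g₂_g₃ L' L h2.symm h3.symm)

end Fermat.Agent.M2.WPRigid
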